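import Fermat.Agent.ResidualThree.Automorphic.Defs

/-!
# Interface: the dihedral form over the field `L`

It states the automorphy of the dihedral representation that starts the descent.
-/

noncomputable section

open NumberField

namespace Fermat.Agent.ResidualThree

local notation "Qbar" => AlgebraicClosure ℚ
local notation "Γℚ" => (AlgebraicClosure ℚ ≃ₐ[ℚ] AlgebraicClosure ℚ)

/-- The valuation subring `A` of `Qbar` lies over the finite place `w` of `L`. -/
def LiesOverPlace {L : IntermediateField ℚ Qbar} [NumberField L] (A : ValuationSubring Qbar)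
    (w : FPlace L) : Prop :=
  ∀ x : L, (x : Qbar) ∈ A ↔ w.valuation L x ≤ 1

/-- Statement of the theta lift: a cusp form over `L` with the traces of the lifted `ρ|L`. -/
def ThetaExistence : Prop :=
  ∀ (ρ : Γℚ →* GL (Fin 2) (ZMod 3)), Continuous ρ → Function.Surjective ρ →
    (∀ σ : Γℚ, Matrix.GeneralLinearGroup.det (ρ σ) =
        WeierstrassCurve.modThreeCyclotomicChar σ) →
    ∀ (L : IntermediateField ℚ Qbar) [NumberField L],
      (∀ σ : Γℚ, σ ∈ L.fixingSubgroup ↔
        Matrix.GeneralLinearGroup.det (ρ σ) = 1 ∧ ρ σ ^ 4 = 1) →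
      ∃ (U : Level L) (φ : Gf L → Hyp L → ℂ),
        IsAutomorphic U φ ∧ IsCuspidal φ ∧ IsSpectralZero φ ∧ (∃ x p, φ x p ≠ 0) ∧
        (∃ C, ∀ x p, ‖φ x p‖ ≤ C) ∧
        ∀ w : FPlace L,
          (∀ A : ValuationSubring Qbar, LiesOverPlace A w →
            ∀ σ ∈ A.inertiaSubgroupIn ℚ, σ ∈ L.fixingSubgroup → ρ σ = 1) →
          U.J w = maxSubgroup w ∧
          ∀ (A : ValuationSubring Qbar), LiesOverPlace A w → ∀ σ ∈ L.fixingSubgroup,
            A.IsFrobeniusAt σ (Ideal.absNorm w.asIdeal) →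
              HasEigenvalue w (quatTrace (ρ σ) : ℂ) φ

end Fermat.Agent.ResidualThree
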