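import Fermat.Agent.ResidualThree.Automorphic.Levels

/-!
# The tame level at a place prime to three

Iwahori elements whose ratio of diagonal entries has order prime to three modulo the place. Modulo
the principal congruence subgroup this group has order prime to three.
-/

noncomputable section

open IsDedekindDomain NumberField
open scoped WithZero

namespace Fermat.Agent.ResidualThree

variable {F : Type} [Field F] [NumberField F]

/-- The part prime to three of the order of the multiplicative group of the residue field. -/
def primeToThreeOrder (v : FPlace F) : ℕ :=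
  (Ideal.absNorm v.asIdeal - 1) / 3 ^ (Ideal.absNorm v.asIdeal - 1).factorization 3

/-- The tame level: scalars times integral matrices which are upper triangular modulo `v` with
ratio of the diagonal entries of order prime to three. -/
def tameSubgroup (v : FPlace F) : Subgroup (GLv v) :=
  Subgroup.closure {g | (IsIntGL (valv v) g ∧
      valv v ((g : Matrix (Fin 2) (Fin 2) (v.adicCompletion F)) 1 0) < 1 ∧
      valv v ((g : Matrix (Fin 2) (Fin 2) (v.adicCompletion F)) 0 0 ^ primeToThreeOrder v -
        (g : Matrix (Fin 2) (Fin 2) (v.adicCompletion F)) 1 1 ^ primeToThreeOrder v) < 1) ∨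
    g ∈ Subgroup.center (GLv v)}

theorem tameSubgroup_le_max (v : FPlace F) : tameSubgroup v ≤ maxSubgroup v := by
  refine Subgroup.closure_mono ?_
  rintro g (⟨h1, -⟩ | h1)
  · exact Or.inl h1
  · exact Or.inr h1

/-- The principal congruence subgroup lies in the tame level. -/
theorem congSubgroup_one_le_tame (v : FPlace F) : congSubgroup v 1 ≤ tameSubgroup v := by
  refine Subgroup.closure_mono ?_
  rintro g (⟨h1, h2⟩ | h1)
  · have hlt : WithZero.exp (-((1 : ℕ) : ℤ)) < (1 : ℤᵐ⁰) := by
      rw [← WithZero.exp_zero, WithZero.exp_lt_exp]; norm_num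
    refine Or.inl ⟨h1, lt_of_le_of_lt (by simpa using h2 1 0) hlt, ?_⟩
    have hd : ∀ i : Fin 2, valv v ((g : Matrix (Fin 2) (Fin 2) (v.adicCompletion F)) i i - 1) < 1 :=
      fun i => lt_of_le_of_lt (by simpa using h2 i i) hlt
    have hpow : ∀ (i : Fin 2) (n : ℕ),
        valv v ((g : Matrix (Fin 2) (Fin 2) (v.adicCompletion F)) i i ^ n - 1) < 1 := by
      intro i n
      induction n with
      | zero => simp
      | succ n ih =>
        rw [show (g : Matrix (Fin 2) (Fin 2) (v.adicCompletion F)) i i ^ (n + 1) - 1 =
          ((g : Matrix (Fin 2) (Fin 2) (v.adicCompletion F)) i i ^ n - 1) *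
              (g : Matrix (Fin 2) (Fin 2) (v.adicCompletion F)) i i +
            ((g : Matrix (Fin 2) (Fin 2) (v.adicCompletion F)) i i - 1) by ring]
        refine (valv v).map_add_lt ?_ (hd i)
        rw [map_mul]
        exact mul_lt_one_of_nonneg_of_lt_one_left zero_le ih (h1.1 i i)
    have := (valv v).map_sub_lt (hpow 0 (primeToThreeOrder v)) (hpow 1 (primeToThreeOrder v))
    rwa [sub_sub_sub_cancel_right] at this
  · exact Or.inr h1

end Fermat.Agent.ResidualThree
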