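import Fermat.Agent.ResidualThree.Automorphic.Space

/-!
# Test functions and their kernels

These kernels are compared on the two sides of the trace identity.
-/

noncomputable section

open IsDedekindDomain NumberField MeasureTheory
open scoped WithZero

namespace Fermat.Agent.ResidualThree

variable {F : Type} [Field F] [NumberField F]

/-- A product test function: a finitely supported bi-invariant function on the finite part and
continuous compactly supported radial functions at the infinite places. -/
structure TestMonomial (U : Level F) where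
  /-- the finite part -/
  fin : Gf F → ℂ
  biinvariant : ∀ j₁ j₂ x : Gf F, j₁ ∈ U.group → j₂ ∈ U.group → fin (j₁ * x * j₂) = fin x
  finite_support : {y : Ωf U | fin y.out ≠ 0}.Finite
  /-- the radial functions of the hyperbolic cosine of the distance -/
  arch : InfinitePlace F → ℝ → ℂ
  arch_support : ∀ w, HasCompactSupport (arch w)
  arch_lipschitz : ∀ w, ∃ C : ℝ, ∀ p q r : H3,
    ‖arch w (H3.coshDist p q) - arch w (H3.coshDist r q)‖ ≤ C * Real.sqrt (H3.coshDist p r - 1)

/-- A test function: a finite sum of monomials. -/
abbrev TestFun (U : Level F) : Type := List (TestMonomial U)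

/-- The kernel of a monomial. -/
def TestMonomial.kernel {U : Level F} (f : TestMonomial U) (s t : Spc U) : ℂ :=
  f.fin (s.1.out⁻¹ * t.1.out) * ∏ w, f.arch w (H3.coshDist (s.2 w) (t.2 w))

/-- The kernel of a test function. -/
def kernel {U : Level F} (f : TestFun U) (s t : Spc U) : ℂ := (f.map fun g => g.kernel s t).sum

/-- The automorphic kernel. -/
def autKernel {U : Level F} (f : TestFun U) (s t : Spc U) : ℂ :=
  ∑' γ : PGLF F, kernel f s (γ • t)

/-- The classes of upper triangular matrices. -/
def borelClasses (F : Type) [Field F] : Set (GL (Fin 2) F ⧸ Subgroup.center (GL (Fin 2) F)) :=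
  QuotientGroup.mk '' {g | (g : Matrix (Fin 2) (Fin 2) F) 1 0 = 0}

/-- The test function kills constant terms: the periodised Borel part of its kernel has mean zero
over every period box. -/
def KillsConstant {U : Level F} (f : TestFun U) : Prop :=
  ∀ (s t : Spc U) (m : ℕ), 0 < m →
    (∀ (b : 𝓞 F) (g : GL (Fin 2) F),
      (g : Matrix (Fin 2) (Fin 2) F) = !![1, (m : F) * (b : F); 0, 1] → g • s.1 = s.1) →
    ∫ r in Set.Icc (0 : Module.Free.ChooseBasisIndex ℤ (𝓞 F) → ℝ) 1,
      ∑' γ : borelClasses F, kernel f
        (s.1, horoShift (fun w => ∑ i, (r i : ℂ) *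
          ((m : ℂ) * w.embedding (RingOfIntegers.basis F i : F))) s.2)
        ((γ : PGLF F) • t) = 0

end Fermat.Agent.ResidualThree
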