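import Fermat.Agent.ResidualThree.Automorphic.Reduction

/-!
# The Siegel property

Only finitely many elements of `PGL₂(F)` move some point of one Siegel set into another, and only
finitely many lines have height above a positive bound on a bounded set.
-/

noncomputable section

open IsDedekindDomain NumberField Matrix
open scoped WithZero

namespace Fermat.Agent.ResidualThree

variable {F : Type} [Field F] [NumberField F]

theorem norm_eq_of_valv_eq {v : FPlace F} {a b : v.adicCompletion F} (h : valv v a = valv v b) :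
    ‖a‖ = ‖b‖ :=
  le_antisymm (Valued.toNormedField.norm_le_iff.mpr h.le)
    (Valued.toNormedField.norm_le_iff.mpr h.ge)

theorem mk_smul_spc {U : Level F} (g : GL (Fin 2) F) (s : Spc U) :
    ((g : PGLF F)) • s = g • s := rfl

theorem exists_affine_rep {U : Level F} (ω : Ωf U) :
    ∃ b : Gf F, IsAffineUpper b ∧ b⁻¹ * ω.out ∈ kmax F := by
  obtain ⟨b, k, hb, hk, h⟩ := exists_iwasawa ω.out
  exact ⟨b, hb, by rwa [h, inv_mul_cancel_left]⟩

theorem mem_maxSubgroup_of_smul_eq {U : Level F} {g : GL (Fin 2) F} {ω ω' : Ωf U}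
    (h : g • ω = ω') {b b' : Gf F} (hb : b⁻¹ * ω.out ∈ kmax F) (hb' : b'⁻¹ * ω'.out ∈ kmax F) :
    b'⁻¹ * diag F g * b ∈ kmax F := by
  have hj : ω'.out⁻¹ * (diag F g * ω.out) ∈ U.group := by
    rw [← QuotientGroup.eq, QuotientGroup.out_eq', ← h]
    conv_lhs => rw [← QuotientGroup.out_eq' ω]
    rfl
  have := mul_mem (mul_mem hb' (U.group_le_kmax hj)) (inv_mem hb)
  convert this using 1
  group

omit [NumberField F] in
/-- An upper triangular class has a representative with lower entry one. -/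
theorem mk_upGL_eq (a d : Fˣ) (t : F) :
    ((upGL (a * d⁻¹) 1 (t * ((d⁻¹ : Fˣ) : F)) : GL (Fin 2) F) : PGLF F) =
      ((upGL a d t : GL (Fin 2) F) : PGLF F) := by
  refine QuotientGroup.eq.mpr ?_
  rw [upGL_inv, upGL_mul]
  have : upGL ((a * d⁻¹)⁻¹ * a) (1⁻¹ * d) (((a * d⁻¹)⁻¹ : Fˣ) * t +
      -(((a * d⁻¹)⁻¹ : Fˣ) : F) * (t * ((d⁻¹ : Fˣ) : F)) * (((1 : Fˣ)⁻¹ : Fˣ) : F) * (d : F)) =
      Matrix.GeneralLinearGroup.scalar (Fin 2) d := by
    rw [scalar_eq_upGL, inv_one, one_mul, _root_.mul_inv_rev, inv_inv, inv_mul_cancel_right]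
    congr 1
    simp
    field_simp
    ring
  rw [this]
  exact Tree.scalar_mem_center d

namespace Kernel

/-- The valuations of an upper triangular element relating two classes are controlled. -/
theorem exists_valuation_bounds {U : Level F} (ω ω' : Ωf U) :
    ∃ Ba Bt : FPlace F → ℤ, (∀ᶠ v in Filter.cofinite, Ba v ≤ 0) ∧
      (∀ᶠ v in Filter.cofinite, Bt v ≤ 0) ∧
      ∀ (a : Fˣ) (t : F), upGL a 1 t • ω = ω' → ∀ v : FPlace F,
        v.valuation F (a : F) = WithZero.exp (Ba v) ∧ v.valuation F t ≤ WithZero.exp (Bt v) := by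
  classical
  obtain ⟨b, hb, hbk⟩ := exists_affine_rep ω
  obtain ⟨b', hb', hb'k⟩ := exists_affine_rep ω'
  choose α τ hατ using hb
  choose α' τ' hατ' using hb'
  have hb2 : ∀ᶠ v in Filter.cofinite, valv v (α v : v.adicCompletion F) = 1 ∧ valv v (τ v) ≤ 1 := by
    have h : ∀ᶠ v in Filter.cofinite, b.1 v ∈ maxSubgroup v := b.2
    exact h.mono fun v hv => upGL_mem_maxSubgroup_iff.mp (hατ v ▸ hv)
  have hb'2 : ∀ᶠ v in Filter.cofinite,
      valv v (α' v : v.adicCompletion F) = 1 ∧ valv v (τ' v) ≤ 1 := by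
    have h : ∀ᶠ v in Filter.cofinite, b'.1 v ∈ maxSubgroup v := b'.2
    exact h.mono fun v hv => upGL_mem_maxSubgroup_iff.mp (hατ' v ▸ hv)
  set M : FPlace F → ℤᵐ⁰ := fun v => max (max (valv v (α' v : v.adicCompletion F)) (valv v (τ' v)))
    (valv v (α' v : v.adicCompletion F) * (valv v (α v : v.adicCompletion F))⁻¹ * valv v (τ v))
    with hM
  refine ⟨fun v => WithZero.log (valv v (α' v : v.adicCompletion F)) -
      WithZero.log (valv v (α v : v.adicCompletion F)), fun v => WithZero.log (M v),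
    (hb2.and hb'2).mono fun v h => by simp [h.1.1, h.2.1],
    (hb2.and hb'2).mono fun v h => by
      have : M v = 1 := by simp [hM, h.1.1, h.2.1, h.1.2, h.2.2]
      simp [this], fun a t hg v => ?_⟩
  have h := mem_maxSubgroup_of_smul_eq hg hbk hb'k v
  change (b'.1 v)⁻¹ * toLocal v (upGL a 1 t) * b.1 v ∈ maxSubgroup v at h
  rw [hατ v, hατ' v, toLocal_upGL, upGL_inv, upGL_mul, upGL_mul, map_one, inv_one, one_mul,
    one_mul, upGL_mem_maxSubgroup_iff] at h
  simp only [Units.val_mul, Units.val_inv_eq_inv_val, Units.coe_map, RingHom.toMonoidHom_eq_coe,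
    MonoidHom.coe_coe, Units.val_one, mul_one] at h
  obtain ⟨h1, h2⟩ := h
  have hα0 : valv v (α v : v.adicCompletion F) ≠ 0 := (Valuation.ne_zero_iff _).mpr (α v).ne_zero
  have hα'0 : valv v (α' v : v.adicCompletion F) ≠ 0 :=
    (Valuation.ne_zero_iff _).mpr (α' v).ne_zero
  have ha : v.valuation F (a : F) = valv v (α' v : v.adicCompletion F) *
      (valv v (α v : v.adicCompletion F))⁻¹ := by
    rw [map_mul, map_mul, map_inv₀, valv_algebraMap] at h1
    rw [eq_mul_inv_iff_mul_eq₀ hα0, ← mul_right_inj' (inv_ne_zero hα'0), ← mul_assoc, h1,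
      inv_mul_cancel₀ hα'0]
  refine ⟨?_, ?_⟩
  · rw [ha]
    dsimp only
    rw [sub_eq_add_neg, WithZero.exp_add, WithZero.exp_log hα'0, WithZero.exp_neg,
      WithZero.exp_log hα0]
  · have hM0 : M v ≠ 0 := (lt_of_lt_of_le (zero_lt_iff.mpr hα'0)
      ((le_max_left _ _).trans (le_max_left _ _))).ne'
    have h3 : valv v (algebraMap F (v.adicCompletion F) (a : F) * τ v +
        algebraMap F (v.adicCompletion F) t - τ' v) ≤ valv v (α' v : v.adicCompletion F) := by
      rw [show (α' v : v.adicCompletion F)⁻¹ * algebraMap F (v.adicCompletion F) (a : F) * τ v +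
          ((α' v : v.adicCompletion F)⁻¹ * algebraMap F (v.adicCompletion F) t +
            -(α' v : v.adicCompletion F)⁻¹ * τ' v) = (α' v : v.adicCompletion F)⁻¹ *
          (algebraMap F (v.adicCompletion F) (a : F) * τ v +
            algebraMap F (v.adicCompletion F) t - τ' v) by ring, map_mul, map_inv₀,
        inv_mul_le_one₀ (zero_lt_iff.mpr hα'0)] at h2
      exact h2
    rw [← valv_algebraMap, WithZero.exp_log hM0,
      show algebraMap F (v.adicCompletion F) t = (algebraMap F (v.adicCompletion F) (a : F) * τ v +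
        algebraMap F (v.adicCompletion F) t - τ' v) + τ' v -
        algebraMap F (v.adicCompletion F) (a : F) * τ v by ring]
    refine (valv v).map_sub_le ((valv v).map_add_le (h3.trans ((le_max_left _ _).trans
      (le_max_left _ _))) ((le_max_right _ _).trans (le_max_left _ _))) ?_
    rw [map_mul, valv_algebraMap, ha]
    exact le_max_right _ _

end Kernel

variable [IsTotallyComplex F]

/-- Only finitely many upper triangular elements relate two Siegel sets. -/
theorem finite_upper_pairs_single {U : Level F} (ω ω' : Ωf U) (A A' R R' : ℝ) :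
    {q : Fˣ × F | upGL q.1 1 q.2 • ω = ω' ∧ ∃ p : Hyp F, ∀ w : InfinitePlace F,
      ‖(p w).z‖ ≤ R ∧ ‖((upGL q.1 1 q.2 • p) w).z‖ ≤ R' ∧
      (∀ w', (p w).y ≤ A * (p w').y) ∧
      ∀ w', ((upGL q.1 1 q.2 • p) w).y ≤ A' * ((upGL q.1 1 q.2 • p) w').y}.Finite := by
  classical
  obtain ⟨Ba, Bt, hBa0, hBt0, hval⟩ := Kernel.exists_valuation_bounds ω ω'
  set S : Set (Fˣ × F) := {q : Fˣ × F | upGL q.1 1 q.2 • ω = ω' ∧ ∃ p : Hyp F,
    ∀ w : InfinitePlace F, ‖(p w).z‖ ≤ R ∧ ‖((upGL q.1 1 q.2 • p) w).z‖ ≤ R' ∧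
      (∀ w', (p w).y ≤ A * (p w').y) ∧
      ∀ w', ((upGL q.1 1 q.2 • p) w).y ≤ A' * ((upGL q.1 1 q.2 • p) w').y}
  rcases S.eq_empty_or_nonempty with hS | ⟨⟨a₀, t₀⟩, hg₀, -⟩
  · rw [hS]; exact Set.finite_empty
  set P : ℝ := ((A * A') ^ 2) ^ Fintype.card (InfinitePlace F) *
    ∏ w : InfinitePlace F, ‖w.embedding (a₀ : F)‖ ^ 2
  set Ca : ℝ := 1 + |P|
  have hfa := finite_bounded_elements Ba hBa0 Ca
  have hft := finite_bounded_elements Bt hBt0 (R' + Ca * |R|)
  refine ((hfa.preimage Units.val_injective.injOn).prod hft).subset ?_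
  rintro ⟨a, t⟩ ⟨hg, p, hp⟩
  have hloc := hval a t hg
  have hy : ∀ w w' : InfinitePlace F,
      ‖w.embedding (a : F)‖ ≤ A * A' * ‖w'.embedding (a : F)‖ := by
    intro w w'
    have h1 := (hp w).2.2.2 w'
    have h2 := (hp w').2.2.1 w
    rw [upGL_smul_y, upGL_smul_y] at h1
    have hA' : 0 ≤ A' := by
      have h := (hp w).2.2.2 w
      have := ((upGL a 1 t • p) w).y_pos
      nlinarith
    have h3 : A' * (‖w'.embedding (a : F)‖ * (p w').y) ≤
        A' * (‖w'.embedding (a : F)‖ * (A * (p w).y)) :=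
      mul_le_mul_of_nonneg_left (mul_le_mul_of_nonneg_left h2 (norm_nonneg _)) hA'
    exact le_of_mul_le_mul_right ((h1.trans h3).trans (le_of_eq (by ring))) (p w).y_pos
  have hQ : ∏ w : InfinitePlace F, ‖w.embedding (a : F)‖ ^ 2 =
      ∏ w : InfinitePlace F, ‖w.embedding (a₀ : F)‖ ^ 2 := by
    have h := prod_norm_eq_one (F := F) a.ne_zero
    have h₀ := prod_norm_eq_one (F := F) a₀.ne_zero
    have hn : ∀ v : FPlace F, ‖algebraMap F (v.adicCompletion F) (a : F)‖ =
        ‖algebraMap F (v.adicCompletion F) (a₀ : F)‖ := fun v => norm_eq_of_valv_eq (by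
      rw [valv_algebraMap, valv_algebraMap, (hloc v).1, (hval a₀ t₀ hg₀ v).1])
    rw [finprod_congr hn] at h
    exact mul_left_cancel₀ (left_ne_zero_of_mul_eq_one h₀) (h.trans h₀.symm)
  have hCa : ∀ w : InfinitePlace F, ‖w.embedding (a : F)‖ ≤ Ca := by
    intro w
    rcases le_or_gt ‖w.embedding (a : F)‖ 1 with h | h
    · exact h.trans (le_add_of_nonneg_right (abs_nonneg _))
    have h1 : (‖w.embedding (a : F)‖ ^ 2) ^ Fintype.card (InfinitePlace F) ≤ P := by
      rw [← Finset.card_univ, ← Finset.prod_const (‖w.embedding (a : F)‖ ^ 2)]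
      refine (Finset.prod_le_prod (fun _ _ => sq_nonneg _) (fun w' _ => pow_le_pow_left₀
        (norm_nonneg _) (hy w w') 2)).trans (le_of_eq ?_)
      simp only [P, mul_pow, Finset.prod_mul_distrib, Finset.prod_const, hQ, Finset.card_univ]
    refine ((le_self_pow₀ h.le two_ne_zero).trans ((le_self_pow₀ (one_le_pow₀ h.le)
      Fintype.card_ne_zero).trans h1)).trans ?_
    exact (le_abs_self P).trans (le_add_of_nonneg_left zero_le_one)
  refine ⟨⟨fun v => (hloc v).1.le, hCa⟩, fun v => (hloc v).2, fun w => ?_⟩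
  have h1 := (hp w).2.1
  rw [upGL_smul_z] at h1
  calc ‖w.embedding t‖ = ‖(w.embedding (a : F) * (p w).z + w.embedding t) -
        w.embedding (a : F) * (p w).z‖ := by ring_nf
    _ ≤ _ := norm_sub_le _ _
    _ ≤ R' + Ca * |R| := by
        rw [norm_mul]
        exact add_le_add h1 (mul_le_mul (hCa w) ((hp w).1.trans (le_abs_self R)) (norm_nonneg _)
          (add_nonneg zero_le_one (abs_nonneg _)))

/-- Only finitely many triangular elements move one Siegel set into another. -/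
theorem finite_upper_pairs {U : Level F} {X X' : Set (Ωf U)} (hX : X.Finite) (hX' : X'.Finite)
    (c c' A A' R R' : ℝ) :
    {γ : PGLF F | ∃ g : GL (Fin 2) F, (g : Matrix (Fin 2) (Fin 2) F) 1 0 = 0 ∧ (g : PGLF F) = γ ∧
      ∃ s ∈ siegelSet U X c A R, g • s ∈ siegelSet U X' c' A' R'}.Finite := by
  refine (((hX.prod hX').biUnion fun q _ => finite_upper_pairs_single q.1 q.2 A A' R R').image
    fun q => ((upGL q.1 1 q.2 : GL (Fin 2) F) : PGLF F)).subset ?_
  rintro γ ⟨g, hg, rfl, s, hs, hs'⟩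
  obtain ⟨a, d, t, rfl⟩ := eq_upGL_of_apply_eq_zero hg
  have e := mk_upGL_eq a d t
  rw [← mk_smul_spc, ← e, mk_smul_spc] at hs'
  refine ⟨(a * d⁻¹, t * ((d⁻¹ : Fˣ) : F)), Set.mem_biUnion (x := (s.1, _)) ⟨hs.1, hs'.1⟩
    ⟨rfl, s.2, fun w => ⟨(hs.2 w).1, (hs'.2 w).1, (hs.2 w).2.2, (hs'.2 w).2.2⟩⟩, e⟩

/-- The row vector `(1, t)`. -/
def lineRow (t : F) : Fin 2 → F := ![1, t]

omit [IsTotallyComplex F] in
theorem lineRow_ne_zero (t : F) : lineRow t ≠ 0 := Function.ne_iff.mpr ⟨0, by simp [lineRow]⟩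

omit [IsTotallyComplex F] in
theorem locNorm_lineRow (v : FPlace F) (t : F) :
    locNorm (locRow v (lineRow t)) = max 1 ‖algebraMap F (v.adicCompletion F) t‖ := by
  simp [locNorm, locRow, lineRow]

omit [IsTotallyComplex F] in
/-- The local height of `(1, t)` is controlled by the norm of the inverse of the local matrix. -/
theorem localHeight_lineRow_mul_le (v : FPlace F) (t : F) (g : GLv v) :
    localHeight v (lineRow t) g * locNorm (locRow v (lineRow t)) ^ 2 ≤
      ‖(g : Matrix (Fin 2) (Fin 2) (v.adicCompletion F)).det‖ *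
        (∑ i, ∑ j, ‖((g⁻¹ : GLv v) : Matrix (Fin 2) (Fin 2) (v.adicCompletion F)) i j‖) ^ 2 := by
  have hl : 0 < locNorm (locRow v (lineRow t)) :=
    locNorm_pos (locRow_ne_zero v (lineRow_ne_zero t))
  set G : Matrix (Fin 2) (Fin 2) (v.adicCompletion F) :=
    (g : Matrix (Fin 2) (Fin 2) (v.adicCompletion F))
  set G' : Matrix (Fin 2) (Fin 2) (v.adicCompletion F) :=
    ((g⁻¹ : GLv v) : Matrix (Fin 2) (Fin 2) (v.adicCompletion F))
  set s : ℝ := ∑ i, ∑ j, ‖G' i j‖
  have hs : ∀ i j, ‖G' i j‖ ≤ s := fun i j =>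
    (Finset.single_le_sum (f := fun j => ‖G' i j‖) (fun _ _ => norm_nonneg _)
      (Finset.mem_univ j)).trans (Finset.single_le_sum (f := fun i => ∑ j, ‖G' i j‖)
      (fun _ _ => Finset.sum_nonneg fun _ _ => norm_nonneg _) (Finset.mem_univ i))
  have h1 : locNorm (locRow v (lineRow t)) ≤ locNorm (locRow v (lineRow t) ᵥ* G) * s := by
    refine le_trans (le_of_eq ?_) (locNorm_vecMul_le _ G' hs)
    rw [Matrix.vecMul_vecMul, ← Units.val_mul, mul_inv_cancel, Units.val_one, Matrix.vecMul_one]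
  have hpos := locNorm_locRow_mul_pos v (lineRow_ne_zero t) g
  rw [localHeight_eq, div_mul_eq_mul_div, div_le_iff₀ (pow_pos hpos 2), mul_assoc]
  refine mul_le_mul_of_nonneg_left ?_ (norm_nonneg _)
  rw [mul_comm, ← mul_pow]
  exact pow_le_pow_left₀ hl.le (h1.trans (le_of_eq (by ring))) 2

omit [IsTotallyComplex F] in
/-- Finitely many lines of height at least `δ` over a bounded set. -/
theorem finite_lines (x : Gf F) {δ c : ℝ} (hδ : 0 < δ) (hc : 0 < c) (C R : ℝ) :
    {t : F | ∃ p : Hyp F, (∀ w, ‖(p w).z‖ ≤ R ∧ c ≤ (p w).y ∧ (p w).y ≤ C) ∧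
      δ ≤ height (lineRow t) x p}.Finite := by
  classical
  set K : FPlace F → ℝ := fun v => if x.1 v ∈ maxSubgroup v then 1 else
    ‖(x.1 v : Matrix (Fin 2) (Fin 2) (v.adicCompletion F)).det‖ *
      (∑ i, ∑ j, ‖(((x.1 v)⁻¹ : GLv v) : Matrix (Fin 2) (Fin 2) (v.adicCompletion F)) i j‖) ^ 2
    with hK
  have hK0 : ∀ v, 0 ≤ K v := fun v => by simp only [hK]; split_ifs <;> positivity
  have hKfin : K.HasFiniteMulSupport := by
    have h : ∀ᶠ v in Filter.cofinite, x.1 v ∈ maxSubgroup v := x.2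
    exact Filter.eventually_cofinite.mp (h.mono fun v hv => if_pos hv)
  set N := Fintype.card (InfinitePlace F)
  set Q : ℝ := (∏ᶠ v, K v) * ((c ^ 2)⁻¹) ^ N / δ with hQ
  obtain ⟨B, hB, hBK⟩ := exists_exp_bound (F := F) Q
  refine (finite_bounded_elements B hB
    (|R| + 1 + |(∏ᶠ v, K v) * ((c ^ 2)⁻¹) ^ (N - 1) * C ^ 2 / δ|)).subset ?_
  rintro t ⟨p, hp, hh⟩
  rw [height_eq] at hh
  set m : FPlace F → ℝ := fun v => (max 1 ‖algebraMap F (v.adicCompletion F) t‖) ^ 2 with hm
  have hm1 : ∀ v, 1 ≤ m v := fun v => one_le_pow₀ (le_max_left _ _)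
  have hloc : ∀ v, localHeight v (lineRow t) (x.1 v) * m v ≤ K v := by
    intro v
    rw [hm]
    simp only [← locNorm_lineRow]
    have hl : 0 < locNorm (locRow v (lineRow t)) :=
      locNorm_pos (locRow_ne_zero v (lineRow_ne_zero t))
    simp only [hK]
    split_ifs with hv
    · rw [localHeight_of_mem_max _ hv, inv_mul_cancel₀ (by positivity)]
    · exact localHeight_lineRow_mul_le v t _
  have hfm : m.HasFiniteMulSupport := by
    refine Filter.eventually_cofinite.mp ((eventually_valuation_le_one t).mono fun v hv => ?_)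
    simp only [hm]
    rw [max_eq_left ((norm_le_one_iff_valv _).mpr (by rwa [valv_algebraMap])), one_pow]
  have hLf := hasFiniteMulSupport_localHeight (lineRow_ne_zero t) x
  have hfin : (∏ᶠ v, localHeight v (lineRow t) (x.1 v)) * ∏ᶠ v, m v ≤ ∏ᶠ v, K v := by
    rw [← finprod_mul_distrib hLf hfm]
    have f1 := (hLf.union hfm).union hKfin
    rw [finprod_eq_prod_of_mulSupport_subset _ (s := f1.toFinset) ?_,
      finprod_eq_prod_of_mulSupport_subset _ (s := f1.toFinset) ?_]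
    · exact Finset.prod_le_prod (fun v _ => mul_nonneg (localHeight_pos v (lineRow_ne_zero t) _).le
        (zero_le_one.trans (hm1 v))) fun v _ => hloc v
    · rw [Set.Finite.coe_toFinset]; exact Set.subset_union_right
    · rw [Set.Finite.coe_toFinset]
      exact (Function.mulSupport_mul _ _).trans Set.subset_union_left
  set L := ∏ᶠ v, localHeight v (lineRow t) (x.1 v) with hLdef
  set a : InfinitePlace F → ℝ := fun w =>
      ((archForm (archRow w (lineRow t)) (p w)) ^ 2)⁻¹ with hadef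
  have hL0 : 0 < L := finprod_induction (0 < ·) one_pos (fun _ _ => mul_pos)
    fun v => localHeight_pos v (lineRow_ne_zero t) _
  have hform : ∀ w, archForm (archRow w (lineRow t)) (p w) =
      (‖(p w).z + w.embedding t‖ ^ 2 + (p w).y ^ 2) / (p w).y := fun w => by
    simp [archForm, archRow, lineRow, Complex.normSq_eq_norm_sq]
  have ha_le : ∀ w, a w ≤ (c ^ 2)⁻¹ := fun w => by
    have hy := (p w).y_pos
    refine inv_anti₀ (pow_pos hc 2) (pow_le_pow_left₀ hc.le ?_ 2)
    rw [hform, le_div_iff₀ hy]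
    nlinarith [(hp w).2.1, sq_nonneg ‖(p w).z + w.embedding t‖]
  have ha0 : ∀ w, 0 < a w := fun w => inv_pos.mpr (pow_pos (archForm_pos
    (archRow_ne_zero w (lineRow_ne_zero t)) _) 2)
  have hprod_le : ∏ w, a w ≤ ((c ^ 2)⁻¹) ^ N :=
    (Finset.prod_le_prod (fun w _ => (ha0 w).le) fun w _ => ha_le w).trans (by simp [N])
  have hKpos : 0 < ∏ᶠ v, K v :=
    lt_of_lt_of_le (mul_pos hL0 (finprod_induction (0 < ·) one_pos (fun _ _ => mul_pos)
      fun v => one_pos.trans_le (hm1 v))) hfin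
  have hm_one : 1 ≤ ∏ᶠ v, m v := finprod_induction (1 ≤ ·) le_rfl
    (fun _ _ h h' => one_le_mul_of_one_le_of_one_le h h') hm1
  refine ⟨fun v => hBK v t ?_, fun w => ?_⟩
  · have h1 : m v ≤ ∏ᶠ u, m u := by
      rw [finprod_eq_prod_of_mulSupport_subset m (s := insert v hfm.toFinset)
        (fun u hu => Finset.mem_insert_of_mem (hfm.mem_toFinset.mpr hu))]
      rw [← Finset.mul_prod_erase _ _ (Finset.mem_insert_self v _)]
      exact le_mul_of_one_le_right (zero_le_one.trans (hm1 v))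
        (Finset.one_le_prod fun u _ => hm1 u)
    have h2 : ‖algebraMap F (v.adicCompletion F) t‖ ≤ m v :=
      (le_max_right 1 _).trans (le_self_pow₀ (le_max_left _ _) two_ne_zero)
    refine h2.trans (h1.trans ?_)
    rw [hQ, le_div_iff₀ hδ]
    calc (∏ᶠ u, m u) * δ ≤ (∏ᶠ u, m u) * (L * ∏ w, a w) :=
          mul_le_mul_of_nonneg_left hh (zero_le_one.trans hm_one)
      _ = (L * ∏ᶠ u, m u) * ∏ w, a w := by ring
      _ ≤ _ := mul_le_mul hfin hprod_le (Finset.prod_nonneg fun w _ => (ha0 w).le) hKpos.le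
  · set E := (∏ᶠ v, K v) * ((c ^ 2)⁻¹) ^ (N - 1) * C ^ 2 / δ
    have hy := (p w).y_pos
    set r := ‖(p w).z + w.embedding t‖
    have h1 : ∏ w', a w' ≤ ((c ^ 2)⁻¹) ^ (N - 1) * a w := by
      rw [← Finset.mul_prod_erase _ a (Finset.mem_univ w), mul_comm]
      refine mul_le_mul_of_nonneg_right ?_ (ha0 w).le
      refine (Finset.prod_le_prod (fun w _ => (ha0 w).le) fun w _ => ha_le w).trans ?_
      simp [N, Finset.card_erase_of_mem]
    have hL : L ≤ ∏ᶠ v, K v := (le_mul_of_one_le_right hL0.le hm_one).trans hfin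
    have h2 : δ ≤ (∏ᶠ v, K v) * (((c ^ 2)⁻¹) ^ (N - 1) * a w) :=
      hh.trans (mul_le_mul hL h1 (Finset.prod_nonneg fun w _ => (ha0 w).le) hKpos.le)
    have hr : r ≤ 1 + |E| := by
      rcases le_or_gt r 1 with hr | hr
      · exact hr.trans (le_add_of_nonneg_right (abs_nonneg _))
      have h3 : a w ≤ C ^ 2 / r ^ 4 := by
        rw [hadef]
        simp only
        rw [hform, div_pow, inv_div]
        refine div_le_div₀ (sq_nonneg C) (pow_le_pow_left₀ hy.le (hp w).2.2 2) (by positivity) ?_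
        nlinarith [sq_nonneg r, sq_nonneg (p w).y]
      have h4 : r ^ 4 ≤ E := by
        rw [le_div_iff₀ hδ, mul_comm]
        have h5 := h2.trans (mul_le_mul_of_nonneg_left (mul_le_mul_of_nonneg_left h3
          (by positivity)) hKpos.le)
        rw [← mul_assoc, mul_div_assoc', le_div_iff₀ (by positivity)] at h5
        exact h5
      exact ((le_self_pow₀ hr.le (by norm_num)).trans h4).trans
        ((le_abs_self E).trans (le_add_of_nonneg_left zero_le_one))
    calc ‖w.embedding t‖ = ‖((p w).z + w.embedding t) - (p w).z‖ := by rw [add_sub_cancel_left]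
      _ ≤ r + ‖(p w).z‖ := norm_sub_le _ _
      _ ≤ |R| + 1 + |E| := by linarith [(hp w).1, le_abs_self R]

omit [IsTotallyComplex F] in
/-- Translates of boxes lie in boxes. -/
theorem exists_box_bound (g : GL (Fin 2) F) (R C : ℝ) {c : ℝ} (hc : 0 < c) :
    ∃ R' c' C' : ℝ, 0 < c' ∧ ∀ p : Hyp F, ∀ w : InfinitePlace F,
      ‖(p w).z‖ ≤ R → c ≤ (p w).y → (p w).y ≤ C →
        ‖((g • p) w).z‖ ≤ R' ∧ c' ≤ ((g • p) w).y ∧ ((g • p) w).y ≤ C' := by
  classical
  have hK : IsCompact (H3.toPair ⁻¹' (Metric.closedBall (0 : ℂ) R ×ˢ Set.Icc c C)) := by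
    refine H3.isOpenEmbedding_toPair.isEmbedding.isCompact_preimage_iff ?_ |>.mpr
      ((isCompact_closedBall _ _).prod isCompact_Icc)
    rw [H3.range_toPair]
    exact fun q hq => H3.mem_upperSet.mpr (hc.trans_le hq.2.1)
  have key : ∀ w : InfinitePlace F, ∃ R' c' C' : ℝ, 0 < c' ∧
      ∀ q ∈ H3.toPair ⁻¹' (Metric.closedBall (0 : ℂ) R ×ˢ Set.Icc c C),
        ‖(toComplex w g • q).z‖ ≤ R' ∧ c' ≤ (toComplex w g • q).y ∧
          (toComplex w g • q).y ≤ C' := by
    intro w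
    have hz : Continuous fun q : H3 => ‖(toComplex w g • q).z‖ :=
      continuous_norm.comp (H3.continuous_z.comp (H3.continuous_smul_gl _))
    have hy : Continuous fun q : H3 => (toComplex w g • q).y :=
      H3.continuous_y.comp (H3.continuous_smul_gl _)
    obtain ⟨R', hR'⟩ := hK.bddAbove_image hz.continuousOn
    obtain ⟨C', hC'⟩ := hK.bddAbove_image hy.continuousOn
    rcases Set.eq_empty_or_nonempty (H3.toPair ⁻¹' (Metric.closedBall (0 : ℂ) R ×ˢ Set.Icc c C))
      with h | h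
    · exact ⟨R', 1, C', one_pos, fun q hq => absurd hq (by rw [h]; exact Set.notMem_empty q)⟩
    · obtain ⟨q₀, -, hq₀⟩ := hK.exists_isMinOn h hy.continuousOn
      exact ⟨R', _, C', (toComplex w g • q₀).y_pos, fun q hq => ⟨hR' ⟨q, hq, rfl⟩, hq₀ hq,
        hC' ⟨q, hq, rfl⟩⟩⟩
  choose R' c' C' hc' h using key
  refine ⟨∑ w, |R' w|, Finset.univ.inf' Finset.univ_nonempty c', ∑ w, |C' w|,
    (Finset.lt_inf'_iff _).mpr fun w _ => hc' w, fun p w hz hy1 hy2 => ?_⟩
  obtain ⟨h1, h2, h3⟩ := h w (p w) ⟨mem_closedBall_zero_iff.mpr hz, hy1, hy2⟩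
  have hR : |R' w| ≤ ∑ w, |R' w| :=
    Finset.single_le_sum (f := fun w => |R' w|) (fun w _ => abs_nonneg _) (Finset.mem_univ w)
  have hC : |C' w| ≤ ∑ w, |C' w| :=
    Finset.single_le_sum (f := fun w => |C' w|) (fun w _ => abs_nonneg _) (Finset.mem_univ w)
  exact ⟨h1.trans ((le_abs_self _).trans hR), (Finset.inf'_le _ (Finset.mem_univ w)).trans h2,
    h3.trans ((le_abs_self _).trans hC)⟩

omit [IsTotallyComplex F] in
/-- The finite top height is bounded below on finitely many classes. -/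
theorem exists_le_topFin {U : Level F} {X : Set (Ωf U)} (hX : X.Finite) :
    ∃ f₀ : ℝ, 0 < f₀ ∧ ∀ ω ∈ X, f₀ ≤ topFin ω.out := by
  classical
  set S : Finset ℝ := insert 1 (hX.toFinset.image fun ω => topFin ω.out)
  refine ⟨S.min' (Finset.insert_nonempty _ _), (Finset.lt_min'_iff _ _).mpr fun r hr => ?_,
    fun ω hω => Finset.min'_le _ _
      (Finset.mem_insert_of_mem (Finset.mem_image_of_mem _ (hX.mem_toFinset.mpr hω)))⟩
  rcases Finset.mem_insert.mp hr with rfl | hr
  · exact one_pos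
  · obtain ⟨ω, -, rfl⟩ := Finset.mem_image.mp hr
    exact topFin_pos _

omit [IsTotallyComplex F] in
/-- The height of the top line is bounded below on a Siegel set. -/
theorem exists_le_spcHeight_topRow {U : Level F} {X : Set (Ωf U)} (hX : X.Finite) {c : ℝ}
    (hc : 0 < c) (A R : ℝ) :
    ∃ δ : ℝ, 0 < δ ∧ ∀ s ∈ siegelSet U X c A R, δ ≤ spcHeight (topRow F) s := by
  obtain ⟨f₀, hf₀, hf⟩ := exists_le_topFin hX
  refine ⟨f₀ * ∏ _w : InfinitePlace F, c ^ 2,
    mul_pos hf₀ (Finset.prod_pos fun _ _ => pow_pos hc 2), fun s hs => ?_⟩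
  rw [spcHeight, height_topRow]
  exact mul_le_mul (hf _ hs.1) (Finset.prod_le_prod (fun _ _ => sq_nonneg _) fun w _ =>
    pow_le_pow_left₀ hc.le (hs.2 w).2.1 2) (Finset.prod_nonneg fun _ _ => sq_nonneg _)
    (topFin_pos _).le

/-- The Siegel property. -/
theorem finite_siegel_pairs {U : Level F} {X X' : Set (Ωf U)} (hX : X.Finite) (hX' : X'.Finite)
    {c c' : ℝ} (hc : 0 < c) (hc' : 0 < c') (A A' R R' : ℝ) :
    {γ : PGLF F | ∃ s ∈ siegelSet U X c A R, γ • s ∈ siegelSet U X' c' A' R'}.Finite := by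
  classical
  obtain ⟨δ', hδ', hδT'⟩ := exists_le_spcHeight_topRow hX' hc' A' R'
  obtain ⟨f₀, hf₀, hfX⟩ := exists_le_topFin hX
  set N := Fintype.card (InfinitePlace F)
  set C : ℝ := 1 + δ'⁻¹ * f₀⁻¹ * ((c ^ 2)⁻¹) ^ (N - 1)
  set lines : Set F := ⋃ ω ∈ X, {t : F | ∃ p : Hyp F,
    (∀ w, ‖(p w).z‖ ≤ R ∧ c ≤ (p w).y ∧ (p w).y ≤ C) ∧ δ' ≤ height (lineRow t) ω.out p}
  have hlines : lines.Finite := hX.biUnion fun ω _ => finite_lines ω.out hδ' hc C R
  let gt : F → GL (Fin 2) F := fun t =>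
    Matrix.GeneralLinearGroup.mkOfDetNeZero !![0, -1; 1, t] (by simp [Matrix.det_fin_two])
  choose R'' c'' C'' hc'' hbox using fun t : F => exists_box_bound (gt t) R C hc
  have hup := fun t : F => finite_upper_pairs (hX.image fun ω : Ωf U => gt t • ω) hX' (c'' t) c'
    (C'' t / c'' t) A' (R'' t) R'
  refine (((finite_upper_pairs hX hX' c c' A A' R R').union
    (hlines.biUnion fun t _ => (hup t).image fun γ => γ * ((gt t : GL (Fin 2) F) : PGLF F)))).subset
    ?_
  rintro γ ⟨s, hs, hs'⟩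
  induction γ using QuotientGroup.induction_on with
  | H g =>
  rw [mk_smul_spc] at hs'
  by_cases h0 : (g : Matrix (Fin 2) (Fin 2) F) 1 0 = 0
  · exact Or.inl ⟨g, h0, rfl, s, hs, hs'⟩
  right
  set t : F := (g : Matrix (Fin 2) (Fin 2) F) 1 1 / (g : Matrix (Fin 2) (Fin 2) F) 1 0
  have hrow : (g : Matrix (Fin 2) (Fin 2) F) 1 =
      (g : Matrix (Fin 2) (Fin 2) F) 1 0 • lineRow t := by
    funext i
    fin_cases i <;> simp [lineRow, t]
    field_simp
  have h1 : δ' ≤ height (lineRow t) s.1.out s.2 := by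
    have h := hδT' _ hs'
    rw [spcHeight_smul topRow_ne_zero, topRow_vecMul, hrow, spcHeight,
      height_smul (lineRow_ne_zero t) h0] at h
    exact h
  have hbd : ∀ w, (s.2 w).y ≤ C := by
    intro w
    have hD : topRow F 0 * lineRow t 1 - topRow F 1 * lineRow t 0 ≠ 0 := by simp [topRow, lineRow]
    have h2 := height_mul_height_le hD s.1.out s.2
    rw [height_topRow, ← Finset.mul_prod_erase _ _ (Finset.mem_univ w)] at h2
    have hy := (s.2 w).y_pos
    have hf : f₀ ≤ topFin s.1.out := hfX _ hs.1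
    have he : (c ^ 2) ^ (N - 1) ≤ ∏ w' ∈ Finset.univ.erase w, (s.2 w').y ^ 2 := by
      refine le_trans (le_of_eq ?_) (Finset.prod_le_prod (fun _ _ => sq_nonneg c)
        fun w' _ => pow_le_pow_left₀ hc.le (hs.2 w').2.1 2)
      simp [N, Finset.card_erase_of_mem]
    have h3 : f₀ * ((s.2 w).y ^ 2 * (c ^ 2) ^ (N - 1)) * δ' ≤ 1 := by
      refine le_trans ?_ h2
      refine mul_le_mul (mul_le_mul hf (mul_le_mul_of_nonneg_left he (sq_nonneg _)) (by positivity)
        (topFin_pos _).le) h1 hδ'.le ?_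
      exact mul_nonneg (topFin_pos _).le (mul_nonneg (sq_nonneg _)
        (Finset.prod_nonneg fun _ _ => sq_nonneg _))
    rcases le_or_gt (s.2 w).y 1 with hy1 | hy1
    · exact hy1.trans (le_add_of_nonneg_right (by positivity))
    have h4 : (s.2 w).y ^ 2 ≤ δ'⁻¹ * f₀⁻¹ * ((c ^ 2)⁻¹) ^ (N - 1) := by
      rw [inv_pow, ← mul_inv, ← mul_inv, ← one_div, le_div_iff₀ (by positivity)]
      linarith
    exact ((le_self_pow₀ hy1.le two_ne_zero).trans h4).trans (le_add_of_nonneg_left zero_le_one)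
  have ht : t ∈ lines := Set.mem_biUnion hs.1
    ⟨s.2, fun w => ⟨(hs.2 w).1, (hs.2 w).2.1, hbd w⟩, h1⟩
  refine Set.mem_biUnion ht ⟨((g * (gt t)⁻¹ : GL (Fin 2) F) : PGLF F), ⟨g * (gt t)⁻¹, ?_, rfl,
    gt t • s, ⟨⟨s.1, hs.1, rfl⟩, fun w => ?_⟩, by rwa [mul_smul, inv_smul_smul]⟩, ?_⟩
  · rw [Units.val_mul, Tree.coe_inv_eq]
    simp [gt, Matrix.mul_apply, Fin.sum_univ_two, Matrix.adjugate_fin_two, t]
    field_simp
    ring
  · obtain ⟨e1, e2, -⟩ := hbox t s.2 w (hs.2 w).1 (hs.2 w).2.1 (hbd w)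
    refine ⟨e1, e2, fun w' => ?_⟩
    obtain ⟨-, f2, -⟩ := hbox t s.2 w' (hs.2 w').1 (hs.2 w').2.1 (hbd w')
    obtain ⟨-, -, e3⟩ := hbox t s.2 w (hs.2 w).1 (hs.2 w).2.1 (hbd w)
    have h0 : 0 ≤ C'' t / c'' t :=
      div_nonneg ((hc'' t).le.trans (e2.trans e3)) (hc'' t).le
    refine e3.trans (le_trans (le_of_eq ?_) (mul_le_mul_of_nonneg_left f2 h0))
    rw [div_mul_cancel₀ _ (hc'' t).ne']
  · show ((g * (gt t)⁻¹ * gt t : GL (Fin 2) F) : PGLF F) = _
    rw [inv_mul_cancel_right]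

end Fermat.Agent.ResidualThree
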