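import Fermat.Agent.ResidualThree.Tree.Action
import Fermat.Agent.ResidualThree.Tree.CongBasic

/-!
# Balls and congruence subgroups in the tree of a place

Used for translates of spherical forms along the tree.
-/

noncomputable section

open Matrix
open scoped WithZero

namespace Fermat.Agent.ResidualThree.Tree

variable {V : Type*} {d : V → V → ℕ} {Q : ℕ}

/-- `y` is a child of `z` in the tree rooted at `o`. -/
def IsChild (d : V → V → ℕ) (o z y : V) : Prop := d z y = 1 ∧ d o y = d o z + 1

namespace IsRegTree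

variable (h : IsRegTree d Q)
include h

/-- Distances from the origin grow along a branch leaving through a child. -/
theorem dist_of_toward_child {o z y : V} (hy : IsChild d o z y) :
    ∀ (k : ℕ) (u : V), d z u = k → 1 ≤ k → d y u + 1 = k → d o u = d o z + k := by
  intro k
  induction k using Nat.strong_induction_on with
  | _ k ih =>
    intro u hu hk hyu
    rcases Nat.lt_or_ge k 2 with hk2 | hk2
    · have : d y u = 0 := by omega
      rw [← (h.dist_eq_zero _ _).1 this, hy.2]; omega
    have huz : u ≠ z := fun e => by rw [e, h.dist_self] at hu; omega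
    obtain ⟨h1, h2⟩ := h.dist_toward huz
    set u' := h.toward z u
    have huy : u ≠ y := fun e => by rw [e, h.dist_self] at hyu; omega
    obtain ⟨h3, h4⟩ := h.dist_toward huy
    set u'' := h.toward y u
    have hee : u' = u'' := by
      refine h.eq_of_lt (p := z) h1 h3 (by omega) ?_
      have hy' : d y z = 1 := by rw [h.comm]; exact hy.1
      have := h.dist_adj_le (p := u'') hy'
      have c1 := h.comm z u''
      have c2 := h.comm y u''
      omega
    have hu' : d z u' = k - 1 := by omega
    have hyu' : d y u' + 1 = k - 1 := by rw [hee]; omega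
    have ih' := ih (k - 1) (by omega) u' hu' (by omega) hyu'
    have hu'z : u' ≠ z := fun e => by rw [e, h.dist_self] at hu'; omega
    obtain ⟨h5, h6⟩ := h.dist_toward hu'z
    set w := h.toward z u'
    have how : d o w + 1 = d o u' := by
      rcases Nat.lt_or_ge k 3 with hk3 | hk3
      · have : d z w = 0 := by omega
        rw [← (h.dist_eq_zero _ _).1 this, ih']; omega
      · have hu'y : u' ≠ y := fun e => by rw [e, h.dist_self] at hyu'; omega
        obtain ⟨h7, h8⟩ := h.dist_toward hu'y
        have hw : w = h.toward y u' := by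
          refine h.eq_of_lt (p := z) h5 h7 (by omega) ?_
          have hy' : d y z = 1 := by rw [h.comm]; exact hy.1
          have := h.dist_adj_le (p := h.toward y u') hy'
          have c1 := h.comm z (h.toward y u')
          have c2 := h.comm y (h.toward y u')
          omega
        have := ih (k - 2) (by omega) w (by omega) (by omega) (by rw [hw]; omega)
        omega
    rw [h.dist_succ h5 (by omega) (by rw [h.comm]; exact h1) ?_, ih']
    · omega
    · intro e
      rw [e] at hu
      omega

theorem dist_child {o z y u : V} (hy : IsChild d o z y) (hu : d o u ≤ d o z + 1)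
    (hnc : ¬ IsChild d o z u) : d u y = d u z + 1 := by
  rcases eq_or_ne z u with rfl | hne
  · rw [hy.1, h.dist_self]
  refine h.dist_of_ne_toward hne hy.1 fun e => ?_
  obtain ⟨-, h2⟩ := h.dist_toward (p := u) hne
  rw [← e, h.comm u y, h.comm u z] at h2
  have hk : 1 ≤ d z u := by omega
  have := h.dist_of_toward_child hy (d z u) u rfl hk h2
  exact hnc ⟨by omega, by omega⟩

theorem exists_child (hQ : Q ≠ 0) (o z : V) : ∃ y, IsChild d o z y := by
  rcases eq_or_ne z o with rfl | hne
  · obtain ⟨y, hy⟩ := Finset.card_pos.1 (by rw [h.card_nbhd' z]; omega)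
    rw [h.mem_nbhd] at hy
    exact ⟨y, hy, by rw [h.dist_self, hy]⟩
  · obtain ⟨y, hy, hne'⟩ := Finset.exists_mem_ne (s := h.nbhd z) (by rw [h.card_nbhd' z]; omega)
      (h.toward o z)
    rw [h.mem_nbhd] at hy
    exact ⟨y, hy, h.dist_of_ne_toward hne hy hne'⟩

end IsRegTree

variable {F : Type*} [Field F] {v : Valuation F ℤᵐ⁰}

section

variable {p : Fˣ} (hp : v (p : F) = WithZero.exp (-1 : ℤ))
include hp

theorem exists_smul_std (a b : GL (Fin 2) F) : ∃ k ∈ vertexSubgroup v,
    (QuotientGroup.mk b : Vert v) =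
      (a * k) • (QuotientGroup.mk (diagGL (p ^ cartan v (a⁻¹ * b)) 1) : Vert v) := by
  obtain ⟨k, l, s, q, hk, hl, hq, e⟩ := exists_cartan_decomp hp (a⁻¹ * b)
  obtain rfl : q = p := Units.ext hq
  refine ⟨k, intGL_le_vertexSubgroup hk, ?_⟩
  rw [MulAction.Quotient.smul_mk, smul_eq_mul, ← mk_decomp (k := a * k) s hl,
    mul_assoc a k, mul_assoc a, mul_assoc a, ← e, mul_inv_cancel_left]

theorem exists_smul_base (y : Vert v) : ∃ k ∈ vertexSubgroup v,
    y = k • (QuotientGroup.mk (diagGL (p ^ vdist (QuotientGroup.mk 1 : Vert v) y) 1) : Vert v) := by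
  induction y using QuotientGroup.induction_on with
  | H b =>
    obtain ⟨k, hk, e⟩ := exists_smul_std hp 1 b
    rw [inv_one, one_mul, one_mul] at e
    exact ⟨k, hk, by rwa [vdist_one_mk]⟩

/-- Pairs at equal distance are equivalent. -/
theorem exists_smul_pair {x y x' y' : Vert v} (he : vdist x y = vdist x' y') :
    ∃ g : GL (Fin 2) F, g • x = x' ∧ g • y = y' := by
  induction x using QuotientGroup.induction_on with
  | H a =>
  induction y using QuotientGroup.induction_on with
  | H b =>
  induction x' using QuotientGroup.induction_on with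
  | H a' =>
  induction y' using QuotientGroup.induction_on with
  | H b' =>
    obtain ⟨k, hk, e⟩ := exists_smul_std hp a b
    obtain ⟨k', hk', e'⟩ := exists_smul_std hp a' b'
    rw [vdist_mk, vdist_mk] at he
    refine ⟨a' * k' * (a * k)⁻¹, ?_, ?_⟩
    · rw [MulAction.Quotient.smul_mk, smul_eq_mul, QuotientGroup.eq,
        show (a' * k' * (a * k)⁻¹ * a)⁻¹ * a' = k * k'⁻¹ by group]
      exact mul_mem hk (inv_mem hk')
    · rw [e, e', smul_smul, inv_mul_cancel_right, he]

/-- The congruence subgroup of level `r` fixes the ball of radius `r`. -/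
theorem congZ_smul_eq {m : ℕ} {y : Vert v} (hy : vdist (QuotientGroup.mk 1 : Vert v) y ≤ m)
    {j : GL (Fin 2) F} (hj : j ∈ congZ v m) : j • y = y := by
  obtain ⟨k, hk, e⟩ := exists_smul_base hp y
  set r := vdist (QuotientGroup.mk 1 : Vert v) y
  rw [e, smul_smul, show j * k = k * (k⁻¹ * j * k) by group, mul_smul]
  congr 1
  obtain ⟨s, c, hc, e'⟩ := mem_congZ.1 (congZ_conj hk hj)
  rw [e', mul_smul, scalar_smul_vert, MulAction.Quotient.smul_mk, smul_eq_mul, eq_comm,
    QuotientGroup.eq, ← mul_assoc]
  refine intGL_le_vertexSubgroup ?_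
  set D := diagGL (p ^ r) (1 : Fˣ) with hD
  have hcij : ∀ i j, v ((c : Matrix (Fin 2) (Fin 2) F) i j -
      (1 : Matrix (Fin 2) (Fin 2) F) i j) ≤ lev m := fun i j => by
    rw [← Matrix.sub_apply]; exact (le_nrm _ i j).trans hc.2
  have e2 : ((D⁻¹ * c * D : GL (Fin 2) F) : Matrix (Fin 2) (Fin 2) F) =
      !![(c : Matrix (Fin 2) (Fin 2) F) 0 0, (c : Matrix (Fin 2) (Fin 2) F) 0 1 / (p : F) ^ r;
        (c : Matrix (Fin 2) (Fin 2) F) 1 0 * (p : F) ^ r, (c : Matrix (Fin 2) (Fin 2) F) 1 1] := by
    rw [Units.val_mul, Units.val_mul, coe_inv_eq]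
    ext i j
    fin_cases i <;> fin_cases j <;>
      simp [hD, Matrix.det_fin_two, Matrix.adjugate_fin_two, Matrix.mul_apply, Fin.sum_univ_two,
        Matrix.vecMul, dotProduct,
        p.ne_zero] <;> (try field_simp)
  refine ⟨fun i j => ?_, ?_⟩
  · rw [e2]
    fin_cases i <;> fin_cases j <;> simp [-map_div₀, hc.1.1]
    · rw [map_div₀, map_pow, div_le_one₀ (pow_pos (zero_lt_iff.2 ((map_ne_zero v).2 p.ne_zero)) r),
        ← map_pow, v_unif_pow hp]
      have := hcij 0 1
      simp at this
      exact this.trans (exp_antitone hy)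
    · exact mul_le_one' (hc.1.1 1 0) (by
        rw [← map_pow, v_unif_pow hp, ← WithZero.exp_zero, WithZero.exp_le_exp]; omega)
  · rw [Units.val_mul, Units.val_mul, Matrix.det_units_conj']
    exact hc.1.2

/-- Children of a vertex of depth at least `m` are permuted transitively by the congruence
subgroup of level `m`. -/
theorem exists_congZ_smul_child {m : ℕ} {z y y' : Vert v}
    (hm : m ≤ vdist (QuotientGroup.mk 1 : Vert v) z)
    (hy : vdist z y = 1 ∧ vdist (QuotientGroup.mk 1 : Vert v) y =
      vdist (QuotientGroup.mk 1 : Vert v) z + 1)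
    (hy' : vdist z y' = 1 ∧ vdist (QuotientGroup.mk 1 : Vert v) y' =
      vdist (QuotientGroup.mk 1 : Vert v) z + 1) :
    ∃ j ∈ congZ v m, j • y = y' := by
  set o : Vert v := QuotientGroup.mk 1
  obtain ⟨k, hk, e⟩ := exists_smul_base hp z
  set r := vdist o z with hr
  set D := diagGL (p ^ r) (1 : Fˣ) with hD
  rcases Nat.eq_zero_or_pos r with hr0 | hr0
  · have hz : z = o := (vdist_eq_zero.1 hr0).symm
    rw [hz] at hy hy'
    obtain ⟨g, hg1, hg2⟩ := exists_smul_pair hp (hy.1.trans hy'.1.symm)
    refine ⟨g, ?_, hg2⟩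
    have hm0 : m = 0 := by omega
    rw [MulAction.Quotient.smul_mk, smul_eq_mul, mul_one, QuotientGroup.eq, mul_one] at hg1
    obtain ⟨s, l, hl, hsl⟩ := mul_mem_vertexSubgroup_iff.1 (inv_mem_iff.1 hg1)
    rw [hm0, mem_congZ]
    refine ⟨s, l, ⟨hl, ?_⟩, hsl⟩
    refine (nrm_sub_le' (le_of_eq (nrm_eq_one hl)) nrm_one.le).trans_eq ?_
    simp [lev]
  -- the children are `k D stepGL u`
  have hchild : ∀ w, vdist z w = 1 ∧ vdist o w = r + 1 → ∃ u, v u ≤ 1 ∧
      w = (k * D) • (QuotientGroup.mk (stepGL p u) : Vert v) := by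
    rintro w ⟨h1, h2⟩
    obtain ⟨b, hb⟩ := MulAction.surjective (α := GL (Fin 2) F) (k * D) w
    induction b using QuotientGroup.induction_on with
    | H b =>
      simp only at hb
      rw [← hb] at h1
      rw [e, mul_smul, vdist_smul, MulAction.Quotient.smul_mk, smul_eq_mul, vdist_mk,
        inv_mul_cancel_left] at h1
      obtain ⟨c, hc⟩ := exists_nb hp h1
      rw [← hc] at hb
      rcases c with _ | c
      · exfalso
        have hk1 : k • o = o := by
          rw [MulAction.Quotient.smul_mk, smul_eq_mul, mul_one, eq_comm, QuotientGroup.eq, inv_one,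
            one_mul]
          exact hk
        rw [← hb, nbMap, mul_smul, ← hk1, vdist_smul, MulAction.Quotient.smul_mk, smul_eq_mul,
          vdist_one_mk, hD] at h2
        obtain ⟨r', hr'⟩ : ∃ r', r = r' + 1 := ⟨r - 1, by omega⟩
        rw [hr', cartan_diag_pow_mul_inf hp] at h2
        omega
      · exact ⟨_, v_coe_le_one _, hb.symm⟩
  obtain ⟨u, hu, rfl⟩ := hchild y hy
  obtain ⟨u', hu', rfl⟩ := hchild y' hy'
  set x : F := (p : F) ^ r * (u' - u)
  set n : GL (Fin 2) F := Matrix.GeneralLinearGroup.mkOfDetNeZero !![1, x; 0, 1]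
    (by simp [Matrix.det_fin_two])
  have hx : v x ≤ lev m := by
    rw [map_mul, v_unif_pow hp]
    exact (mul_le_of_le_one_right' (v.map_sub_le hu' hu)).trans (exp_antitone hm)
  have hn : n ∈ congGL v m := by
    refine ⟨⟨fun i j => ?_, by simp [n, Matrix.det_fin_two]⟩, nrm_le_iff.2 fun i j => ?_⟩
    · fin_cases i <;> fin_cases j <;> simp [n]
      exact hx.trans (lev_le_one m)
    · rw [Matrix.sub_apply]
      fin_cases i <;> fin_cases j <;> simp [n]
      exact hx
  have key : n * D * stepGL p u = D * stepGL p u' := by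
    refine Units.ext ?_
    ext i j
    fin_cases i <;> fin_cases j <;> simp [n, x, hD, Matrix.mul_apply, Fin.sum_univ_two]
    ring
  refine ⟨k * n * k⁻¹, ?_, ?_⟩
  · simpa using congZ_conj (inv_mem hk) (congGL_le_congZ m hn)
  · rw [MulAction.Quotient.smul_mk, MulAction.Quotient.smul_mk, MulAction.Quotient.smul_mk,
      smul_eq_mul, smul_eq_mul, smul_eq_mul,
      show k * n * k⁻¹ * (k * D * stepGL p u) = k * (n * D * stepGL p u) by group, key]
    group

end

end Fermat.Agent.ResidualThree.Tree
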