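import Fermat.Agent.ResidualThree.Automorphic.Defs

/-!
# Finite adeles: approximation by `F` and the standard additive character

`F` is dense in the finite adeles, with arbitrary precision at finitely many places and
integrality at the others.  The standard character `psiFin` is `z ↦ exp (2πi Tr β)` for any
`β ∈ F` with `β - z` integral everywhere.
-/

noncomputable section

open IsDedekindDomain NumberField
open scoped WithZero

namespace Fermat.Agent.ResidualThree

variable {F : Type} [Field F] [NumberField F]

theorem valv_algebraMap (v : FPlace F) (x : F) :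
    valv v (algebraMap F (v.adicCompletion F) x) = v.valuation F x :=
  v.valuedAdicCompletion_eq_valuation' x

/-- An element of the completion is approximated by one of `F`. -/
theorem exists_sub_le_exp (v : FPlace F) (z : v.adicCompletion F) (n : ℤ) :
    ∃ x : F, valv v (algebraMap F (v.adicCompletion F) x - z) ≤ WithZero.exp n := by
  obtain ⟨π, hπ⟩ := v.valuation_exists_uniformizer F
  have hy : valv v (algebraMap F (v.adicCompletion F) (π ^ (-n))) = WithZero.exp n := by
    rw [valv_algebraMap, map_zpow₀, hπ, ← WithZero.exp_zsmul]; simp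
  have hs : {a : v.adicCompletion F | valv v (a - z) ≤ WithZero.exp n} ∈ nhds z := by
    rw [Valued.mem_nhds]
    have hne : (valv v).restrict (algebraMap F (v.adicCompletion F) (π ^ (-n))) ≠ 0 := by
      rw [ne_eq, ← map_eq_zero (MonoidWithZeroHom.ValueGroup₀.embedding),
        Valuation.embedding_restrict, hy]
      exact WithZero.exp_ne_zero
    refine ⟨Units.mk0 _ hne, fun a ha => ?_⟩
    rw [Set.mem_ofPred_eq, Units.val_mk0] at ha
    have h' := MonoidWithZeroHom.ValueGroup₀.embedding_strictMono ha
    rw [Valuation.embedding_restrict,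
      Valuation.embedding_restrict] at h'
    exact (lt_of_lt_of_le h' hy.le).le
  obtain ⟨x, hx⟩ := (HeightOneSpectrum.denseRange_algebraMap (K := F) v).exists_mem_open
    isOpen_interior ⟨z, mem_interior_iff_mem_nhds.2 hs⟩
  have hx' : algebraMap F (v.adicCompletion F) x ∈
      {a : v.adicCompletion F | valv v (a - z) ≤ WithZero.exp n} := interior_subset hx
  exact ⟨x, hx'⟩

/-- An integral element of the completion is approximated by an integer. -/
theorem exists_integer_sub_le (v : FPlace F) (z : v.adicCompletion F) (hz : valv v z ≤ 1) (n : ℕ) :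
    ∃ a : 𝓞 F, valv v (algebraMap F (v.adicCompletion F) (a : F) - z) ≤
      WithZero.exp (-(n : ℤ)) := by
  obtain ⟨x, hx⟩ := exists_sub_le_exp v z (-(n : ℤ))
  have hx1 : v.valuation F x ≤ 1 := by
    rw [← valv_algebraMap]
    have h := (valv v).map_add (algebraMap F (v.adicCompletion F) x - z) z
    rw [sub_add_cancel] at h
    refine h.trans (max_le (hx.trans ?_) hz)
    rw [← WithZero.exp_zero, WithZero.exp_le_exp]; omega
  obtain ⟨a, ha⟩ := v.exists_valuation_sub_lt_of_integer hx1
    (γ := Units.mk0 (WithZero.exp (-(n : ℤ)) : ℤᵐ⁰) (by simp))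
  refine ⟨a, ?_⟩
  rw [show algebraMap F (v.adicCompletion F) (a : F) - z =
    algebraMap F (v.adicCompletion F) ((a : F) - x) + (algebraMap F (v.adicCompletion F) x - z) by
    rw [map_sub]; ring]
  refine ((valv v).map_add _ _).trans (max_le ?_ hx)
  rw [valv_algebraMap]
  simpa using ha.le

/-- The valuation of a nonzero integer, in terms of its exponent as a natural number. -/
theorem valuation_eq_exp_neg_toNat {d : 𝓞 F} (hd : d ≠ 0) (v : FPlace F) :
    v.valuation F (d : F) =
        WithZero.exp (-(((-WithZero.log (v.valuation F (d : F))).toNat : ℕ) : ℤ)) := by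
  have h0 : v.valuation F (d : F) ≠ 0 := (Valuation.ne_zero_iff _).mpr (by exact_mod_cast hd)
  have h1 : WithZero.log (v.valuation F (d : F)) ≤ 0 := by
    rw [← WithZero.log_one, WithZero.log_le_log h0 one_ne_zero]
    exact v.valuation_le_one d
  rw [Int.toNat_of_nonneg (by omega), neg_neg, WithZero.exp_log h0]

/-- Finitely many congruences in `F`, integral elsewhere. -/
theorem exists_approx_finset (S : Finset (FPlace F)) (b : FPlace F → F) (n : FPlace F → ℤ) :
    ∃ x : F, (∀ v ∈ S, v.valuation F (x - b v) ≤ WithZero.exp (-(n v))) ∧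
      ∀ v ∉ S, v.valuation F x ≤ 1 := by
  classical
  choose num den hden hb using fun v : FPlace F => IsFractionRing.div_surjective (A := 𝓞 F) (b v)
  set d : 𝓞 F := ∏ v ∈ S, den v with hd_def
  have hd : d ≠ 0 := Finset.prod_ne_zero_iff.mpr fun v _ => nonZeroDivisors.ne_zero (hden v)
  have hdF : (d : F) ≠ 0 := by exact_mod_cast hd
  set o : FPlace F → ℕ := fun v => (-WithZero.log (v.valuation F (d : F))).toNat with ho
  have hvd : ∀ v, v.valuation F (d : F) = WithZero.exp (-(o v : ℤ)) :=
    valuation_eq_exp_neg_toNat hd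
  have hfin : {v : FPlace F | o v ≠ 0}.Finite := by
    refine Set.Finite.subset (HeightOneSpectrum.Support.finite (𝓞 F) (d : F)⁻¹) fun v hv => ?_
    simp only [HeightOneSpectrum.Support, Set.mem_ofPred_eq, map_inv₀, hvd, ← WithZero.exp_neg,
      neg_neg, ← WithZero.exp_zero, WithZero.exp_lt_exp]
    simp only [Set.mem_ofPred_eq] at hv
    omega
  set target : FPlace F → 𝓞 F := fun v =>
    if v ∈ S then num v * ∏ u ∈ S.erase v, den u else 0 with htarget
  obtain ⟨y, hy⟩ := IsDedekindDomain.exists_forall_sub_mem_ideal (s := S ∪ hfin.toFinset)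
    (fun v : FPlace F => v.asIdeal) (fun v => (n v).toNat + o v)
    (fun v _ => v.prime) (fun v _ w _ h e => h (HeightOneSpectrum.ext e))
    (fun v => target v.1)
  have key : ∀ v ∈ S ∪ hfin.toFinset,
      v.valuation F ((y : F) - (target v : F)) ≤ WithZero.exp (-(((n v).toNat + o v : ℕ) : ℤ)) := by
    intro v hv
    have := hy v hv
    rw [← HeightOneSpectrum.intValuation_le_pow_iff_mem] at this
    rw [← map_sub]
    exact (HeightOneSpectrum.valuation_of_algebraMap v _).trans_le this
  refine ⟨(y : F) / (d : F), fun v hv => ?_, fun v hv => ?_⟩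
  · have h1 := key v (Finset.mem_union_left _ hv)
    have h2 : b v * (d : F) = (target v : F) := by
      simp only [htarget, if_pos hv, hd_def, map_mul, map_prod,
        ← Finset.mul_prod_erase S den hv]
      rw [← hb v]
      have := nonZeroDivisors.ne_zero (hden v)
      have : algebraMap (𝓞 F) F (den v) ≠ 0 :=
        (map_ne_zero_iff _ RingOfIntegers.coe_injective).mpr this
      field_simp
    rw [div_sub' hdF, mul_comm (d : F) (b v), h2, map_div₀, hvd, div_le_iff₀ (zero_lt_iff.mpr
      WithZero.exp_ne_zero), ← WithZero.exp_add]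
    refine h1.trans (WithZero.exp_le_exp.mpr ?_)
    push_cast
    have := Int.self_le_toNat (n v)
    omega
  · rw [map_div₀, hvd, div_le_iff₀ (zero_lt_iff.mpr WithZero.exp_ne_zero), one_mul]
    by_cases ho' : o v = 0
    · rw [ho']; simpa using v.valuation_le_one y
    · have h1 := key v (Finset.mem_union_right _ (hfin.mem_toFinset.mpr ho'))
      simp only [htarget, if_neg hv, map_zero, sub_zero] at h1
      exact h1.trans (WithZero.exp_le_exp.mpr (by push_cast; omega))

/-- `F` is dense in the finite adeles. -/
theorem exists_algebraMap_approx (a : ∀ v : FPlace F, v.adicCompletion F)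
    (ha : ∀ᶠ v in Filter.cofinite, valv v (a v) ≤ 1) (n : FPlace F → ℤ)
    (hn : ∀ᶠ v in Filter.cofinite, n v ≤ 0) :
    ∃ x : F, ∀ v, valv v (a v - algebraMap F _ x) ≤ WithZero.exp (-(n v)) := by
  classical
  have hfin := Filter.eventually_cofinite.mp (ha.and hn)
  choose b hb' using fun v : FPlace F => exists_sub_le_exp v (a v) (-(n v))
  have hb : ∀ v, valv v (a v - algebraMap F _ (b v)) ≤ WithZero.exp (-(n v)) := fun v => by
    rw [Valuation.map_sub_swap]; exact hb' v
  obtain ⟨x, hx, hx'⟩ := exists_approx_finset hfin.toFinset b n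
  refine ⟨x, fun v => ?_⟩
  by_cases hv : v ∈ hfin.toFinset
  · rw [show a v - algebraMap F _ x = (a v - algebraMap F _ (b v)) - algebraMap F _ (x - b v) by
      rw [map_sub]; ring]
    refine (valv v).map_sub_le (hb v) ?_
    rw [valv_algebraMap]
    exact hx v hv
  · have h := not_not.mp (fun h => hv (hfin.mem_toFinset.mpr h))
    refine (valv v).map_sub_le (h.1.trans ?_) ?_
    · rw [← WithZero.exp_zero, WithZero.exp_le_exp]; omega
    · rw [valv_algebraMap]
      refine (hx' v hv).trans ?_
      rw [← WithZero.exp_zero, WithZero.exp_le_exp]; omega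

/-- Strong approximation for the finite adeles, with the precisions given by a finitely supported
function. -/
theorem exists_forall_sub_le (z : ∀ v : FPlace F, v.adicCompletion F)
    (hz : ∀ᶠ v : FPlace F in Filter.cofinite, valv v (z v) ≤ 1) (n : FPlace F →₀ ℕ) :
    ∃ β : F, ∀ v, valv v (algebraMap F (v.adicCompletion F) β - z v) ≤
      WithZero.exp (-(n v : ℤ)) := by
  obtain ⟨β, hβ⟩ := exists_algebraMap_approx z hz (fun v => (n v : ℤ))
    (Filter.eventually_cofinite.2 (n.support.finite_toSet.subset fun v hv => by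
      simp only [Set.mem_ofPred_eq, not_le] at hv
      simpa using hv.ne'))
  exact ⟨β, fun v => (Valuation.map_sub_swap _ _ _).trans_le (hβ v)⟩

/-! ### The standard character -/

variable (F) in
/-- The finite adeles. -/
def Af : AddSubgroup (∀ v : FPlace F, v.adicCompletion F) where
  carrier := {z | ∀ᶠ v in Filter.cofinite, valv v (z v) ≤ 1}
  zero_mem' := show ∀ᶠ v : FPlace F in Filter.cofinite, valv v 0 ≤ 1 from
    Filter.Eventually.of_forall fun v => by rw [map_zero]; exact zero_le
  add_mem' {a b} (ha : ∀ᶠ v : FPlace F in Filter.cofinite, valv v (a v) ≤ 1)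
      (hb : ∀ᶠ v : FPlace F in Filter.cofinite, valv v (b v) ≤ 1) :=
    show ∀ᶠ v : FPlace F in Filter.cofinite, valv v (a v + b v) ≤ 1 from
      (ha.and hb).mono fun v h => ((valv v).map_add _ _).trans (max_le h.1 h.2)
  neg_mem' {a} (ha : ∀ᶠ v : FPlace F in Filter.cofinite, valv v (a v) ≤ 1) :=
    show ∀ᶠ v : FPlace F in Filter.cofinite, valv v (-a v) ≤ 1 from
      ha.mono fun v h => by rwa [Valuation.map_neg]

theorem mem_Af {z : ∀ v : FPlace F, v.adicCompletion F} :
    z ∈ Af F ↔ ∀ᶠ v in Filter.cofinite, valv v (z v) ≤ 1 := Iff.rfl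

theorem trace_mem_int {β : F} (h : ∀ v : FPlace F, v.valuation F β ≤ 1) :
    ∃ k : ℤ, Algebra.trace ℚ F β = k := by
  obtain ⟨b, rfl⟩ := HeightOneSpectrum.mem_integers_of_valuation_le_one F β h
  have hi : IsIntegral ℤ (Algebra.trace ℚ F (b : F)) := Algebra.isIntegral_trace b.2
  obtain ⟨k, hk⟩ := IsIntegrallyClosed.isIntegral_iff.1 hi
  exact ⟨k, by simpa using hk.symm⟩

/-- An approximation in `F` of a finite adele, up to integral adeles. -/
def approx (z : Af F) : F := (exists_forall_sub_le z.1 z.2 0).choose

theorem valv_approx (z : Af F) (v : FPlace F) :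
    valv v (algebraMap F (v.adicCompletion F) (approx z) - z.1 v) ≤ 1 := by
  simpa [approx] using (exists_forall_sub_le z.1 z.2 0).choose_spec v

/-- `exp (2πi Tr β)`. -/
def traceExp (β : F) : ℂ :=
  Complex.exp (2 * (Real.pi : ℂ) * Complex.I * ((Algebra.trace ℚ F β : ℚ) : ℂ))

theorem traceExp_add (β γ : F) : traceExp (β + γ) = traceExp β * traceExp γ := by
  rw [traceExp, traceExp, traceExp, ← Complex.exp_add, map_add]; push_cast; ring_nf

theorem traceExp_eq_one_iff (β : F) : traceExp β = 1 ↔ ∃ k : ℤ, Algebra.trace ℚ F β = k := by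
  rw [traceExp, Complex.exp_eq_one_iff]
  refine exists_congr fun k => ?_
  rw [mul_comm (k : ℂ), mul_right_inj' (by simp [Real.pi_ne_zero]), ← Rat.cast_intCast,
    Rat.cast_inj]

/-- The standard additive character of the finite adeles. -/
def psiFin (z : Af F) : ℂ := traceExp (approx z)

theorem psiFin_eq {z : Af F} {β : F}
    (h : ∀ v, valv v (algebraMap F (v.adicCompletion F) β - z.1 v) ≤ 1) :
    psiFin z = traceExp β := by
  rw [psiFin, show approx z = β + (approx z - β) by ring, traceExp_add]
  refine (mul_eq_left₀ (Complex.exp_ne_zero _)).2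
    ((traceExp_eq_one_iff _).2 (trace_mem_int fun v => ?_))
  rw [← valv_algebraMap, map_sub, show algebraMap F (v.adicCompletion F) (approx z) -
      algebraMap F (v.adicCompletion F) β =
      (algebraMap F (v.adicCompletion F) (approx z) - z.1 v) -
        (algebraMap F (v.adicCompletion F) β - z.1 v) by ring]
  exact ((valv v).map_sub _ _).trans (max_le (valv_approx z v) (h v))

theorem psiFin_add (z w : Af F) : psiFin (z + w) = psiFin z * psiFin w := by
  rw [psiFin_eq (β := approx z + approx w), traceExp_add]
  · rfl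
  intro v
  rw [map_add, AddSubgroup.coe_add, Pi.add_apply, add_sub_add_comm]
  exact ((valv v).map_add _ _).trans (max_le (valv_approx z v) (valv_approx w v))

theorem psiFin_of_integral {z : Af F} (h : ∀ v, valv v (z.1 v) ≤ 1) : psiFin z = 1 := by
  rw [psiFin_eq (β := 0)]
  · simp [traceExp]
  intro v
  simpa using h v

open Classical in
/-- The adele supported at one place. -/
def singleAdele (v : FPlace F) : v.adicCompletion F →+ Af F where
  toFun z := ⟨Pi.single v z, by
    refine mem_Af.2 (Filter.mem_of_superset (Set.Finite.compl_mem_cofinite (Set.finite_singleton v))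
      fun w hw => ?_)
    simp only [Set.mem_ofPred_eq]
    rw [Pi.single_eq_of_ne (by simpa using hw), map_zero]
    exact zero_le⟩
  map_zero' := Subtype.ext (Pi.single_zero v)
  map_add' a b := Subtype.ext (Pi.single_add v a b)

/-- The local component of the character. -/
def psiAt (v : FPlace F) (z : v.adicCompletion F) : ℂ := psiFin (singleAdele v z)

theorem psiAt_add (v : FPlace F) (a b : v.adicCompletion F) :
    psiAt v (a + b) = psiAt v a * psiAt v b := by
  rw [psiAt, map_add, psiFin_add]; rfl

theorem psiAt_of_le_one (v : FPlace F) {z : v.adicCompletion F} (h : valv v z ≤ 1) :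
    psiAt v z = 1 := by
  classical
  refine psiFin_of_integral fun w => ?_
  show valv w (Pi.single (M := fun u : FPlace F => u.adicCompletion F) v z w) ≤ 1
  by_cases e : w = v
  · subst e; rwa [Pi.single_eq_same]
  · rw [Pi.single_eq_of_ne e, map_zero]; exact zero_le

variable (F) in
/-- A common denominator for the elements with integral traces against the integers. -/
theorem exists_denominator : ∃ D : 𝓞 F, D ≠ 0 ∧ ∀ β : F,
    (∀ a : 𝓞 F, ∃ k : ℤ, Algebra.trace ℚ F (β * a) = k) → ∀ v : FPlace F,
      v.valuation F (β * D) ≤ 1 := by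
  classical
  set b := RingOfIntegers.basis F with hb
  set B := integralBasis F with hB
  set hnd := traceForm_nondegenerate ℚ F with hh
  set D' := (Algebra.traceForm ℚ F).dualBasis hnd B with hD'
  obtain ⟨⟨D, hD⟩, hDb⟩ := IsLocalization.exist_integer_multiples_of_finite (nonZeroDivisors (𝓞 F))
    (fun i => D' i)
  refine ⟨D, nonZeroDivisors.ne_zero hD, fun β hβ v => ?_⟩
  have e : β * (D : F) = ∑ i, (((hβ (b i)).choose : ℤ) : ℚ) • ((D : 𝓞 F) • D' i) := by
    conv_lhs => rw [← D'.sum_repr β]
    rw [Finset.sum_mul]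
    refine Finset.sum_congr rfl fun i _ => ?_
    have h1 : D'.repr β i = (((hβ (b i)).choose : ℤ) : ℚ) := by
      rw [hD', LinearMap.BilinForm.dualBasis_repr_apply, Algebra.traceForm_apply,
        hB, integralBasis_apply]
      exact (hβ (b i)).choose_spec
    rw [h1, smul_mul_assoc, Algebra.smul_def (D : 𝓞 F), mul_comm (D' i)]
  rw [e]
  refine Valuation.map_sum_le _ fun i _ => ?_
  obtain ⟨a, ha⟩ := hDb i
  rw [← ha, Int.cast_smul_eq_zsmul, zsmul_eq_mul, map_mul]
  exact mul_le_one' (by
    rw [← map_intCast (algebraMap (𝓞 F) F)]; exact v.valuation_le_one _) (v.valuation_le_one _)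

/-- If the local character at `v` is trivial on valuations `≤ exp k`, then `exp k` times the
valuation of a common denominator is at most one. -/
theorem valuation_denominator_le {D : 𝓞 F} (hD : ∀ β : F,
      (∀ a : 𝓞 F, ∃ k : ℤ, Algebra.trace ℚ F (β * a) = k) → ∀ v : FPlace F,
        v.valuation F (β * D) ≤ 1)
    (v : FPlace F) {k : ℕ}
    (hk : ∀ z : v.adicCompletion F, valv v z ≤ WithZero.exp (k : ℤ) → psiAt v z = 1) :
    v.valuation F (D : F) ≤ WithZero.exp (-(k : ℤ)) := by
  classical
  rcases Nat.eq_zero_or_pos k with rfl | hk0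
  · simpa using v.valuation_le_one D
  obtain ⟨π, hπ⟩ := v.valuation_exists_uniformizer F
  set z : v.adicCompletion F := algebraMap F _ (π⁻¹ ^ k)
  have hz : valv v z = WithZero.exp (k : ℤ) := by
    rw [valv_algebraMap, map_pow, map_inv₀, hπ, ← WithZero.exp_neg, neg_neg, ← WithZero.exp_nsmul]
    simp
  obtain ⟨β, hβ⟩ := exists_forall_sub_le _ (singleAdele v z).2 0
  simp only [Finsupp.coe_zero, Pi.zero_apply, Nat.cast_zero, neg_zero, WithZero.exp_zero] at hβ
  have hβv : v.valuation F β = WithZero.exp (k : ℤ) := by
    have h := hβ v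
    rw [show (singleAdele v z).1 v = z from Pi.single_eq_same v z] at h
    rw [← valv_algebraMap, show algebraMap F (v.adicCompletion F) β =
      (algebraMap F (v.adicCompletion F) β - z) + z by ring,
      Valuation.map_add_eq_of_lt_right (valv v) ?_, hz]
    rw [hz]
    refine lt_of_le_of_lt h ?_
    rw [← WithZero.exp_zero, WithZero.exp_lt_exp]; omega
  have hout : ∀ w, w ≠ v → w.valuation F β ≤ 1 := by
    intro w hw
    have h := hβ w
    rw [show (singleAdele v z).1 w = 0 from Pi.single_eq_of_ne hw z, sub_zero, valv_algebraMap] at h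
    exact h
  have htr : ∀ a : 𝓞 F, ∃ j : ℤ, Algebra.trace ℚ F (β * a) = j := by
    intro a
    rw [← traceExp_eq_one_iff, ← hk (algebraMap F (v.adicCompletion F) (β * a)) ?_, psiAt]
    · refine (psiFin_eq fun w => ?_).symm
      by_cases hw : w = v
      · subst hw
        simp [singleAdele]
      · rw [show (singleAdele v (algebraMap F _ (β * (a : F)))).1 w = 0 from
          Pi.single_eq_of_ne hw _, sub_zero, valv_algebraMap, map_mul]
        exact mul_le_one' (hout w hw) (w.valuation_le_one _)
    · rw [valv_algebraMap, map_mul, hβv]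
      exact mul_le_of_le_one_right' (v.valuation_le_one a)
  have h1 := hD β htr v
  rw [map_mul, hβv] at h1
  rwa [WithZero.exp_neg, ← one_div, le_div_iff₀ (zero_lt_iff.2 WithZero.exp_ne_zero), mul_comm]

/-- The local characters are non-trivial. -/
theorem exists_psiAt_ne_one (v : FPlace F) : ∃ z : v.adicCompletion F, psiAt v z ≠ 1 := by
  by_contra! hcon
  obtain ⟨D, hD0, hD⟩ := exists_denominator F
  have hDv : v.valuation F (D : F) ≠ 0 := by simpa using hD0
  have h1 := valuation_denominator_le hD v
    (k := (-(WithZero.log (v.valuation F (D : F)))).toNat + 1) fun z _ => hcon z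
  rw [← WithZero.exp_log hDv, WithZero.exp_le_exp, WithZero.exp_log hDv] at h1
  omega

/-- The exponent of the local character: trivial on valuation `≤ exp c`, not beyond. -/
theorem exists_conductor (v : FPlace F) : ∃ c : ℤ, 0 ≤ c ∧
    (∀ z, valv v z ≤ WithZero.exp c → psiAt v z = 1) ∧
    ∃ z, valv v z = WithZero.exp (c + 1) ∧ psiAt v z ≠ 1 := by
  classical
  obtain ⟨z₀, hz₀⟩ := exists_psiAt_ne_one v
  have hz0' : valv v z₀ ≠ 0 := fun h => hz₀ (psiAt_of_le_one v (by rw [h]; exact zero_le))
  obtain ⟨c, hc, hmax⟩ := Int.exists_greatest_of_bdd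
    (P := fun c : ℤ => ∀ z, valv v z ≤ WithZero.exp c → psiAt v z = 1)
    ⟨WithZero.log (valv v z₀), fun c hc => by
      by_contra h
      exact hz₀ (hc z₀ (by rw [← WithZero.exp_log hz0', WithZero.exp_le_exp]; omega))⟩
    ⟨0, fun z hz => psiAt_of_le_one v (by simpa using hz)⟩
  refine ⟨c, hmax 0 fun z hz => psiAt_of_le_one v (by simpa using hz), hc, ?_⟩
  by_contra! hcon
  have := hmax (c + 1) fun z hz => by
    rcases eq_or_lt_of_le hz with h | h
    · exact hcon z h
    · refine hc z ?_
      by_cases h0 : valv v z = 0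
      · rw [h0]; exact zero_le
      · rw [← WithZero.exp_log h0, WithZero.exp_lt_exp] at h
        rw [← WithZero.exp_log h0, WithZero.exp_le_exp]
        omega
  omega

/-- The exponent of the local character. -/
def cond (v : FPlace F) : ℤ := (exists_conductor v).choose

theorem cond_nonneg (v : FPlace F) : 0 ≤ cond v := (exists_conductor v).choose_spec.1

theorem psiAt_eq_one (v : FPlace F) {z : v.adicCompletion F}
    (h : valv v z ≤ WithZero.exp (cond v)) :
    psiAt v z = 1 := (exists_conductor v).choose_spec.2.1 z h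

/-- The conductor exponent is exact. -/
theorem exists_psiAt_ne_one_of_cond (v : FPlace F) :
    ∃ z, valv v z = WithZero.exp (cond v + 1) ∧ psiAt v z ≠ 1 :=
  (exists_conductor v).choose_spec.2.2

end Fermat.Agent.ResidualThree
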