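import Fermat.Agent.ResidualThree.Automorphic.Defs

/-!
# The space on which automorphic kernels live

`Spc U = (Gf F ⧸ U) × Hyp F` with the left action of `PGL₂(F)`, its measure and the heights of
lines.
-/

noncomputable section

open IsDedekindDomain NumberField MeasureTheory
open scoped WithZero ComplexOrder

namespace Fermat.Agent.ResidualThree

variable {F : Type} [Field F] [NumberField F]

theorem valv_toLocal_apply (v : FPlace F) (g : GL (Fin 2) F) (i j : Fin 2) :
    valv v ((toLocal v g : Matrix (Fin 2) (Fin 2) (v.adicCompletion F)) i j) =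
      v.valuation F ((g : Matrix (Fin 2) (Fin 2) F) i j) :=
  v.valuedAdicCompletion_eq_valuation' ((g : Matrix (Fin 2) (Fin 2) F) i j)

theorem det_toLocal (v : FPlace F) (g : GL (Fin 2) F) :
    valv v (toLocal v g : Matrix (Fin 2) (Fin 2) (v.adicCompletion F)).det =
      v.valuation F (g : Matrix (Fin 2) (Fin 2) F).det := by
  rw [show (toLocal v g : Matrix (Fin 2) (Fin 2) (v.adicCompletion F)).det =
      algebraMap F (v.adicCompletion F) (g : Matrix (Fin 2) (Fin 2) F).det from
    (RingHom.map_det _ _).symm]
  exact v.valuedAdicCompletion_eq_valuation' _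

theorem eventually_valuation_le_one (x : F) :
    ∀ᶠ v : FPlace F in Filter.cofinite, v.valuation F x ≤ 1 := by
  rw [Filter.eventually_cofinite]
  refine Set.Finite.subset (HeightOneSpectrum.Support.finite (𝓞 F) x) fun v hv => ?_
  simpa [HeightOneSpectrum.Support] using hv

/-- A nonzero element is a unit at almost all places. -/
theorem eventually_valuation_eq_one {x : F} (hx : x ≠ 0) :
    ∀ᶠ v : FPlace F in Filter.cofinite, v.valuation F x = 1 := by
  filter_upwards [eventually_valuation_le_one x, eventually_valuation_le_one x⁻¹] with v h1 h2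
  rw [map_inv₀] at h2
  exact le_antisymm h1 ((inv_le_one₀ (zero_lt_iff.mpr ((v.valuation F).ne_zero_iff.mpr hx))).mp h2)

theorem eventually_isIntGL_toLocal (g : GL (Fin 2) F) :
    ∀ᶠ v : FPlace F in Filter.cofinite, IsIntGL (valv v) (toLocal v g) := by
  have hd : (g : Matrix (Fin 2) (Fin 2) F).det ≠ 0 :=
    ((Matrix.isUnit_iff_isUnit_det _).mp g.isUnit).ne_zero
  filter_upwards [eventually_valuation_le_one ((g : Matrix (Fin 2) (Fin 2) F) 0 0),
    eventually_valuation_le_one ((g : Matrix (Fin 2) (Fin 2) F) 0 1),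
    eventually_valuation_le_one ((g : Matrix (Fin 2) (Fin 2) F) 1 0),
    eventually_valuation_le_one ((g : Matrix (Fin 2) (Fin 2) F) 1 1),
    eventually_valuation_eq_one hd] with v h00 h01 h10 h11 hd1
  refine ⟨fun i j => ?_, ?_⟩
  · rw [valv_toLocal_apply]
    fin_cases i <;> fin_cases j <;> assumption
  · rwa [det_toLocal]

variable (F) in
/-- The diagonal embedding of `GL₂(F)`. -/
def diag : GL (Fin 2) F →* Gf F where
  toFun g := ⟨fun v => toLocal v g,
    show ∀ᶠ v in Filter.cofinite, toLocal v g ∈ maxSubgroup v from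
      (eventually_isIntGL_toLocal g).mono fun _ h => Subgroup.subset_closure (Or.inl h)⟩
  map_one' := Subtype.ext (funext fun v => map_one (toLocal v))
  map_mul' g h := Subtype.ext (funext fun v => map_mul (toLocal v) g h)

theorem toLocal_mem_center (v : FPlace F) {g : GL (Fin 2) F}
    (hg : g ∈ Subgroup.center (GL (Fin 2) F)) : toLocal v g ∈ Subgroup.center (GLv v) := by
  obtain ⟨a, rfl⟩ := (Matrix.GeneralLinearGroup.center_eq_range_scalar (R := F) (n := Fin 2)) ▸ hg
  rw [Matrix.GeneralLinearGroup.center_eq_range_scalar]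
  refine ⟨Units.map (algebraMap F (v.adicCompletion F)).toMonoidHom a, ?_⟩
  ext i j
  by_cases h : i = j <;>
    simp [toLocal, Matrix.GeneralLinearGroup.scalar, Matrix.scalar, h]

/-- The elements of the level. -/
def Level.group (U : Level F) : Subgroup (Gf F) where
  carrier := {j | ∀ v, (j : ∀ v, GLv v) v ∈ U.J v}
  one_mem' v := one_mem (U.J v)
  mul_mem' ha hb v := mul_mem (ha v) (hb v)
  inv_mem' ha v := inv_mem (ha v)

theorem Level.center_le (U : Level F) (v : FPlace F) : Subgroup.center (GLv v) ≤ U.J v := by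
  obtain ⟨n, hn⟩ := U.exists_cong v
  exact fun g hg => hn (Subgroup.subset_closure (Or.inr hg))

/-- The finite part modulo the level. -/
abbrev Ωf (U : Level F) : Type := Gf F ⧸ U.group

/-- The space of the level. -/
abbrev Spc (U : Level F) : Type := Ωf U × Hyp F

instance (U : Level F) : MeasurableSpace (Ωf U) := ⊤

/-- The action of `GL₂(F)` on the finite part. -/
instance (U : Level F) : MulAction (GL (Fin 2) F) (Ωf U) := MulAction.compHom _ (diag F)

/-- The centre acts trivially. -/
theorem smul_eq_self_of_center (U : Level F) {g : GL (Fin 2) F}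
    (hg : g ∈ Subgroup.center (GL (Fin 2) F)) (s : Spc U) : g • s = s := by
  obtain ⟨x, p⟩ := s
  refine Prod.ext ?_ (funext fun w => ?_)
  · induction x using QuotientGroup.induction_on with
    | H a =>
      show ((diag F g * a : Gf F) : Gf F ⧸ U.group) = (a : Gf F ⧸ U.group)
      rw [QuotientGroup.eq]
      intro v
      show ((diag F g * a : Gf F) : ∀ v, GLv v)⁻¹ v * (a : ∀ v, GLv v) v ∈ U.J v
      have hc := toLocal_mem_center v hg
      have e : ((diag F g * a : Gf F) : ∀ v, GLv v)⁻¹ v * (a : ∀ v, GLv v) v =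
          (toLocal v g)⁻¹ := by
        show (toLocal v g * (a : ∀ v, GLv v) v)⁻¹ * (a : ∀ v, GLv v) v = (toLocal v g)⁻¹
        rw [mul_inv_rev, mul_assoc, (Subgroup.mem_center_iff.mp (inv_mem hc) _).symm,
          inv_mul_cancel_left]
      rw [e]
      exact U.center_le v (inv_mem hc)
  · show toComplex w g • p w = p w
    obtain ⟨a, rfl⟩ := (Matrix.GeneralLinearGroup.center_eq_range_scalar (R := F) (n := Fin 2)) ▸ hg
    have ha : w.embedding (a : F) ≠ 0 := by simp
    rw [H3.smul_def, H3.ofMat_congr _ (M' := ((‖w.embedding (a : F)‖ ^ 2 : ℝ) : ℂ) • (p w).toMat)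
      ((H3.posDef_toMat _).smul (by
        exact Complex.zero_lt_real.mpr (sq_pos_of_pos (norm_pos_iff.mpr ha))))]
    · exact H3.ofMat_smul_toMat _ (sq_pos_of_pos (norm_pos_iff.mpr ha)) _
    · have e : ((toComplex w (Matrix.GeneralLinearGroup.scalar (Fin 2) a)) :
          Matrix (Fin 2) (Fin 2) ℂ) = w.embedding (a : F) • 1 := by
        ext i j
        by_cases h : i = j <;> simp [toComplex, Matrix.GeneralLinearGroup.scalar, Matrix.scalar, h]
      rw [e, Matrix.smul_mul, one_mul, Matrix.conjTranspose_smul, Matrix.conjTranspose_one,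
        Matrix.mul_smul, mul_one, smul_smul]
      congr 1
      rw [← Complex.normSq_eq_norm_sq, Complex.normSq_eq_conj_mul_self]
      rfl

variable (F) in
/-- `PGL₂(F)`. -/
abbrev PGLF : Type := GL (Fin 2) F ⧸ Subgroup.center (GL (Fin 2) F)

/-- The action of `PGL₂(F)` on the space. -/
instance (U : Level F) : MulAction (PGLF F) (Spc U) where
  smul γ s := Quotient.liftOn' γ (fun g => g • s) fun a b hab => by
    rw [QuotientGroup.leftRel_apply] at hab
    conv_rhs => rw [show b = a * (a⁻¹ * b) by group, mul_smul, smul_eq_self_of_center U hab]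
  one_smul s := one_smul (GL (Fin 2) F) s
  mul_smul := by
    rintro ⟨a⟩ ⟨b⟩ s
    exact mul_smul a b s

/-- The invariant measure on the space. -/
def volSpc (U : Level F) : Measure (Spc U) :=
  (Measure.count : Measure (Ωf U)).prod (Measure.pi fun _ : InfinitePlace F => H3.vol)

/-- A weight whose translates sum to one: integrals over the quotient are weighted integrals. -/
structure QuotientWeight (U : Level F) where
  /-- the weight -/
  w : Spc U → NNReal
  measurable : Measurable w
  sum_eq : ∀ᵐ s ∂volSpc U, ∑' γ : PGLF F, (w (γ • s) : ENNReal) = 1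

/-- The height of the line through the row vector `e`, at a finite place. -/
def localHeight (v : FPlace F) (e : Fin 2 → F) (g : GLv v) : ℝ :=
  ‖(g : Matrix (Fin 2) (Fin 2) (v.adicCompletion F)).det‖ /
    (max ‖Matrix.vecMul (fun i => algebraMap F (v.adicCompletion F) (e i))
        (g : Matrix (Fin 2) (Fin 2) (v.adicCompletion F)) 0‖
      ‖Matrix.vecMul (fun i => algebraMap F (v.adicCompletion F) (e i))
        (g : Matrix (Fin 2) (Fin 2) (v.adicCompletion F)) 1‖) ^ 2

/-- The height of the line through the row vector `e`. -/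
def height (e : Fin 2 → F) (x : Gf F) (p : Hyp F) : ℝ :=
  (∏ᶠ v : FPlace F, localHeight v e ((x : ∀ v, GLv v) v)) *
    ∏ w : InfinitePlace F, ((p w).y /
      (Complex.normSq (w.embedding (e 0) * (p w).z + w.embedding (e 1)) +
        Complex.normSq (w.embedding (e 0)) * (p w).y ^ 2)) ^ 2

end Fermat.Agent.ResidualThree
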