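import Fermat.Agent.ResidualThree.Automorphic.Adele
import Fermat.Agent.ResidualThree.Automorphic.Space
import Fermat.Agent.ResidualThree.Tree.Basic

/-!
# Approximation in the finite adeles, Iwasawa decomposition, finiteness

Integers represent the integral elements modulo a power of a maximal ideal, finitely; every element
of `Gf F` is upper triangular times integral; the maximal compact subgroup has finitely many
orbits modulo a level.
-/

noncomputable section

open IsDedekindDomain NumberField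
open scoped WithZero nonZeroDivisors

namespace Fermat.Agent.ResidualThree

variable {F : Type} [Field F] [NumberField F]

/-- The upper triangular matrix with the given entries. -/
def upGL {R : Type*} [Field R] (a d : Rˣ) (t : R) : GL (Fin 2) R :=
  Matrix.GeneralLinearGroup.mkOfDetNeZero !![(a : R), t; 0, (d : R)]
    (by simp [Matrix.det_fin_two])

@[simp] theorem coe_upGL {R : Type*} [Field R] (a d : Rˣ) (t : R) :
    (upGL a d t : Matrix (Fin 2) (Fin 2) R) = !![(a : R), t; 0, (d : R)] := rfl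

theorem upGL_mul {R : Type*} [Field R] (a d a' d' : Rˣ) (t t' : R) :
    upGL a d t * upGL a' d' t' = upGL (a * a') (d * d') (a * t' + t * d') := by
  refine Units.ext ?_
  ext i j
  fin_cases i <;> fin_cases j <;> simp [Matrix.mul_apply, Fin.sum_univ_two]

theorem upGL_one {R : Type*} [Field R] : upGL (1 : Rˣ) 1 0 = 1 := by
  refine Units.ext ?_
  ext i j
  fin_cases i <;> fin_cases j <;> simp

theorem upGL_inv {R : Type*} [Field R] (a d : Rˣ) (t : R) :
    (upGL a d t)⁻¹ = upGL a⁻¹ d⁻¹ (-((a⁻¹ : Rˣ) : R) * t * ((d⁻¹ : Rˣ) : R)) := by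
  refine inv_eq_of_mul_eq_one_right ?_
  rw [upGL_mul, mul_inv_cancel, mul_inv_cancel, ← upGL_one]
  congr 1
  simp [mul_assoc]

theorem scalar_eq_upGL {R : Type*} [Field R] (s : Rˣ) :
    Matrix.GeneralLinearGroup.scalar (Fin 2) s = upGL s s 0 := by
  refine Units.ext ?_
  ext i j
  fin_cases i <;> fin_cases j <;> simp [Matrix.GeneralLinearGroup.scalar, Matrix.scalar]

theorem eq_upGL_of_apply_eq_zero {R : Type*} [Field R] {g : GL (Fin 2) R}
    (h : (g : Matrix (Fin 2) (Fin 2) R) 1 0 = 0) :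
    ∃ (a d : Rˣ) (t : R), g = upGL a d t := by
  have hdet := g.det_ne_zero
  rw [Matrix.det_fin_two, h, mul_zero, sub_zero] at hdet
  refine ⟨Units.mk0 _ (left_ne_zero_of_mul hdet), Units.mk0 _ (right_ne_zero_of_mul hdet),
    (g : Matrix (Fin 2) (Fin 2) R) 0 1, Units.ext ?_⟩
  ext i j
  fin_cases i <;> fin_cases j <;> simp [h]

theorem toLocal_upGL (v : FPlace F) (a d : Fˣ) (t : F) :
    toLocal v (upGL a d t) = upGL (Units.map (algebraMap F (v.adicCompletion F)).toMonoidHom a)
      (Units.map (algebraMap F (v.adicCompletion F)).toMonoidHom d) (algebraMap F _ t) := by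
  refine Units.ext ?_
  ext i j
  fin_cases i <;> fin_cases j <;> simp [toLocal]

/-! ### Finiteness -/

/-- Integers represent the integral elements modulo a power of the maximal ideal, finitely. -/
theorem exists_finite_reps (v : FPlace F) (n : ℕ) :
    ∃ R : Set F, R.Finite ∧ ∀ a : v.adicCompletion F, valv v a ≤ 1 →
      ∃ r ∈ R, valv v (a - algebraMap F _ r) ≤ WithZero.exp (-(n : ℤ)) := by
  classical
  have := Ideal.finiteQuotientOfFreeOfNeBot (v.asIdeal ^ n) (pow_ne_zero n v.ne_bot)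
  refine ⟨Set.range fun c : 𝓞 F ⧸ v.asIdeal ^ n => (c.out : F), Set.finite_range _, fun a ha => ?_⟩
  obtain ⟨y, hy⟩ := exists_integer_sub_le v a ha n
  have hvx : valv v (a - algebraMap F _ (y : F)) ≤ WithZero.exp (-(n : ℤ)) := by
    rw [Valuation.map_sub_swap]; exact hy
  refine ⟨_, ⟨Ideal.Quotient.mk _ y, rfl⟩, ?_⟩
  rw [show a - algebraMap F _ ((Quotient.out (Ideal.Quotient.mk (v.asIdeal ^ n) y) : 𝓞 F) : F) =
      (a - algebraMap F _ (y : F)) + algebraMap F _
        ((y - Quotient.out (Ideal.Quotient.mk (v.asIdeal ^ n) y) : 𝓞 F) : F) by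
    simp only [map_sub]; ring]
  refine (valv v).map_add_le hvx ?_
  rw [valv_algebraMap]
  refine (HeightOneSpectrum.valuation_of_algebraMap v _).trans_le ?_
  rw [HeightOneSpectrum.intValuation_le_pow_iff_mem, ← Ideal.Quotient.eq]
  exact (Ideal.Quotient.mk_out _).symm

/-! ### Exponents modulo principal ones -/

theorem count_spanSingleton_eq (v : FPlace F) {x : F} (hx : x ≠ 0) :
    FractionalIdeal.count F v (FractionalIdeal.spanSingleton (𝓞 F)⁰ x) =
      -WithZero.log (v.valuation F x) := by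
  classical
  obtain ⟨a, b, hb, rfl⟩ := IsFractionRing.div_surjective (A := 𝓞 F) x
  have hb0 := nonZeroDivisors.ne_zero hb
  have ha0 : a ≠ 0 := by rintro rfl; simp at hx
  rw [FractionalIdeal.count_well_defined F v (a := b) (J := Ideal.span {a})
    (by simpa [FractionalIdeal.spanSingleton_ne_zero_iff] using hx)
    (by rw [FractionalIdeal.coeIdeal_span_singleton,
      FractionalIdeal.spanSingleton_mul_spanSingleton,
      div_eq_inv_mul])]
  rw [map_div₀, v.valuation_of_algebraMap, v.valuation_of_algebraMap, v.intValuation_if_neg ha0,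
    v.intValuation_if_neg hb0, WithZero.log_div WithZero.exp_ne_zero WithZero.exp_ne_zero,
    WithZero.log_exp, WithZero.log_exp]
  ring

/-- Finitely many exponent families represent all of them modulo principal ones. -/
theorem exists_finite_exponents :
    ∃ E : Set (FPlace F → ℤ), E.Finite ∧ (∀ e ∈ E, ∀ᶠ v in Filter.cofinite, e v = 0) ∧
      ∀ e : FPlace F → ℤ, (∀ᶠ v in Filter.cofinite, e v = 0) →
        ∃ e' ∈ E, ∃ l : Fˣ, ∀ v : FPlace F, v.valuation F (l : F) = WithZero.exp (e v - e' v) := by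
  classical
  set I : (FPlace F → ℤ) → FractionalIdeal (𝓞 F)⁰ F :=
    fun e => ∏ᶠ v : FPlace F, (v.asIdeal : FractionalIdeal (𝓞 F)⁰ F) ^ e v with hI
  have hne : ∀ e, I e ≠ 0 := fun e => finprod_induction (· ≠ 0) one_ne_zero
    (fun _ _ => mul_ne_zero) fun v => zpow_ne_zero _ (FractionalIdeal.coeIdeal_ne_zero.mpr v.ne_bot)
  set cl : (FPlace F → ℤ) → ClassGroup (𝓞 F) :=
    fun e => ClassGroup.mk F (Units.mk0 (I e) (hne e)) with hcl
  let good : (FPlace F → ℤ) → Prop := fun e => ∀ᶠ v in Filter.cofinite, e v = 0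
  refine ⟨Set.range fun c : ClassGroup (𝓞 F) =>
    if h : ∃ e, good e ∧ cl e = c then h.choose else 0, Set.finite_range _, ?_, fun e he => ?_⟩
  · rintro e ⟨c, rfl⟩
    simp only
    split_ifs with h
    · exact h.choose_spec.1
    · exact Filter.Eventually.of_forall fun _ => rfl
  have h : ∃ e', good e' ∧ cl e' = cl e := ⟨e, he, rfl⟩
  refine ⟨h.choose, ⟨cl e, by simp only [dif_pos h]⟩, ?_⟩
  set e' := h.choose with he'
  obtain ⟨hge, hceq⟩ : good e' ∧ cl e' = cl e := h.choose_spec
  have h1 : ClassGroup.mk F ((Units.mk0 (I e') (hne e'))⁻¹ * Units.mk0 (I e) (hne e)) = 1 := by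
    rw [map_mul, map_inv, inv_mul_eq_one]
    exact hceq
  rw [ClassGroup.mk_eq_one_iff, FractionalIdeal.isPrincipal_iff] at h1
  obtain ⟨x, hx⟩ := h1
  have hx' : I e = I e' * FractionalIdeal.spanSingleton (𝓞 F)⁰ x := by
    rw [← hx, Units.val_mul, Units.val_inv_eq_inv_val, Units.val_mk0, Units.val_mk0,
      mul_inv_cancel_left₀ (hne e')]
  have hx0 : x ≠ 0 := by
    rintro rfl
    rw [FractionalIdeal.spanSingleton_zero, mul_zero] at hx'
    exact hne e hx'
  refine ⟨(Units.mk0 x hx0)⁻¹, fun v => ?_⟩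
  have hc := congrArg (FractionalIdeal.count F v) hx'
  rw [FractionalIdeal.count_mul F v (hne e')
    (by simpa [FractionalIdeal.spanSingleton_ne_zero_iff] using hx0), hI,
    FractionalIdeal.count_finprod F v e he, FractionalIdeal.count_finprod F v e' hge,
    count_spanSingleton_eq v hx0] at hc
  rw [Units.val_inv_eq_inv_val, Units.val_mk0, map_inv₀,
    ← WithZero.exp_log ((Valuation.ne_zero_iff (v.valuation F)).mpr hx0), ← WithZero.exp_neg]
  congr 1
  linarith

/-! ### The Iwasawa decomposition -/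

/-- Local Iwasawa decomposition. -/
theorem exists_upper_mul_intGL {K : Type*} [Field K] (v : Valuation K ℤᵐ⁰) (g : GL (Fin 2) K) :
    ∃ k ∈ Tree.intGL v, ((g * k : GL (Fin 2) K) : Matrix (Fin 2) (Fin 2) K) 1 0 = 0 := by
  rcases le_or_gt (v ((g : Matrix (Fin 2) (Fin 2) K) 1 0)) (v ((g : Matrix (Fin 2) (Fin 2) K) 1 1))
    with h | h
  · have hd : (g : Matrix (Fin 2) (Fin 2) K) 1 1 ≠ 0 := by
      intro h0
      rw [h0, map_zero, le_zero_iff, map_eq_zero] at h
      exact g.det_ne_zero (by rw [Matrix.det_fin_two, h0, h, mul_zero, mul_zero, sub_zero])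
    set r := -((g : Matrix (Fin 2) (Fin 2) K) 1 0 / (g : Matrix (Fin 2) (Fin 2) K) 1 1) with hr
    have hvr : v r ≤ 1 := by
      rw [hr, Valuation.map_neg, map_div₀]
      exact div_le_one_of_le₀ h zero_le
    refine ⟨Matrix.GeneralLinearGroup.mkOfDetNeZero !![1, 0; r, 1]
      (by simp [Matrix.det_fin_two]), ⟨fun i j => ?_, by simp [Matrix.det_fin_two]⟩, ?_⟩
    · fin_cases i <;> fin_cases j <;> simp [hvr]
    · simp [Matrix.mul_apply, Fin.sum_univ_two, hr]
      field_simp
      ring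
  · have hc : (g : Matrix (Fin 2) (Fin 2) K) 1 0 ≠ 0 := by
      intro h0
      rw [h0, map_zero] at h
      exact not_lt_zero h
    set r := -((g : Matrix (Fin 2) (Fin 2) K) 1 1 / (g : Matrix (Fin 2) (Fin 2) K) 1 0) with hr
    have hvr : v r ≤ 1 := by
      rw [hr, Valuation.map_neg, map_div₀]
      exact div_le_one_of_le₀ h.le zero_le
    refine ⟨Matrix.GeneralLinearGroup.mkOfDetNeZero !![r, 1; 1, 0]
      (by simp [Matrix.det_fin_two]), ⟨fun i j => ?_, by simp [Matrix.det_fin_two,
        Valuation.map_neg]⟩, ?_⟩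
    · fin_cases i <;> fin_cases j <;> simp [hvr]
    · simp [Matrix.mul_apply, Fin.sum_univ_two, hr]
      field_simp
      ring

theorem intGL_le_maxSubgroup (v : FPlace F) : Tree.intGL (valv v) ≤ maxSubgroup v :=
  fun _ hg => Subgroup.subset_closure (Or.inl hg)

theorem center_le_maxSubgroup (v : FPlace F) : Subgroup.center (GLv v) ≤ maxSubgroup v :=
  fun _ hg => Subgroup.subset_closure (Or.inr hg)

variable (F) in
/-- The maximal compact subgroup times the centre. -/
def kmax : Subgroup (Gf F) where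
  carrier := {j | ∀ v : FPlace F, j.1 v ∈ maxSubgroup v}
  one_mem' v := one_mem (maxSubgroup v)
  mul_mem' ha hb v := mul_mem (ha v) (hb v)
  inv_mem' ha v := inv_mem (ha v)

theorem Level.group_le_kmax (U : Level F) : U.group ≤ kmax F := fun _ hj v => U.le_max v (hj v)

/-- Upper triangular families with a trivial lower diagonal entry. -/
def IsAffineUpper (x : Gf F) : Prop :=
  ∀ v : FPlace F, ∃ (a : (v.adicCompletion F)ˣ) (t : v.adicCompletion F), x.1 v = upGL a 1 t

/-- The Iwasawa decomposition `Gf = B · Kmax`. -/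
theorem exists_iwasawa (x : Gf F) :
    ∃ b k : Gf F, IsAffineUpper b ∧ k ∈ kmax F ∧ x = b * k := by
  have key : ∀ v : FPlace F, ∃ k ∈ maxSubgroup v, ∃ (a : (v.adicCompletion F)ˣ)
      (t : v.adicCompletion F), x.1 v * k = upGL a 1 t := by
    intro v
    obtain ⟨k, hk, h0⟩ := exists_upper_mul_intGL (valv v) (x.1 v)
    obtain ⟨a, d, t, he⟩ := eq_upGL_of_apply_eq_zero h0
    refine ⟨k * Matrix.GeneralLinearGroup.scalar (Fin 2) d⁻¹,
      mul_mem (intGL_le_maxSubgroup v hk) (center_le_maxSubgroup v (Tree.scalar_mem_center _)),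
      a * d⁻¹, t * (d⁻¹ : (v.adicCompletion F)ˣ), ?_⟩
    rw [← mul_assoc, he, scalar_eq_upGL, upGL_mul, mul_inv_cancel, mul_zero, zero_add]
  choose k hk a t he using key
  let kk : Gf F := ⟨k, show ∀ᶠ v in Filter.cofinite, k v ∈ maxSubgroup v from
    Filter.Eventually.of_forall hk⟩
  refine ⟨x * kk, kk⁻¹, fun v => ⟨a v, t v, he v⟩, inv_mem (show kk ∈ kmax F from hk), ?_⟩
  rw [mul_assoc, mul_inv_cancel, mul_one]

/-- The triangular elements of the maximal compact subgroup. -/
theorem upGL_mem_maxSubgroup_iff {v : FPlace F} {a : (v.adicCompletion F)ˣ}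
    {t : v.adicCompletion F} :
    upGL a 1 t ∈ maxSubgroup v ↔ valv v (a : v.adicCompletion F) = 1 ∧ valv v t ≤ 1 := by
  constructor
  · intro h
    obtain ⟨s, k, hk, he⟩ := Tree.mul_mem_vertexSubgroup_iff.mp h
    have hm := congrArg (fun g : GLv v => (g : Matrix (Fin 2) (Fin 2) (v.adicCompletion F))) he
    simp only [coe_upGL, Units.val_mul, Tree.coe_scalar_eq_smul, Matrix.smul_mul,
      Matrix.one_mul] at hm
    have h00 :
        (a : v.adicCompletion F) = s * (k : Matrix (Fin 2) (Fin 2) (v.adicCompletion F)) 0 0 := by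
      simpa using congrFun (congrFun hm 0) 0
    have h01 : t = s * (k : Matrix (Fin 2) (Fin 2) (v.adicCompletion F)) 0 1 := by
      simpa using congrFun (congrFun hm 0) 1
    have h10 :
        (0 : v.adicCompletion F) = s * (k : Matrix (Fin 2) (Fin 2) (v.adicCompletion F)) 1 0 := by
      simpa using congrFun (congrFun hm 1) 0
    have h11 :
        (1 : v.adicCompletion F) = s * (k : Matrix (Fin 2) (Fin 2) (v.adicCompletion F)) 1 1 := by
      simpa using congrFun (congrFun hm 1) 1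
    have hk10 : (k : Matrix (Fin 2) (Fin 2) (v.adicCompletion F)) 1 0 = 0 :=
      (mul_eq_zero.mp h10.symm).resolve_left s.ne_zero
    have hdet := hk.2
    rw [Matrix.det_fin_two, hk10, mul_zero, sub_zero, map_mul] at hdet
    have e0 : valv v ((k : Matrix (Fin 2) (Fin 2) (v.adicCompletion F)) 0 0) = 1 :=
      le_antisymm (hk.1 0 0) (by rw [← hdet]; exact mul_le_of_le_one_right' (hk.1 1 1))
    have e1 : valv v ((k : Matrix (Fin 2) (Fin 2) (v.adicCompletion F)) 1 1) = 1 := by
      rwa [e0, one_mul] at hdet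
    have hs : valv v (s : v.adicCompletion F) = 1 := by
      have := congrArg (valv v) h11
      rw [map_one, map_mul, e1, mul_one] at this
      exact this.symm
    refine ⟨by rw [h00, map_mul, hs, e0, one_mul], ?_⟩
    rw [h01, map_mul, hs, one_mul]
    exact hk.1 0 1
  · rintro ⟨ha, ht⟩
    refine intGL_le_maxSubgroup v ⟨fun i j => ?_, by simp [Matrix.det_fin_two, ha]⟩
    fin_cases i <;> fin_cases j <;> simp [ha.le, ht]

/-- Finitely many diagonal representatives for `B(F) \ Gf / Kmax`. -/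
theorem exists_finite_reps_borel :
    ∃ X : Set (Gf F), X.Finite ∧
      (∀ x ∈ X, ∀ v : FPlace F, ∃ a : (v.adicCompletion F)ˣ, x.1 v = upGL a 1 0) ∧
      ∀ x : Gf F, ∃ (l : Fˣ) (s : F) (r : Gf F) (k : Gf F), r ∈ X ∧ k ∈ kmax F ∧
        x = diag F (upGL l 1 s) * r * k := by
  classical
  obtain ⟨E, hEfin, hEev, hE⟩ := exists_finite_exponents (F := F)
  choose π hπ using fun (v : FPlace F) (e : ℤ) =>
      HeightOneSpectrum.valuedAdicCompletion_surjective F v (WithZero.exp e)
  have hπ0 : ∀ v e, π v e ≠ 0 := fun v e h => by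
    have := hπ v e
    rw [h, map_zero] at this
    exact WithZero.exp_ne_zero this.symm
  let rep : E → Gf F := fun e => ⟨fun v => upGL (Units.mk0 (π v (e.1 v)) (hπ0 v _)) 1 0, by
    refine (hEev e.1 e.2).mono fun v hv => ?_
    refine upGL_mem_maxSubgroup_iff.mpr ⟨?_, by simp⟩
    simpa [hv] using hπ v (e.1 v)⟩
  have := hEfin.to_subtype
  refine ⟨Set.range rep, Set.finite_range rep, ?_, fun x => ?_⟩
  · rintro _ ⟨e, rfl⟩ v
    exact ⟨_, rfl⟩
  obtain ⟨b, k, hb, hk, rfl⟩ := exists_iwasawa x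
  choose a t hat using hb
  set e : FPlace F → ℤ := fun v => WithZero.log (valv v (a v : v.adicCompletion F)) with he
  have hev : ∀ᶠ v in Filter.cofinite, e v = 0 ∧ valv v (t v) ≤ 1 := by
    have hb2 : ∀ᶠ v in Filter.cofinite, b.1 v ∈ maxSubgroup v := b.2
    refine hb2.mono fun v hv => ?_
    rw [hat v, upGL_mem_maxSubgroup_iff] at hv
    exact ⟨by rw [he]; simp [hv.1], hv.2⟩
  obtain ⟨e', he'E, l, hl⟩ := hE e (hev.mono fun _ h => h.1)
  obtain ⟨s, hs⟩ := exists_algebraMap_approx t (hev.mono fun _ h => h.2)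
    (fun v => -(e v)) (hev.mono fun _ h => le_of_eq (by simp [h.1]))
  refine ⟨l, s, rep ⟨e', he'E⟩, (diag F (upGL l 1 s) * rep ⟨e', he'E⟩)⁻¹ * b * k,
    ⟨_, rfl⟩, mul_mem (fun v => ?_) hk, by group⟩
  set lv : (v.adicCompletion F)ˣ := Units.map (algebraMap F (v.adicCompletion F)).toMonoidHom l
  have h1 : (diag F (upGL l 1 s) * rep ⟨e', he'E⟩).1 v =
      upGL (lv * Units.mk0 (π v (e' v)) (hπ0 v _)) 1 (algebraMap F _ s) := by
    show toLocal v (upGL l 1 s) * upGL (Units.mk0 (π v (e' v)) (hπ0 v _)) 1 0 = _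
    rw [toLocal_upGL, upGL_mul, map_one, one_mul, mul_zero, zero_add, Units.val_one, mul_one]
  show ((diag F (upGL l 1 s) * rep ⟨e', he'E⟩).1 v)⁻¹ *
    b.1 v ∈ maxSubgroup v
  rw [h1, hat v, upGL_inv, upGL_mul, inv_one, one_mul, upGL_mem_maxSubgroup_iff]
  have hla : valv v ((lv * Units.mk0 (π v (e' v)) (hπ0 v _) : (v.adicCompletion F)ˣ) :
      v.adicCompletion F) = valv v (a v : v.adicCompletion F) := by
    rw [Units.val_mul, map_mul, Units.val_mk0, hπ, Units.coe_map]
    simp only [RingHom.toMonoidHom_eq_coe, MonoidHom.coe_coe, valv_algebraMap, hl]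
    rw [← WithZero.exp_add, sub_add_cancel, he, WithZero.exp_log
      ((Valuation.ne_zero_iff _).mpr (a v).ne_zero)]
  have ha0 : valv v (a v : v.adicCompletion F) ≠ 0 := (Valuation.ne_zero_iff _).mpr (a v).ne_zero
  refine ⟨?_, ?_⟩
  · rw [Units.val_mul, map_mul, Units.val_inv_eq_inv_val, map_inv₀, hla, inv_mul_cancel₀ ha0]
  · rw [Units.val_one, mul_one, mul_one, neg_mul, ← sub_eq_add_neg, ← mul_sub, map_mul,
      Units.val_inv_eq_inv_val, map_inv₀, hla, inv_mul_le_one₀ (zero_lt_iff.mpr ha0)]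
    refine (hs v).trans ?_
    rw [neg_neg, he, WithZero.exp_log ha0]

/-! ### The level has finite index -/

/-- Finitely many integral matrices represent them modulo a level. -/
theorem exists_finite_level_reps (U : Level F) (v : FPlace F) :
    ∃ R : Set (GLv v), R.Finite ∧ (∀ r ∈ R, r ∈ maxSubgroup v) ∧
      ∀ g ∈ maxSubgroup v, ∃ r ∈ R, r⁻¹ * g ∈ U.J v := by
  classical
  obtain ⟨n, hn⟩ := U.exists_cong v
  obtain ⟨S, hS, hRep⟩ := exists_finite_reps v n
  have := hS.to_subtype
  let P : (Fin 2 → Fin 2 → S) → Prop := fun ρ => ∃ k ∈ Tree.intGL (valv v), ∀ i j,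
    valv v ((k : Matrix (Fin 2) (Fin 2) (v.adicCompletion F)) i j - algebraMap F _ (ρ i j).1) ≤
      WithZero.exp (-(n : ℤ))
  refine ⟨Set.range fun ρ : {ρ // P ρ} => (ρ.2.choose : GLv v), Set.finite_range _, ?_,
    fun g hg => ?_⟩
  · rintro _ ⟨ρ, rfl⟩
    exact intGL_le_maxSubgroup v ρ.2.choose_spec.1
  obtain ⟨s, k, hk, rfl⟩ := Tree.mul_mem_vertexSubgroup_iff.mp hg
  choose r hr hrk using fun i j =>
    hRep ((k : Matrix (Fin 2) (Fin 2) (v.adicCompletion F)) i j) (hk.1 i j)
  have hP : P fun i j => ⟨r i j, hr i j⟩ := ⟨k, hk, hrk⟩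
  refine ⟨_, ⟨⟨_, hP⟩, rfl⟩, ?_⟩
  obtain ⟨hk', hk'r⟩ := hP.choose_spec
  set k' : GLv v := hP.choose
  show k'⁻¹ * (Matrix.GeneralLinearGroup.scalar (Fin 2) s * k) ∈ U.J v
  rw [← mul_assoc, Subgroup.mem_center_iff.mp (Tree.scalar_mem_center s) k'⁻¹, mul_assoc]
  refine mul_mem (U.center_le v (Tree.scalar_mem_center s)) (hn (Subgroup.subset_closure
    (Or.inl ⟨mul_mem (inv_mem hk') hk, fun i j => ?_⟩)))
  have e : ((k'⁻¹ * k : GLv v) : Matrix (Fin 2) (Fin 2) (v.adicCompletion F)) - 1 =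
      ((k'⁻¹ : GLv v) : Matrix (Fin 2) (Fin 2) (v.adicCompletion F)) *
        ((k : Matrix (Fin 2) (Fin 2) (v.adicCompletion F)) - k') := by
    rw [Matrix.mul_sub, ← Units.val_mul, ← Units.val_mul, inv_mul_cancel, Units.val_one]
  rw [← Matrix.sub_apply]
  refine (Tree.le_nrm (v := valv v) _ i j).trans ?_
  rw [e, Tree.nrm_mul_left (inv_mem hk'), Tree.nrm_le_iff]
  intro i j
  rw [Matrix.sub_apply, show ∀ x y z : v.adicCompletion F, x - y = (x - z) - (y - z) by
    intros; ring]
  exact (valv v).map_sub_le (hrk i j) (hk'r i j)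

/-- A maximal compact orbit consists of finitely many classes. -/
theorem finite_kmax_orbit (U : Level F) (x : Gf F) :
    {ω : Ωf U | ∃ k ∈ kmax F, ((x * k : Gf F) : Ωf U) = ω}.Finite := by
  classical
  have hfin := Filter.eventually_cofinite.mp U.eventually_max
  choose R hR hRmax hRrep using exists_finite_level_reps U
  have : Finite {v : FPlace F // U.J v ≠ maxSubgroup v} := hfin.to_subtype
  have : ∀ v : {v : FPlace F // U.J v ≠ maxSubgroup v}, Finite (R v.1) := fun v =>
    (hR v.1).to_subtype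
  let el : ((v : {v : FPlace F // U.J v ≠ maxSubgroup v}) → R v.1) → Gf F := fun c =>
    ⟨fun v => if h : U.J v = maxSubgroup v then 1 else (c ⟨v, h⟩).1,
      show ∀ᶠ v in Filter.cofinite,
        (if h : U.J v = maxSubgroup v then (1 : GLv v) else (c ⟨v, h⟩).1) ∈ maxSubgroup v from
        U.eventually_max.mono fun v hv => by rw [dif_pos hv]; exact one_mem _⟩
  refine Set.Finite.subset (Set.finite_range fun c => ((x * el c : Gf F) : Ωf U)) ?_
  rintro ω ⟨k, hk, rfl⟩
  choose c hc hck using fun v : {v : FPlace F // U.J v ≠ maxSubgroup v} =>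
    hRrep v.1 (k.1 v.1) (hk v.1)
  refine ⟨fun v => ⟨c v, hc v⟩, QuotientGroup.eq.mpr ?_⟩
  rw [mul_inv_rev, mul_assoc, inv_mul_cancel_left]
  intro v
  show ((el fun v => ⟨c v, hc v⟩).1 v)⁻¹ * k.1 v ∈ U.J v
  simp only [el]
  split_ifs with hv
  · rw [inv_one, one_mul, hv]; exact hk v
  · exact hck ⟨v, hv⟩

end Fermat.Agent.ResidualThree
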