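import Mathlib
import Fermat.Agent.ResidualThree.H3
import Fermat.Agent.ResidualThree.Interfaces
import Fermat.Agent.ResidualThree.Tree.Defs

/-!
# Automorphic functions for `PGL₂` of a totally complex number field

A function lives on `Gf F × Hyp F`: `Gf F` is the restricted product of the `GL₂(F_v)` over the
finite places, `Hyp F` one copy of hyperbolic 3-space for every infinite place.  It is invariant on
the left under `GL₂(F)` acting diagonally and on the right under a level.
-/

noncomputable section

open IsDedekindDomain NumberField MeasureTheory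
open scoped WithZero

namespace Fermat.Agent.ResidualThree

variable (F : Type) [Field F] [NumberField F]

/-- The finite places. -/
abbrev FPlace : Type := HeightOneSpectrum (𝓞 F)

variable {F}

/-- `GL₂` of the completion at a finite place. -/
abbrev GLv (v : FPlace F) : Type := GL (Fin 2) (v.adicCompletion F)

/-- The valuation of the completion at a finite place. -/
abbrev valv (v : FPlace F) : Valuation (v.adicCompletion F) ℤᵐ⁰ := Valued.v

/-- Scalars times integral matrices with unit determinant. -/
def maxSubgroup (v : FPlace F) : Subgroup (GLv v) :=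
  Subgroup.closure {g | IsIntGL (valv v) g ∨ g ∈ Subgroup.center (GLv v)}

/-- Scalars times matrices congruent to one modulo the `n`-th power of the maximal ideal. -/
def congSubgroup (v : FPlace F) (n : ℕ) : Subgroup (GLv v) :=
  Subgroup.closure {g | (IsIntGL (valv v) g ∧ ∀ i j,
    valv v ((g : Matrix (Fin 2) (Fin 2) (v.adicCompletion F)) i j -
      (1 : Matrix (Fin 2) (Fin 2) (v.adicCompletion F)) i j) ≤ WithZero.exp (-(n : ℤ))) ∨
    g ∈ Subgroup.center (GLv v)}

variable (F) in
/-- The finite part of the adelic group: families integral at almost every place. -/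
def Gf : Subgroup (∀ v : FPlace F, GLv v) where
  carrier := {x | ∀ᶠ v in Filter.cofinite, x v ∈ maxSubgroup v}
  one_mem' := show ∀ᶠ v in Filter.cofinite, (1 : GLv v) ∈ maxSubgroup v from
    Filter.Eventually.of_forall fun _ => one_mem _
  mul_mem' {a b} (ha : ∀ᶠ v in Filter.cofinite, a v ∈ maxSubgroup v)
      (hb : ∀ᶠ v in Filter.cofinite, b v ∈ maxSubgroup v) :=
    show ∀ᶠ v in Filter.cofinite, a v * b v ∈ maxSubgroup v from
      (ha.and hb).mono fun _ h => mul_mem h.1 h.2
  inv_mem' {a} (ha : ∀ᶠ v in Filter.cofinite, a v ∈ maxSubgroup v) :=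
    show ∀ᶠ v in Filter.cofinite, (a v)⁻¹ ∈ maxSubgroup v from ha.mono fun _ h => inv_mem h

/-- The matrix at a finite place of a matrix over `F`. -/
def toLocal (v : FPlace F) : GL (Fin 2) F →* GLv v :=
  Units.map (RingHom.mapMatrix (algebraMap F (v.adicCompletion F))).toMonoidHom

open Classical in
/-- The family supported at one place. -/
def single (v : FPlace F) (g : GLv v) : Gf F :=
  ⟨Pi.mulSingle v g, by
    refine Filter.mem_of_superset (Set.Finite.compl_mem_cofinite (Set.finite_singleton v))
      fun w hw => ?_
    simp only [Set.mem_ofPred_eq]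
    rw [Pi.mulSingle_eq_of_ne (by simpa using hw)]
    exact one_mem _⟩

/-- A level: a subgroup at each place, containing the scalars and a congruence subgroup, contained
in the maximal one and almost always equal to it. -/
structure Level (F : Type) [Field F] [NumberField F] where
  /-- the local subgroups -/
  J : ∀ v : FPlace F, Subgroup (GLv v)
  le_max : ∀ v, J v ≤ maxSubgroup v
  exists_cong : ∀ v, ∃ n, congSubgroup v n ≤ J v
  eventually_max : ∀ᶠ v in Filter.cofinite, J v = maxSubgroup v

variable (F) in
/-- One copy of hyperbolic 3-space for each infinite place. -/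
abbrev Hyp : Type := InfinitePlace F → H3

/-- The matrix at an infinite place of a matrix over `F`. -/
def toComplex (w : InfinitePlace F) : GL (Fin 2) F →* GL (Fin 2) ℂ :=
  Units.map (RingHom.mapMatrix w.embedding).toMonoidHom

instance : MulAction (GL (Fin 2) F) (Hyp F) where
  smul g p := fun w => toComplex w g • p w
  one_smul p := funext fun w => by
    show toComplex w 1 • p w = p w
    rw [map_one, one_smul]
  mul_smul g h p := funext fun w => by
    show toComplex w (g * h) • p w = toComplex w g • toComplex w h • p w
    rw [map_mul, mul_smul]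

/-- Left invariance under `GL₂(F)`: a membership-free form, `y` being the translate of `x`. -/
def IsLeftInvariant (φ : Gf F → Hyp F → ℂ) : Prop :=
  ∀ (γ : GL (Fin 2) F) (x y : Gf F), (∀ v, (y : ∀ v, GLv v) v = toLocal v γ * (x : ∀ v, GLv v) v) →
    ∀ p, φ y (γ • p) = φ x p

/-- An automorphic function of a given level, continuous at infinity. -/
structure IsAutomorphic (U : Level F) (φ : Gf F → Hyp F → ℂ) : Prop where
  left : IsLeftInvariant φ
  right : ∀ x j : Gf F, (∀ v, (j : ∀ v, GLv v) v ∈ U.J v) → φ (x * j) = φ x
  continuous : ∀ x, Continuous (φ x)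

/-- Translation of the horospherical coordinates by `b : InfinitePlace F → ℂ`. -/
def horoShift (b : InfinitePlace F → ℂ) (p : Hyp F) : Hyp F :=
  fun w => ⟨(p w).z + b w, (p w).y, (p w).y_pos⟩

/-- Cuspidality: averages over the horospherical tori of all periods vanish. -/
def IsCuspidal (φ : Gf F → Hyp F → ℂ) : Prop :=
  ∀ (x : Gf F) (p : Hyp F) (m : ℕ), 0 < m →
    (∀ (b : 𝓞 F) (q : Hyp F),
      φ x (horoShift (fun w => (m : ℂ) * w.embedding (b : F)) q) = φ x q) →
    ∫ t in Set.Icc (0 : Module.Free.ChooseBasisIndex ℤ (𝓞 F) → ℝ) 1,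
      φ x (horoShift (fun w => ∑ i, (t i : ℂ) *
        ((m : ℂ) * w.embedding (RingOfIntegers.basis F i : F))) p) = 0

/-- The spherical Hecke operator at a finite place given by a function of the tree distance. -/
def heckeOp (v : FPlace F) (f : ℕ →₀ ℂ) (φ : Gf F → Hyp F → ℂ) : Gf F → Hyp F → ℂ :=
  fun x p => ∑ᶠ y : GLv v ⧸ maxSubgroup v, f (cartan (valv v) y.out) * φ (x * single v y.out) p

/-- The normalised eigenvalue `a` at a finite place: the sum over neighbours is `√N · a`. -/
def HasEigenvalue (v : FPlace F) (a : ℂ) (φ : Gf F → Hyp F → ℂ) : Prop :=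
  heckeOp v (Finsupp.single 1 1) φ = fun x p =>
    (Real.sqrt (Ideal.absNorm v.asIdeal) : ℂ) * a * φ x p

open Classical in
/-- Eigenfunction of the radial kernels with spectral parameter zero at every infinite place. -/
def IsSpectralZero (φ : Gf F → Hyp F → ℂ) : Prop :=
  ∀ (x : Gf F) (w : InfinitePlace F) (k : ℝ → ℂ), Continuous k → HasCompactSupport k → ∀ p : Hyp F,
    (∫ q, k (H3.coshDist (p w) q) * φ x (Function.update p w q) ∂H3.vol) = sphZero k * φ x p

end Fermat.Agent.ResidualThree
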