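import Fermat.Agent.ResidualThree.Automorphic.Torus

/-!
# An eigenform is determined by its coefficients of index one at the torus points over `S`

This is multiplicity one for eigenforms outside a finite set of places.
-/

noncomputable section

open IsDedekindDomain NumberField
open scoped WithZero

namespace Fermat.Agent.ResidualThree

variable {F : Type} [Field F] [NumberField F]

/-- Almost all local conductors vanish. -/
theorem eventually_cond_eq_zero : ∀ᶠ v : FPlace F in Filter.cofinite, cond v = 0 := by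
  obtain ⟨D, hD0, hD⟩ := exists_denominator F
  filter_upwards [eventually_valuation_eq_one (x := (D : F)) (by simpa using hD0)] with v hv
  have h := valuation_denominator_le hD v (k := (cond v).toNat) fun z hz => psiAt_eq_one v
    (by rwa [Int.toNat_of_nonneg (cond_nonneg v)] at hz)
  rw [hv, ← WithZero.exp_zero, WithZero.exp_le_exp, Int.toNat_of_nonneg (cond_nonneg v)] at h
  have := cond_nonneg v
  omega

/-- The principal idele. -/
def principalIdl (γ : Fˣ) : Idl F :=
  ⟨fun v => Units.map (algebraMap F (v.adicCompletion F)).toMonoidHom γ,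
    show ∀ᶠ v : FPlace F in Filter.cofinite,
        valv v (algebraMap F (v.adicCompletion F) (γ : F)) = 1 from
      (eventually_valuation_eq_one γ.ne_zero).mono fun v h => by rwa [valv_algebraMap]⟩

theorem diag_torusGL (γ : Fˣ) : diag F (torusGL γ) = torusPt (principalIdl γ) := by
  refine Subtype.ext (funext fun v => Units.ext ?_)
  show ((toLocal v (torusGL γ) : GLv v) : Matrix (Fin 2) (Fin 2) (v.adicCompletion F)) =
    (torusGL (Units.map (algebraMap F (v.adicCompletion F)).toMonoidHom γ) : GLv v)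
  rw [coe_torusGL]
  ext i j
  fin_cases i <;> fin_cases j <;> simp [toLocal, coe_torusGL]

theorem torusPt_singleIdl_mul (t : Idl F) (v : FPlace F) (u : (v.adicCompletion F)ˣ) :
    torusPt (t * singleIdl v u) = torusPt t * single v (torusGL u) := by
  rw [map_mul, torusPt_singleIdl]

theorem singleIdl_apply_same (v : FPlace F) (u : (v.adicCompletion F)ˣ) :
    (singleIdl v u).1 v = u := by
  classical exact Pi.mulSingle_eq_same (M := fun w : FPlace F => (w.adicCompletion F)ˣ) v u

theorem singleIdl_apply_ne {v w : FPlace F} (h : w ≠ v) (u : (v.adicCompletion F)ˣ) :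
    (singleIdl v u).1 w = 1 := by
  classical exact Pi.mulSingle_eq_of_ne (M := fun w : FPlace F => (w.adicCompletion F)ˣ) h u

/-- A uniformiser of the completion. -/
theorem exists_unif_units (v : FPlace F) :
    ∃ ϖ : (v.adicCompletion F)ˣ, valv v (ϖ : v.adicCompletion F) = WithZero.exp (-1) := by
  obtain ⟨π, hπ⟩ := (isLocalVal_valv v).exists_unif
  exact ⟨Units.mk0 π (fun h => by rw [h, map_zero] at hπ; exact WithZero.exp_ne_zero hπ.symm), hπ⟩

theorem valv_zpow {v : FPlace F} {ϖ : (v.adicCompletion F)ˣ}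
    (hϖ : valv v (ϖ : v.adicCompletion F) = WithZero.exp (-1)) (n : ℤ) :
    valv v ((ϖ ^ n : (v.adicCompletion F)ˣ) : v.adicCompletion F) = WithZero.exp (-n) := by
  rw [Units.val_zpow_eq_zpow_val, map_zpow₀, hϖ, ← WithZero.exp_zsmul]
  simp

variable [IsTotallyComplex F] {U : Level F} {φ : Gf F → Hyp F → ℂ}

/-- One place: vanishing at the base level propagates to all levels. -/
theorem fourierCoeff_torus_propagate (hφ : IsAutomorphic U φ) {v : FPlace F}
    (hs : IsSphericalAt v φ) {a : ℂ} (ha : HasEigenvalue v a φ) (p : Hyp F) (t : Idl F)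
    (h0 : ∀ t' : Idl F, (∀ w, w ≠ v → t'.1 w = t.1 w) →
      valv v (t'.1 v : v.adicCompletion F) = WithZero.exp (cond v) →
      fourierCoeff φ 1 (torusPt t') p = 0) :
    fourierCoeff φ 1 (torusPt t) p = 0 := by
  obtain ⟨ϖ, hϖ⟩ := exists_unif_units v
  set base : Idl F := t * singleIdl v ((t.1 v)⁻¹ * ϖ ^ (-cond v)) with hbase
  set g : ℕ → ℂ := fun n => fourierCoeff φ 1 (torusPt (base * singleIdl v (ϖ ^ (n : ℤ)))) p
  have hbv : base.1 v = ϖ ^ (-cond v) := by
    show t.1 v * (singleIdl v _).1 v = _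
    rw [singleIdl_apply_same, mul_inv_cancel_left]
  have hcomp : ∀ n : ℤ, ((torusPt (base * singleIdl v (ϖ ^ n)) : Gf F) : ∀ w, GLv w) v =
      torusGL (ϖ ^ (-cond v + n)) := by
    intro n
    show torusGL (base.1 v * (singleIdl v _).1 v) = _
    rw [singleIdl_apply_same, hbv, zpow_add]
  have hstep :
      ∀ (n : ℤ) (e : ℤ), torusPt (base * singleIdl v (ϖ ^ n)) * single v (torusGL (ϖ ^ e)) =
      torusPt (base * singleIdl v (ϖ ^ (n + e))) := by
    intro n e
    rw [← torusPt_singleIdl_mul, mul_assoc, show singleIdl v (ϖ ^ n) * singleIdl v (ϖ ^ e) =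
      singleIdl v (ϖ ^ (n + e)) by
      classical
      exact Subtype.ext (by rw [zpow_add]; exact (Pi.mulSingle_mul v _ _).symm)]
  have hval : ∀ n : ℕ, valv v ((ϖ ^ (-cond v + (n : ℤ)) : (v.adicCompletion F)ˣ) :
      v.adicCompletion F) ≤ WithZero.exp (cond v) := fun n => by
    rw [valv_zpow hϖ, WithZero.exp_le_exp]; omega
  have hrec : ∀ n : ℕ, (Ideal.absNorm v.asIdeal : ℂ) * g (n + 1) +
      fourierCoeff φ 1 (torusPt (base * singleIdl v (ϖ ^ ((n : ℤ) - 1)))) p =
      (Tree.csqrtN (Ideal.absNorm v.asIdeal) * a) * g n := by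
    intro n
    have h := fourierCoeff_torus_rec hφ hs ha (hcomp (n : ℤ)) (hval n) hϖ p
    have e1 := hstep (n : ℤ) 1
    have e2 := hstep (n : ℤ) (-1)
    rw [zpow_one] at e1
    rw [zpow_neg, zpow_one] at e2
    rw [e1, e2] at h
    simp only [g]
    push_cast
    exact h
  have hq : (Ideal.absNorm v.asIdeal : ℂ) ≠ 0 := by
    rw [Nat.cast_ne_zero, Ne, Ideal.absNorm_eq_zero_iff]
    exact v.ne_bot
  have hg : ∀ n : ℕ, g n = 0 ∧ g (n + 1) = 0 := by
    intro n
    induction n with
    | zero =>
      have hg0 : g 0 = 0 := by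
        refine h0 _ (fun w hw => ?_) ?_
        · show t.1 w * (singleIdl v _).1 w * (singleIdl v _).1 w = t.1 w
          rw [singleIdl_apply_ne hw, singleIdl_apply_ne hw, mul_one, mul_one]
        · show valv v ((base.1 v * (singleIdl v _).1 v : (v.adicCompletion F)ˣ) :
            v.adicCompletion F) = _
          rw [singleIdl_apply_same, hbv, Nat.cast_zero, zpow_zero, mul_one, valv_zpow hϖ, neg_neg]
      refine ⟨hg0, ?_⟩
      have h := hrec 0
      rw [hg0, mul_zero, fourierCoeff_eq_zero_of_large hφ hs (hcomp _) (by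
        rw [valv_zpow hϖ, WithZero.exp_lt_exp]; simp) p, add_zero] at h
      exact (mul_eq_zero.1 h).resolve_left hq
    | succ n ih =>
      refine ⟨ih.2, ?_⟩
      have h := hrec (n + 1)
      rw [ih.2, mul_zero, show (((n + 1 : ℕ) : ℤ) - 1) = (n : ℤ) by push_cast; ring] at h
      rw [show fourierCoeff φ 1 (torusPt (base * singleIdl v (ϖ ^ (n : ℤ)))) p = g n from rfl,
        ih.1, add_zero] at h
      exact (mul_eq_zero.1 h).resolve_left hq
  -- the component of `t`
  by_cases hlarge : WithZero.exp (cond v) < valv v (t.1 v : v.adicCompletion F)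
  · exact fourierCoeff_eq_zero_of_large hφ hs (u := t.1 v) rfl hlarge p
  have hne : valv v (t.1 v : v.adicCompletion F) ≠ 0 := by simp
  set k : ℤ := cond v - WithZero.log (valv v (t.1 v : v.adicCompletion F)) with hk
  have hk0 : 0 ≤ k := by
    rw [not_lt, ← WithZero.exp_log hne, WithZero.exp_le_exp] at hlarge
    omega
  set e : (v.adicCompletion F)ˣ := (ϖ ^ (-cond v + k))⁻¹ * t.1 v
  have he : valv v (e : v.adicCompletion F) = 1 := by
    rw [Units.val_mul, map_mul, Units.val_inv_eq_inv_val, map_inv₀, valv_zpow hϖ,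
      inv_mul_eq_iff_eq_mul₀ WithZero.exp_ne_zero, mul_one, ← WithZero.exp_log hne]
    congr 1
    omega
  have et :
      torusPt t = torusPt (base * singleIdl v (ϖ ^ (k.toNat : ℤ))) * single v (torusGL e) := by
    rw [← torusPt_singleIdl_mul]
    congr 1
    refine Subtype.ext (funext fun w => ?_)
    show t.1 w = t.1 w * (singleIdl v _).1 w * (singleIdl v _).1 w * (singleIdl v _).1 w
    by_cases hw : w = v
    · subst hw
      rw [singleIdl_apply_same, singleIdl_apply_same, singleIdl_apply_same,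
        Int.toNat_of_nonneg hk0]
      simp only [e, zpow_add]
      group
    · rw [singleIdl_apply_ne hw, singleIdl_apply_ne hw, singleIdl_apply_ne hw, mul_one, mul_one,
        mul_one]
  rw [et, fourierCoeff_mul_single_max hφ hs 1 _
    (Subgroup.subset_closure (Or.inl (isIntGL_torusGL v he)))]
  exact (hg k.toNat).1

variable {S : Finset (FPlace F)} {a : FPlace F → ℂ}

/-- The normalised torus points: `|t_v| = exp (cond v)` outside `S`. -/
def IsBaseIdl (S : Finset (FPlace F)) (t : Idl F) : Prop :=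
  ∀ v ∉ S, valv v (t.1 v : v.adicCompletion F) = WithZero.exp (cond v)

/-- Coefficients of index one vanish at all torus points once they do at the base ones. -/
theorem fourierCoeff_torus_eq_zero (hφ : IsEigenForm (S : Set (FPlace F)) a φ) (p : Hyp F)
    (H : ∀ t, IsBaseIdl S t → fourierCoeff φ 1 (torusPt t) p = 0) (t : Idl F) :
    fourierCoeff φ 1 (torusPt t) p = 0 := by
  classical
  obtain ⟨U', hU', -⟩ := hφ.exists_level
  have hfin : {v : FPlace F | v ∉ S ∧
      valv v (t.1 v : v.adicCompletion F) ≠ WithZero.exp (cond v)}.Finite := by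
    have h : ∀ᶠ v : FPlace F in Filter.cofinite,
        valv v (t.1 v : v.adicCompletion F) = 1 ∧ cond v = 0 :=
      Filter.Eventually.and t.2 eventually_cond_eq_zero
    refine (Filter.eventually_cofinite.1 h).subset fun v hv h' => hv.2 ?_
    rw [h'.1, h'.2, WithZero.exp_zero]
  suffices h : ∀ D : Finset (FPlace F), (∀ v ∈ D, v ∉ S) → ∀ t : Idl F,
      (∀ v ∉ S, v ∉ D → valv v (t.1 v : v.adicCompletion F) = WithZero.exp (cond v)) →
      fourierCoeff φ 1 (torusPt t) p = 0 by
    refine h hfin.toFinset (fun v hv => (hfin.mem_toFinset.1 hv).1) t fun v hv hv' => ?_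
    by_contra hne
    exact hv' (hfin.mem_toFinset.2 ⟨hv, hne⟩)
  intro D
  induction D using Finset.induction_on with
  | empty => exact fun _ t ht => H t fun v hv => ht v hv (by simp)
  | insert v D hvD ih =>
    intro hD t ht
    have hvS : v ∉ (S : Set (FPlace F)) := by simpa using hD v (Finset.mem_insert_self v D)
    refine fourierCoeff_torus_propagate hU' (hφ.sphericalAt hvS) (hφ.eigen v hvS) p t
      fun t' ht' hv' => ih (fun w hw => hD w (Finset.mem_insert_of_mem hw)) t' fun w hwS hwD => ?_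
    by_cases hwv : w = v
    · subst hwv; exact hv'
    · rw [ht' w hwv]; exact ht w hwS (by simp [hwv, hwD])

omit [IsTotallyComplex F] in
/-- A matrix close to `1` at a place is integral with unit determinant there. -/
theorem isIntegral_of_close_one (v : FPlace F) (n : ℕ)
    (g : Matrix (Fin 2) (Fin 2) (v.adicCompletion F))
    (hg : ∀ i j, valv v (g i j - (1 : Matrix (Fin 2) (Fin 2) (v.adicCompletion F)) i j) ≤
      WithZero.exp (-((n + 1 : ℕ) : ℤ))) :
    (∀ i j, valv v (g i j) ≤ 1) ∧ valv v g.det = 1 := by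
  have hlt : WithZero.exp (-((n + 1 : ℕ) : ℤ)) < (1 : ℤᵐ⁰) := by
    rw [← WithZero.exp_zero, WithZero.exp_lt_exp]; omega
  have h1 : ∀ i j, valv v (g i j) ≤ 1 := fun i j => by
    have h3 : valv v ((1 : Matrix (Fin 2) (Fin 2) (v.adicCompletion F)) i j) ≤ 1 := by
      rw [Matrix.one_apply]; split_ifs <;> simp
    rw [← sub_add_cancel (g i j) ((1 : Matrix (Fin 2) (Fin 2) (v.adicCompletion F)) i j)]
    exact ((valv v).map_add _ _).trans (max_le ((hg i j).trans hlt.le) h3)
  refine ⟨h1, ?_⟩
  have hd : valv v (g.det - 1) < 1 := by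
    rw [Matrix.det_fin_two, show g 0 0 * g 1 1 - g 0 1 * g 1 0 - 1 =
      (g 0 0 - 1) * g 1 1 + (g 1 1 - 1) - g 0 1 * g 1 0 by ring]
    refine lt_of_le_of_lt ((valv v).map_sub _ _) (max_lt (lt_of_le_of_lt ((valv v).map_add _ _)
      (max_lt ?_ ?_)) ?_)
    · rw [map_mul]
      exact lt_of_le_of_lt (mul_le_of_le_one_right' (h1 1 1))
        (lt_of_le_of_lt (by simpa using hg 0 0) hlt)
    · exact lt_of_le_of_lt (by simpa using hg 1 1) hlt
    · rw [map_mul]
      exact lt_of_le_of_lt (mul_le_of_le_one_right' (h1 1 0))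
        (lt_of_le_of_lt (by simpa using hg 0 1) hlt)
  rw [show g.det = (g.det - 1) + 1 by ring,
    Valuation.map_add_eq_of_lt_right (valv v) (by rwa [map_one]), map_one]

/-- The vanishing theorem. -/
theorem IsEigenForm.eq_zero (hφ : IsEigenForm (S : Set (FPlace F)) a φ)
    (H : ∀ t p, IsBaseIdl S t → fourierCoeff φ 1 (torusPt t) p = 0) : φ = 0 := by
  classical
  obtain ⟨U', hU', hJ'⟩ := hφ.exists_level
  have htor : ∀ (t : Idl F) (ν : F) (p : Hyp F), fourierCoeff φ ν (torusPt t) p = 0 := by
    intro t ν p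
    by_cases hν : ν = 0
    · subst hν; exact fourierCoeff_zero hU' hφ.cuspidal _ _
    have h := fourierCoeff_torus hU' 1 (Units.mk0 ν hν) (torusPt t) p
    rw [Units.val_mk0, mul_one] at h
    rw [← h, diag_torusGL, ← map_mul]
    exact fourierCoeff_torus_eq_zero hφ _ (fun s hs => H s _ hs) _
  -- points which are trivial over `S`
  have hx : ∀ x : Gf F, (∀ v ∈ S, (x : ∀ v, GLv v) v = 1) → ∀ p, φ x p = 0 := by
    intro x hx p
    obtain ⟨b, k, hb, hk, hxbk⟩ := exists_iwasawa x
    choose bv tv hbv using fun v => hb v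
    set b' : ∀ v : FPlace F, (v.adicCompletion F)ˣ := fun v => if v ∈ S then 1 else bv v
    set z' : ∀ v : FPlace F, v.adicCompletion F := fun v => if v ∈ S then 0 else tv v
    have hb'k : ∀ᶠ v : FPlace F in Filter.cofinite,
        valv v (b' v : v.adicCompletion F) = 1 ∧ valv v (z' v) ≤ 1 := by
      filter_upwards [b.2] with v hv
      simp only [b', z']
      split_ifs with hvS
      · simp
      · rw [hbv v] at hv
        exact upGL_mem_maxSubgroup_iff.1 hv
    set t : Idl F := ⟨b', hb'k.mono fun v h => h.1⟩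
    set z : Af F := ⟨z', hb'k.mono fun v h => h.2⟩
    have hmem : ∀ v, (((unipAdele z * torusPt t)⁻¹ * x : Gf F) : ∀ v, GLv v) v ∈ U'.J v := by
      intro v
      show (unipHom _ (z' v) * torusGL (b' v))⁻¹ * (x : ∀ v, GLv v) v ∈ U'.J v
      by_cases hvS : v ∈ S
      · simp only [b', z', if_pos hvS, unipHom_zero, torusGL_one, one_mul, inv_one, hx v hvS]
        exact one_mem _
      · simp only [b', z', if_neg hvS]
        rw [hJ' v (by simpa using hvS)]
        have e : unipHom _ (tv v) * torusGL (bv v) = (b : ∀ v, GLv v) v := by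
          rw [hbv v]
          refine Units.ext ?_
          ext i j
          fin_cases i <;> fin_cases j <;>
            simp [coe_torusGL, coe_unipHom, upGL, Matrix.mul_apply, Fin.sum_univ_two]
        rw [e, hxbk]
        show ((b : ∀ v, GLv v) v)⁻¹ * ((b : ∀ v, GLv v) v * (k : ∀ v, GLv v) v) ∈ _
        rw [inv_mul_cancel_left]
        exact hk v
    have e : φ x = φ (unipAdele z * torusPt t) := by
      rw [← hU'.right (unipAdele z * torusPt t) _ hmem, mul_inv_cancel_left]
    rw [e]
    refine eq_zero_of_fourierCoeff hU' _ _ fun ν => ?_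
    rw [fourierCoeff_unipAdele hU', htor, mul_zero]
  funext x p
  show φ x p = 0
  rcases S.eq_empty_or_nonempty with rfl | ⟨v₀, hv₀⟩
  · exact hx x (by simp) p
  -- weak approximation at `S`
  choose N hN using fun v => U'.exists_cong v
  set A : Fin 2 → Fin 2 → ∀ v : FPlace F, v.adicCompletion F := fun i j v =>
    if v ∈ S then (((x : ∀ v, GLv v) v)⁻¹ : GLv v).1 i j else 0
  have hA : ∀ i j, ∀ᶠ v : FPlace F in Filter.cofinite, valv v (A i j v) ≤ 1 := fun i j => by
    refine Filter.mem_of_superset (S.finite_toSet.compl_mem_cofinite) fun v hv => ?_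
    simp only [Set.mem_ofPred_eq, A, if_neg (show v ∉ S from hv), map_zero]
    exact zero_le
  set c : FPlace F → ℕ := fun v => N v + 1 + (max (WithZero.log
    (Tree.nrm (valv v) ((x : ∀ v, GLv v) v : Matrix (Fin 2) (Fin 2) (v.adicCompletion F)))) 0).toNat
  set n : FPlace F →₀ ℕ := Finsupp.onFinset S (fun v => if v ∈ S then c v else 0)
    (fun v hv => by by_contra hn; rw [if_neg hn] at hv; exact hv rfl)
  choose M hM using fun i j => exists_forall_sub_le (A i j) (hA i j) n
  set Mm : Matrix (Fin 2) (Fin 2) F := Matrix.of M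
  have hclose : ∀ v ∈ S, ∀ i j, valv v (((Mm.map (algebraMap F (v.adicCompletion F))) *
      ((x : ∀ v, GLv v) v : Matrix (Fin 2) (Fin 2) (v.adicCompletion F))) i j -
        (1 : Matrix (Fin 2) (Fin 2) (v.adicCompletion F)) i j) ≤
      WithZero.exp (-((N v + 1 : ℕ) : ℤ)) := by
    intro v hv i j
    rw [← Matrix.sub_apply, show (Mm.map (algebraMap F (v.adicCompletion F))) *
        ((x : ∀ v, GLv v) v : Matrix (Fin 2) (Fin 2) (v.adicCompletion F)) - 1 =
        (Mm.map (algebraMap F (v.adicCompletion F)) -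
          (((x : ∀ v, GLv v) v)⁻¹ : GLv v).1) *
        ((x : ∀ v, GLv v) v : Matrix (Fin 2) (Fin 2) (v.adicCompletion F)) by
      rw [Matrix.sub_mul, ← Units.val_mul _ ((x : ∀ v, GLv v) v), inv_mul_cancel, Units.val_one]]
    refine (Tree.le_nrm _ i j).trans ((Tree.nrm_mul_le _ _).trans ?_)
    set B := Tree.nrm (valv v) ((x : ∀ v, GLv v) v : Matrix (Fin 2) (Fin 2) (v.adicCompletion F))
    have hB0 : B ≠ 0 := Tree.nrm_ne_zero _
    refine (mul_le_mul' (Tree.nrm_le_iff.2 fun i' j' => (hM i' j' v).trans' (le_of_eq ?_))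
      le_rfl).trans ?_
    · simp [Mm, A, if_pos hv]
    · rw [Finsupp.onFinset_apply, if_pos hv, ← WithZero.exp_log hB0, ← WithZero.exp_add,
        WithZero.exp_le_exp]
      simp only [c, B]
      push_cast [Int.toNat_of_nonneg (le_max_right _ _)]
      omega
  have hint : ∀ v ∈ S, ∀ (g : Matrix (Fin 2) (Fin 2) (v.adicCompletion F)),
      (∀ i j, valv v (g i j - (1 : Matrix (Fin 2) (Fin 2) (v.adicCompletion F)) i j) ≤
        WithZero.exp (-((N v + 1 : ℕ) : ℤ))) →
      (∀ i j, valv v (g i j) ≤ 1) ∧ valv v g.det = 1 :=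
    fun v _ g hg => isIntegral_of_close_one v (N v) g hg
  have hdet : Mm.det ≠ 0 := fun h0 => by
    have h := (hint v₀ hv₀ _ (hclose v₀ hv₀)).2
    rw [Matrix.det_mul, ← RingHom.mapMatrix_apply, ← RingHom.map_det, h0, map_zero, zero_mul,
      map_zero] at h
    exact zero_ne_one h
  set γ : GL (Fin 2) F := Matrix.GeneralLinearGroup.mkOfDetNeZero Mm hdet
  set y : Gf F := diag F γ * x
  have hγy : ∀ v ∈ S, (y : ∀ v, GLv v) v ∈ U'.J v := by
    intro v hv
    refine hN v (Subgroup.subset_closure (Or.inl ?_))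
    have ey : ((y : ∀ v, GLv v) v : Matrix (Fin 2) (Fin 2) (v.adicCompletion F)) =
        Mm.map (algebraMap F (v.adicCompletion F)) *
          ((x : ∀ v, GLv v) v : Matrix (Fin 2) (Fin 2) (v.adicCompletion F)) := rfl
    rw [IsIntGL, ey]
    exact ⟨hint v hv _ (hclose v hv), fun i j => (hclose v hv i j).trans
      (WithZero.exp_le_exp.2 (by omega))⟩
  set j : Gf F := ⟨fun v => if v ∈ S then ((y : ∀ v, GLv v) v)⁻¹ else 1, by
    refine Filter.mem_of_superset (S.finite_toSet.compl_mem_cofinite) fun v hv => ?_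
    simp only [Set.mem_ofPred_eq, if_neg (show v ∉ S from hv)]
    exact one_mem _⟩
  have hj : ∀ v, (j : ∀ v, GLv v) v ∈ U'.J v := fun v => by
    show (if v ∈ S then ((y : ∀ v, GLv v) v)⁻¹ else 1) ∈ _
    split_ifs with hv
    · exact inv_mem (hγy v hv)
    · exact one_mem _
  rw [← hU'.left γ x y (fun v => rfl) p, ← hU'.right y j hj]
  refine hx (y * j) (fun v hv => ?_) _
  show (y : ∀ v, GLv v) v * (if v ∈ S then ((y : ∀ v, GLv v) v)⁻¹ else 1) = 1
  rw [if_pos hv, mul_inv_cancel]

end Fermat.Agent.ResidualThree
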