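import Fermat.Agent.ResidualThree.Automorphic.Forms
import Fermat.Agent.ResidualThree.Spherical.Unique

/-!
# The shape of the Fourier coefficients in the archimedean variable

For a bounded function of spectral parameter zero the coefficient of index `ν ≠ 0` is a multiple of
the product of the Whittaker functions.
-/

noncomputable section

open IsDedekindDomain NumberField MeasureTheory
open scoped WithZero ComplexConjugate

namespace Fermat.Agent.ResidualThree

variable {F : Type} [Field F] [NumberField F] [IsTotallyComplex F]

omit [IsTotallyComplex F] in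
theorem norm_boxFun_le {φ : Gf F → Hyp F → ℂ} {C : ℝ} (hC : ∀ x p, ‖φ x p‖ ≤ C) (ν : F)
    (x : Gf F) (p : Hyp F) (m : ℕ) (t : BasisIx F → ℝ) : ‖boxFun φ ν x p m t‖ ≤ C := by
  rw [boxFun, norm_mul, Complex.norm_conj, norm_archExp, mul_one]
  exact hC _ _

omit [IsTotallyComplex F] in
theorem archExp_single [DecidableEq (InfinitePlace F)] (ν : F) (w : InfinitePlace F) (b : ℂ) :
    archExp ν (Pi.single w b) = addCharC (w.embedding ν) b := by
  rw [archExp, addCharC, realPair, Finset.sum_eq_single w]
  · rw [Pi.single_eq_same]
  · intro u _ hu; rw [Pi.single_eq_of_ne hu]; simp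
  · simp

omit [NumberField F] [IsTotallyComplex F] in
theorem horoShift_single [DecidableEq (InfinitePlace F)] (w : InfinitePlace F) (b : ℂ) (p : Hyp F)
    (q : H3) : horoShift (Pi.single w b) (Function.update p w q) =
      Function.update p w ⟨q.z + b, q.y, q.y_pos⟩ := by
  funext u
  by_cases h : u = w
  · subst h; simp [horoShift]
  · simp [horoShift, Pi.single_eq_of_ne h, Function.update_of_ne h]

variable {U : Level F} {φ : Gf F → Hyp F → ℂ} (hφ : IsAutomorphic U φ)
include hφ

theorem continuous_fourierCoeff (hb : ∃ C, ∀ x p, ‖φ x p‖ ≤ C) (ν : F) (x : Gf F) :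
    Continuous fun p => fourierCoeff φ ν x p := by
  obtain ⟨C, hC⟩ := hb
  obtain ⟨m, hm⟩ := hφ.exists_commonPeriod ν x
  have h : Continuous fun p : Hyp F =>
      ∫ t in {t : BasisIx F → ℝ | ∀ i, t i ∈ Set.Ioc (0 : ℝ) 1}, boxFun φ ν x p m t := by
    refine continuous_of_dominated (bound := fun _ => C)
      (fun p => (continuous_boxFun (hφ.continuous x) ν p m).aestronglyMeasurable)
      (fun p => Filter.Eventually.of_forall (norm_boxFun_le hC ν x p m))
      (integrableOn_const (by rw [volume_cubeSet]; simp)) (Filter.Eventually.of_forall fun t => ?_)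
    refine ((hφ.continuous x).comp ?_).mul continuous_const
    exact continuous_horoShift.comp (continuous_const.prodMk continuous_id)
  exact h.congr fun p => (fourierCoeff_eq (hφ.continuous x) p hm).symm

theorem norm_fourierCoeff_le {C : ℝ} (hC : ∀ x p, ‖φ x p‖ ≤ C) (ν : F) (x : Gf F) (p : Hyp F) :
    ‖fourierCoeff φ ν x p‖ ≤ C := by
  obtain ⟨m, hm⟩ := hφ.exists_commonPeriod ν x
  rw [fourierCoeff_eq (hφ.continuous x) p hm, boxMean, cubeMean]
  refine (norm_setIntegral_le_of_norm_le_const (by rw [volume_cubeSet]; simp)
    fun t _ => norm_boxFun_le hC ν x p m t).trans (le_of_eq ?_)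
  rw [Measure.real, volume_cubeSet]; simp

open Classical in
/-- The coefficient is again an eigenfunction of the radial kernels. -/
theorem isSpectral_fourierCoeff (hs : IsSpectralZero φ)
    (hb : ∃ C, ∀ x p, ‖φ x p‖ ≤ C) (ν : F) (x : Gf F) (w : InfinitePlace F)
    {k : ℝ → ℂ} (hk : H3.IsKernel k) (p : Hyp F) :
    ∫ q, k (H3.coshDist (p w) q) * fourierCoeff φ ν x (Function.update p w q) ∂H3.vol =
      sphZero k * fourierCoeff φ ν x p := by
  obtain ⟨C, hC⟩ := hb
  obtain ⟨m, hm⟩ := hφ.exists_commonPeriod ν x
  set μ := (volume : Measure (BasisIx F → ℝ)).restrict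
    {t | ∀ i, t i ∈ Set.Ioc (0 : ℝ) 1} with hμ
  have : IsFiniteMeasure μ := ⟨by rw [hμ, Measure.restrict_apply_univ, volume_cubeSet]; simp⟩
  simp only [fourierCoeff_eq (hφ.continuous x) _ hm, boxMean, cubeMean, ← integral_const_mul, ← hμ]
  have hint : Integrable (Function.uncurry fun q t =>
      k (H3.coshDist (p w) q) * boxFun φ ν x (Function.update p w q) m t) (H3.vol.prod μ) := by
    refine ((hk.integrable (p w)).norm.mul_prod (integrable_const C)).mono' ?_
      (Filter.Eventually.of_forall fun z => ?_)
    · refine Continuous.aestronglyMeasurable ?_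
      refine ((hk.cont.comp ((H3.continuous_coshDist_right (p w)).comp continuous_fst))).mul ?_
      refine Continuous.mul ((hφ.continuous x).comp ?_)
        (Complex.continuous_conj.comp ((continuous_archExp ν).comp
          ((continuous_boxPt m).comp continuous_snd)))
      exact continuous_horoShift.comp (((continuous_boxPt m).comp continuous_snd).prodMk
        (continuous_const.update w continuous_fst))
    · show ‖k _ * boxFun φ ν x _ m z.2‖ ≤ ‖k _‖ * C
      rw [norm_mul]
      exact mul_le_mul_of_nonneg_left (norm_boxFun_le hC ν x _ m _) (norm_nonneg _)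
  rw [integral_integral_swap hint]
  refine integral_congr_ae (Filter.Eventually.of_forall fun t => ?_)
  set b := boxPt (F := F) m t w with hb
  have hT : ∀ q : H3, (⟨q.z + b, q.y, q.y_pos⟩ : H3) = unipHom ℂ b • q := fun q =>
    (unipHom_smul_H3 b q).symm
  have hupd : ∀ q : H3, horoShift (boxPt m t) (Function.update p w q) =
      Function.update (horoShift (boxPt m t) p) w (unipHom ℂ b • q) := by
    intro q
    rw [← hT]
    funext u
    by_cases h : u = w
    · subst h; simp [horoShift, b]
    · simp [horoShift, Function.update_of_ne h]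
  have hp : (horoShift (boxPt m t) p) w = unipHom ℂ b • p w := by rw [← hT]; rfl
  calc ∫ q, k (H3.coshDist (p w) q) * boxFun φ ν x (Function.update p w q) m t ∂H3.vol
      = ∫ q, (fun r => k (H3.coshDist ((horoShift (boxPt m t) p) w) r) *
          (φ x (Function.update (horoShift (boxPt m t) p) w r) * conj (archExp ν (boxPt m t))))
            (unipHom ℂ b • q) ∂H3.vol := by
        refine integral_congr_ae (Filter.Eventually.of_forall fun q => ?_)
        simp only [boxFun, hupd, hp, H3.coshDist_smul]
    _ = ∫ r, k (H3.coshDist ((horoShift (boxPt m t) p) w) r) *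
          (φ x (Function.update (horoShift (boxPt m t) p) w r) * conj (archExp ν (boxPt m t)))
            ∂H3.vol := H3.integral_smul_gl (unipHom ℂ b) (fun r =>
              k (H3.coshDist ((horoShift (boxPt m t) p) w) r) *
          (φ x (Function.update (horoShift (boxPt m t) p) w r) * conj (archExp ν (boxPt m t))))
    _ = sphZero k * boxFun φ ν x p m t := by
        simp only [← mul_assoc]
        rw [integral_mul_const, hs x w k hk.cont hk.compact (horoShift (boxPt m t) p)]
        rw [boxFun, mul_assoc]

/-- The coefficient of a non-zero index is a multiple of the Whittaker functions. -/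
theorem fourierCoeff_shape (hs : IsSpectralZero φ) (hb : ∃ C, ∀ x p, ‖φ x p‖ ≤ C)
    {ν : F} (hν : ν ≠ 0) (x : Gf F) (p : Hyp F) :
    fourierCoeff φ ν x p = (∏ w : InfinitePlace F,
        (whittaker (w.embedding ν) (p w) / whittaker (w.embedding ν) H3.base)) *
      fourierCoeff φ ν x (fun _ => H3.base) := by
  classical
  suffices h : ∀ s : Finset (InfinitePlace F), fourierCoeff φ ν x p = (∏ w ∈ s,
      (whittaker (w.embedding ν) (p w) / whittaker (w.embedding ν) H3.base)) *
      fourierCoeff φ ν x (fun w => if w ∈ s then H3.base else p w) by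
    simpa using h Finset.univ
  intro s
  induction s using Finset.induction_on with
  | empty => simp
  | insert w s hw ih =>
    set r : Hyp F := fun u => if u ∈ s then H3.base else p u with hr
    have hwν : w.embedding ν ≠ 0 := by simpa using hν
    obtain ⟨C, hC⟩ := hb
    have hfun := H3.eq_whittaker_of_eigen (f := fun q => fourierCoeff φ ν x (Function.update r w q))
      (w.embedding ν) hwν
      ((continuous_fourierCoeff hφ ⟨C, hC⟩ ν x).comp (continuous_const.update w continuous_id))
      ⟨C, fun q => norm_fourierCoeff_le hφ hC ν x _⟩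
      (fun b q => by
        show fourierCoeff φ ν x (Function.update r w _) = _
        rw [← horoShift_single, fourierCoeff_horoShift hφ, archExp_single])
      (fun k hk q => by
        have h := isSpectral_fourierCoeff hφ hs ⟨C, hC⟩ ν x w hk (Function.update r w q)
        simpa only [Function.update_self, Function.update_idem] using h)
      (p w)
    have e1 : Function.update r w (p w) = r := by
      funext u
      by_cases h : u = w
      · subst h; simp [r, hw]
      · simp [Function.update_of_ne h]
    have e2 : Function.update r w H3.base =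
        fun u => if u ∈ insert w s then H3.base else p u := by
      funext u
      by_cases h : u = w
      · subst h; simp
      · simp [r, h]
    simp only [e1, e2] at hfun
    rw [ih, Finset.prod_insert hw, hfun]
    ring

/-- Vanishing at the base point. -/
theorem fourierCoeff_eq_zero_of_base (hs : IsSpectralZero φ) (hb : ∃ C, ∀ x p, ‖φ x p‖ ≤ C)
    {ν : F} (hν : ν ≠ 0) {x : Gf F} (h : fourierCoeff φ ν x (fun _ => H3.base) = 0) (p : Hyp F) :
    fourierCoeff φ ν x p = 0 := by
  rw [fourierCoeff_shape hφ hs hb hν, h, mul_zero]

end Fermat.Agent.ResidualThree
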