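import Mathlib.Analysis.Complex.Polynomial.Basic
import Fermat.Agent.ResidualThree.Automorphic.Vanish
import Fermat.Agent.ResidualThree.Automorphic.WhittakerShape

/-!
# Stable spaces of eigenforms meet

The coefficient of index one at the base torus points embeds eigenforms into functions on
`∏_{v ∈ S} F_vˣ`.  Averaging unipotent translates against the character produces the indicator of
a small ball, so two non-zero stable subspaces contain a common non-zero form.
-/

noncomputable section

open IsDedekindDomain NumberField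
open scoped WithZero

namespace Fermat.Agent.ResidualThree

variable {F : Type} [Field F] [NumberField F] [IsTotallyComplex F]

/-- The coefficient of index one at a torus point and the base point. -/
def kir (φ : Gf F → Hyp F → ℂ) (t : Idl F) : ℂ :=
  fourierCoeff φ 1 (torusPt t) fun _ => H3.base

/-- A space of functions stable under the translations supported in `S`. -/
def IsStableSpace (S : Finset (FPlace F)) (B : Submodule ℂ (Gf F → Hyp F → ℂ)) : Prop :=
  ∀ g : Gf F, (∀ v ∉ S, (g : ∀ v, GLv v) v = 1) → ∀ φ ∈ B, rightTr g φ ∈ B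

omit [IsTotallyComplex F] in
theorem single_supported {S : Finset (FPlace F)} {v : FPlace F} (hv : v ∈ S) (g : GLv v) :
    ∀ w ∉ S, ((single v g : Gf F) : ∀ w, GLv w) w = 1 :=
  fun _ hw => single_apply_ne (fun h => hw (by rw [h]; exact hv)) g

variable {S : Finset (FPlace F)} {a : FPlace F → ℂ} {φ : Gf F → Hyp F → ℂ}

/-- The eigenform is determined by `kir`. -/
theorem IsEigenForm.eq_zero_of_kir (hφ : IsEigenForm (S : Set (FPlace F)) a φ)
    (h : ∀ t, IsBaseIdl S t → kir φ t = 0) : φ = 0 := by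
  obtain ⟨U, hU, -⟩ := hφ.exists_level
  exact hφ.eq_zero fun t p ht =>
    fourierCoeff_eq_zero_of_base hU hφ.spectral hφ.bounded one_ne_zero (h t ht) p

theorem IsEigenForm.exists_kir_ne_zero (hφ : IsEigenForm (S : Set (FPlace F)) a φ) (h0 : φ ≠ 0) :
    ∃ t, IsBaseIdl S t ∧ kir φ t ≠ 0 := by
  by_contra! h
  exact h0 (hφ.eq_zero_of_kir h)

theorem kir_rightTr_unip {U : Level F} (hU : IsAutomorphic U φ) (v : FPlace F)
    (b : v.adicCompletion F) (t : Idl F) :
    kir (rightTr (single v (unipHom _ b)) φ) t =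
      psiAt v (-((t.1 v : v.adicCompletion F) * b)) * kir φ t := by
  rw [kir, fourierCoeff_rightTr hU]
  exact fourierCoeff_mul_single_unip hU (u := t.1 v) rfl b _

theorem kir_add {U U' : Level F} {ψ : Gf F → Hyp F → ℂ} (hφ : IsAutomorphic U φ)
    (hψ : IsAutomorphic U' ψ) (t : Idl F) : kir (φ + ψ) t = kir φ t + kir ψ t :=
  fourierCoeff_add hφ hψ _ _ _

theorem kir_smul {U : Level F} (hφ : IsAutomorphic U φ) (c : ℂ) (t : Idl F) :
    kir (c • φ) t = c * kir φ t :=
  fourierCoeff_smul hφ _ _ _ _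

/-- The support in the variable at one place is bounded. -/
theorem exists_kir_bound {U : Level F} (hU : IsAutomorphic U φ) (v : FPlace F) :
    ∃ B : ℕ, ∀ t : Idl F, kir φ t ≠ 0 →
      valv v (t.1 v : v.adicCompletion F) ≤ WithZero.exp (B : ℤ) := by
  obtain ⟨n, hn⟩ := U.exists_cong v
  refine ⟨(cond v + n).toNat, fun t ht => not_lt.1 fun hgt => ht ?_⟩
  refine fourierCoeff_eq_zero_of_unip_fixed hU (n := n) (u := t.1 v) rfl _ (fun z hz => ?_)
    (by rwa [Int.toNat_of_nonneg (by have := cond_nonneg v; omega)] at hgt)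
  refine fourierCoeff_right hU _ _ _ (fun w => ?_) _
  by_cases hw : w = v
  · subst hw
    rw [single_apply_same]
    refine hn (Subgroup.subset_closure (Or.inl ⟨isIntGL_unipHom _ (hz.trans ?_), fun i j => ?_⟩))
    · rw [← WithZero.exp_zero, WithZero.exp_le_exp]; omega
    · fin_cases i <;> fin_cases j <;> simp [coe_unipHom]
      simpa using hz
  · rw [single_apply_ne hw]; exact one_mem _

/-- The coefficient is locally constant. -/
theorem exists_kir_const (hφ : IsEigenForm (S : Set (FPlace F)) a φ) :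
    ∃ n : FPlace F → ℕ, ∀ t t' : Idl F, IsBaseIdl S t → IsBaseIdl S t' →
      (∀ v ∈ S, valv v ((t'.1 v : v.adicCompletion F) - (t.1 v : v.adicCompletion F)) ≤
        valv v (t.1 v : v.adicCompletion F) * WithZero.exp (-(n v : ℤ))) →
      kir φ t' = kir φ t := by
  obtain ⟨U, hU, hJ⟩ := hφ.exists_level
  choose N hN using fun v => U.exists_cong v
  refine ⟨fun v => N v + 1, fun t t' ht ht' h => ?_⟩
  have hj : ∀ v, ((torusPt (t⁻¹ * t') : Gf F) : ∀ v, GLv v) v ∈ U.J v := by
    intro v
    show torusGL ((t.1 v)⁻¹ * t'.1 v) ∈ U.J v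
    have hne : valv v (t.1 v : v.adicCompletion F) ≠ 0 := by simp
    by_cases hv : v ∈ S
    · set e := (((t.1 v)⁻¹ * t'.1 v : (v.adicCompletion F)ˣ) : v.adicCompletion F) - 1
      have he : valv v e ≤ WithZero.exp (-((N v + 1 : ℕ) : ℤ)) := by
        have e1 : e = ((t'.1 v : v.adicCompletion F) - (t.1 v : v.adicCompletion F)) *
            (((t.1 v)⁻¹ : (v.adicCompletion F)ˣ) : v.adicCompletion F) := by
          simp only [e, Units.val_mul, sub_mul, Units.mul_inv]
          ring
        rw [e1, map_mul, Units.val_inv_eq_inv_val, map_inv₀, mul_inv_le_iff₀ (zero_lt_iff.2 hne),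
          mul_comm]
        exact h v hv
      have h1 : valv v (((t.1 v)⁻¹ * t'.1 v : (v.adicCompletion F)ˣ) : v.adicCompletion F) = 1 := by
        rw [show (((t.1 v)⁻¹ * t'.1 v : (v.adicCompletion F)ˣ) : v.adicCompletion F) = e + 1 by
          simp [e], Valuation.map_add_eq_of_lt_right (valv v), map_one]
        rw [map_one]
        refine lt_of_le_of_lt he ?_
        rw [← WithZero.exp_zero, WithZero.exp_lt_exp]; omega
      refine hN v (Subgroup.subset_closure (Or.inl ⟨isIntGL_torusGL v h1, fun i j => ?_⟩))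
      have he' : valv v e ≤ WithZero.exp (-(N v : ℤ)) :=
        he.trans (WithZero.exp_le_exp.2 (by omega))
      fin_cases i <;> fin_cases j <;> simp [coe_torusGL]
      simpa [e] using he'
    · rw [hJ v (by simpa using hv)]
      refine Subgroup.subset_closure (Or.inl (isIntGL_torusGL v ?_))
      rw [Units.val_mul, map_mul, Units.val_inv_eq_inv_val, map_inv₀, ht v hv, ht' v hv,
        inv_mul_cancel₀ WithZero.exp_ne_zero]
  rw [kir, kir, show t' = t * (t⁻¹ * t') by group, map_mul,
    fourierCoeff_right hU _ _ _ hj]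

/-! ### Averaging against the character at one place -/

/-- The residues modulo the `n`-th power. -/
abbrev Res (v : FPlace F) (n : ℕ) : Type := 𝓞 F ⧸ v.asIdeal ^ n

omit [IsTotallyComplex F] in
theorem res_out_sub {v : FPlace F} {n : ℕ} {r : Res v n} {y : 𝓞 F}
    (hy : Ideal.Quotient.mk (v.asIdeal ^ n) y = r) :
    valv v (algebraMap F (v.adicCompletion F) (r.out : F) -
      algebraMap F (v.adicCompletion F) (y : F)) ≤ WithZero.exp (-(n : ℤ)) := by
  rw [← map_sub, valv_algebraMap]
  refine (HeightOneSpectrum.valuation_of_algebraMap v (r.out - y)).trans_le ?_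
  rw [HeightOneSpectrum.intValuation_le_pow_iff_mem, ← Ideal.Quotient.eq, hy]
  exact Ideal.Quotient.mk_out r

omit [IsTotallyComplex F] in
/-- Orthogonality of the characters. -/
theorem sum_psiAt_res (v : FPlace F) (n : ℕ) [Fintype (Res v n)] (w : v.adicCompletion F)
    (hw : valv v w ≤ WithZero.exp (cond v + n)) :
    ∑ r : Res v n, psiAt v (w * algebraMap F (v.adicCompletion F) (r.out : F)) =
      if valv v w ≤ WithZero.exp (cond v) then (Fintype.card (Res v n) : ℂ) else 0 := by
  classical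
  have hzero : ∀ z : v.adicCompletion F, valv v z ≤ WithZero.exp (-(n : ℤ)) →
      psiAt v (w * z) = 1 := fun z hz => by
    refine psiAt_eq_one v ?_
    rw [map_mul]
    refine (mul_le_mul' hw hz).trans ?_
    rw [← WithZero.exp_add, WithZero.exp_le_exp]; omega
  have hres : ∀ y : 𝓞 F, psiAt v (w * algebraMap F (v.adicCompletion F)
      ((Ideal.Quotient.mk (v.asIdeal ^ n) y).out : F)) =
      psiAt v (w * algebraMap F (v.adicCompletion F) (y : F)) := fun y => by
    conv_lhs => rw [← sub_add_cancel (algebraMap F (v.adicCompletion F)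
      ((Ideal.Quotient.mk (v.asIdeal ^ n) y).out : F))
      (algebraMap F (v.adicCompletion F) (y : F))]
    rw [mul_add, psiAt_add, hzero _ (res_out_sub rfl), one_mul]
  let χ : AddChar (Res v n) ℂ :=
    { toFun := fun r => psiAt v (w * algebraMap F (v.adicCompletion F) (r.out : F))
      map_zero_eq_one' := by
        rw [← map_zero (Ideal.Quotient.mk (v.asIdeal ^ n)), hres]
        simp [psiAt_of_le_one]
      map_add_eq_mul' := fun r s => by
        show psiAt v (w * algebraMap F (v.adicCompletion F) ((r + s).out : F)) = _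
        conv_lhs => rw [show r + s = Ideal.Quotient.mk (v.asIdeal ^ n) (r.out + s.out) by
          rw [map_add, Ideal.Quotient.mk_out, Ideal.Quotient.mk_out]]
        rw [hres, show ((r.out + s.out : 𝓞 F) : F) = (r.out : F) + (s.out : F) from map_add _ _ _,
          map_add, mul_add, psiAt_add] }
  have h := AddChar.sum_eq_ite χ
  rw [show (∑ r : Res v n, psiAt v (w * algebraMap F (v.adicCompletion F) (r.out : F))) =
    ∑ r, χ r from rfl, h]
  refine if_congr ⟨fun h0 => ?_, fun hle => ?_⟩ rfl rfl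
  · by_contra hgt
    rw [not_le] at hgt
    obtain ⟨z₀, hz₀, hne⟩ := exists_psiAt_ne_one_of_cond v
    have hw0 : valv v w ≠ 0 := (lt_trans WithZero.exp_pos hgt).ne'
    have hw' : w ≠ 0 := fun e => hw0 (by rw [e, map_zero])
    have hint : valv v (z₀ / w) ≤ 1 := by
      rw [map_div₀, hz₀, div_le_one₀ (zero_lt_iff.2 hw0), ← WithZero.exp_log hw0,
        WithZero.exp_le_exp]
      rw [← WithZero.exp_log hw0, WithZero.exp_lt_exp] at hgt
      omega
    obtain ⟨y, hy⟩ := exists_integer_sub_le v _ hint n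
    refine hne ?_
    have h1 : psiAt v (w * algebraMap F (v.adicCompletion F) (y : F)) = 1 := by
      rw [← hres]
      exact DFunLike.congr_fun h0 _
    rw [show z₀ = w * (z₀ / w - algebraMap F (v.adicCompletion F) (y : F)) +
      w * algebraMap F (v.adicCompletion F) (y : F) by field_simp; ring, psiAt_add, h1,
      hzero _ (by rwa [Valuation.map_sub_swap]), one_mul]
  · refine DFunLike.ext _ _ fun r => ?_
    show psiAt v (w * _) = 1
    refine psiAt_eq_one v ?_
    rw [map_mul, valv_algebraMap]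
    exact (mul_le_of_le_one_right' (v.valuation_le_one _)).trans hle

/-- Averaging unipotent translates at `v` cuts out a ball around `t₁`. -/
theorem exists_cut_at (hφ : IsEigenForm (S : Set (FPlace F)) a φ)
    {B : Submodule ℂ (Gf F → Hyp F → ℂ)}
    (hB : IsStableSpace S B) (hφB : φ ∈ B)
    {v : FPlace F} (hv : v ∈ S) (t₁ : Idl F) (M : ℕ) :
    ∃ ψ ∈ B, ∀ t, kir ψ t =
      (if valv v ((t.1 v : v.adicCompletion F) - (t₁.1 v : v.adicCompletion F)) ≤
        WithZero.exp (cond v - M) then 1 else 0) * kir φ t := by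
  classical
  obtain ⟨U, hU, -⟩ := hφ.exists_level
  obtain ⟨Bv, hBv⟩ := exists_kir_bound hU v
  obtain ⟨ϖ, hϖ⟩ := exists_unif_units v
  set c : v.adicCompletion F := ((ϖ ^ (-(M : ℤ)) : (v.adicCompletion F)ˣ) : v.adicCompletion F)
  have hc : valv v c = WithZero.exp (M : ℤ) := by rw [valv_zpow hϖ, neg_neg]
  have h1 : valv v (t₁.1 v : v.adicCompletion F) ≠ 0 := by simp
  set B' : ℤ := max (Bv : ℤ) (WithZero.log (valv v (t₁.1 v : v.adicCompletion F)))
  set n : ℕ := (B' + M - cond v).toNat
  have := Ideal.finiteQuotientOfFreeOfNeBot (v.asIdeal ^ n) (pow_ne_zero n v.ne_bot)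
  have := Fintype.ofFinite (Res v n)
  set b : Res v n → v.adicCompletion F :=
    fun r => c * algebraMap F (v.adicCompletion F) (r.out : F)
  set ψ : Gf F → Hyp F → ℂ := (Fintype.card (Res v n) : ℂ)⁻¹ • ∑ r : Res v n,
    psiAt v ((t₁.1 v : v.adicCompletion F) * b r) • rightTr (single v (unipHom _ (b r))) φ
  have hterm : ∀ r : Res v n, ∃ V : Level F, IsAutomorphic V
      (psiAt v ((t₁.1 v : v.adicCompletion F) * b r) • rightTr (single v (unipHom _ (b r))) φ) :=
    fun r => ⟨_, (hU.rightTr _).smul _⟩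
  obtain ⟨⟨V, hV⟩, hsum⟩ := fourierCoeff_finsetSum Finset.univ _ hterm
  refine ⟨ψ, B.smul_mem _ (B.sum_mem fun r _ => B.smul_mem _
    (hB _ (single_supported hv _) φ hφB)), fun t => ?_⟩
  have hk : kir ψ t = (Fintype.card (Res v n) : ℂ)⁻¹ *
      ∑ r : Res v n, psiAt v (((t₁.1 v : v.adicCompletion F) - (t.1 v : v.adicCompletion F)) * c *
        algebraMap F (v.adicCompletion F) (r.out : F)) * kir φ t := by
    rw [kir_smul hV]
    congr 1
    rw [kir, hsum]
    refine Finset.sum_congr rfl fun r _ => ?_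
    show kir _ t = _
    rw [kir_smul (hU.rightTr _), kir_rightTr_unip hU, ← mul_assoc, ← psiAt_add]
    simp only [b]
    congr 2
    ring
  rw [hk, ← Finset.sum_mul]
  by_cases h0 : kir φ t = 0
  · simp [h0]
  have hw : valv v (((t₁.1 v : v.adicCompletion F) - (t.1 v : v.adicCompletion F)) * c) ≤
      WithZero.exp (cond v + n) := by
    rw [map_mul, hc]
    refine (mul_le_mul' (((valv v).map_sub _ _).trans (max_le (c := WithZero.exp B') ?_ ?_))
      le_rfl).trans ?_
    · rw [← WithZero.exp_log h1, WithZero.exp_le_exp]; exact le_max_right _ _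
    · exact (hBv t h0).trans (WithZero.exp_le_exp.2 (le_max_left _ _))
    · rw [← WithZero.exp_add, WithZero.exp_le_exp]
      simp only [n]
      omega
  rw [sum_psiAt_res v n _ hw]
  have hiff : valv v (((t₁.1 v : v.adicCompletion F) - (t.1 v : v.adicCompletion F)) * c) ≤
      WithZero.exp (cond v) ↔
      valv v ((t.1 v : v.adicCompletion F) - (t₁.1 v : v.adicCompletion F)) ≤
        WithZero.exp (cond v - M) := by
    rw [map_mul, hc, Valuation.map_sub_swap, ← le_div_iff₀ WithZero.exp_pos, ← WithZero.exp_sub]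
  by_cases hle : valv v ((t.1 v : v.adicCompletion F) - (t₁.1 v : v.adicCompletion F)) ≤
      WithZero.exp (cond v - M)
  · rw [if_pos (hiff.2 hle), if_pos hle, ← mul_assoc,
      inv_mul_cancel₀ (Nat.cast_ne_zero.2 Fintype.card_ne_zero)]
  · rw [if_neg (fun h => hle (hiff.1 h)), if_neg hle]
    ring

/-- Cutting at all the places of `S`. -/
theorem exists_cut_finset {B : Submodule ℂ (Gf F → Hyp F → ℂ)} (hB : IsStableSpace S B)
    (hBe : B ≤ eigenForms (S : Set (FPlace F)) a) (hφB : φ ∈ B) (t₁ : Idl F)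
    (M : FPlace F → ℕ) (s : Finset (FPlace F)) (hs : s ⊆ S) :
    ∃ ψ ∈ B, ∀ t, kir ψ t =
      (if ∀ v ∈ s, valv v ((t.1 v : v.adicCompletion F) - (t₁.1 v : v.adicCompletion F)) ≤
        WithZero.exp (cond v - M v) then 1 else 0) * kir φ t := by
  classical
  induction s using Finset.induction_on with
  | empty => exact ⟨φ, hφB, fun t => by simp⟩
  | insert v s hv ih =>
    rw [Finset.insert_subset_iff] at hs
    obtain ⟨ψ, hψ, hk⟩ := ih hs.2
    obtain ⟨ψ', hψ', hk'⟩ := exists_cut_at (hBe hψ) hB hψ hs.1 t₁ (M v)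
    refine ⟨ψ', hψ', fun t => ?_⟩
    rw [hk', hk, ← mul_assoc]
    congr 1
    by_cases hC : ∀ w ∈ insert v s,
        valv w ((t.1 w : w.adicCompletion F) - (t₁.1 w : w.adicCompletion F)) ≤
          WithZero.exp (cond w - M w)
    · rw [if_pos hC, if_pos (hC v (Finset.mem_insert_self v s)),
        if_pos fun w hw => hC w (Finset.mem_insert_of_mem hw), one_mul]
    · rw [if_neg hC]
      by_cases h1 : valv v ((t.1 v : v.adicCompletion F) - (t₁.1 v : v.adicCompletion F)) ≤
          WithZero.exp (cond v - M v)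
      · rw [if_pos h1, one_mul, if_neg fun h2 => hC fun w hw => ?_]
        rcases Finset.mem_insert.1 hw with rfl | hw
        · exact h1
        · exact h2 w hw
      · rw [if_neg h1, zero_mul]

open Classical in
omit [IsTotallyComplex F] in
/-- Torus elements at the places of `S` and one elsewhere form a finite adelic point. -/
theorem eventually_ite_torusGL_mem (t₁ t₂ : Idl F) :
    ∀ᶠ v : FPlace F in Filter.cofinite,
      (if v ∈ S then torusGL ((t₁.1 v)⁻¹ * t₂.1 v) else (1 : GLv v)) ∈ maxSubgroup v :=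
  Filter.mem_of_superset (S.finite_toSet.compl_mem_cofinite) fun v hv => by
    simp only [Set.mem_ofPred_eq, if_neg (show v ∉ S from hv)]
    exact one_mem _

/-- Two non-zero stable spaces of eigenforms meet. -/
theorem inf_ne_bot {B B' : Submodule ℂ (Gf F → Hyp F → ℂ)}
    (hB : IsStableSpace S B) (hB' : IsStableSpace S B')
    (hBe : B ≤ eigenForms (S : Set (FPlace F)) a) (hBe' : B' ≤ eigenForms (S : Set (FPlace F)) a)
    (hne : B ≠ ⊥) (hne' : B' ≠ ⊥) : B ⊓ B' ≠ ⊥ := by
  classical
  obtain ⟨φ, hφB, hφ0⟩ := Submodule.exists_mem_ne_zero_of_ne_bot hne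
  obtain ⟨χ, hχB, hχ0⟩ := Submodule.exists_mem_ne_zero_of_ne_bot hne'
  obtain ⟨t₁, ht₁, hk₁⟩ := (hBe hφB).exists_kir_ne_zero hφ0
  obtain ⟨t₂, ht₂, hk₂⟩ := (hBe' hχB).exists_kir_ne_zero hχ0
  -- move `χ` to `t₁`
  set g : Gf F := ⟨fun v => if v ∈ S then torusGL ((t₁.1 v)⁻¹ * t₂.1 v) else 1,
    eventually_ite_torusGL_mem (S := S) t₁ t₂⟩
  have hg : ∀ v ∉ S, (g : ∀ v, GLv v) v = 1 := fun v hv => if_neg hv
  set χ' := rightTr g χ
  have hχ'B : χ' ∈ B' := hB' g hg χ hχB
  obtain ⟨V, hV, hVJ⟩ := (hBe' hχB).exists_level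
  have hk₂' : kir χ' t₁ ≠ 0 := by
    rw [kir, fourierCoeff_rightTr hV]
    set e : Gf F := (torusPt t₂)⁻¹ * (torusPt t₁ * g)
    have he : ∀ v, (e : ∀ v, GLv v) v ∈ V.J v := by
      intro v
      show (torusGL (t₂.1 v))⁻¹ * (torusGL (t₁.1 v) *
        (if v ∈ S then torusGL ((t₁.1 v)⁻¹ * t₂.1 v) else 1)) ∈ V.J v
      by_cases hv : v ∈ S
      · rw [if_pos hv, ← torusGL_mul, mul_inv_cancel_left, inv_mul_cancel]
        exact one_mem _
      · rw [if_neg hv, mul_one, hVJ v (by simpa using hv)]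
        have hh : (torusGL (t₂.1 v))⁻¹ * torusGL (t₁.1 v) = torusGL ((t₂.1 v)⁻¹ * t₁.1 v) := by
          rw [inv_mul_eq_iff_eq_mul, ← torusGL_mul, mul_inv_cancel_left]
        rw [hh]
        refine Subgroup.subset_closure (Or.inl (isIntGL_torusGL v ?_))
        rw [Units.val_mul, map_mul, Units.val_inv_eq_inv_val, map_inv₀, ht₁ v hv, ht₂ v hv,
          inv_mul_cancel₀ WithZero.exp_ne_zero]
    rwa [show torusPt t₁ * g = torusPt t₂ * e by simp only [e]; rw [mul_inv_cancel_left],
      fourierCoeff_right hV _ _ _ he]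
  obtain ⟨n, hn⟩ := exists_kir_const (hBe hφB)
  obtain ⟨n', hn'⟩ := exists_kir_const (hBe' hχ'B)
  set M : FPlace F → ℕ := fun v => (cond v -
    WithZero.log (valv v (t₁.1 v : v.adicCompletion F)) + (max (n v) (n' v) : ℕ)).toNat
  obtain ⟨ψ, hψ, hψk⟩ := exists_cut_finset hB hBe hφB t₁ M S subset_rfl
  obtain ⟨ψ', hψ', hψ'k⟩ := exists_cut_finset hB' hBe' hχ'B t₁ M S subset_rfl
  have hclose : ∀ (k : FPlace F → ℕ), (∀ v, k v ≤ max (n v) (n' v)) → ∀ t : Idl F,
      (∀ v ∈ S, valv v ((t.1 v : v.adicCompletion F) - (t₁.1 v : v.adicCompletion F)) ≤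
        WithZero.exp (cond v - M v)) → ∀ v ∈ S,
      valv v ((t.1 v : v.adicCompletion F) - (t₁.1 v : v.adicCompletion F)) ≤
        valv v (t₁.1 v : v.adicCompletion F) * WithZero.exp (-(k v : ℤ)) := by
    intro k hk t h v hv
    refine (h v hv).trans ?_
    have h0 : valv v (t₁.1 v : v.adicCompletion F) ≠ 0 := by simp
    rw [← WithZero.exp_log h0, ← WithZero.exp_add, WithZero.exp_le_exp]
    have := hk v
    simp only [M]
    omega
  have heq : kir φ t₁ • ψ' = kir χ' t₁ • ψ := by
    have e1 : IsEigenForm (S : Set (FPlace F)) a (kir φ t₁ • ψ' + (-kir χ' t₁) • ψ) :=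
      (IsEigenForm.smul (hBe' hψ') _).add (IsEigenForm.smul (hBe hψ) _)
    obtain ⟨U₁, hU₁, -⟩ := (hBe' hψ').exists_level
    obtain ⟨U₂, hU₂, -⟩ := (hBe hψ).exists_level
    have h := e1.eq_zero_of_kir fun t ht => by
      rw [kir_add (hU₁.smul _) (hU₂.smul _), kir_smul hU₁, kir_smul hU₂, hψ'k, hψk]
      split_ifs with hc
      · rw [hn t₁ t ht₁ ht (hclose n (fun v => le_max_left _ _) t hc),
          hn' t₁ t ht₁ ht (hclose n' (fun v => le_max_right _ _) t hc)]
        ring
      · ring
    rwa [neg_smul, ← sub_eq_add_neg, sub_eq_zero] at h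
  intro hbot
  have hmem : kir χ' t₁ • ψ ∈ B ⊓ B' :=
    ⟨B.smul_mem _ hψ, heq ▸ B'.smul_mem _ hψ'⟩
  rw [hbot, Submodule.mem_bot, smul_eq_zero, or_iff_right hk₂'] at hmem
  have h1 := hψk t₁
  rw [if_pos (fun v _ => by rw [sub_self, map_zero]; exact zero_le), one_mul, hmem] at h1
  refine hk₁ (h1.symm.trans ?_)
  obtain ⟨U₀, hU₀, -⟩ := (hBe hφB).exists_level
  simpa using kir_smul hU₀ 0 t₁

end Fermat.Agent.ResidualThree
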