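import Fermat.Agent.ResidualThree.Automorphic.Adele
import Fermat.Agent.ResidualThree.Tree.Local

/-!
# Completions of number fields are local fields with residue field of `N v` elements

Feeds the tree of a place and the spherical theory there.
-/

noncomputable section

open IsDedekindDomain NumberField
open scoped WithZero Topology

namespace Fermat.Agent.ResidualThree

open Fermat.Agent.ResidualThree.Tree (IsLocalVal)

variable {F : Type} [Field F] [NumberField F]

theorem mem_nhds_zero_of_exp (v : FPlace F) {s : Set (v.adicCompletion F)}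
    (hs : s ∈ 𝓝 (0 : v.adicCompletion F)) :
    ∃ N : ℕ, ∀ z, valv v z ≤ WithZero.exp (-(N : ℤ)) → z ∈ s := by
  obtain ⟨γ, hγ⟩ := Valued.mem_nhds_zero.1 hs
  set g : ℤᵐ⁰ := MonoidWithZeroHom.ValueGroup₀.embedding
    (γ : MonoidWithZeroHom.ValueGroup₀ (.ofClass (valv v))) with hg
  have hg0 : g ≠ 0 := by simp [hg]
  refine ⟨(-WithZero.log g).toNat + 1, fun z hz => hγ ?_⟩
  rw [Set.mem_ofPred_eq]
  apply MonoidWithZeroHom.ValueGroup₀.embedding_strictMono.lt_iff_lt.1
  rw [Valuation.embedding_restrict]
  refine hz.trans_lt ?_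
  rw [← hg]
  conv_rhs => rw [← WithZero.exp_log hg0]
  rw [WithZero.exp_lt_exp]
  have := Int.self_le_toNat (-WithZero.log g)
  push_cast
  omega

theorem setOf_le_mem_nhds_zero (v : FPlace F) (N : ℕ) :
    {z : v.adicCompletion F | valv v z ≤ WithZero.exp (-(N : ℤ))} ∈ 𝓝 (0 : v.adicCompletion F) := by
  obtain ⟨π, hπ⟩ := v.valuation_exists_uniformizer F
  rw [Valued.mem_nhds_zero]
  have hy : valv v (algebraMap F (v.adicCompletion F) (π ^ N)) = WithZero.exp (-(N : ℤ)) := by
    rw [valv_algebraMap, map_pow, hπ, ← WithZero.exp_nsmul]; simp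
  have hne : (valv v).restrict (algebraMap F (v.adicCompletion F) (π ^ N)) ≠ 0 := by
    rw [ne_eq, ← map_eq_zero (MonoidWithZeroHom.ValueGroup₀.embedding),
      Valuation.embedding_restrict, hy]
    exact WithZero.exp_ne_zero
  refine ⟨Units.mk0 _ hne, fun a ha => ?_⟩
  rw [Set.mem_ofPred_eq, Units.val_mk0] at ha
  have h' := MonoidWithZeroHom.ValueGroup₀.embedding_strictMono ha
  rw [Valuation.embedding_restrict, Valuation.embedding_restrict, hy] at h'
  exact h'.le

/-- Completeness for sequences with geometrically small steps. -/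
theorem exists_limit_of_steps (v : FPlace F) (a : ℕ → v.adicCompletion F)
    (ha : ∀ n, valv v (a (n + 1) - a n) ≤ WithZero.exp (-(n : ℤ))) :
    ∃ x, ∀ n, valv v (x - a n) ≤ WithZero.exp (-(n : ℤ)) := by
  have key : ∀ n k, valv v (a (n + k) - a n) ≤ WithZero.exp (-(n : ℤ)) := by
    intro n k
    induction k with
    | zero => rw [add_zero, sub_self, map_zero]; exact zero_le
    | succ k ih =>
      rw [← add_assoc, show a (n + k + 1) - a n = (a (n + k + 1) - a (n + k)) + (a (n + k) - a n) by
        ring]
      refine ((valv v).map_add _ _).trans (max_le ((ha _).trans ?_) ih)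
      rw [WithZero.exp_le_exp]; push_cast; omega
  have hc : CauchySeq a := by
    refine NonarchimedeanAddGroup.cauchySeq_of_tendsto_sub_nhds_zero ?_
    intro s hs
    obtain ⟨N, hN⟩ := mem_nhds_zero_of_exp v hs
    refine Filter.mem_map.2 (Filter.mem_atTop_sets.2 ⟨N, fun n hn => hN _ ((ha n).trans ?_)⟩)
    rw [WithZero.exp_le_exp]; omega
  obtain ⟨x, hx⟩ := cauchySeq_tendsto_of_complete hc
  refine ⟨x, fun n => ?_⟩
  have hmem :
      (fun z => z + x) '' {z : v.adicCompletion F | valv v z ≤ WithZero.exp (-(n : ℤ))} ∈ 𝓝 x := by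
    have := (Homeomorph.addRight x).isOpenMap.image_mem_nhds (setOf_le_mem_nhds_zero v n)
    simpa using this
  obtain ⟨M, hM⟩ := Filter.mem_atTop_sets.1 (hx hmem)
  obtain ⟨z, hz, hzx⟩ := hM (n + M) (Nat.le_add_left _ _)
  simp only at hzx
  rw [show x - a n = -z + (a (n + M) - a n) by rw [← hzx]; ring]
  refine ((valv v).map_add _ _).trans (max_le ?_ (key n M))
  rwa [Valuation.map_neg]

/-- The integers reduced into the residue field of the completion. -/
def toResidue (v : FPlace F) :
    𝓞 F →+* IsLocalRing.ResidueField (valv v).valuationSubring :=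
  (IsLocalRing.residue (valv v).valuationSubring).comp
    (((algebraMap F (v.adicCompletion F)).comp (algebraMap (𝓞 F) F)).codRestrict
      (valv v).valuationSubring.toSubring fun a => by
        show valv v (algebraMap F (v.adicCompletion F) (a : F)) ≤ 1
        rw [valv_algebraMap]
        exact v.valuation_le_one a)

theorem residue_valv_eq_zero_iff (v : FPlace F) (z : (valv v).valuationSubring) :
    IsLocalRing.residue (valv v).valuationSubring z = 0 ↔ valv v (z : v.adicCompletion F) < 1 := by
  rw [IsLocalRing.residue_eq_zero_iff, Valuation.mem_maximalIdeal_iff]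

theorem toResidue_surjective (v : FPlace F) : Function.Surjective (toResidue v) := by
  intro r
  obtain ⟨z, rfl⟩ := IsLocalRing.residue_surjective r
  obtain ⟨a, ha⟩ := exists_integer_sub_le v (z : v.adicCompletion F) z.2 1
  refine ⟨a, ?_⟩
  rw [← sub_eq_zero, toResidue, RingHom.comp_apply, ← map_sub, residue_valv_eq_zero_iff]
  refine lt_of_le_of_lt ha ?_
  rw [← WithZero.exp_zero, WithZero.exp_lt_exp]
  norm_num

theorem ker_toResidue (v : FPlace F) : RingHom.ker (toResidue v) = v.asIdeal := by
  ext a
  rw [RingHom.mem_ker, toResidue, RingHom.comp_apply, residue_valv_eq_zero_iff]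
  show valv v (algebraMap F (v.adicCompletion F) (algebraMap (𝓞 F) F a)) < 1 ↔ _
  rw [valv_algebraMap, HeightOneSpectrum.valuation_lt_one_iff_mem]

/-- Completions at finite places are local fields. -/
theorem isLocalVal_valv (v : FPlace F) : IsLocalVal (valv v) (Ideal.absNorm v.asIdeal) where
  exists_unif := by
    obtain ⟨π, hπ⟩ := v.valuation_exists_uniformizer F
    exact ⟨algebraMap F _ π, by rw [valv_algebraMap]; exact hπ⟩
  complete := exists_limit_of_steps v
  finite_residue := by
    have := Ideal.finiteQuotientOfFreeOfNeBot v.asIdeal v.ne_bot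
    exact Finite.of_equiv _ ((Ideal.quotEquivOfEq (ker_toResidue v).symm).trans
      (RingHom.quotientKerEquivOfSurjective (toResidue_surjective v))).toEquiv
  card_residue := by
    rw [Ideal.absNorm_apply, Submodule.cardQuot_apply]
    exact (Nat.card_congr ((Ideal.quotEquivOfEq (ker_toResidue v).symm).trans
      (RingHom.quotientKerEquivOfSurjective (toResidue_surjective v))).toEquiv).symm

end Fermat.Agent.ResidualThree
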