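import Fermat.Agent.ResidualThree.Automorphic.Levels
import Fermat.Agent.ResidualThree.Automorphic.LocalVal
import Fermat.Agent.ResidualThree.Tree.GL2Tree
import Fermat.Agent.ResidualThree.Tree.Graph
import Fermat.Agent.ResidualThree.Tree.SatakeAlg

/-!
# A spherical eigenfunction on the tree of one place

Used for the Hecke eigenvalue at a spherical place.
-/

noncomputable section

open IsDedekindDomain NumberField
open scoped WithZero

namespace Fermat.Agent.ResidualThree

open Fermat.Agent.ResidualThree.Tree (Vert vdist)

variable {F : Type} [Field F] [NumberField F]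

theorem single_mul (v : FPlace F) (g h : GLv v) : single v (g * h) = single v g * single v h :=
  by classical exact Subtype.ext (Pi.mulSingle_mul v g h)

theorem single_one (v : FPlace F) : single v (1 : GLv v) = 1 := by
  classical exact Subtype.ext (Pi.mulSingle_one v)

theorem single_inv (v : FPlace F) (g : GLv v) : single v g⁻¹ = (single v g)⁻¹ :=
  by classical exact Subtype.ext (Pi.mulSingle_inv v g)

theorem single_apply_same (v : FPlace F) (g : GLv v) : ((single v g : Gf F) : ∀ w, GLv w) v = g :=
  by classical exact Pi.mulSingle_eq_same v g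

theorem single_apply_ne {v w : FPlace F} (h : w ≠ v) (g : GLv v) :
    ((single v g : Gf F) : ∀ w, GLv w) w = 1 := by
  classical exact Pi.mulSingle_eq_of_ne h g

theorem commute_single {v : FPlace F} {x : Gf F} (hx : (x : ∀ w, GLv w) v = 1) (g : GLv v) :
    Commute x (single v g) := by
  refine Subtype.ext (funext fun w => ?_)
  show (x : ∀ w, GLv w) w * ((single v g : Gf F) : ∀ w, GLv w) w =
    ((single v g : Gf F) : ∀ w, GLv w) w * (x : ∀ w, GLv w) w
  by_cases h : w = v
  · subst h; rw [hx, one_mul, mul_one]
  · rw [single_apply_ne h, one_mul, mul_one]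

/-- The tree of a finite place. -/
theorem placeTree (v : FPlace F) :
    Tree.IsRegTree (vdist (v := valv v)) (Ideal.absNorm v.asIdeal) :=
  Tree.isRegTree (isLocalVal_valv v)

/-- The base vertex. -/
def baseVert (v : FPlace F) : Vert (valv v) := QuotientGroup.mk 1

/-- The sphere around the base vertex. -/
def baseSphere (v : FPlace F) (n : ℕ) : Finset (Vert (valv v)) :=
    (placeTree v).sphere (baseVert v) n

theorem mem_baseSphere {v : FPlace F} {n : ℕ} {y : Vert (valv v)} :
    y ∈ baseSphere v n ↔ vdist (baseVert v) y = n := (placeTree v).mem_sphere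

theorem vdist_baseVert_out {v : FPlace F} (y : Vert (valv v)) :
    vdist (baseVert v) y = cartan (valv v) y.out := by
  have h := Tree.vdist_mk (v := valv v) 1 y.out
  rw [QuotientGroup.out_eq'] at h
  rw [baseVert, h, inv_one, one_mul]

/-- The Hecke operator is a finite sum over spheres. -/
theorem heckeOp_eq_sum (v : FPlace F) (n : ℕ) (φ : Gf F → Hyp F → ℂ) (x : Gf F) (p : Hyp F) :
    heckeOp v (Finsupp.single n 1) φ x p = ∑ y ∈ baseSphere v n, φ (x * single v y.out) p := by
  classical
  have hsub : Function.support (fun y : GLv v ⧸ maxSubgroup v =>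
      (Finsupp.single n (1 : ℂ)) (cartan (valv v) y.out) * φ (x * single v y.out) p) ⊆
      ↑(show Finset (GLv v ⧸ maxSubgroup v) from baseSphere v n) := by
    intro y hy
    rw [Function.mem_support] at hy
    have h := left_ne_zero_of_mul hy
    rw [Finsupp.single_apply] at h
    rw [Finset.mem_coe]
    refine mem_baseSphere.2 ?_
    rw [vdist_baseVert_out]
    by_contra hne
    exact h (if_neg fun e => hne e.symm)
  rw [heckeOp]
  rw [finsum_eq_sum_of_support_subset _ hsub]
  refine Finset.sum_congr rfl fun y hy => ?_
  have e : cartan (valv v) (Quotient.out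
      (s := QuotientGroup.leftRel (Tree.vertexSubgroup (valv v))) y) = n :=
    (vdist_baseVert_out (v := v) y).symm.trans (mem_baseSphere.1 hy)
  have e' : (Finsupp.single n (1 : ℂ)) (cartan (valv v) (Quotient.out y)) = 1 :=
    (congrArg (Finsupp.single n (1 : ℂ)) e).trans Finsupp.single_eq_same
  rw [e', one_mul]
  rfl

/-- Right invariance under the maximal compact subgroup at `v`. -/
def IsSphericalAt (v : FPlace F) (φ : Gf F → Hyp F → ℂ) : Prop :=
  ∀ x, ∀ k ∈ maxSubgroup v, φ (x * single v k) = φ x

theorem IsAutomorphic.sphericalAt {U : Level F} {φ : Gf F → Hyp F → ℂ} (h : IsAutomorphic U φ)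
    {v : FPlace F} (hv : U.J v = maxSubgroup v) : IsSphericalAt v φ := fun x k hk =>
  h.right x (single v k) fun w => by
    by_cases e : w = v
    · subst e; rw [single_apply_same, hv]; exact hk
    · rw [single_apply_ne e]; exact one_mem _

/-- The translates of a spherical function, indexed by the vertices. -/
def vertFun (v : FPlace F) (φ : Gf F → Hyp F → ℂ) (u : Vert (valv v)) : Gf F → Hyp F → ℂ :=
  rightTr (single v u.out) φ

variable {v : FPlace F} {φ : Gf F → Hyp F → ℂ}

theorem vertFun_mk (hs : IsSphericalAt v φ) (g : GLv v) :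
    vertFun v φ (QuotientGroup.mk g : Vert (valv v)) = rightTr (single v g) φ := by
  obtain ⟨k, hk⟩ := QuotientGroup.mk_out_eq_mul (Tree.vertexSubgroup (valv v)) g
  funext x
  show φ (x * single v (QuotientGroup.mk g : Vert (valv v)).out) = _
  rw [hk, single_mul, ← mul_assoc]
  exact hs _ _ k.2

theorem vertFun_base (hs : IsSphericalAt v φ) : vertFun v φ (baseVert v) = φ := by
  rw [baseVert, vertFun_mk hs, single_one, rightTr_one]

theorem rightTr_vertFun (hs : IsSphericalAt v φ) (g : GLv v) (u : Vert (valv v)) :
    rightTr (single v g) (vertFun v φ u) = vertFun v φ (g • u) := by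
  induction u using QuotientGroup.induction_on with
  | H h =>
    rw [MulAction.Quotient.smul_mk, vertFun_mk hs, vertFun_mk hs, smul_eq_mul, single_mul,
      rightTr_mul]

/-- The eigenvalue as a relation between vertices. -/
theorem sum_nbhd_vertFun (hs : IsSphericalAt v φ) {a : ℂ} (ha : HasEigenvalue v a φ)
    (u : Vert (valv v)) :
    ∑ y ∈ (placeTree v).nbhd u, vertFun v φ y =
      (Tree.csqrtN (Ideal.absNorm v.asIdeal) * a) • vertFun v φ u := by
  induction u using QuotientGroup.induction_on with
  | H g =>
    have hbase : ∀ x p, ∑ y ∈ baseSphere v 1, φ (x * single v y.out) p =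
        Tree.csqrtN (Ideal.absNorm v.asIdeal) * a * φ x p := fun x p => by
      rw [← heckeOp_eq_sum, ha]; rfl
    funext x p
    rw [Finset.sum_apply, Finset.sum_apply, Pi.smul_apply, Pi.smul_apply, smul_eq_mul,
      vertFun_mk hs]
    show _ = _ * φ (x * single v g) p
    rw [← hbase]
    refine Finset.sum_nbij' (fun y => g⁻¹ • y) (fun y => g • y) ?_ ?_ (fun y _ => smul_inv_smul g y)
      (fun y _ => inv_smul_smul g y) ?_
    · intro y hy
      rw [(placeTree v).mem_nbhd] at hy
      rw [mem_baseSphere, ← Tree.vdist_smul g, smul_inv_smul, baseVert,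
        MulAction.Quotient.smul_mk, smul_eq_mul, mul_one]
      exact hy
    · intro y hy
      rw [mem_baseSphere] at hy
      rw [(placeTree v).mem_nbhd, ← hy, ← Tree.vdist_smul g (baseVert v), baseVert,
        MulAction.Quotient.smul_mk, smul_eq_mul, mul_one]
    · intro y _
      show vertFun v φ y x p = φ (x * single v g * single v (g⁻¹ • y).out) p
      conv_lhs => rw [show y = g • (g⁻¹ • y) from (smul_inv_smul g y).symm, ← rightTr_vertFun hs]
      rfl

/-- Sums over spheres. -/
theorem sum_sphere_vertFun (hs : IsSphericalAt v φ) {a : ℂ} (ha : HasEigenvalue v a φ)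
    (u : Vert (valv v)) (n : ℕ) :
    ∑ y ∈ (placeTree v).sphere u n, vertFun v φ y =
      Tree.sphereEigen (Ideal.absNorm v.asIdeal) a n • vertFun v φ u :=
  (placeTree v).sum_sphere (vertFun v φ) a (sum_nbhd_vertFun hs ha) u n

end Fermat.Agent.ResidualThree
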