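import Fermat.Agent.ResidualThree.Automorphic.FourierRules
import Fermat.Agent.ResidualThree.Automorphic.Sphere
import Fermat.Agent.ResidualThree.Spherical.Radial

/-!
# The space of cusp forms with prescribed eigenvalues outside a set of places

It is the space on which the Hecke operators and the spectral argument act.
-/

noncomputable section

open IsDedekindDomain NumberField MeasureTheory
open scoped WithZero

namespace Fermat.Agent.ResidualThree

variable {F : Type} [Field F] [NumberField F]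

/-- A bounded cusp form of spectral parameter zero, spherical with eigenvalue `a v` outside `S`. -/
structure IsEigenForm (S : Set (FPlace F)) (a : FPlace F → ℂ) (φ : Gf F → Hyp F → ℂ) : Prop where
  exists_level : ∃ U : Level F, IsAutomorphic U φ ∧ ∀ v ∉ S, U.J v = maxSubgroup v
  cuspidal : IsCuspidal φ
  spectral : IsSpectralZero φ
  bounded : ∃ C, ∀ x p, ‖φ x p‖ ≤ C
  eigen : ∀ v ∉ S, HasEigenvalue v (a v) φ

theorem IsEigenForm.sphericalAt {S : Set (FPlace F)} {a : FPlace F → ℂ} {φ : Gf F → Hyp F → ℂ}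
    (h : IsEigenForm S a φ) {v : FPlace F} (hv : v ∉ S) : IsSphericalAt v φ := by
  obtain ⟨U, hU, hJ⟩ := h.exists_level
  exact hU.sphericalAt (hJ v hv)

theorem IsEigenForm.continuous {S : Set (FPlace F)} {a : FPlace F → ℂ} {φ : Gf F → Hyp F → ℂ}
    (h : IsEigenForm S a φ) (x : Gf F) : Continuous (φ x) := by
  obtain ⟨U, hU, -⟩ := h.exists_level
  exact hU.continuous x

theorem continuous_update_place {φ : Gf F → Hyp F → ℂ} {x : Gf F} (hc : Continuous (φ x))
    (p : Hyp F) (w : InfinitePlace F) [DecidableEq (InfinitePlace F)] :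
    Continuous fun q : H3 => φ x (Function.update p w q) :=
  hc.comp (continuous_const.update w continuous_id)

theorem isSpectralZero_add {φ ψ : Gf F → Hyp F → ℂ} (hφ : IsSpectralZero φ) (hψ : IsSpectralZero ψ)
    (hc : ∀ x, Continuous (φ x)) (hc' : ∀ x, Continuous (ψ x)) : IsSpectralZero (φ + ψ) := by
  classical
  intro x w k hk hk' p
  have hi := (H3.IsKernel.integrable_mul ⟨hk, hk'⟩ (p w) (continuous_update_place (hc x) p w))
  have hi' := (H3.IsKernel.integrable_mul ⟨hk, hk'⟩ (p w) (continuous_update_place (hc' x) p w))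
  simp only [Pi.add_apply, mul_add]
  rw [integral_add hi hi', hφ x w k hk hk' p, hψ x w k hk hk' p]

theorem isSpectralZero_smul {φ : Gf F → Hyp F → ℂ} (hφ : IsSpectralZero φ) (c : ℂ) :
    IsSpectralZero (c • φ) := by
  intro x w k hk hk' p
  simp only [Pi.smul_apply, smul_eq_mul, mul_left_comm _ c, integral_const_mul]
  rw [hφ x w k hk hk' p]

theorem hasEigenvalue_add {v : FPlace F} {a : ℂ} {φ ψ : Gf F → Hyp F → ℂ}
    (hφ : HasEigenvalue v a φ) (hψ : HasEigenvalue v a ψ) : HasEigenvalue v a (φ + ψ) := by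
  funext x p
  have h1 := congrFun (congrFun hφ x) p
  have h2 := congrFun (congrFun hψ x) p
  rw [heckeOp_eq_sum] at h1 h2
  rw [heckeOp_eq_sum]
  simp only [Pi.add_apply, Finset.sum_add_distrib, h1, h2, mul_add]

theorem hasEigenvalue_smul {v : FPlace F} {a : ℂ} {φ : Gf F → Hyp F → ℂ}
    (hφ : HasEigenvalue v a φ) (c : ℂ) : HasEigenvalue v a (c • φ) := by
  funext x p
  have h1 := congrFun (congrFun hφ x) p
  rw [heckeOp_eq_sum] at h1
  rw [heckeOp_eq_sum]
  simp only [Pi.smul_apply, smul_eq_mul, ← Finset.mul_sum, h1]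
  ring

variable [IsTotallyComplex F]

theorem isCuspidal_iff {U : Level F} {φ : Gf F → Hyp F → ℂ} (hφ : IsAutomorphic U φ) :
    IsCuspidal φ ↔ ∀ x p, fourierCoeff φ 0 x p = 0 := by
  refine ⟨fun h => fourierCoeff_zero hφ h, fun h x p m hm hper => ?_⟩
  have hcp : HasCommonPeriod φ 0 x m := ⟨hm, hper, fun b => by simp [traceExp]⟩
  rw [← h x p, fourierCoeff_eq (hφ.continuous _) p hcp, boxMean_zero]
  rfl

theorem fourierCoeff_add {U U' : Level F} {φ ψ : Gf F → Hyp F → ℂ} (hφ : IsAutomorphic U φ)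
    (hψ : IsAutomorphic U' ψ) (ν : F) (x : Gf F) (p : Hyp F) :
    fourierCoeff (φ + ψ) ν x p = fourierCoeff φ ν x p + fourierCoeff ψ ν x p := by
  obtain ⟨m, hm, hper, hdual⟩ := hφ.exists_commonPeriod ν x
  obtain ⟨k, hk, hper', -⟩ := hψ.exists_commonPeriod ν x
  have h1 : HasCommonPeriod φ ν x (m * k) := ⟨Nat.mul_pos hm hk, hper.mul k, hdual.mul k⟩
  have h2 : HasCommonPeriod ψ ν x (m * k) :=
    ⟨Nat.mul_pos hm hk, by rw [mul_comm]; exact hper'.mul m, hdual.mul k⟩
  have h3 : HasCommonPeriod (φ + ψ) ν x (m * k) :=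
    ⟨Nat.mul_pos hm hk, fun b q => by simp only [Pi.add_apply, h1.2.1 b q, h2.2.1 b q], hdual.mul k⟩
  rw [fourierCoeff_eq (φ := φ + ψ) ((hφ.continuous x).add (hψ.continuous x)) p h3,
    fourierCoeff_eq (hφ.continuous x) p h1, fourierCoeff_eq (hψ.continuous x) p h2,
    boxMean, boxMean, boxMean, cubeMean, cubeMean, cubeMean]
  have hint : ∀ (χ : Gf F → Hyp F → ℂ), Continuous (χ x) →
      IntegrableOn (boxFun χ ν x p (m * k))
        {t : BasisIx F → ℝ | ∀ i, t i ∈ Set.Ioc (0 : ℝ) 1} volume := fun χ hc =>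
    ((continuous_boxFun hc ν p (m * k)).continuousOn.integrableOn_compact
      (isCompact_univ_pi fun _ : BasisIx F => (isCompact_Icc (a := (0 : ℝ)) (b := 1)))).mono_set
        fun t ht i _ => Set.Ioc_subset_Icc_self (ht i)
  rw [← integral_add (hint φ (hφ.continuous x)) (hint ψ (hψ.continuous x))]
  refine integral_congr_ae (Filter.Eventually.of_forall fun t => ?_)
  simp only [boxFun, Pi.add_apply, add_mul]

theorem fourierCoeff_smul {U : Level F} {φ : Gf F → Hyp F → ℂ} (hφ : IsAutomorphic U φ) (c : ℂ)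
    (ν : F) (x : Gf F) (p : Hyp F) :
    fourierCoeff (c • φ) ν x p = c * fourierCoeff φ ν x p := by
  obtain ⟨m, hm, hper, hdual⟩ := hφ.exists_commonPeriod ν x
  have h3 : HasCommonPeriod (c • φ) ν x m :=
    ⟨hm, fun b q => by simp only [Pi.smul_apply, hper b q], hdual⟩
  rw [fourierCoeff_eq (φ := c • φ) ((hφ.continuous x).const_smul c) p h3,
    fourierCoeff_eq (hφ.continuous x) p ⟨hm, hper, hdual⟩, boxMean, boxMean, cubeMean, cubeMean,
    ← integral_const_mul]
  refine integral_congr_ae (Filter.Eventually.of_forall fun t => ?_)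
  simp only [boxFun, Pi.smul_apply, smul_eq_mul, mul_assoc]

variable {S : Set (FPlace F)} {a : FPlace F → ℂ}

theorem IsEigenForm.add {φ ψ : Gf F → Hyp F → ℂ} (hφ : IsEigenForm S a φ)
    (hψ : IsEigenForm S a ψ) : IsEigenForm S a (φ + ψ) := by
  obtain ⟨U, hU, hJ⟩ := hφ.exists_level
  obtain ⟨U', hU', hJ'⟩ := hψ.exists_level
  have h1 := hU.mono (U' := U.inter U') fun v => inf_le_left
  have h2 := hU'.mono (U' := U.inter U') fun v => inf_le_right
  refine ⟨⟨U.inter U', h1.add h2, fun v hv => by rw [Level.inter_J, hJ v hv, hJ' v hv, inf_idem]⟩,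
    (isCuspidal_iff (h1.add h2)).2 fun x p => ?_,
    isSpectralZero_add hφ.spectral hψ.spectral hU.continuous hU'.continuous, ?_,
    fun v hv => hasEigenvalue_add (hφ.eigen v hv) (hψ.eigen v hv)⟩
  · rw [fourierCoeff_add hU hU', (isCuspidal_iff hU).1 hφ.cuspidal,
      (isCuspidal_iff hU').1 hψ.cuspidal, add_zero]
  · obtain ⟨C, hC⟩ := hφ.bounded
    obtain ⟨C', hC'⟩ := hψ.bounded
    exact ⟨C + C', fun x p => (norm_add_le _ _).trans (add_le_add (hC x p) (hC' x p))⟩

theorem IsEigenForm.smul {φ : Gf F → Hyp F → ℂ} (hφ : IsEigenForm S a φ) (c : ℂ) :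
    IsEigenForm S a (c • φ) := by
  obtain ⟨U, hU, hJ⟩ := hφ.exists_level
  obtain ⟨C, hC⟩ := hφ.bounded
  refine ⟨⟨U, hU.smul c, hJ⟩, (isCuspidal_iff (hU.smul c)).2 fun x p => ?_,
    isSpectralZero_smul hφ.spectral c, ⟨‖c‖ * C, fun x p => ?_⟩,
    fun v hv => hasEigenvalue_smul (hφ.eigen v hv) c⟩
  · rw [fourierCoeff_smul hU, (isCuspidal_iff hU).1 hφ.cuspidal, mul_zero]
  · simp only [Pi.smul_apply, smul_eq_mul, norm_mul]
    exact mul_le_mul_of_nonneg_left (hC x p) (norm_nonneg c)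

omit [IsTotallyComplex F] in
theorem isEigenForm_zero : IsEigenForm S a (0 : Gf F → Hyp F → ℂ) := by
  refine ⟨⟨⟨maxSubgroup, fun v => le_rfl, fun v => ⟨0, congSubgroup_le_max v 0⟩,
    Filter.Eventually.of_forall fun v => rfl⟩, ⟨fun γ x y _ p => rfl, fun x j _ => rfl,
      fun x => continuous_const⟩, fun v _ => rfl⟩, fun x p m _ _ => by simp, ?_,
    ⟨0, fun x p => by simp⟩, fun v _ => ?_⟩
  · intro x w k _ _ p; simp
  · funext x p; simp [heckeOp_eq_sum]

variable (S a) in
/-- The eigenforms, as a subspace. -/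
def eigenForms : Submodule ℂ (Gf F → Hyp F → ℂ) where
  carrier := {φ | IsEigenForm S a φ}
  add_mem' h h' := IsEigenForm.add h h'
  zero_mem' := isEigenForm_zero
  smul_mem' c _ h := IsEigenForm.smul h c

omit [IsTotallyComplex F] in
/-- Translations at the places of `S` preserve the space. -/
theorem IsEigenForm.rightTr {φ : Gf F → Hyp F → ℂ} (hφ : IsEigenForm S a φ) {g : Gf F}
    (hg : ∀ v ∉ S, (g : ∀ v, GLv v) v = 1) : IsEigenForm S a (rightTr g φ) := by
  obtain ⟨U, hU, hJ⟩ := hφ.exists_level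
  obtain ⟨C, hC⟩ := hφ.bounded
  refine ⟨⟨U.conjBy g, hU.rightTr g, fun v hv => Level.conjBy_eq_max (hJ v hv) (by
      rw [hg v hv]; exact one_mem _)⟩,
    fun x p m hm h => hφ.cuspidal (x * g) p m hm h,
    fun x w k hk hk' p => hφ.spectral (x * g) w k hk hk' p,
    ⟨C, fun x p => hC (x * g) p⟩, fun v hv => ?_⟩
  funext x p
  have h1 := congrFun (congrFun (hφ.eigen v hv) (x * g)) p
  rw [heckeOp_eq_sum] at h1 ⊢
  show ∑ y ∈ baseSphere v 1, φ (x * single v y.out * g) p = _
  simp only [mul_assoc x, ← (commute_single (hg v hv) _).eq]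
  simp only [mul_assoc x] at h1
  exact h1

end Fermat.Agent.ResidualThree
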