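import Fermat.Agent.ResidualThree.Automorphic.Periods

/-!
# The trace pairing on the horospherical coordinates of a totally complex field

It identifies the characters of the period lattices, hence the Fourier series.
-/

noncomputable section

open IsDedekindDomain NumberField
open scoped WithZero

namespace Fermat.Agent.ResidualThree

variable {F : Type} [Field F] [NumberField F]

/-- `Σ_w 2 Re (w(ν) b_w)`. -/
def realPair (ν : F) (b : InfinitePlace F → ℂ) : ℝ := ∑ w, 2 * (w.embedding ν * b w).re

/-- `exp (2πi Σ_w 2 Re (w(ν) b_w))`. -/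
def archExp (ν : F) (b : InfinitePlace F → ℂ) : ℂ :=
  Complex.exp (2 * (Real.pi : ℂ) * Complex.I * (realPair ν b : ℂ))

theorem realPair_add (ν : F) (a b : InfinitePlace F → ℂ) :
    realPair ν (a + b) = realPair ν a + realPair ν b := by
  simp only [realPair, Pi.add_apply, mul_add, Complex.add_re, Finset.sum_add_distrib]

theorem archExp_add (ν : F) (a b : InfinitePlace F → ℂ) :
    archExp ν (a + b) = archExp ν a * archExp ν b := by
  rw [archExp, archExp, archExp, ← Complex.exp_add, realPair_add]; push_cast; ring_nf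

theorem norm_archExp (ν : F) (b : InfinitePlace F → ℂ) : ‖archExp ν b‖ = 1 := by
  rw [archExp, show 2 * (Real.pi : ℂ) * Complex.I * (realPair ν b : ℂ) =
    ((2 * Real.pi * realPair ν b : ℝ) : ℂ) * Complex.I by push_cast; ring]
  exact Complex.norm_exp_ofReal_mul_I _

theorem archExp_zero_left (b : InfinitePlace F → ℂ) : archExp (0 : F) b = 1 := by
  simp [archExp, realPair]

theorem continuous_archExp (ν : F) : Continuous fun b : InfinitePlace F → ℂ => archExp ν b := by
  unfold archExp realPair
  fun_prop

theorem realPair_mul (ν γ : F) (b : InfinitePlace F → ℂ) :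
    realPair (ν * γ) b = realPair ν (archVec γ * b) := by
  simp only [realPair, Pi.mul_apply, archVec, map_mul, mul_assoc]

variable [IsTotallyComplex F]

theorem sum_two_re (x : F) :
    ∑ w : InfinitePlace F, 2 * (w.embedding x).re = ((Algebra.trace ℚ F x : ℚ) : ℝ) := by
  classical
  have h1 : ((Algebra.trace ℚ F x : ℚ) : ℂ) = ∑ φ : F →+* ℂ, φ x := by
    rw [← eq_ratCast (algebraMap ℚ ℂ), trace_eq_sum_embeddings (E := ℂ)]
    exact (Fintype.sum_equiv (RingHom.equivRatAlgHom F ℂ) (fun φ : F →+* ℂ => φ x) (fun σ => σ x)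
      fun φ => rfl).symm
  have h2 := congrArg Complex.re h1
  rw [Complex.re_sum] at h2
  rw [show (((Algebra.trace ℚ F x : ℚ) : ℂ)).re = ((Algebra.trace ℚ F x : ℚ) : ℝ) from
    Complex.ratCast_re _] at h2
  rw [h2, ← Finset.univ.sum_fiberwise InfinitePlace.mk fun φ : F →+* ℂ => (φ x).re]
  refine Finset.sum_congr rfl fun w _ => ?_
  have hc : ∀ φ ∈ ({φ | InfinitePlace.mk φ = w} : Finset (F →+* ℂ)),
      (φ x).re = (w.embedding x).re := by
    intro φ hφ
    simp only [Finset.mem_filter, Finset.mem_univ, true_and] at hφ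
    rw [← InfinitePlace.mk_embedding w, InfinitePlace.mk_eq_iff] at hφ
    rcases hφ with rfl | h
    · rfl
    · rw [← h, ComplexEmbedding.conjugate_coe_eq, Complex.conj_re]
  rw [Finset.sum_congr rfl hc, Finset.sum_const, InfinitePlace.card_filter_mk_eq,
    IsTotallyComplex.mult_eq, nsmul_eq_mul]
  norm_num

theorem realPair_archVec (ν β : F) :
    realPair ν (archVec β) = ((Algebra.trace ℚ F (ν * β) : ℚ) : ℝ) := by
  rw [← sum_two_re, realPair]
  simp [archVec]

theorem archExp_archVec (ν β : F) : archExp ν (archVec β) = traceExp (ν * β) := by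
  rw [archExp, realPair_archVec, traceExp]
  push_cast
  rfl

theorem realPair_boxPt (ν : F) (m : ℕ) (t : BasisIx F → ℝ) :
    realPair ν (boxPt m t) = ∑ i, t i *
      ((Algebra.trace ℚ F (ν * ((m : F) * (RingOfIntegers.basis F i : F))) : ℚ) : ℝ) := by
  simp only [← realPair_archVec, realPair, boxPt, Finset.mul_sum, Complex.re_sum, archVec]
  rw [Finset.sum_comm]
  refine Finset.sum_congr rfl fun i _ => Finset.sum_congr rfl fun w _ => ?_
  rw [map_mul, map_natCast, show w.embedding ν *
      ((t i : ℂ) * ((m : ℂ) * w.embedding (RingOfIntegers.basis F i : F))) =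
      (t i : ℂ) * (w.embedding ν * ((m : ℂ) * w.embedding (RingOfIntegers.basis F i : F))) by ring,
    Complex.re_ofReal_mul]
  ring

omit [IsTotallyComplex F] in
/-- The element with prescribed traces against the basis. -/
theorem exists_trace_eq (c : BasisIx F → ℚ) :
    ∃ ν : F, ∀ i, Algebra.trace ℚ F (ν * (RingOfIntegers.basis F i : F)) = c i := by
  classical
  set D' := (Algebra.traceForm ℚ F).dualBasis (traceForm_nondegenerate ℚ F) (integralBasis F)
  refine ⟨∑ i, c i • D' i, fun j => ?_⟩
  have h : D'.repr (∑ i, c i • D' i) j = c j := by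
    rw [map_sum, Finsupp.finsetSum_apply]
    simp [Finsupp.single_apply]
  rwa [LinearMap.BilinForm.dualBasis_repr_apply, Algebra.traceForm_apply, integralBasis_apply] at h

omit [IsTotallyComplex F] in
theorem boxPt_smul (m : ℕ) (c : ℝ) (t : BasisIx F → ℝ) :
    boxPt (F := F) m (c • t) = c • boxPt m t := by
  funext w
  simp [boxPt, Finset.mul_sum, Complex.real_smul, mul_assoc]

/-- The coordinates as a linear map. -/
def boxLin (m : ℕ) : (BasisIx F → ℝ) →ₗ[ℝ] (InfinitePlace F → ℂ) where
  toFun := boxPt m
  map_add' := boxPt_add m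
  map_smul' c t := boxPt_smul m c t

theorem boxPt_injective {m : ℕ} (hm : 0 < m) : Function.Injective (boxPt (F := F) m) := by
  classical
  intro s t h
  funext j
  obtain ⟨ν, hν⟩ := exists_trace_eq (F := F) (fun i => if i = j then 1 else 0)
  have key : ∀ r, realPair (ν / (m : F)) (boxPt m r) = r j := by
    intro r
    rw [realPair_boxPt, Finset.sum_eq_single j]
    · rw [show ν / (m : F) * ((m : F) * (RingOfIntegers.basis F j : F)) =
        ν * (RingOfIntegers.basis F j : F) by
        rw [← mul_assoc, div_mul_cancel₀ _ (Nat.cast_ne_zero.2 hm.ne')], hν]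
      simp
    · intro i _ hij
      rw [show ν / (m : F) * ((m : F) * (RingOfIntegers.basis F i : F)) =
        ν * (RingOfIntegers.basis F i : F) by
        rw [← mul_assoc, div_mul_cancel₀ _ (Nat.cast_ne_zero.2 hm.ne')], hν, if_neg hij]
      simp
    · simp
  rw [← key s, h, key t]

/-- The period boxes give real coordinates on the infinite places. -/
theorem boxPt_surjective {m : ℕ} (hm : 0 < m) : Function.Surjective (boxPt (F := F) m) := by
  have hr : Module.finrank ℝ (BasisIx F → ℝ) = Module.finrank ℝ (InfinitePlace F → ℂ) := by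
    rw [Module.finrank_fintype_fun_eq_card, Module.finrank_pi_fintype,
      ← Module.finrank_eq_card_chooseBasisIndex, RingOfIntegers.rank, IsTotallyComplex.finrank]
    simp [Complex.finrank_real_complex, InfinitePlace.card_eq_nrRealPlaces_add_nrComplexPlaces,
      IsTotallyComplex.nrRealPlaces_eq_zero, mul_comm]
  exact (LinearMap.injective_iff_surjective_of_finrank_eq_finrank hr (f := boxLin m)).1
    (boxPt_injective hm)

end Fermat.Agent.ResidualThree
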