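import Fermat.Agent.ResidualThree.Automorphic.Mean
import Fermat.Agent.ResidualThree.Automorphic.TraceForm

/-!
# Fourier coefficients of automorphic functions

`fourierCoeff φ ν x p` is the mean over a common period box of `φ x (p + b) · e(-Tr νb)`.
-/

noncomputable section

open IsDedekindDomain NumberField MeasureTheory
open scoped WithZero ComplexConjugate

namespace Fermat.Agent.ResidualThree

variable {F : Type} [Field F] [NumberField F]

/-- `ν` pairs integrally with the lattice `m 𝓞`. -/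
def IsDualPeriod (ν : F) (m : ℕ) : Prop := ∀ b : 𝓞 F, traceExp (ν * ((m : F) * (b : F))) = 1

theorem IsDualPeriod.mul {ν : F} {m : ℕ} (h : IsDualPeriod ν m) (k : ℕ) : IsDualPeriod ν (m * k) :=
  fun b => by
    rw [show ν * (((m * k : ℕ) : F) * (b : F)) = ν * ((m : F) * (((k : 𝓞 F) * b : 𝓞 F) : F)) by
      push_cast; ring]
    exact h _

/-- The integrand on a period box. -/
def boxFun (φ : Gf F → Hyp F → ℂ) (ν : F) (x : Gf F) (p : Hyp F) (m : ℕ)
    (t : BasisIx F → ℝ) : ℂ :=
  φ x (horoShift (boxPt m t) p) * conj (archExp ν (boxPt m t))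

/-- The mean over the period box `m`. -/
def boxMean (φ : Gf F → Hyp F → ℂ) (ν : F) (x : Gf F) (p : Hyp F) (m : ℕ) : ℂ :=
  cubeMean (boxFun φ ν x p m)

/-- The mean of index zero is the integral over the period box. -/
theorem boxMean_zero (φ : Gf F → Hyp F → ℂ) (x : Gf F) (p : Hyp F) (m : ℕ) :
    boxMean φ 0 x p m = ∫ t in Set.Icc (0 : BasisIx F → ℝ) 1, φ x (horoShift (boxPt m t) p) := by
  rw [boxMean, cubeMean_eq_setIntegral_Icc]
  simp [boxFun, archExp_zero_left]

/-- A common period of `φ x` and `ν`. -/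
def HasCommonPeriod (φ : Gf F → Hyp F → ℂ) (ν : F) (x : Gf F) (m : ℕ) : Prop :=
  0 < m ∧ IsPeriodAt φ x m ∧ IsDualPeriod ν m

open Classical in
/-- The Fourier coefficient. -/
def fourierCoeff (φ : Gf F → Hyp F → ℂ) (ν : F) (x : Gf F) (p : Hyp F) : ℂ :=
  if h : ∃ m, HasCommonPeriod φ ν x m then boxMean φ ν x p h.choose else 0

theorem exists_dualPeriod (ν : F) : ∃ m : ℕ, 0 < m ∧ IsDualPeriod ν m := by
  obtain ⟨a, d, hd, rfl⟩ := IsFractionRing.div_surjective (A := 𝓞 F) ν
  refine ⟨Ideal.absNorm (Ideal.span {d}), Nat.pos_of_ne_zero ?_, fun b => ?_⟩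
  · rw [Ne, Ideal.absNorm_eq_zero_iff, Ideal.span_singleton_eq_bot]
    exact nonZeroDivisors.ne_zero hd
  · obtain ⟨c, hc⟩ := Ideal.mem_span_singleton'.1 (Ideal.absNorm_mem (Ideal.span {d}))
    have hd0 : (d : F) ≠ 0 := by simpa using nonZeroDivisors.ne_zero hd
    rw [traceExp_eq_one_iff]
    refine trace_mem_int fun v => ?_
    rw [show (algebraMap (𝓞 F) F) a / (algebraMap (𝓞 F) F) d *
        (((Ideal.absNorm (Ideal.span {d}) : ℕ) : F) * (b : F)) = ((a * c * b : 𝓞 F) : F) by
      rw [← map_natCast (algebraMap (𝓞 F) F), ← hc, map_mul, div_mul_eq_mul_div, div_eq_iff hd0]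
      push_cast
      ring]
    exact v.valuation_le_one _

theorem IsAutomorphic.exists_commonPeriod {U : Level F} {φ : Gf F → Hyp F → ℂ}
    (hφ : IsAutomorphic U φ) (ν : F) (x : Gf F) : ∃ m, HasCommonPeriod φ ν x m := by
  obtain ⟨m, hm, hm'⟩ := hφ.exists_period x
  obtain ⟨k, hk, hk'⟩ := exists_dualPeriod ν
  refine ⟨m * k, Nat.mul_pos hm hk, hm'.mul k, ?_⟩
  rw [mul_comm]
  exact hk'.mul m

theorem continuous_boxFun {φ : Gf F → Hyp F → ℂ} {x : Gf F} (hc : Continuous (φ x)) (ν : F)
    (p : Hyp F) (m : ℕ) : Continuous (boxFun φ ν x p m) :=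
  (hc.comp (continuous_horoShift.comp ((continuous_boxPt m).prodMk continuous_const))).mul
    (Complex.continuous_conj.comp ((continuous_archExp ν).comp (continuous_boxPt m)))

variable [IsTotallyComplex F]

theorem archExp_boxPt_int {ν : F} {m : ℕ} (hν : IsDualPeriod ν m) (n : BasisIx F → ℤ) :
    archExp ν (boxPt m fun i => (n i : ℝ)) = 1 := by
  rw [boxPt_int, show (fun w : InfinitePlace F => (m : ℂ) *
      w.embedding ((∑ i, n i • RingOfIntegers.basis F i : 𝓞 F) : F)) =
    archVec ((m : F) * ((∑ i, n i • RingOfIntegers.basis F i : 𝓞 F) : F)) by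
    funext w; simp [archVec], archExp_archVec]
  exact hν _

theorem isZPeriodic_boxFun {φ : Gf F → Hyp F → ℂ} {ν : F} {x : Gf F} (p : Hyp F) {m : ℕ}
    (hp : IsPeriodAt φ x m) (hν : IsDualPeriod ν m) : IsZPeriodic (boxFun φ ν x p m) := by
  intro n t
  unfold boxFun
  rw [boxPt_add, archExp_add, archExp_boxPt_int hν, mul_one,
    add_comm (boxPt m t), horoShift_add, boxPt_int]
  rw [hp (∑ i, n i • RingOfIntegers.basis F i)]

omit [IsTotallyComplex F] in
theorem boxPt_matrix {m m' : ℕ} (A : Matrix (BasisIx F) (BasisIx F) ℤ) (c : F)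
    (hA : ∀ j, c * ((m : F) * (RingOfIntegers.basis F j : F)) =
      ∑ i, (A i j : F) * ((m' : F) * (RingOfIntegers.basis F i : F))) (t : BasisIx F → ℝ) :
    archVec c * boxPt m t = boxPt m' (Matrix.mulVec (A.map (Int.castRingHom ℝ)) t) := by
  funext w
  have h : ∀ j, w.embedding c * ((m : ℂ) * w.embedding (RingOfIntegers.basis F j : F)) =
      ∑ i, (A i j : ℂ) * ((m' : ℂ) * w.embedding (RingOfIntegers.basis F i : F)) := fun j => by
    have e := congrArg w.embedding (hA j)
    simpa [map_sum] using e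
  simp only [Pi.mul_apply, archVec, boxPt, Finset.mul_sum, Matrix.mulVec, dotProduct,
    Matrix.map_apply, Int.coe_castRingHom, Complex.ofReal_sum, Complex.ofReal_mul,
    Complex.ofReal_intCast, Finset.sum_mul]
  rw [Finset.sum_comm]
  refine Finset.sum_congr rfl fun j _ => ?_
  rw [← mul_assoc, mul_comm (w.embedding c), mul_assoc, h j, Finset.mul_sum]
  exact Finset.sum_congr rfl fun i _ => by ring

open Classical in
omit [IsTotallyComplex F] in
theorem exists_mulMatrix {a : 𝓞 F} (ha : a ≠ 0) :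
    ∃ A : Matrix (BasisIx F) (BasisIx F) ℤ, A.det ≠ 0 ∧
      ∀ j, (a : F) * (RingOfIntegers.basis F j : F) =
        ∑ i, (A i j : F) * (RingOfIntegers.basis F i : F) := by
  refine ⟨Algebra.leftMulMatrix (RingOfIntegers.basis F) a, ?_, fun j => ?_⟩
  · rw [← Algebra.norm_eq_matrix_det]
    simpa [Algebra.norm_eq_zero_iff] using ha
  · have h := (RingOfIntegers.basis F).sum_repr (a * RingOfIntegers.basis F j)
    have h' := congrArg (fun z : 𝓞 F => (z : F)) h
    simp only [map_sum, zsmul_eq_mul, map_mul, map_intCast] at h'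
    rw [← h']
    exact Finset.sum_congr rfl fun i _ => by
      rw [Algebra.leftMulMatrix_eq_repr_mul]

/-- Means in rescaled coordinates. -/
theorem boxMean_change {φ ψ : Gf F → Hyp F → ℂ} {ν μ : F} {x y : Gf F} {p q : Hyp F} {m m' : ℕ}
    (hy : IsPeriodAt ψ y m') (hμ : IsDualPeriod μ m') (hc : Continuous (ψ y))
    {A : Matrix (BasisIx F) (BasisIx F) ℤ} (hA : A.det ≠ 0)
    (h : ∀ t, boxFun φ ν x p m t =
      boxFun ψ μ y q m' (Matrix.mulVec (A.map (Int.castRingHom ℝ)) t)) :
    boxMean φ ν x p m = boxMean ψ μ y q m' := by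
  classical
  rw [boxMean, boxMean, show boxFun φ ν x p m = fun t =>
    boxFun ψ μ y q m' (Matrix.mulVec (A.map (Int.castRingHom ℝ)) t) from funext h]
  exact cubeMean_comp_mulVec (isZPeriodic_boxFun q hy hμ) (continuous_boxFun hc μ q m') A hA

theorem boxMean_mul {φ : Gf F → Hyp F → ℂ} {ν : F} {x : Gf F} (hc : Continuous (φ x)) (p : Hyp F)
    {m : ℕ} (h : HasCommonPeriod φ ν x m) {k : ℕ} (hk : 0 < k) :
    boxMean φ ν x p (m * k) = boxMean φ ν x p m := by
  classical
  refine boxMean_change (A := (k : ℤ) • (1 : Matrix (BasisIx F) (BasisIx F) ℤ)) h.2.1 h.2.2 hc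
    (by rw [Matrix.det_smul, Matrix.det_one, mul_one]; exact pow_ne_zero _ (by simpa using hk.ne'))
      fun t => ?_
  have e : boxPt (F := F) m (Matrix.mulVec
      (((k : ℤ) • (1 : Matrix (BasisIx F) (BasisIx F) ℤ)).map (Int.castRingHom ℝ)) t) =
      boxPt (m * k) t := by
    rw [← boxPt_matrix (m := m * k) ((k : ℤ) • 1) (1 : F)]
    · funext w; simp [archVec]
    · intro j
      simp [Matrix.one_apply, mul_left_comm, mul_assoc]
  rw [boxFun, boxFun, e]

/-- The coefficient is the mean over any common period box. -/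
theorem fourierCoeff_eq {φ : Gf F → Hyp F → ℂ} {ν : F} {x : Gf F} (hc : Continuous (φ x))
    (p : Hyp F) {m : ℕ} (h : HasCommonPeriod φ ν x m) :
    fourierCoeff φ ν x p = boxMean φ ν x p m := by
  have hex : ∃ k, HasCommonPeriod φ ν x k := ⟨m, h⟩
  rw [fourierCoeff, dif_pos hex, ← boxMean_mul hc p hex.choose_spec h.1, mul_comm,
    boxMean_mul hc p h hex.choose_spec.1]

section Rules

variable {U : Level F} {φ : Gf F → Hyp F → ℂ} (hφ : IsAutomorphic U φ)
include hφ

/-- Translation of the horospherical coordinate. -/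
theorem fourierCoeff_horoShift (ν : F) (x : Gf F) (a : InfinitePlace F → ℂ) (p : Hyp F) :
    fourierCoeff φ ν x (horoShift a p) = archExp ν a * fourierCoeff φ ν x p := by
  classical
  obtain ⟨m, hm⟩ := hφ.exists_commonPeriod ν x
  obtain ⟨s, rfl⟩ := boxPt_surjective hm.1 a
  have hc := hφ.continuous x
  rw [fourierCoeff_eq hc _ hm, fourierCoeff_eq hc _ hm, boxMean, boxMean,
    ← cubeMean_add_right (isZPeriodic_boxFun p hm.2.1 hm.2.2) (continuous_boxFun hc ν p m) s]
  simp only [cubeMean]
  rw [← integral_const_mul]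
  refine integral_congr_ae (Filter.Eventually.of_forall fun t => ?_)
  simp only [boxFun, boxPt_add, horoShift_add, archExp_add, map_mul]
  rw [show archExp ν (boxPt m s) * (φ x (horoShift (boxPt m t) (horoShift (boxPt m s) p)) *
      (conj (archExp ν (boxPt m t)) * conj (archExp ν (boxPt m s)))) =
    (archExp ν (boxPt m s) * conj (archExp ν (boxPt m s))) *
      (φ x (horoShift (boxPt m t) (horoShift (boxPt m s) p)) * conj (archExp ν (boxPt m t)))
        by ring,
    Complex.mul_conj', norm_archExp]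
  simp

/-- Translation of the finite part by a rational unipotent. -/
theorem fourierCoeff_unip (ν β : F) (x : Gf F) (p : Hyp F) :
    fourierCoeff φ ν (diag F (unipHom F β) * x) p = traceExp (-(ν * β)) * fourierCoeff φ ν x p := by
  have hv : ∀ q, φ (diag F (unipHom F β) * x) q = φ x (horoShift (archVec (-β)) q) := by
    intro q
    have h := hφ.left (unipHom F β) x (diag F (unipHom F β) * x) (fun v => rfl)
      (horoShift (archVec (-β)) q)
    rwa [unipHom_smul_hyp, ← horoShift_add, show archVec β + archVec (-β) =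
      (0 : InfinitePlace F → ℂ) by funext w; simp [archVec], horoShift_zero] at h
  obtain ⟨m, hm⟩ := hφ.exists_commonPeriod ν x
  have hm' : HasCommonPeriod φ ν (diag F (unipHom F β) * x) m := ⟨hm.1, fun b q => by
    rw [hv, hv, ← horoShift_add, add_comm, horoShift_add]
    exact hm.2.1 b _, hm.2.2⟩
  have e := fourierCoeff_horoShift hφ ν x (archVec (-β)) p
  rw [archExp_archVec, mul_neg] at e
  rw [← e, fourierCoeff_eq (hφ.continuous _) _ hm', fourierCoeff_eq (hφ.continuous _) _ hm,
    boxMean, boxMean]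
  congr 1
  funext t
  simp only [boxFun, hv, ← horoShift_add]
  rw [add_comm]

/-- Right translation by the level. -/
theorem fourierCoeff_right (ν : F) (x j : Gf F) (hj : ∀ v, (j : ∀ v, GLv v) v ∈ U.J v) (p : Hyp F) :
    fourierCoeff φ ν (x * j) p = fourierCoeff φ ν x p := by
  obtain ⟨m, hm⟩ := hφ.exists_commonPeriod ν x
  have hm' : HasCommonPeriod φ ν (x * j) m :=
    ⟨hm.1, fun b q => by rw [hφ.right x j hj]; exact hm.2.1 b q, hm.2.2⟩
  rw [fourierCoeff_eq (hφ.continuous _) _ hm', fourierCoeff_eq (hφ.continuous _) _ hm, boxMean,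
    boxMean]
  congr 1
  funext t
  simp only [boxFun, hφ.right x j hj]

end Rules

end Fermat.Agent.ResidualThree
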