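import Fermat.Agent.ResidualThree.Automorphic.Fourier

/-!
# Transformation rules of the Fourier coefficients, cuspidality and uniqueness

They are the basic rules for the forms of `Automorphic.Forms`.
-/

noncomputable section

open IsDedekindDomain NumberField MeasureTheory
open scoped WithZero ComplexConjugate

namespace Fermat.Agent.ResidualThree

open Fermat.Agent.ResidualThree.Tree (diagGL)

variable {F : Type} [Field F] [NumberField F]

/-- The torus element `diag(γ, 1)`. -/
def torusGL {R : Type} [Field R] (γ : Rˣ) : GL (Fin 2) R := diagGL γ 1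

theorem coe_torusGL {R : Type} [Field R] (γ : Rˣ) :
    (torusGL γ : Matrix (Fin 2) (Fin 2) R) = !![(γ : R), 0; 0, 1] := by
  ext i j; fin_cases i <;> fin_cases j <;> simp [torusGL, diagGL]

theorem torusGL_mul {R : Type} [Field R] (a b : Rˣ) : torusGL (a * b) = torusGL a * torusGL b := by
  rw [torusGL, torusGL, torusGL, Tree.diagGL_mul, one_mul]

theorem torusGL_one {R : Type} [Field R] : torusGL (1 : Rˣ) = 1 := by
  refine Units.ext ?_
  rw [coe_torusGL]
  ext i j; fin_cases i <;> fin_cases j <;> simp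

omit [NumberField F] in
theorem torus_smul_horoShift (γ : Fˣ) (b : InfinitePlace F → ℂ) (p : Hyp F) :
    torusGL γ • horoShift b p = horoShift (archVec (γ : F) * b) (torusGL γ • p) := by
  funext w
  have h : ((toComplex w (torusGL γ) : GL (Fin 2) ℂ) : Matrix (Fin 2) (Fin 2) ℂ) 1 0 = 0 := by
    simp [toComplex, coe_torusGL]
  show toComplex w (torusGL γ) • horoShift b p w = horoShift (archVec (γ : F) * b) _ w
  refine H3.ext ?_ ?_
  · show _ = (toComplex w (torusGL γ) • p w).z + _
    rw [H3.smul_z_of_upper h, H3.smul_z_of_upper h]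
    simp [toComplex, coe_torusGL, horoShift, archVec]
    ring
  · show _ = (toComplex w (torusGL γ) • p w).y
    rw [H3.smul_y_of_upper h, H3.smul_y_of_upper h]
    rfl

/-- The finite adele multiplied by a field element. -/
def scaleAdele (ν : F) : Af F →+ Af F where
  toFun z := ⟨fun v => algebraMap F (v.adicCompletion F) ν * z.1 v, mem_Af.2 (by
    filter_upwards [eventually_valuation_le_one ν, mem_Af.1 z.2] with v h1 h2
    rw [map_mul, valv_algebraMap]
    exact mul_le_one' h1 h2)⟩
  map_zero' := Subtype.ext (funext fun v => by simp)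
  map_add' a b := Subtype.ext (funext fun v => by simp [mul_add])

/-- The unipotent element of a finite adele. -/
def unipAdele (z : Af F) : Gf F :=
  ⟨fun v => unipHom (v.adicCompletion F) (z.1 v),
    show ∀ᶠ v in Filter.cofinite, unipHom (v.adicCompletion F) (z.1 v) ∈ maxSubgroup v from
      (mem_Af.1 z.2).mono fun v h => Subgroup.subset_closure (Or.inl (isIntGL_unipHom v h))⟩

theorem unipAdele_add (a b : Af F) : unipAdele (a + b) = unipAdele a * unipAdele b :=
  Subtype.ext (funext fun _ => unipHom_add _ _)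

theorem diag_unipHom (β : F)
    (hβ : (fun v : FPlace F => algebraMap F (v.adicCompletion F) β) ∈ Af F) :
    diag F (unipHom F β) = unipAdele ⟨_, hβ⟩ :=
  Subtype.ext (funext fun v => toLocal_unipHom v β)

variable [IsTotallyComplex F]

section Rules

variable {U : Level F} {φ : Gf F → Hyp F → ℂ} (hφ : IsAutomorphic U φ)
include hφ

/-- The torus acts on the index. -/
theorem fourierCoeff_torus (ν : F) (γ : Fˣ) (x : Gf F) (p : Hyp F) :
    fourierCoeff φ ν (diag F (torusGL γ) * x) (torusGL γ • p) =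
      fourierCoeff φ ((γ : F) * ν) x p := by
  classical
  obtain ⟨a, d, hd, hγ⟩ := IsFractionRing.div_surjective (A := 𝓞 F) (((γ⁻¹ : Fˣ) : F))
  have hd0 : (d : F) ≠ 0 := by simpa using nonZeroDivisors.ne_zero hd
  have ha0 : a ≠ 0 := fun h => by
    rw [h, map_zero, zero_div] at hγ
    exact (γ⁻¹).ne_zero hγ.symm
  have had : (γ : F) * (a : F) = (d : F) := by
    have h : (a : F) = ((γ⁻¹ : Fˣ) : F) * (d : F) := (div_eq_iff hd0).1 hγ
    rw [h, ← mul_assoc, Units.mul_inv, one_mul]
  set N := Ideal.absNorm (Ideal.span {d})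
  obtain ⟨c, hc⟩ := Ideal.mem_span_singleton'.1 (Ideal.absNorm_mem (Ideal.span {d}))
  have hN : 0 < N := Nat.pos_of_ne_zero (by
    rw [Ne, Ideal.absNorm_eq_zero_iff, Ideal.span_singleton_eq_bot]
    exact nonZeroDivisors.ne_zero hd)
  have hNF : (N : F) = (c : F) * (d : F) := by
    rw [← map_natCast (algebraMap (𝓞 F) F), ← hc, map_mul]
  have hγN : ((γ⁻¹ : Fˣ) : F) * (N : F) = ((a * c : 𝓞 F) : F) := by
    rw [hNF, ← hγ, div_mul_eq_mul_div, div_eq_iff hd0]; push_cast; ring
  have hv : ∀ q, φ (diag F (torusGL γ) * x) (torusGL γ • q) = φ x q := fun q =>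
    hφ.left (torusGL γ) x (diag F (torusGL γ) * x) (fun v => rfl) q
  have hv' : ∀ b q, φ (diag F (torusGL γ) * x) (horoShift b (torusGL γ • q)) =
      φ x (horoShift (archVec ((γ⁻¹ : Fˣ) : F) * b) q) := by
    intro b q
    rw [← hv, torus_smul_horoShift]
    congr 2
    funext w
    simp [archVec]
  obtain ⟨m', hm'⟩ := hφ.exists_commonPeriod ((γ : F) * ν) x
  have hper : IsPeriodAt φ (diag F (torusGL γ) * x) (m' * N) := by
    intro b q
    obtain ⟨q, rfl⟩ : ∃ r, torusGL γ • r = q := ⟨(torusGL γ)⁻¹ • q, smul_inv_smul _ _⟩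
    rw [hv', hv, show archVec ((γ⁻¹ : Fˣ) : F) *
        (fun w : InfinitePlace F => ((m' * N : ℕ) : ℂ) * w.embedding (b : F)) =
        fun w => (m' : ℂ) * w.embedding ((a * c * b : 𝓞 F) : F) by
      funext w
      have e := congrArg w.embedding hγN
      simp only [map_mul, map_natCast] at e
      simp only [Pi.mul_apply, archVec, map_mul, Nat.cast_mul]
      rw [← e]; ring]
    exact hm'.2.1 _ q
  have hdual : IsDualPeriod ν (m' * N) := by
    intro b
    rw [show ν * (((m' * N : ℕ) : F) * (b : F)) =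
        (γ : F) * ν * ((m' : F) * ((a * c * b : 𝓞 F) : F)) by
      rw [Nat.cast_mul, hNF, ← had]; push_cast; ring]
    exact hm'.2.2 _
  obtain ⟨A, hA, hA'⟩ := exists_mulMatrix (a := a * c) (mul_ne_zero ha0 (fun h => by
    simp [h, hN.ne'] at hNF))
  rw [fourierCoeff_eq (hφ.continuous _) _ ⟨Nat.mul_pos hm'.1 hN, hper, hdual⟩,
    fourierCoeff_eq (hφ.continuous _) _ hm']
  refine boxMean_change (A := A) hm'.2.1 hm'.2.2 (hφ.continuous _) hA fun t => ?_
  have e : archVec ((γ⁻¹ : Fˣ) : F) * boxPt (m' * N) t =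
      boxPt m' (Matrix.mulVec (A.map (Int.castRingHom ℝ)) t) := by
    refine boxPt_matrix A _ (fun j => ?_) t
    rw [show ((γ⁻¹ : Fˣ) : F) * (((m' * N : ℕ) : F) * (RingOfIntegers.basis F j : F)) =
      (m' : F) * (((γ⁻¹ : Fˣ) : F) * (N : F) * (RingOfIntegers.basis F j : F)) by
      rw [Nat.cast_mul]; ring, hγN, hA' j, Finset.mul_sum]
    exact Finset.sum_congr rfl fun i _ => by ring
  rw [boxFun, boxFun, hv', e]
  congr 2
  rw [← e, mul_comm (γ : F), archExp, archExp, realPair_mul]
  congr 4
  funext w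
  simp [archVec]

/-- Unipotent adeles act through the character. -/
theorem fourierCoeff_unipAdele (ν : F) (z : Af F) (x : Gf F) (p : Hyp F) :
    fourierCoeff φ ν (unipAdele z * x) p =
      psiFin (-(scaleAdele ν z)) * fourierCoeff φ ν x p := by
  classical
  obtain ⟨N, hN⟩ := exists_smallAt U x
  -- precision making `ν (β - z)` integral
  obtain ⟨a, d, hd, hν⟩ := IsFractionRing.div_surjective (A := 𝓞 F) ν
  have hd0 : (d : F) ≠ 0 := by simpa using nonZeroDivisors.ne_zero hd
  obtain ⟨m, hm, hmN⟩ := exists_nat_le_exp N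
  set M : ℕ := m * Ideal.absNorm (Ideal.span {d}) with hM
  have hMpos : (M : 𝓞 F) ≠ 0 := Nat.cast_ne_zero.2 (Nat.mul_ne_zero hm.ne' (by
    rw [Ne, Ideal.absNorm_eq_zero_iff, Ideal.span_singleton_eq_bot]
    exact nonZeroDivisors.ne_zero hd))
  have h0 : (M : F) ≠ 0 := by simpa using hMpos
  obtain ⟨β, hβ⟩ := exists_algebraMap_approx z.1 z.2
    (fun v => -WithZero.log (v.valuation F (M : F)))
    ((eventually_valuation_eq_one h0).mono fun v h => by simp [h])
  simp only [neg_neg, fun v : FPlace F =>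
    WithZero.exp_log ((v.valuation F).ne_zero_iff.2 h0)] at hβ
  have hmem : (fun v : FPlace F => algebraMap F (v.adicCompletion F) β) ∈ Af F := mem_Af.2
    ((eventually_valuation_le_one β).mono fun v h => by rwa [valv_algebraMap])
  have hsplit : unipAdele z * x =
      diag F (unipHom F β) * x * (x⁻¹ * unipAdele (z - ⟨_, hmem⟩) * x) := by
    rw [diag_unipHom β hmem, mul_assoc x⁻¹, mul_assoc, mul_inv_cancel_left, ← mul_assoc,
      ← unipAdele_add, add_sub_cancel]
  have hsmall : ∀ v, ((x⁻¹ * unipAdele (z - ⟨_, hmem⟩) * x : Gf F) : ∀ v, GLv v) v ∈ U.J v := by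
    intro v
    refine hN v _ ?_
    show valv v (z.1 v - algebraMap F (v.adicCompletion F) β) ≤ _
    refine (hβ v).trans (le_trans ?_ (hmN v))
    rw [hM, Nat.cast_mul, map_mul, ← map_natCast (algebraMap (𝓞 F) F)]
    refine mul_le_of_le_one_right' ?_
    rw [← map_natCast (algebraMap (𝓞 F) F)]
    exact v.valuation_le_one _
  rw [hsplit, fourierCoeff_right hφ ν _ _ hsmall, fourierCoeff_unip hφ]
  congr 1
  refine (psiFin_eq fun v => ?_).symm
  show valv v (algebraMap F (v.adicCompletion F) (-(ν * β)) -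
    -(algebraMap F (v.adicCompletion F) ν * z.1 v)) ≤ 1
  rw [map_neg, map_mul, neg_sub_neg, ← mul_sub, map_mul, valv_algebraMap]
  refine (mul_le_mul' le_rfl (hβ v)).trans ?_
  obtain ⟨c, hc⟩ := Ideal.mem_span_singleton'.1 (Ideal.absNorm_mem (Ideal.span {d}))
  rw [← map_mul, ← hν, hM, Nat.cast_mul, show (algebraMap (𝓞 F) F) a / (algebraMap (𝓞 F) F) d *
      ((m : F) * ((Ideal.absNorm (Ideal.span {d}) : ℕ) : F)) = ((a * (m : 𝓞 F) * c : 𝓞 F) : F) by
    rw [← map_natCast (algebraMap (𝓞 F) F) (Ideal.absNorm _), ← hc, map_mul,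
      div_mul_eq_mul_div, div_eq_iff hd0]
    push_cast
    ring]
  exact v.valuation_le_one _

/-- Cusp forms have no constant term. -/
theorem fourierCoeff_zero (hc : IsCuspidal φ) (x : Gf F) (p : Hyp F) :
    fourierCoeff φ 0 x p = 0 := by
  obtain ⟨m, hm⟩ := hφ.exists_commonPeriod 0 x
  rw [fourierCoeff_eq (hφ.continuous _) _ hm, boxMean_zero, ← hc x p m hm.1 hm.2.1]
  rfl

/-- A function all of whose coefficients vanish is zero. -/
theorem eq_zero_of_fourierCoeff (x : Gf F) (p : Hyp F)
    (h : ∀ ν, fourierCoeff φ ν x p = 0) : φ x p = 0 := by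
  classical
  obtain ⟨m, hm, hper⟩ := hφ.exists_period x
  set g : (BasisIx F → ℝ) → ℂ := fun t => φ x (horoShift (boxPt m t) p)
  have hg : IsZPeriodic g := fun n t => by
    show φ x (horoShift (boxPt m (t + _)) p) = φ x (horoShift (boxPt m t) p)
    rw [boxPt_add, add_comm, horoShift_add, boxPt_int]
    exact hper _ _
  have hgc : Continuous g := (hφ.continuous x).comp
    (continuous_horoShift.comp ((continuous_boxPt m).prodMk continuous_const))
  set G : C(UnitAddTorus (BasisIx F), ℂ) := ⟨descend g, continuous_descend hg hgc⟩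
  have hcoef : ∀ n, UnitAddTorus.mFourierCoeff G n = 0 := by
    intro n
    obtain ⟨ν, hν⟩ := exists_trace_eq (F := F) fun i => (n i : ℚ)
    have hbox : ∀ t, realPair (ν / (m : F)) (boxPt m t) = ∑ i, t i * (n i : ℝ) := by
      intro t
      rw [realPair_boxPt]
      refine Finset.sum_congr rfl fun i _ => ?_
      rw [← mul_assoc, div_mul_cancel₀ _ (Nat.cast_ne_zero.2 hm.ne'), hν]
      simp
    have hdual : IsDualPeriod (ν / (m : F)) m := by
      intro b
      rw [← mul_assoc, div_mul_cancel₀ _ (Nat.cast_ne_zero.2 hm.ne'), traceExp_eq_one_iff]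
      refine ⟨∑ i, (RingOfIntegers.basis F).repr b i * n i, ?_⟩
      conv_lhs => rw [← (RingOfIntegers.basis F).sum_repr b]
      simp only [map_sum, Finset.mul_sum, Int.cast_sum]
      refine Finset.sum_congr rfl fun i _ => ?_
      rw [show ν * algebraMap (𝓞 F) F
          ((RingOfIntegers.basis F).repr b i • RingOfIntegers.basis F i) =
        (RingOfIntegers.basis F).repr b i • (ν * (RingOfIntegers.basis F i : F)) by
        rw [map_zsmul, mul_smul_comm], map_zsmul, hν, zsmul_eq_mul]
      push_cast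
      ring
    rw [← h (ν / (m : F)), fourierCoeff_eq (hφ.continuous x) p ⟨hm, hper, hdual⟩, boxMean,
      UnitAddTorus.mFourierCoeff_eq_integral _ _ (fun _ => 0), cubeMean]
    simp only [zero_add]
    refine setIntegral_congr_fun (by measurability) fun t _ => ?_
    show UnitAddTorus.mFourier (-n) (toTorus t) • descend g (toTorus t) = _
    rw [descend_toTorus hg, smul_eq_mul, boxFun, mul_comm, UnitAddTorus.mFourier_neg]
    congr 2
    rw [archExp, hbox]
    simp only [UnitAddTorus.mFourier, ContinuousMap.coe_mk, toTorus, fourier_coe_apply,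
      ← Complex.exp_sum]
    push_cast
    rw [Finset.mul_sum]
    exact congrArg Complex.exp (Finset.sum_congr rfl fun i _ => by ring)
  have hs : Summable (UnitAddTorus.mFourierCoeff G) := by
    rw [show UnitAddTorus.mFourierCoeff (G : UnitAddTorus (BasisIx F) → ℂ) = 0 from funext hcoef]
    exact summable_zero
  have h0 := UnitAddTorus.hasSum_mFourier_series_apply_of_summable hs (toTorus 0)
  simp only [hcoef, zero_smul] at h0
  have e : g 0 = 0 := by
    rw [← descend_toTorus hg 0]
    exact h0.unique hasSum_zero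
  have e' : φ x (horoShift (boxPt m 0) p) = 0 := e
  rwa [show boxPt (F := F) m 0 = 0 from funext fun w => by simp [boxPt], horoShift_zero] at e'

end Rules

end Fermat.Agent.ResidualThree
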