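import Fermat.Agent.ResidualThree.Automorphic.Approx
import Fermat.Agent.ResidualThree.Spherical.Basic

/-!
# Heights of lines

Invariance under the maximal compact subgroup, equivariance under `GL₂(F)` (product formula) and
the fact that the product of the heights of two different lines is at most one.
-/

noncomputable section

open IsDedekindDomain NumberField Matrix
open scoped WithZero ComplexOrder ComplexConjugate

namespace Fermat.Agent.ResidualThree

variable {F : Type} [Field F] [NumberField F]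

/-- The product formula of a totally complex field. -/
theorem prod_norm_eq_one [IsTotallyComplex F] {x : F} (hx : x ≠ 0) :
    (∏ᶠ v : FPlace F, ‖algebraMap F (v.adicCompletion F) x‖) *
      ∏ w : InfinitePlace F, ‖w.embedding x‖ ^ 2 = 1 := by
  have h := prod_abs_eq_one hx
  rw [mul_comm] at h
  rw [← h, ← finprod_comp_equiv FinitePlace.equivHeightOneSpectrum]
  congr 1
  · exact finprod_congr fun w => FinitePlace.norm_embedding_eq w x
  · exact Finset.prod_congr rfl fun w _ => by
      rw [IsTotallyComplex.mult_eq, InfinitePlace.norm_embedding_eq]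

theorem norm_le_one_iff_valv {v : FPlace F} (a : v.adicCompletion F) : ‖a‖ ≤ 1 ↔ valv v a ≤ 1 :=
  Valued.toNormedField.norm_le_one_iff

theorem norm_eq_one_iff_valv {v : FPlace F} (a : v.adicCompletion F) : ‖a‖ = 1 ↔ valv v a = 1 := by
  rw [le_antisymm_iff, le_antisymm_iff, Valued.toNormedField.norm_le_one_iff,
    Valued.toNormedField.one_le_norm_iff]

theorem eventually_norm_eq_one {x : F} (hx : x ≠ 0) :
    ∀ᶠ v : FPlace F in Filter.cofinite, ‖algebraMap F (v.adicCompletion F) x‖ = 1 := by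
  filter_upwards [eventually_valuation_eq_one hx] with v h
  rwa [norm_eq_one_iff_valv, valv_algebraMap]

theorem hasFiniteMulSupport_norm {x : F} (hx : x ≠ 0) :
    (fun v : FPlace F => ‖algebraMap F (v.adicCompletion F) x‖).HasFiniteMulSupport :=
  Filter.eventually_cofinite.mp (eventually_norm_eq_one hx)

/-! ### Row vectors at a finite place -/

/-- The row vector at a finite place. -/
def locRow (v : FPlace F) (e : Fin 2 → F) : Fin 2 → v.adicCompletion F :=
  fun i => algebraMap F (v.adicCompletion F) (e i)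

/-- The norm of a row vector. -/
def locNorm {v : FPlace F} (r : Fin 2 → v.adicCompletion F) : ℝ := max ‖r 0‖ ‖r 1‖

theorem localHeight_eq (v : FPlace F) (e : Fin 2 → F) (g : GLv v) :
    localHeight v e g = ‖(g : Matrix (Fin 2) (Fin 2) (v.adicCompletion F)).det‖ /
      locNorm (locRow v e ᵥ* (g : Matrix (Fin 2) (Fin 2) (v.adicCompletion F))) ^ 2 := rfl

section Row

variable {v : FPlace F}

theorem norm_le_locNorm (r : Fin 2 → v.adicCompletion F) (i : Fin 2) : ‖r i‖ ≤ locNorm r := by
  fin_cases i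
  · exact le_max_left _ _
  · exact le_max_right _ _

theorem locNorm_nonneg (r : Fin 2 → v.adicCompletion F) : 0 ≤ locNorm r :=
  (norm_nonneg _).trans (norm_le_locNorm r 0)

theorem locNorm_pos {r : Fin 2 → v.adicCompletion F} (h : r ≠ 0) : 0 < locNorm r := by
  obtain ⟨i, hi⟩ := Function.ne_iff.mp h
  exact (norm_pos_iff.mpr hi).trans_le (norm_le_locNorm r i)

theorem locNorm_vecMul_le (r : Fin 2 → v.adicCompletion F)
    (A : Matrix (Fin 2) (Fin 2) (v.adicCompletion F)) {M : ℝ} (hM : ∀ i j, ‖A i j‖ ≤ M) :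
    locNorm (r ᵥ* A) ≤ locNorm r * M := by
  have h : ∀ j, ‖(r ᵥ* A) j‖ ≤ locNorm r * M := fun j => by
    rw [Matrix.vecMul, dotProduct, Fin.sum_univ_two]
    refine (IsUltrametricDist.norm_add_le_max _ _).trans (max_le ?_ ?_) <;> rw [norm_mul] <;>
      exact mul_le_mul (norm_le_locNorm r _) (hM _ _) (norm_nonneg _) (locNorm_nonneg r)
  exact max_le (h 0) (h 1)

theorem norm_apply_le_one {k : GLv v} (hk : k ∈ Tree.intGL (valv v)) (i j : Fin 2) :
    ‖(k : Matrix (Fin 2) (Fin 2) (v.adicCompletion F)) i j‖ ≤ 1 :=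
  (norm_le_one_iff_valv _).mpr (hk.1 i j)

theorem norm_det_eq_one {k : GLv v} (hk : k ∈ Tree.intGL (valv v)) :
    ‖(k : Matrix (Fin 2) (Fin 2) (v.adicCompletion F)).det‖ = 1 :=
  (norm_eq_one_iff_valv _).mpr hk.2

theorem locNorm_vecMul_intGL {k : GLv v} (hk : k ∈ Tree.intGL (valv v))
    (r : Fin 2 → v.adicCompletion F) :
    locNorm (r ᵥ* (k : Matrix (Fin 2) (Fin 2) (v.adicCompletion F))) = locNorm r := by
  refine le_antisymm ((locNorm_vecMul_le r _ (norm_apply_le_one hk)).trans (by rw [mul_one])) ?_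
  calc locNorm r = locNorm ((r ᵥ* (k : Matrix (Fin 2) (Fin 2) (v.adicCompletion F))) ᵥ*
        ((k⁻¹ : GLv v) : Matrix (Fin 2) (Fin 2) (v.adicCompletion F))) := by
        rw [Matrix.vecMul_vecMul, ← Units.val_mul, mul_inv_cancel, Units.val_one, Matrix.vecMul_one]
    _ ≤ _ := (locNorm_vecMul_le _ _ (norm_apply_le_one (inv_mem hk))).trans (by rw [mul_one])

theorem locNorm_smul (s : v.adicCompletion F) (r : Fin 2 → v.adicCompletion F) :
    locNorm (s • r) = ‖s‖ * locNorm r := by
  simp only [locNorm, Pi.smul_apply, smul_eq_mul, norm_mul]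
  rw [mul_max_of_nonneg _ _ (norm_nonneg _)]

theorem localHeight_mul_intGL (e : Fin 2 → F) (g : GLv v) {k : GLv v}
    (hk : k ∈ Tree.intGL (valv v)) : localHeight v e (g * k) = localHeight v e g := by
  rw [localHeight_eq, localHeight_eq, Units.val_mul, Matrix.det_mul, norm_mul, norm_det_eq_one hk,
    mul_one, ← Matrix.vecMul_vecMul, locNorm_vecMul_intGL hk]

theorem localHeight_mul_scalar (e : Fin 2 → F) (g : GLv v) (s : (v.adicCompletion F)ˣ) :
    localHeight v e (g * Matrix.GeneralLinearGroup.scalar (Fin 2) s) = localHeight v e g := by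
  have hs : ‖(s : v.adicCompletion F)‖ ≠ 0 := norm_ne_zero_iff.mpr s.ne_zero
  rw [localHeight_eq, localHeight_eq, Units.val_mul, Tree.coe_scalar_eq_smul, Matrix.mul_smul,
    Matrix.mul_one, Matrix.det_smul, Fintype.card_fin, norm_mul, norm_pow, Matrix.vecMul_smul,
    locNorm_smul, mul_pow, mul_div_mul_left _ _ (pow_ne_zero 2 hs)]

theorem localHeight_mul_max (e : Fin 2 → F) (g : GLv v) {k : GLv v} (hk : k ∈ maxSubgroup v) :
    localHeight v e (g * k) = localHeight v e g := by
  obtain ⟨s, k', hk', rfl⟩ := Tree.mul_mem_vertexSubgroup_iff.mp hk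
  rw [← mul_assoc, localHeight_mul_intGL e _ hk', localHeight_mul_scalar]

theorem localHeight_of_mem_max (e : Fin 2 → F) {k : GLv v} (hk : k ∈ maxSubgroup v) :
    localHeight v e k = (locNorm (locRow v e) ^ 2)⁻¹ := by
  rw [← one_mul k, localHeight_mul_max e 1 hk, localHeight_eq, Units.val_one, Matrix.det_one,
    norm_one, Matrix.vecMul_one, one_div]

theorem locRow_ne_zero (v : FPlace F) {e : Fin 2 → F} (he : e ≠ 0) : locRow v e ≠ 0 := by
  obtain ⟨i, hi⟩ := Function.ne_iff.mp he
  exact Function.ne_iff.mpr ⟨i, (map_ne_zero_iff _ (RingHom.injective _)).mpr hi⟩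

theorem locNorm_locRow_mul_pos (v : FPlace F) {e : Fin 2 → F} (he : e ≠ 0) (g : GLv v) :
    0 < locNorm (locRow v e ᵥ* (g : Matrix (Fin 2) (Fin 2) (v.adicCompletion F))) := by
  refine locNorm_pos fun h => locRow_ne_zero v he ?_
  have := congrArg (· ᵥ* ((g⁻¹ : GLv v) : Matrix (Fin 2) (Fin 2) (v.adicCompletion F))) h
  simpa [Matrix.vecMul_vecMul] using this

theorem localHeight_pos (v : FPlace F) {e : Fin 2 → F} (he : e ≠ 0) (g : GLv v) :
    0 < localHeight v e g := by
  rw [localHeight_eq]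
  exact div_pos (norm_pos_iff.mpr g.det_ne_zero) (pow_pos (locNorm_locRow_mul_pos v he g) 2)

theorem locNorm_locRow_eventually {e : Fin 2 → F} (he : e ≠ 0) :
    ∀ᶠ v : FPlace F in Filter.cofinite, locNorm (locRow v e) = 1 := by
  obtain ⟨i, hi⟩ := Function.ne_iff.mp he
  filter_upwards [eventually_norm_eq_one hi, eventually_valuation_le_one (e 0),
    eventually_valuation_le_one (e 1)] with v h h0 h1
  refine le_antisymm (max_le ?_ ?_) (h.symm.le.trans (norm_le_locNorm (locRow v e) i)) <;>
    rw [norm_le_one_iff_valv, locRow, valv_algebraMap] <;> assumption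

theorem hasFiniteMulSupport_localHeight {e : Fin 2 → F} (he : e ≠ 0) (x : Gf F) :
    (fun v : FPlace F => localHeight v e (x.1 v)).HasFiniteMulSupport := by
  have hx : ∀ᶠ v in Filter.cofinite, x.1 v ∈ maxSubgroup v := x.2
  exact Filter.eventually_cofinite.mp ((locNorm_locRow_eventually he).and hx |>.mono fun v h => by
    show localHeight v e (x.1 v) = 1
    rw [localHeight_of_mem_max e h.2, h.1]; simp)

theorem locRow_vecMul (v : FPlace F) (e : Fin 2 → F) (γ : GL (Fin 2) F) :
    locRow v e ᵥ* (toLocal v γ : Matrix (Fin 2) (Fin 2) (v.adicCompletion F)) =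
      locRow v (e ᵥ* (γ : Matrix (Fin 2) (Fin 2) F)) := by
  funext j
  exact (RingHom.map_vecMul (algebraMap F (v.adicCompletion F)) _ e j).symm

theorem localHeight_toLocal_mul (e : Fin 2 → F) (γ : GL (Fin 2) F) (g : GLv v) :
    localHeight v e (toLocal v γ * g) =
      ‖algebraMap F (v.adicCompletion F) (γ : Matrix (Fin 2) (Fin 2) F).det‖ *
        localHeight v (e ᵥ* (γ : Matrix (Fin 2) (Fin 2) F)) g := by
  rw [localHeight_eq, localHeight_eq, Units.val_mul, Matrix.det_mul, norm_mul,
    ← Matrix.vecMul_vecMul, locRow_vecMul, mul_div_assoc, RingHom.map_det]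
  rfl

/-- Two independent lines at a finite place. -/
theorem localHeight_mul_le (e e' : Fin 2 → F) (he : e ≠ 0) (he' : e' ≠ 0)
    (hD : e 0 * e' 1 - e 1 * e' 0 ≠ 0) (g : GLv v) :
    localHeight v e g * localHeight v e' g ≤
      (‖algebraMap F (v.adicCompletion F) (e 0 * e' 1 - e 1 * e' 0)‖ ^ 2)⁻¹ := by
  set a := locRow v e ᵥ* (g : Matrix (Fin 2) (Fin 2) (v.adicCompletion F)) with ha
  set b := locRow v e' ᵥ* (g : Matrix (Fin 2) (Fin 2) (v.adicCompletion F)) with hb
  set D := ‖algebraMap F (v.adicCompletion F) (e 0 * e' 1 - e 1 * e' 0)‖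
  set d := ‖(g : Matrix (Fin 2) (Fin 2) (v.adicCompletion F)).det‖
  have hA : 0 < locNorm a := locNorm_locRow_mul_pos v he g
  have hB : 0 < locNorm b := locNorm_locRow_mul_pos v he' g
  have hDp : 0 < D := norm_pos_iff.mpr ((map_ne_zero_iff _ (RingHom.injective _)).mpr hD)
  have hd : 0 < d := norm_pos_iff.mpr g.det_ne_zero
  have key : D * d ≤ locNorm a * locNorm b := by
    have e1 : algebraMap F (v.adicCompletion F) (e 0 * e' 1 - e 1 * e' 0) *
        (g : Matrix (Fin 2) (Fin 2) (v.adicCompletion F)).det = a 0 * b 1 - a 1 * b 0 := by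
      simp only [ha, hb, Matrix.vecMul, dotProduct, Fin.sum_univ_two, Matrix.det_fin_two, locRow,
        map_sub, map_mul]
      ring
    rw [← norm_mul, e1, sub_eq_add_neg]
    refine (IsUltrametricDist.norm_add_le_max _ _).trans (max_le ?_ ?_) <;>
      simp only [norm_neg, norm_mul] <;>
      exact mul_le_mul (norm_le_locNorm _ _) (norm_le_locNorm _ _) (norm_nonneg _)
        (locNorm_nonneg _)
  rw [localHeight_eq, localHeight_eq, div_mul_div_comm, ← mul_pow, div_le_iff₀ (by positivity),
    ← one_div, div_mul_eq_mul_div, one_mul, le_div_iff₀ (by positivity)]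
  calc d * d * D ^ 2 = (D * d) ^ 2 := by ring
    _ ≤ _ := pow_le_pow_left₀ (by positivity) key 2

end Row

/-! ### Infinite places -/

/-- The value at a point of the binary form of a row vector. -/
def archForm (u : Fin 2 → ℂ) (q : H3) : ℝ :=
  (Complex.normSq (u 0 * q.z + u 1) + Complex.normSq (u 0) * q.y ^ 2) / q.y

/-- The row vector at an infinite place. -/
def archRow (w : InfinitePlace F) (e : Fin 2 → F) : Fin 2 → ℂ := fun i => w.embedding (e i)

theorem height_eq (e : Fin 2 → F) (x : Gf F) (p : Hyp F) :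
    height e x p = (∏ᶠ v : FPlace F, localHeight v e (x.1 v)) *
      ∏ w : InfinitePlace F, ((archForm (archRow w e) (p w)) ^ 2)⁻¹ := by
  rw [height]
  congr 1
  refine Finset.prod_congr rfl fun w _ => ?_
  rw [← inv_pow, archForm, inv_div]
  rfl

theorem archForm_eq_dotProduct (u : Fin 2 → ℂ) (q : H3) :
    ((archForm u q : ℝ) : ℂ) = (u ᵥ* q.toMat) ⬝ᵥ star u := by
  have hy : (q.y : ℂ) ≠ 0 := by exact_mod_cast q.y_pos.ne'
  simp only [archForm, H3.toMat, Matrix.vecMul, dotProduct, Fin.sum_univ_two, Matrix.of_apply,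
    Matrix.cons_val', Matrix.cons_val_zero, Matrix.cons_val_one, Matrix.empty_val',
    Matrix.cons_val_fin_one, Pi.star_apply, RCLike.star_def]
  push_cast
  simp only [Complex.normSq_eq_conj_mul_self, map_add, map_mul]
  field_simp
  ring

theorem archForm_pos {u : Fin 2 → ℂ} (hu : u ≠ 0) (q : H3) : 0 < archForm u q := by
  have hy := q.y_pos
  refine div_pos ?_ hy
  by_cases h0 : u 0 = 0
  · have h1 : u 1 ≠ 0 := fun h1 => hu (funext fun i => by fin_cases i <;> assumption)
    simpa [h0] using Complex.normSq_pos.mpr h1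
  · exact add_pos_of_nonneg_of_pos (Complex.normSq_nonneg _)
      (mul_pos (Complex.normSq_pos.mpr h0) (pow_pos hy 2))

theorem archForm_smul (g : GL (Fin 2) ℂ) (u : Fin 2 → ℂ) (q : H3) :
    archForm u (g • q) * ‖(g : Matrix (Fin 2) (Fin 2) ℂ).det‖ =
      archForm (u ᵥ* (g : Matrix (Fin 2) (Fin 2) ℂ)) q := by
  set G : Matrix (Fin 2) (Fin 2) ℂ := (g : Matrix (Fin 2) (Fin 2) ℂ)
  have hM := H3.posDef_conj g q.posDef_toMat
  have hs : Real.sqrt (G * q.toMat * Gᴴ).det.re = ‖G.det‖ := by
    rw [Matrix.det_mul, Matrix.det_mul, H3.det_toMat, mul_one, Matrix.det_conjTranspose,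
      RCLike.star_def, Complex.mul_conj, Complex.ofReal_re, Complex.normSq_eq_norm_sq,
      Real.sqrt_sq (norm_nonneg _)]
  have h : ((‖G.det‖ : ℝ) : ℂ) • (g • q).toMat = G * q.toMat * Gᴴ := by
    rw [← hs, H3.smul_def]
    exact H3.smul_toMat_ofMat _ hM
  apply Complex.ofReal_injective
  rw [Complex.ofReal_mul, archForm_eq_dotProduct, archForm_eq_dotProduct, mul_comm,
    ← smul_eq_mul, ← smul_dotProduct, ← Matrix.vecMul_smul, h, Matrix.star_vecMul,
    ← Matrix.vecMul_vecMul, ← Matrix.vecMul_vecMul, ← Matrix.dotProduct_mulVec]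

theorem archForm_mul_ge (u u' : Fin 2 → ℂ) (q : H3) :
    ‖u 0 * u' 1 - u 1 * u' 0‖ ^ 2 ≤ archForm u q * archForm u' q := by
  have hy := q.y_pos
  have e : u 0 * u' 1 - u 1 * u' 0 =
      u 0 * (u' 0 * q.z + u' 1) - u' 0 * (u 0 * q.z + u 1) := by ring
  have h := norm_sub_le (u 0 * (u' 0 * q.z + u' 1)) (u' 0 * (u 0 * q.z + u 1))
  rw [← e, norm_mul, norm_mul] at h
  rw [archForm, archForm, Complex.normSq_eq_norm_sq, Complex.normSq_eq_norm_sq,
    Complex.normSq_eq_norm_sq, Complex.normSq_eq_norm_sq, div_mul_div_comm,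
    le_div_iff₀ (mul_pos hy hy)]
  set a := ‖u 0‖
  set b := ‖u' 0‖
  set c := ‖u 0 * q.z + u 1‖
  set d := ‖u' 0 * q.z + u' 1‖
  calc ‖u 0 * u' 1 - u 1 * u' 0‖ ^ 2 * (q.y * q.y) ≤ (a * d + b * c) ^ 2 * (q.y * q.y) :=
        mul_le_mul_of_nonneg_right (pow_le_pow_left₀ (norm_nonneg _) h 2) (mul_nonneg hy.le hy.le)
    _ ≤ _ := by nlinarith [sq_nonneg (a * b * q.y ^ 2 - c * d)]

omit [NumberField F] in
theorem archRow_vecMul (w : InfinitePlace F) (e : Fin 2 → F) (γ : GL (Fin 2) F) :
    archRow w e ᵥ* (toComplex w γ : Matrix (Fin 2) (Fin 2) ℂ) =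
      archRow w (e ᵥ* (γ : Matrix (Fin 2) (Fin 2) F)) := by
  funext j
  exact (RingHom.map_vecMul w.embedding _ e j).symm

omit [NumberField F] in
theorem archRow_ne_zero (w : InfinitePlace F) {e : Fin 2 → F} (he : e ≠ 0) : archRow w e ≠ 0 := by
  obtain ⟨i, hi⟩ := Function.ne_iff.mp he
  exact Function.ne_iff.mpr ⟨i, (map_ne_zero_iff _ (RingHom.injective _)).mpr hi⟩

omit [NumberField F] in
theorem archForm_toComplex_smul (w : InfinitePlace F) (e : Fin 2 → F) (γ : GL (Fin 2) F)
    (q : H3) :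
    ((archForm (archRow w e) (toComplex w γ • q)) ^ 2)⁻¹ =
      ‖w.embedding (γ : Matrix (Fin 2) (Fin 2) F).det‖ ^ 2 *
        ((archForm (archRow w (e ᵥ* (γ : Matrix (Fin 2) (Fin 2) F))) q) ^ 2)⁻¹ := by
  have hd : ‖w.embedding (γ : Matrix (Fin 2) (Fin 2) F).det‖ ≠ 0 :=
    norm_ne_zero_iff.mpr ((map_ne_zero_iff _ (RingHom.injective _)).mpr γ.det_ne_zero)
  rw [← archRow_vecMul, ← archForm_smul,
    show (toComplex w γ : Matrix (Fin 2) (Fin 2) ℂ).det =
      w.embedding (γ : Matrix (Fin 2) (Fin 2) F).det from (RingHom.map_det _ _).symm]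
  field_simp

/-! ### The height -/

theorem height_pos {e : Fin 2 → F} (he : e ≠ 0) (x : Gf F) (p : Hyp F) : 0 < height e x p := by
  rw [height_eq]
  refine mul_pos (finprod_induction (0 < ·) one_pos (fun _ _ => mul_pos)
    fun v => localHeight_pos v he _) (Finset.prod_pos fun w _ => ?_)
  exact inv_pos.mpr (pow_pos (archForm_pos (archRow_ne_zero w he) _) 2)

theorem height_mul_kmax (e : Fin 2 → F) (x : Gf F) {k : Gf F} (hk : k ∈ kmax F) (p : Hyp F) :
    height e (x * k) p = height e x p := by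
  rw [height_eq, height_eq]
  congr 1
  exact finprod_congr fun v => localHeight_mul_max e _ (hk v)

theorem height_mul_group (U : Level F) (e : Fin 2 → F) (x : Gf F) {j : Gf F} (hj : j ∈ U.group)
    (p : Hyp F) : height e (x * j) p = height e x p :=
  height_mul_kmax e x (U.group_le_kmax hj) p

/-- The height of a line at a point of the space. -/
def spcHeight {U : Level F} (e : Fin 2 → F) (s : Spc U) : ℝ := height e s.1.out s.2

theorem spcHeight_mk {U : Level F} (e : Fin 2 → F) (x : Gf F) (p : Hyp F) :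
    spcHeight e (((x : Ωf U), p) : Spc U) = height e x p := by
  obtain ⟨j, hj⟩ := QuotientGroup.mk_out_eq_mul U.group x
  rw [spcHeight, hj, height_mul_group U e x j.2]

omit [NumberField F] in
theorem vecMul_ne_zero {e : Fin 2 → F} (he : e ≠ 0) (γ : GL (Fin 2) F) :
    e ᵥ* (γ : Matrix (Fin 2) (Fin 2) F) ≠ 0 := fun h => he (by
  have := congrArg (· ᵥ* ((γ⁻¹ : GL (Fin 2) F) : Matrix (Fin 2) (Fin 2) F)) h
  simpa [Matrix.vecMul_vecMul] using this)

variable [IsTotallyComplex F]

theorem height_diag_smul {e : Fin 2 → F} (he : e ≠ 0) (γ : GL (Fin 2) F) (x : Gf F) (p : Hyp F) :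
    height e (diag F γ * x) (γ • p) = height (e ᵥ* (γ : Matrix (Fin 2) (Fin 2) F)) x p := by
  have hd : (γ : Matrix (Fin 2) (Fin 2) F).det ≠ 0 := γ.det_ne_zero
  rw [height_eq, height_eq]
  rw [finprod_congr fun v => (show localHeight v e ((diag F γ * x).1 v) = _ from
      localHeight_toLocal_mul e γ (x.1 v)),
    Finset.prod_congr rfl fun w _ => (show (archForm (archRow w e) ((γ • p) w) ^ 2)⁻¹ = _ from
      archForm_toComplex_smul w e γ (p w)),
    finprod_mul_distrib (hasFiniteMulSupport_norm hd)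
      (hasFiniteMulSupport_localHeight (vecMul_ne_zero he γ) x),
    Finset.prod_mul_distrib, mul_mul_mul_comm, prod_norm_eq_one hd, one_mul]

theorem spcHeight_smul {U : Level F} {e : Fin 2 → F} (he : e ≠ 0) (γ : GL (Fin 2) F)
    (s : Spc U) : spcHeight e (γ • s) = spcHeight (e ᵥ* (γ : Matrix (Fin 2) (Fin 2) F)) s := by
  obtain ⟨ω, p⟩ := s
  induction ω using QuotientGroup.induction_on with
  | H x =>
    show spcHeight e (((diag F γ * x : Gf F) : Ωf U), γ • p) = _
    rw [spcHeight_mk, spcHeight_mk, height_diag_smul he]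

theorem height_smul {e : Fin 2 → F} (he : e ≠ 0) {l : F} (hl : l ≠ 0) (x : Gf F) (p : Hyp F) :
    height (l • e) x p = height e x p := by
  set s : GL (Fin 2) F := Matrix.GeneralLinearGroup.scalar (Fin 2) (Units.mk0 l hl)
  have hp : s • p = p := funext fun w => H3.smul_of_scalar (c := w.embedding l) (by
    ext i j
    by_cases h : i = j <;>
      simp [s, toComplex, Matrix.GeneralLinearGroup.scalar, Matrix.scalar, h]) _
  have hc : ∀ v : FPlace F, toLocal v s ∈ Subgroup.center (GLv v) := fun v =>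
    toLocal_mem_center v (Tree.scalar_mem_center _)
  have hx : diag F s * x = x * diag F s :=
    Subtype.ext (funext fun v => (Subgroup.mem_center_iff.mp (hc v) (x.1 v)).symm)
  rw [show l • e = e ᵥ* (s : Matrix (Fin 2) (Fin 2) F) by
      rw [Tree.coe_scalar_eq_smul, Matrix.vecMul_smul, Matrix.vecMul_one]; rfl,
    ← height_diag_smul he, hp, hx,
    height_mul_kmax e x (show diag F s ∈ kmax F from fun v => center_le_maxSubgroup v (hc v))]

/-- The product of the heights of two different lines is at most one. -/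
theorem height_mul_height_le {e e' : Fin 2 → F} (hD : e 0 * e' 1 - e 1 * e' 0 ≠ 0) (x : Gf F)
    (p : Hyp F) : height e x p * height e' x p ≤ 1 := by
  have he : e ≠ 0 := by rintro rfl; simp at hD
  have he' : e' ≠ 0 := by rintro rfl; simp at hD
  set D := e 0 * e' 1 - e 1 * e' 0
  rw [height_eq, height_eq, mul_mul_mul_comm, ← finprod_mul_distrib
    (hasFiniteMulSupport_localHeight he x) (hasFiniteMulSupport_localHeight he' x),
    ← Finset.prod_mul_distrib]
  have h1 : ∏ᶠ v : FPlace F, localHeight v e (x.1 v) * localHeight v e' (x.1 v) ≤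
      ∏ᶠ v : FPlace F, (‖algebraMap F (v.adicCompletion F) D‖ ^ 2)⁻¹ := by
    have f1 := (hasFiniteMulSupport_localHeight he x).union (hasFiniteMulSupport_localHeight he' x)
      |>.union (hasFiniteMulSupport_norm hD)
    rw [finprod_eq_prod_of_mulSupport_subset _ (s := f1.toFinset) ?_,
      finprod_eq_prod_of_mulSupport_subset _ (s := f1.toFinset) ?_]
    · exact Finset.prod_le_prod (fun v _ => mul_nonneg (localHeight_pos v he _).le
        (localHeight_pos v he' _).le) fun v _ => localHeight_mul_le e e' he he' hD _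
    all_goals
      rw [Set.Finite.coe_toFinset]
      intro v hv
      by_contra hc
      simp only [Set.mem_union, Function.mem_mulSupport, not_or, not_not] at hc
      exact hv (by simp [hc.1.1, hc.1.2, hc.2])
  have h2 : ∏ w : InfinitePlace F, ((archForm (archRow w e) (p w) ^ 2)⁻¹ *
      (archForm (archRow w e') (p w) ^ 2)⁻¹) ≤
      ∏ w : InfinitePlace F, ((‖w.embedding D‖ ^ 2) ^ 2)⁻¹ := by
    refine Finset.prod_le_prod (fun w _ => by positivity) fun w _ => ?_
    have hDw : 0 < ‖w.embedding D‖ :=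
      norm_pos_iff.mpr ((map_ne_zero_iff _ (RingHom.injective _)).mpr hD)
    rw [← mul_inv, ← mul_pow]
    refine inv_anti₀ (by positivity) (pow_le_pow_left₀ (sq_nonneg _) ?_ 2)
    refine le_trans (le_of_eq ?_) (archForm_mul_ge (archRow w e) (archRow w e') (p w))
    simp only [D, archRow, map_sub, map_mul]
  refine (mul_le_mul h1 h2 (Finset.prod_nonneg fun w _ => by positivity)
    (finprod_nonneg fun v => by positivity)).trans (le_of_eq ?_)
  rw [finprod_inv_distrib, Finset.prod_inv_distrib, ← finprod_pow (hasFiniteMulSupport_norm hD),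
    Finset.prod_pow _ 2, ← mul_inv, ← mul_pow, prod_norm_eq_one hD, one_pow, inv_one]

/-- At most one line has height above one. -/
theorem line_unique_of_one_lt_height {e e' : Fin 2 → F} {x : Gf F} {p : Hyp F}
    (h : 1 < height e x p) (h' : 1 < height e' x p) : e 0 * e' 1 = e 1 * e' 0 := by
  by_contra hne
  exact absurd (height_mul_height_le (sub_ne_zero.mpr hne) x p)
    (not_le.mpr (one_lt_mul_of_lt_of_le h h'.le))

end Fermat.Agent.ResidualThree
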