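import Fermat.Agent.ResidualThree.Automorphic.SiegelFinite
import Fermat.Agent.ResidualThree.Kernel.Quotient

/-!
# A weight for `PGL₂(F) \ Spc U` and the finiteness of the volume

The number of translates inside a Siegel set which covers is finite and positive, so its inverse,
restricted to the Siegel set, is a weight.  The Siegel sets have finite volume.
-/

noncomputable section

open IsDedekindDomain NumberField MeasureTheory
open scoped WithZero ENNReal

namespace Fermat.Agent.ResidualThree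

variable {F : Type} [Field F] [NumberField F]

theorem measurableSet_siegelSet (U : Level F) (X : Set (Ωf U)) (c A R : ℝ) :
    MeasurableSet (siegelSet U X c A R) := by
  refine (MeasurableSet.preimage (t := X) trivial measurable_fst).inter ?_
  show MeasurableSet {s : Spc U | ∀ w : InfinitePlace F, ‖(s.2 w).z‖ ≤ R ∧ c ≤ (s.2 w).y ∧
    ∀ w', (s.2 w).y ≤ A * (s.2 w').y}
  have hz : ∀ w, Measurable fun s : Spc U => ‖(s.2 w).z‖ := fun w =>
    (continuous_norm.comp H3.continuous_z).measurable.comp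
      ((measurable_pi_apply w).comp measurable_snd)
  have hy : ∀ w, Measurable fun s : Spc U => (s.2 w).y := fun w =>
    H3.continuous_y.measurable.comp ((measurable_pi_apply w).comp measurable_snd)
  have e : {s : Spc U | ∀ w : InfinitePlace F, ‖(s.2 w).z‖ ≤ R ∧ c ≤ (s.2 w).y ∧
      ∀ w', (s.2 w).y ≤ A * (s.2 w').y} = ⋂ w : InfinitePlace F,
        ({s | ‖(s.2 w).z‖ ≤ R} ∩ ({s | c ≤ (s.2 w).y} ∩
          ⋂ w', {s | (s.2 w).y ≤ A * (s.2 w').y})) := by
    ext s; simp
  rw [e]
  exact MeasurableSet.iInter fun w => (measurableSet_le (hz w) measurable_const).inter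
    ((measurableSet_le measurable_const (hy w)).inter
      (MeasurableSet.iInter fun w' => measurableSet_le (hy w) ((hy w').const_mul A)))

variable [IsTotallyComplex F]

theorem finite_smul_mem_siegelSet {U : Level F} {X : Set (Ωf U)} (hX : X.Finite) {c : ℝ}
    (hc : 0 < c) (A R : ℝ) (s : Spc U) : {γ : PGLF F | γ • s ∈ siegelSet U X c A R}.Finite := by
  rcases Set.eq_empty_or_nonempty {γ : PGLF F | γ • s ∈ siegelSet U X c A R} with h | ⟨γ₀, hγ₀⟩
  · rw [h]; exact Set.finite_empty
  refine ((finite_siegel_pairs hX hX hc hc A A R R).preimage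
    (f := fun γ => γ * γ₀⁻¹) fun a _ b _ h => mul_right_cancel h).subset fun γ hγ => ?_
  exact ⟨γ₀ • s, hγ₀, by rwa [mul_smul, inv_smul_smul]⟩

/-- A weight, supported in a covering Siegel set, bounded by one, with sums one everywhere. -/
theorem exists_quotientWeight (U : Level F) :
    ∃ (W : QuotientWeight U) (X : Set (Ωf U)) (c A R : ℝ), X.Finite ∧ 0 < c ∧
      (∀ s : Spc U, ∃ g : GL (Fin 2) F, g • s ∈ siegelSet U X c A R) ∧
      (∀ s, s ∉ siegelSet U X c A R → W.w s = 0) ∧ (∀ s, W.w s ≤ 1) ∧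
      ∀ s : Spc U, ∑' γ : PGLF F, (W.w (γ • s) : ℝ≥0∞) = 1 := by
  classical
  obtain ⟨X, c, A, R, hX, hc, hcov⟩ := exists_siegel_cover U
  set T := siegelSet U X c A R
  set N : Spc U → ℝ≥0∞ := fun s => ∑' γ : PGLF F, T.indicator 1 (γ • s) with hN
  have hNsmul : ∀ (δ : PGLF F) (s : Spc U), N (δ • s) = N s := fun δ s => by
    simp only [hN, ← mul_smul]
    exact (Equiv.mulRight δ).tsum_eq fun γ => T.indicator (1 : Spc U → ℝ≥0∞) (γ • s)
  have hNtop : ∀ s, N s ≠ ⊤ := fun s => by
    simp only [hN]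
    rw [tsum_eq_sum (s := (finite_smul_mem_siegelSet hX hc A R s).toFinset) fun γ hγ =>
      Set.indicator_of_notMem (s := T) (a := γ • s)
        (fun h => hγ ((Set.Finite.mem_toFinset _).mpr h)) _]
    exact ENNReal.sum_ne_top.mpr fun γ _ => by
      by_cases h : γ • s ∈ T <;> simp [h]
  have hN1 : ∀ s, 1 ≤ N s := fun s => by
    obtain ⟨g, hg⟩ := hcov s
    refine le_trans (le_of_eq ?_) (ENNReal.le_tsum (g : PGLF F))
    rw [mk_smul_spc, Set.indicator_of_mem hg, Pi.one_apply]
  have hN0 : ∀ s, N s ≠ 0 := fun s h => by have := hN1 s; simp [h] at this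
  set f : Spc U → ℝ≥0∞ := fun s => T.indicator 1 s / N s with hf
  have hT := measurableSet_siegelSet U X c A R
  have hNm : Measurable N := Measurable.tsum fun γ =>
    (measurable_one.indicator hT).comp (measurable_const_smul γ)
  have hfm : Measurable f := (measurable_one.indicator hT).div hNm
  have hf1 : ∀ s, f s ≤ 1 := fun s => by
    refine ENNReal.div_le_of_le_mul ?_
    rw [one_mul]
    by_cases h : s ∈ T <;> simp [h, hN1 s]
  have hsum : ∀ s : Spc U, ∑' γ : PGLF F, (((f (γ • s)).toNNReal : NNReal) : ℝ≥0∞) = 1 := by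
    intro s
    rw [tsum_congr fun γ => ENNReal.coe_toNNReal ((hf1 (γ • s)).trans_lt ENNReal.one_lt_top).ne]
    simp only [hf, hNsmul, div_eq_mul_inv]
    rw [ENNReal.tsum_mul_right]
    exact ENNReal.mul_inv_cancel (hN0 s) (hNtop s)
  refine ⟨⟨fun s => (f s).toNNReal, hfm.ennreal_toNNReal, Filter.Eventually.of_forall hsum⟩,
    X, c, A, R, hX, hc, hcov, fun s hs => ?_, fun s => ?_, hsum⟩
  · simp [hf, Set.indicator_of_notMem (show s ∉ T from hs)]
  · show (f s).toNNReal ≤ 1
    rw [← ENNReal.toNNReal_one]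
    exact ENNReal.toNNReal_mono ENNReal.one_ne_top (hf1 s)

/-- Cusps have finite volume. -/
theorem vol_cusp_lt_top {c : ℝ} (hc : 0 < c) (R : ℝ) :
    H3.vol {q : H3 | ‖q.z‖ ≤ R ∧ c ≤ q.y} < ⊤ := by
  set S : Set (ℂ × ℝ) := Metric.closedBall (0 : ℂ) R ×ˢ Set.Ici c with hS
  have hSm : MeasurableSet S := measurableSet_closedBall.prod measurableSet_Ici
  have e : {q : H3 | ‖q.z‖ ≤ R ∧ c ≤ q.y} = H3.toPair ⁻¹' S := by
    ext q; simp [hS, H3.toPair]
  rw [e, ← lintegral_indicator_one (H3.measurableEmbedding_toPair.measurable hSm)]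
  rw [show (fun q => (H3.toPair ⁻¹' S).indicator (1 : H3 → ℝ≥0∞) q) =
    fun q => S.indicator 1 (H3.toPair q) from rfl, H3.lintegral_vol]
  have h2 : ∫⁻ q in H3.upperSet, H3.volDensity q * S.indicator 1 q ≤
      ∫⁻ q in S, H3.volDensity q := by
    refine le_trans (setLIntegral_le_lintegral _ _) ?_
    rw [← lintegral_indicator hSm]
    refine lintegral_mono fun q => ?_
    by_cases h : q ∈ S <;> simp [h]
  refine h2.trans_lt ?_
  rw [hS, Measure.volume_eq_prod, ← Measure.prod_restrict,
    lintegral_prod _ H3.measurable_volDensity.aemeasurable]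
  simp only [H3.volDensity, lintegral_const, Measure.restrict_apply_univ]
  refine ENNReal.mul_lt_top ?_ measure_closedBall_lt_top
  have hint : IntegrableOn (fun y : ℝ => y ^ (-3 : ℝ)) (Set.Ici c) :=
    (integrableOn_Ici_iff_integrableOn_Ioi).mpr (integrableOn_Ioi_rpow_of_lt (by norm_num) hc)
  refine lt_of_eq_of_lt ?_ hint.lintegral_lt_top
  refine setLIntegral_congr_fun measurableSet_Ici fun y hy => ?_
  rw [Real.rpow_neg (hc.le.trans hy), show (3 : ℝ) = ((3 : ℕ) : ℝ) by norm_num, Real.rpow_natCast]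

omit [IsTotallyComplex F] in
/-- Siegel sets have finite volume. -/
theorem volSpc_siegelSet_lt_top {U : Level F} {X : Set (Ωf U)} (hX : X.Finite) {c : ℝ} (hc : 0 < c)
    (A R : ℝ) : volSpc U (siegelSet U X c A R) < ⊤ := by
  have hsub : siegelSet U X c A R ⊆
      X ×ˢ Set.univ.pi fun _ : InfinitePlace F => {q : H3 | ‖q.z‖ ≤ R ∧ c ≤ q.y} :=
    fun s hs => ⟨hs.1, fun w _ => ⟨(hs.2 w).1, (hs.2 w).2.1⟩⟩
  refine (measure_mono hsub).trans_lt ?_
  rw [volSpc, Measure.prod_prod, Measure.pi_pi]
  exact ENNReal.mul_lt_top (Measure.count_apply_lt_top.mpr hX)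
    (ENNReal.prod_lt_top fun _ _ => vol_cusp_lt_top hc R)

/-- The quotient has finite volume, for every weight. -/
instance isFiniteMeasure_qMeas {U : Level F} (W : QuotientWeight U) :
    IsFiniteMeasure (Kernel.qMeas W) := by
  obtain ⟨W₀, X, c, A, R, hX, hc, -, hzero, hone, -⟩ := exists_quotientWeight U
  refine ⟨?_⟩
  rw [Kernel.qMeas_univ_congr W W₀, ← lintegral_one, Kernel.lintegral_qMeas W₀ measurable_const]
  refine lt_of_le_of_lt ?_ (volSpc_siegelSet_lt_top hX hc A R)
  rw [← lintegral_indicator_one (measurableSet_siegelSet U X c A R)]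
  refine lintegral_mono fun s => ?_
  by_cases hs : s ∈ siegelSet U X c A R
  · rw [mul_one, Set.indicator_of_mem hs, Pi.one_apply]
    exact ENNReal.coe_le_one_iff.mpr (hone s)
  · simp [hzero s hs]

/-- Two translates of large height differ by an upper triangular matrix. -/
theorem upper_of_one_lt_spcHeight {U : Level F} {g : GL (Fin 2) F} {s : Spc U}
    (h : 1 < spcHeight (topRow F) s) (h' : 1 < spcHeight (topRow F) (g • s)) :
    (g : Matrix (Fin 2) (Fin 2) F) 1 0 = 0 := by
  rw [spcHeight_smul topRow_ne_zero, topRow_vecMul] at h'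
  have := line_unique_of_one_lt_height h h'
  simpa [topRow] using this.symm

end Fermat.Agent.ResidualThree
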