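import Fermat.Agent.ResidualThree.Automorphic.Delta
import Fermat.Agent.ResidualThree.Automorphic.Weight
import Fermat.Agent.ResidualThree.Kernel.Petersson

/-!
# Irreducibility of the space of eigenforms

Every eigenform orthogonal to all translates of a non-zero one vanishes; hence the forms of a fixed
level are spanned by level averages of translates of any one of them.
-/

noncomputable section

open IsDedekindDomain NumberField MeasureTheory
open scoped WithZero ENNReal ComplexConjugate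

namespace Fermat.Agent.ResidualThree

variable {F : Type} [Field F] [NumberField F] [IsTotallyComplex F]

theorem exists_finiteWeight (U : Level F) :
    ∃ W : QuotientWeight U, IsFiniteMeasure (Kernel.qMeas W) :=
  let ⟨W, _⟩ := exists_quotientWeight U
  ⟨W, inferInstance⟩

variable {S : Finset (FPlace F)} {a : FPlace F → ℂ}

omit [IsTotallyComplex F] in
theorem IsEigenForm.mono {S T : Set (FPlace F)} {φ : Gf F → Hyp F → ℂ} (h : IsEigenForm S a φ)
    (hST : S ⊆ T) : IsEigenForm T a φ := by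
  obtain ⟨U, hU, hJ⟩ := h.exists_level
  exact ⟨⟨U, hU, fun v hv => hJ v fun hS => hv (hST hS)⟩, h.cuspidal, h.spectral, h.bounded,
    fun v hv => h.eigen v fun hS => hv (hST hS)⟩

section Pairing

variable {φ φ' ψ : Gf F → Hyp F → ℂ}

omit [IsTotallyComplex F] in
theorem IsEigenForm.exists_common_level (hφ : IsEigenForm (S : Set (FPlace F)) a φ)
    (hφ' : IsEigenForm (S : Set (FPlace F)) a φ') (hψ : IsEigenForm (S : Set (FPlace F)) a ψ) :
    ∃ U : Level F, IsAutomorphic U φ ∧ IsAutomorphic U φ' ∧ IsAutomorphic U ψ := by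
  obtain ⟨U₁, h₁, -⟩ := hφ.exists_level
  obtain ⟨U₂, h₂, -⟩ := hφ'.exists_level
  obtain ⟨U₃, h₃, -⟩ := hψ.exists_level
  exact ⟨U₁.inter (U₂.inter U₃), h₁.mono fun v => inf_le_left,
    h₂.mono fun v => inf_le_right.trans inf_le_left,
    h₃.mono fun v => inf_le_right.trans inf_le_right⟩

theorem IsEigenForm.petersson_add_left (hφ : IsEigenForm (S : Set (FPlace F)) a φ)
    (hφ' : IsEigenForm (S : Set (FPlace F)) a φ') (hψ : IsEigenForm (S : Set (FPlace F)) a ψ) :
    petersson (φ + φ') ψ = petersson φ ψ + petersson φ' ψ := by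
  obtain ⟨U, h₁, h₂, h₃⟩ := hφ.exists_common_level hφ' hψ
  obtain ⟨W, hW⟩ := exists_finiteWeight U
  exact ResidualThree.petersson_add_left W h₁ h₂ h₃ hφ.bounded hφ'.bounded hψ.bounded

theorem IsEigenForm.petersson_smul_left (hφ : IsEigenForm (S : Set (FPlace F)) a φ)
    (hψ : IsEigenForm (S : Set (FPlace F)) a ψ) (c : ℂ) :
    petersson (c • φ) ψ = c * petersson φ ψ := by
  obtain ⟨U, h₁, -, h₃⟩ := hφ.exists_common_level hφ hψ
  obtain ⟨W, hW⟩ := exists_finiteWeight U
  exact ResidualThree.petersson_smul_left W h₁ h₃ c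

theorem IsEigenForm.petersson_rightTr (hφ : IsEigenForm (S : Set (FPlace F)) a φ)
    (hψ : IsEigenForm (S : Set (FPlace F)) a ψ) (g : Gf F) :
    petersson (ResidualThree.rightTr g φ) (ResidualThree.rightTr g ψ) = petersson φ ψ := by
  obtain ⟨U, h₁, -, h₃⟩ := hφ.exists_common_level hφ hψ
  obtain ⟨W, hW⟩ := exists_finiteWeight U
  exact ResidualThree.petersson_rightTr W h₁ h₃ g

theorem IsEigenForm.eq_zero_of_petersson (hφ : IsEigenForm (S : Set (FPlace F)) a φ)
    (h : petersson φ φ = 0) : φ = 0 := by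
  obtain ⟨U, h₁, -⟩ := hφ.exists_level
  obtain ⟨W, hW⟩ := exists_finiteWeight U
  exact eq_zero_of_petersson_self W h₁ hφ.bounded h

omit [IsTotallyComplex F] in
theorem petersson_eq_zero_comm (h : petersson φ ψ = 0) : petersson ψ φ = 0 := by
  rw [← petersson_conj_symm, h, map_zero]

theorem IsEigenForm.petersson_zero_left (hψ : IsEigenForm (S : Set (FPlace F)) a ψ) :
    petersson 0 ψ = 0 := by
  have h := (hψ.smul 0).petersson_smul_left hψ 0
  simpa using h

/-- Orthogonality passes to spans. -/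
theorem petersson_span_left {s : Set (Gf F → Hyp F → ℂ)}
    (hs : s ⊆ (eigenForms (S : Set (FPlace F)) a : Submodule ℂ (Gf F → Hyp F → ℂ)))
    (hψ : IsEigenForm (S : Set (FPlace F)) a ψ) (h : ∀ f ∈ s, petersson f ψ = 0) :
    ∀ f ∈ Submodule.span ℂ s, IsEigenForm (S : Set (FPlace F)) a f ∧ petersson f ψ = 0 := by
  intro f hf
  induction hf using Submodule.span_induction with
  | mem x hx => exact ⟨hs hx, h x hx⟩
  | zero => exact ⟨isEigenForm_zero, hψ.petersson_zero_left⟩
  | add x y _ _ hx hy =>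
    exact ⟨hx.1.add hy.1, by rw [hx.1.petersson_add_left hy.1 hψ, hx.2, hy.2, add_zero]⟩
  | smul c x _ hx =>
    exact ⟨hx.1.smul c, by rw [hx.1.petersson_smul_left hψ, hx.2, mul_zero]⟩

end Pairing

/-- The span of the translates at the places of `S`. -/
def translates (S : Finset (FPlace F)) (θ : Gf F → Hyp F → ℂ) :
    Submodule ℂ (Gf F → Hyp F → ℂ) :=
  Submodule.span ℂ {f | ∃ g : Gf F, (∀ v ∉ S, (g : ∀ v, GLv v) v = 1) ∧ f = rightTr g θ}

omit [IsTotallyComplex F] in
theorem isStableSpace_translates (θ : Gf F → Hyp F → ℂ) :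
    IsStableSpace S (translates S θ) := by
  intro g hg f hf
  induction hf using Submodule.span_induction with
  | mem x hx =>
    obtain ⟨h, hh, rfl⟩ := hx
    exact Submodule.subset_span ⟨g * h, fun v hv => by
      show (g : ∀ v, GLv v) v * (h : ∀ v, GLv v) v = 1
      rw [hg v hv, hh v hv, one_mul], (rightTr_mul g h θ).symm⟩
  | zero => exact (translates S θ).zero_mem
  | add x y _ _ hx hy => exact (translates S θ).add_mem hx hy
  | smul c x _ hx => exact (translates S θ).smul_mem c hx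

theorem translates_le {θ : Gf F → Hyp F → ℂ} (hθ : IsEigenForm (S : Set (FPlace F)) a θ) :
    translates S θ ≤ eigenForms (S : Set (FPlace F)) a := by
  refine Submodule.span_le.2 ?_
  rintro _ ⟨g, hg, rfl⟩
  exact hθ.rightTr fun v hv => hg v (by simpa using hv)

omit [IsTotallyComplex F] in
theorem self_mem_translates (θ : Gf F → Hyp F → ℂ) : θ ∈ translates S θ :=
  Submodule.subset_span ⟨1, fun _ _ => rfl, (rightTr_one θ).symm⟩

/-- An eigenform orthogonal to every translate of a non-zero one is zero. -/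
theorem eq_zero_of_orthogonal_translates {θ φ : Gf F → Hyp F → ℂ}
    (hθ : IsEigenForm (S : Set (FPlace F)) a θ) (hθ0 : θ ≠ 0)
    (hφ : IsEigenForm (S : Set (FPlace F)) a φ)
    (h : ∀ g : Gf F, (∀ v ∉ S, (g : ∀ v, GLv v) v = 1) → petersson φ (rightTr g θ) = 0) :
    φ = 0 := by
  by_contra hφ0
  have hne : translates S θ ≠ ⊥ := fun e => hθ0 (by simpa [e] using self_mem_translates (S := S) θ)
  have hne' : translates S φ ≠ ⊥ := fun e => hφ0 (by simpa [e] using self_mem_translates (S := S) φ)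
  obtain ⟨ψ, ⟨hψ1, hψ2⟩, hψ0⟩ := Submodule.exists_mem_ne_zero_of_ne_bot
    (inf_ne_bot (isStableSpace_translates θ) (isStableSpace_translates φ) (translates_le hθ)
      (translates_le hφ) hne hne')
  refine hψ0 ((translates_le hθ hψ1 : IsEigenForm _ a ψ).eq_zero_of_petersson ?_)
  -- every translate of `θ` is orthogonal to every element of the translates of `φ`
  have key : ∀ g : Gf F, (∀ v ∉ S, (g : ∀ v, GLv v) v = 1) → petersson ψ (rightTr g θ) = 0 := by
    intro g hg
    refine (petersson_span_left (fun f hf => translates_le hφ (Submodule.subset_span hf))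
      (hθ.rightTr fun v hv => hg v (by simpa using hv)) ?_ ψ hψ2).2
    rintro _ ⟨k, hk, rfl⟩
    have e : rightTr g θ = rightTr k (rightTr (k⁻¹ * g) θ) := by
      rw [← rightTr_mul, mul_inv_cancel_left]
    have hkg : ∀ v ∉ S, ((k⁻¹ * g : Gf F) : ∀ v, GLv v) v = 1 := fun v hv => by
      show ((k : ∀ v, GLv v) v)⁻¹ * (g : ∀ v, GLv v) v = 1
      rw [hk v hv, hg v hv, inv_one, one_mul]
    rw [e, hφ.petersson_rightTr (hθ.rightTr fun v hv => hkg v (by simpa using hv))]
    exact h _ hkg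
  refine (petersson_span_left (fun f hf => translates_le hθ (Submodule.subset_span hf))
    (translates_le hθ hψ1) ?_ ψ hψ1).2
  rintro _ ⟨g, hg, rfl⟩
  exact petersson_eq_zero_comm (key g hg)

/-- The eigenforms of a given level. -/
def levelForms (S : Finset (FPlace F)) (a : FPlace F → ℂ) (U : Level F) :
    Submodule ℂ (Gf F → Hyp F → ℂ) where
  carrier := {φ | IsEigenForm (S : Set (FPlace F)) a φ ∧ IsAutomorphic U φ}
  add_mem' h h' := ⟨h.1.add h'.1, h.2.add h'.2⟩
  zero_mem' := ⟨isEigenForm_zero, fun _ _ _ _ _ => rfl, fun _ _ _ => rfl, fun _ => continuous_const⟩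
  smul_mem' c _ h := ⟨h.1.smul c, h.2.smul c⟩

theorem mem_levelForms {U : Level F} {φ : Gf F → Hyp F → ℂ} :
    φ ∈ levelForms S a U ↔ IsEigenForm (S : Set (FPlace F)) a φ ∧ IsAutomorphic U φ := Iff.rfl

/-- Translates by elements fixing `φ` have the same pairing with `φ`. -/
theorem petersson_sum_rightTr_fixed {T : Finset (FPlace F)} {f φ : Gf F → Hyp F → ℂ}
    (hf : IsEigenForm (T : Set (FPlace F)) a f) (hφ : IsEigenForm (T : Set (FPlace F)) a φ)
    {α : Type*} (A : Finset α) (g : α → Gf F)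
    (hg : ∀ i ∈ A, IsEigenForm (T : Set (FPlace F)) a (rightTr (g i) f) ∧ rightTr (g i) φ = φ) :
    IsEigenForm (T : Set (FPlace F)) a (∑ i ∈ A, rightTr (g i) f) ∧
      petersson (∑ i ∈ A, rightTr (g i) f) φ = (A.card : ℂ) * petersson f φ := by
  classical
  induction A using Finset.induction_on with
  | empty => exact ⟨by simpa using isEigenForm_zero, by simp [hφ.petersson_zero_left]⟩
  | insert i A hi ih =>
    obtain ⟨h1, h2⟩ := ih fun j hj => hg j (Finset.mem_insert_of_mem hj)
    obtain ⟨h0, hfix⟩ := hg i (Finset.mem_insert_self i A)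
    have hterm : petersson (rightTr (g i) f) φ = petersson f φ := by
      conv_lhs => rw [← hfix]
      exact hf.petersson_rightTr hφ _
    rw [Finset.sum_insert hi]
    refine ⟨h0.add h1, ?_⟩
    rw [h0.petersson_add_left h1 hφ, h2, hterm, Finset.card_insert_of_notMem hi]
    push_cast
    ring

/-- Averaging over a level. -/
theorem exists_levelAvg {U : Level F} {f : Gf F → Hyp F → ℂ}
    (hf : IsEigenForm (S : Set (FPlace F)) a f) :
    ∃ f' ∈ levelForms S a U,
      f' ∈ Submodule.span ℂ {h | ∃ j ∈ U.group, (∀ v ∉ S, (j : ∀ v, GLv v) v = 1) ∧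
        h = rightTr j f} ∧
      ∀ (T : Finset (FPlace F)) (φ : Gf F → Hyp F → ℂ), S ⊆ T →
        IsEigenForm (T : Set (FPlace F)) a φ →
        (∀ j ∈ U.group, (∀ v ∉ S, (j : ∀ v, GLv v) v = 1) → rightTr j φ = φ) →
        petersson φ f' = petersson φ f := by
  classical
  obtain ⟨V, hV, hVS⟩ := hf.exists_level
  -- the part at `S` of a family
  set res : Gf F → Gf F := fun j => ⟨fun v => if v ∈ S then (j : ∀ v, GLv v) v else 1, by
    refine Filter.mem_of_superset (S.finite_toSet.compl_mem_cofinite) fun v hv => ?_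
    simp only [Set.mem_ofPred_eq, if_neg (show v ∉ S from hv)]
    exact one_mem _⟩ with hres
  have hres1 : ∀ j, ∀ v ∉ S, ((res j : Gf F) : ∀ v, GLv v) v = 1 := fun j v hv => if_neg hv
  have hresU : ∀ j ∈ U.group, res j ∈ U.group := fun j hj v => by
    show (if v ∈ S then (j : ∀ v, GLv v) v else 1) ∈ U.J v
    split_ifs
    · exact hj v
    · exact one_mem _
  have hresf : ∀ j ∈ U.group, rightTr (res j) f = rightTr j f := by
    intro j hj
    funext x
    show f (x * res j) = f (x * j)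
    have hm : ∀ v, (((res j)⁻¹ * j : Gf F) : ∀ v, GLv v) v ∈ V.J v := fun v => by
      show (if v ∈ S then (j : ∀ v, GLv v) v else 1)⁻¹ * (j : ∀ v, GLv v) v ∈ V.J v
      split_ifs with hv
      · rw [inv_mul_cancel]; exact one_mem _
      · rw [inv_one, one_mul, hVS v (by simpa using hv)]; exact U.le_max v (hj v)
    rw [← hV.right (x * res j) _ hm, mul_assoc, mul_inv_cancel_left]
  -- the finite orbit
  have hfin : {ω : Ωf V | ∃ j ∈ U.group, ω = (j : Ωf V)}.Finite := by
    refine (finite_kmax_orbit V 1).subset ?_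
    rintro _ ⟨j, hj, rfl⟩
    exact ⟨j, U.group_le_kmax hj, by rw [one_mul]⟩
  set O := hfin.toFinset
  set r : Ωf V → Gf F := fun ω => if h : ∃ j ∈ U.group, ω = (j : Ωf V) then h.choose else 1
  have hr : ∀ j ∈ U.group, r (j : Ωf V) ∈ U.group ∧
      rightTr (r (j : Ωf V)) f = rightTr j f := by
    intro j hj
    have h : ∃ j' ∈ U.group, (j : Ωf V) = (j' : Ωf V) := ⟨j, hj, rfl⟩
    simp only [r, dif_pos h]
    refine ⟨h.choose_spec.1, ?_⟩
    funext x
    show f (x * h.choose) = f (x * j)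
    have e := QuotientGroup.eq.1 h.choose_spec.2.symm
    rw [← hV.right (x * h.choose) _ e, mul_assoc, mul_inv_cancel_left]
  set h₀ : Gf F → Hyp F → ℂ := (O.card : ℂ)⁻¹ • ∑ ω ∈ O, rightTr (res (r ω)) f
  have hrO : ∀ ω ∈ O, r ω ∈ U.group := by
    intro ω hω
    obtain ⟨j, hj, rfl⟩ := hfin.mem_toFinset.1 hω
    exact (hr j hj).1
  have hmem : ∀ ω ∈ O, IsEigenForm (S : Set (FPlace F)) a (rightTr (res (r ω)) f) :=
    fun ω _ => hf.rightTr fun v hv => hres1 _ v (by simpa using hv)
  have hE : IsEigenForm (S : Set (FPlace F)) a h₀ :=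
    (eigenForms (S : Set (FPlace F)) a).smul_mem _
      ((eigenForms (S : Set (FPlace F)) a).sum_mem fun ω hω => hmem ω hω)
  obtain ⟨W, hW, -⟩ := hE.exists_level
  have hright : ∀ x j : Gf F, (∀ v, (j : ∀ v, GLv v) v ∈ U.J v) → h₀ (x * j) = h₀ x := by
    intro x j hj
    funext p
    simp only [h₀, Pi.smul_apply, Finset.sum_apply]
    congr 1
    have h1 : ∀ k ∈ U.group, ((r (k : Ωf V) : Gf F) : Ωf V) = (k : Ωf V) := fun k hk => by
      have h : ∃ j' ∈ U.group, (k : Ωf V) = (j' : Ωf V) := ⟨k, hk, rfl⟩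
      simp only [r, dif_pos h]
      exact h.choose_spec.2.symm
    have h2 : ∀ g k : Gf F, (g : Ωf V) = (k : Ωf V) → ∀ a : Gf F,
        ((a * g : Gf F) : Ωf V) = ((a * k : Gf F) : Ωf V) := fun g k e a => by
      rw [QuotientGroup.eq] at e ⊢
      rwa [mul_inv_rev, mul_assoc, inv_mul_cancel_left]
    refine Finset.sum_bij' (fun ω _ => ((j * r ω : Gf F) : Ωf V))
      (fun ω _ => ((j⁻¹ * r ω : Gf F) : Ωf V)) ?_ ?_ ?_ ?_ ?_
    · exact fun ω hω => hfin.mem_toFinset.2 ⟨j * r ω, mul_mem hj (hrO ω hω), rfl⟩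
    · exact fun ω hω => hfin.mem_toFinset.2 ⟨j⁻¹ * r ω, mul_mem (inv_mem hj) (hrO ω hω), rfl⟩
    · intro ω hω
      obtain ⟨i, hi, rfl⟩ := hfin.mem_toFinset.1 hω
      rw [h2 _ _ (h1 _ (mul_mem hj (hr i hi).1)) j⁻¹, inv_mul_cancel_left, h1 i hi]
    · intro ω hω
      obtain ⟨i, hi, rfl⟩ := hfin.mem_toFinset.1 hω
      rw [h2 _ _ (h1 _ (mul_mem (inv_mem hj) (hr i hi).1)) j, mul_inv_cancel_left, h1 i hi]
    · intro ω hω
      obtain ⟨i, hi, rfl⟩ := hfin.mem_toFinset.1 hω
      rw [hresf _ (hr i hi).1, hresf _ (hr (j * r (i : Ωf V)) (mul_mem hj (hr i hi).1)).1,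
        (hr (j * r (i : Ωf V)) (mul_mem hj (hr i hi).1)).2]
      simp only [ResidualThree.rightTr, mul_assoc]
  refine ⟨h₀, ⟨hE, hW.left, hright, hW.continuous⟩,
    Submodule.smul_mem _ _ (Submodule.sum_mem _ fun ω hω => Submodule.subset_span
      ⟨res (r ω), hresU _ (hrO ω hω), hres1 _, rfl⟩), fun T φ hT hφ hinv => ?_⟩
  have hO : O.card ≠ 0 := Finset.card_ne_zero.2
    ⟨((1 : Gf F) : Ωf V), hfin.mem_toFinset.2 ⟨1, one_mem _, rfl⟩⟩
  have hTS : (S : Set (FPlace F)) ⊆ (T : Set (FPlace F)) := Finset.coe_subset.2 hT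
  obtain ⟨h1, h2⟩ := petersson_sum_rightTr_fixed (a := a) (hf.mono hTS) hφ O (fun ω => res (r ω))
    (fun ω hω => ⟨(hmem ω hω).mono hTS, hinv _ (hresU _ (hrO ω hω)) (hres1 _)⟩)
  rw [← petersson_conj_symm, ← petersson_conj_symm f φ, h1.petersson_smul_left hφ, h2, ← mul_assoc,
    inv_mul_cancel₀ (Nat.cast_ne_zero.2 hO), one_mul]

/-- The orthogonal projection onto a finite-dimensional space of eigenforms. -/
theorem exists_orthogonal_sub {W : Submodule ℂ (Gf F → Hyp F → ℂ)} [FiniteDimensional ℂ W]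
    (hW : W ≤ eigenForms (S : Set (FPlace F)) a) {φ : Gf F → Hyp F → ℂ}
    (hφ : IsEigenForm (S : Set (FPlace F)) a φ) :
    ∃ w ∈ W, ∀ x ∈ W, petersson (φ - w) x = 0 := by
  set b := Module.finBasis ℂ W
  let L : W →ₗ[ℂ] (Fin (Module.finrank ℂ W) → ℂ) :=
    { toFun := fun w i => petersson (w : Gf F → Hyp F → ℂ) (b i : Gf F → Hyp F → ℂ)
      map_add' := fun w w' => funext fun i =>
        (hW w.2).petersson_add_left (hW w'.2) (hW (b i).2)
      map_smul' := fun c w => funext fun i =>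
        (hW w.2).petersson_smul_left (hW (b i).2) c }
  -- pairings against `W` are determined by the basis
  have horth : ∀ f, IsEigenForm (S : Set (FPlace F)) a f →
      (∀ i, petersson f (b i : Gf F → Hyp F → ℂ) = 0) → ∀ w ∈ W, petersson f w = 0 := by
    intro f hf hb w hw
    refine petersson_eq_zero_comm (petersson_span_left
      (s := Set.range fun i => (b i : Gf F → Hyp F → ℂ)) ?_ hf ?_ w ?_).2
    · rintro _ ⟨i, rfl⟩; exact hW (b i).2
    · rintro _ ⟨i, rfl⟩; exact petersson_eq_zero_comm (hb i)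
    · have h := Submodule.mem_map_of_mem (f := W.subtype) (b.mem_span ⟨w, hw⟩)
      rw [Submodule.map_span, ← Set.range_comp] at h
      exact h
  have hinj : Function.Injective L := by
    rw [← LinearMap.ker_eq_bot, LinearMap.ker_eq_bot']
    intro w hw
    exact Subtype.ext (IsEigenForm.eq_zero_of_petersson (hW w.2)
      (horth w (hW w.2) (fun i => congrFun hw i) w w.2))
  obtain ⟨w, hw⟩ := (LinearMap.injective_iff_surjective_of_finrank_eq_finrank (by simp) (f := L)).1
    hinj (fun i => petersson φ (b i : Gf F → Hyp F → ℂ))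
  have hd : φ - (w : Gf F → Hyp F → ℂ) = φ + (-1 : ℂ) • (w : Gf F → Hyp F → ℂ) := by
    rw [neg_one_smul, sub_eq_add_neg]
  have hdb : ∀ i, petersson (φ - (w : Gf F → Hyp F → ℂ)) (b i : Gf F → Hyp F → ℂ) = 0 := by
    intro i
    rw [hd, hφ.petersson_add_left (IsEigenForm.smul (hW w.2) _) (hW (b i).2),
      IsEigenForm.petersson_smul_left (hW w.2) (hW (b i).2),
      show petersson (w : Gf F → Hyp F → ℂ) (b i : Gf F → Hyp F → ℂ) = _ from congrFun hw i]
    ring
  refine ⟨w, w.2, horth _ ?_ hdb⟩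
  rw [hd]
  exact hφ.add (IsEigenForm.smul (hW w.2) _)

end Fermat.Agent.ResidualThree
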