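import Fermat.Agent.ResidualThree.Automorphic.Height

/-!
# Geometry of numbers at the infinite places

A short vector for every point of the product of hyperbolic spaces, balancing by units, bounded
translations, and finiteness of bounded elements.
-/

noncomputable section

open IsDedekindDomain NumberField MeasureTheory Module
open scoped WithZero

namespace Fermat.Agent.ResidualThree

variable {F : Type} [Field F] [NumberField F]

variable (F) in
/-- The embedding in all the infinite places at once. -/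
def archEmbed : F →+* (InfinitePlace F → ℂ) := RingHom.pi fun w => w.embedding

omit [NumberField F] in
theorem archEmbed_apply (x : F) (w : InfinitePlace F) : archEmbed F x w = w.embedding x := rfl

variable (F) in
/-- The mixed space of a totally complex field is a product of copies of `ℂ`. -/
def mixedEquivPi [IsTotallyComplex F] :
    mixedEmbedding.mixedSpace F ≃ₗ[ℝ] (InfinitePlace F → ℂ) where
  toFun := fun x w => x.2 ⟨w, IsTotallyComplex.isComplex w⟩
  map_add' _ _ := rfl
  map_smul' _ _ := rfl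
  invFun y := (0, fun w => y w.1)
  left_inv _ := Prod.ext (funext fun w => ((InfinitePlace.not_isReal_iff_isComplex.mpr
    (IsTotallyComplex.isComplex w.1)) w.2).elim) rfl
  right_inv _ := rfl

variable (F) in
/-- A real basis of `InfinitePlace F → ℂ` spanning the image of the integers. -/
def archBasis [IsTotallyComplex F] :
    Basis (Free.ChooseBasisIndex ℤ (𝓞 F)) ℝ (InfinitePlace F → ℂ) :=
  (mixedEmbedding.latticeBasis F).map (mixedEquivPi F)

theorem archBasis_apply [IsTotallyComplex F] (i : Free.ChooseBasisIndex ℤ (𝓞 F)) :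
    archBasis F i = archEmbed F (integralBasis F i) := by
  rw [archBasis, Basis.map_apply, mixedEmbedding.latticeBasis_apply]
  rfl

theorem exists_integer_of_mem_span [IsTotallyComplex F] {x : InfinitePlace F → ℂ}
    (hx : x ∈ Submodule.span ℤ (Set.range (archBasis F))) : ∃ a : 𝓞 F, archEmbed F (a : F) = x := by
  induction hx using Submodule.span_induction with
  | mem y hy =>
    obtain ⟨i, rfl⟩ := hy
    exact ⟨RingOfIntegers.basis F i, by rw [archBasis_apply, integralBasis_apply]⟩
  | zero => exact ⟨0, by simp⟩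
  | add y z _ _ hy hz =>
    obtain ⟨a, rfl⟩ := hy
    obtain ⟨b, rfl⟩ := hz
    exact ⟨a + b, by simp⟩
  | smul n y _ hy =>
    obtain ⟨a, rfl⟩ := hy
    exact ⟨n • a, by simp⟩

variable (F) in
/-- Translations by `m` times integers bring every point into a bounded box. -/
theorem exists_translate_le [IsTotallyComplex F] (m : ℕ) (hm : 0 < m) :
    ∃ R : ℝ, ∀ t : InfinitePlace F → ℂ, ∃ b : 𝓞 F, ∀ w : InfinitePlace F,
      ‖t w + (m : ℂ) * w.embedding (b : F)‖ ≤ R := by
  set B := archBasis F
  refine ⟨m * ∑ i, ‖B i‖, fun t => ?_⟩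
  set z : InfinitePlace F → ℂ := fun w => t w / m
  obtain ⟨a, ha⟩ := exists_integer_of_mem_span (ZSpan.floor B z).2
  refine ⟨-a, fun w => ?_⟩
  have hfr : ‖ZSpan.fract B z w‖ ≤ ∑ i, ‖B i‖ :=
    (norm_le_pi_norm _ w).trans (ZSpan.norm_fract_le B z)
  rw [ZSpan.fract_apply, Pi.sub_apply, ← ha, archEmbed_apply] at hfr
  have hm' : (m : ℂ) ≠ 0 := by exact_mod_cast hm.ne'
  rw [show ((-a : 𝓞 F) : F) = -(a : F) from map_neg (algebraMap (𝓞 F) F) a, map_neg, mul_neg,
    ← sub_eq_add_neg, show t w = (m : ℂ) * z w by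
      simp only [z]; field_simp, ← mul_sub, norm_mul, Complex.norm_natCast]
  exact mul_le_mul_of_nonneg_left hfr (Nat.cast_nonneg m)

/-! ### The short vector -/

variable (F) in
/-- The coordinates of row vectors of length two at all infinite places. -/
abbrev ArchPair : Type := InfinitePlace F → Fin 2 → ℂ

variable (F) in
/-- Two copies of the product of complex lines, coordinates regrouped. -/
def pairEquiv : (Fin 2 → InfinitePlace F → ℂ) ≃ₗ[ℝ] ArchPair F where
  toFun f w j := f j w
  map_add' _ _ := rfl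
  map_smul' _ _ := rfl
  invFun g j w := g w j
  left_inv _ := rfl
  right_inv _ := rfl

variable (F) in
/-- A real basis of `ArchPair F` spanning the pairs of integers. -/
def pairBasis [IsTotallyComplex F] :
    Basis (Σ _ : Fin 2, Free.ChooseBasisIndex ℤ (𝓞 F)) ℝ (ArchPair F) :=
  (Pi.basis fun _ : Fin 2 => archBasis F).map (pairEquiv F)

theorem exists_pair_of_mem_span [IsTotallyComplex F] {x : ArchPair F}
    (hx : x ∈ Submodule.span ℤ (Set.range (pairBasis F))) :
    ∃ e : Fin 2 → 𝓞 F, x = fun w j => w.embedding (e j : F) := by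
  induction hx using Submodule.span_induction with
  | mem y hy =>
    obtain ⟨⟨j, i⟩, rfl⟩ := hy
    classical
    refine ⟨Pi.single j (RingOfIntegers.basis F i), ?_⟩
    funext w k
    rw [pairBasis, Basis.map_apply, Pi.basis_apply]
    show (Pi.single (M := fun _ : Fin 2 => InfinitePlace F → ℂ) j (archBasis F i) k) w = _
    by_cases h : k = j
    · subst h
      rw [Pi.single_eq_same, Pi.single_eq_same, archBasis_apply, integralBasis_apply]
      rfl
    · simp [Pi.single_eq_of_ne h]
  | zero => exact ⟨0, by funext w j; simp⟩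
  | add y z _ _ hy hz =>
    obtain ⟨a, rfl⟩ := hy
    obtain ⟨b, rfl⟩ := hz
    exact ⟨a + b, by funext w j; simp⟩
  | smul n y _ hy =>
    obtain ⟨a, rfl⟩ := hy
    exact ⟨n • a, by funext w j; simp⟩

/-- The unimodular map sending a row vector to the coordinates of its binary form. -/
def formMap (q : H3) : (Fin 2 → ℂ) →ₗ[ℂ] (Fin 2 → ℂ) :=
  Matrix.toLin' !![(Real.sqrt q.y : ℂ), 0; q.z / (Real.sqrt q.y : ℂ), 1 / (Real.sqrt q.y : ℂ)]

theorem det_formMap (q : H3) : LinearMap.det (formMap q) = 1 := by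
  have h : (Real.sqrt q.y : ℂ) ≠ 0 := by exact_mod_cast (Real.sqrt_pos.mpr q.y_pos).ne'
  rw [formMap, LinearMap.det_toLin', Matrix.det_fin_two_of]
  field_simp
  ring

theorem archForm_eq_formMap (u : Fin 2 → ℂ) (q : H3) :
    archForm u q = ‖formMap q u 0‖ ^ 2 + ‖formMap q u 1‖ ^ 2 := by
  have hs := Real.sqrt_pos.mpr q.y_pos
  have h : (Real.sqrt q.y : ℂ) ≠ 0 := by exact_mod_cast hs.ne'
  have e0 : formMap q u 0 = (Real.sqrt q.y : ℂ) * u 0 := by
    simp [formMap, Matrix.mulVec, dotProduct, Fin.sum_univ_two]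
  have e1 : formMap q u 1 = (u 0 * q.z + u 1) / (Real.sqrt q.y : ℂ) := by
    simp [formMap, Matrix.mulVec, dotProduct, Fin.sum_univ_two]
    field_simp
  rw [e0, e1, norm_mul, norm_div, Complex.norm_real, Real.norm_eq_abs, abs_of_pos hs, mul_pow,
    div_pow, Real.sq_sqrt q.y_pos.le, archForm, Complex.normSq_eq_norm_sq,
    Complex.normSq_eq_norm_sq]
  have := q.y_pos
  field_simp
  ring

variable (F) in
/-- The form map at all places. -/
def formMapPi (p : Hyp F) : ArchPair F →ₗ[ℝ] ArchPair F :=
  LinearMap.pi fun w => ((formMap (p w)).restrictScalars ℝ).comp (LinearMap.proj w)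

theorem det_formMapPi (p : Hyp F) : LinearMap.det (formMapPi F p) = 1 := by
  rw [formMapPi, LinearMap.det_pi]
  refine Finset.prod_eq_one fun w _ => ?_
  rw [LinearMap.det_restrictScalars, det_formMap, map_one]

variable (F) in
/-- Minkowski: at every point some integral line has bounded form at every infinite place. -/
theorem exists_short_vector [IsTotallyComplex F] :
    ∃ C : ℝ, 0 < C ∧ ∀ p : Hyp F, ∃ e : Fin 2 → 𝓞 F, e ≠ 0 ∧
      ∀ w : InfinitePlace F, archForm (archRow w fun i => (e i : F)) (p w) ≤ C := by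
  set B := pairBasis F
  set μ : Measure (ArchPair F) := Measure.addHaar
  have hfin : μ (ZSpan.fundamentalDomain B) * 2 ^ finrank ℝ (ArchPair F) <
      ⊤ := ENNReal.mul_lt_top ((ZSpan.fundamentalDomain_isBounded B).measure_lt_top)
    (ENNReal.pow_lt_top ENNReal.ofNat_lt_top)
  obtain ⟨R, hR⟩ : ∃ R : ℕ, μ (ZSpan.fundamentalDomain B) * 2 ^ finrank ℝ (ArchPair F) <
      μ (Metric.closedBall (0 : ArchPair F) R) := by
    have hU : (⋃ n : ℕ, Metric.closedBall (0 : ArchPair F) n) = Set.univ :=
      Metric.iUnion_closedBall_nat 0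
    have ht := tendsto_measure_iUnion_atTop (μ := μ)
      (s := fun n : ℕ => Metric.closedBall (0 : ArchPair F) n)
      fun m n h => Metric.closedBall_subset_closedBall (by exact_mod_cast h)
    rw [hU, measure_univ_of_isAddLeftInvariant] at ht
    exact ((ht.eventually (eventually_gt_nhds hfin)).exists)
  refine ⟨2 * (R : ℝ) ^ 2 + 1, by positivity, fun p => ?_⟩
  have hvol : μ (formMapPi F p ⁻¹' Metric.closedBall (0 : ArchPair F) R) =
      μ (Metric.closedBall (0 : ArchPair F) R) := by
    rw [Measure.addHaar_preimage_linearMap μ (by rw [det_formMapPi]; exact one_ne_zero),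
      det_formMapPi, inv_one, abs_one, ENNReal.ofReal_one, one_mul]
  have : Countable (Submodule.span ℤ (Set.range B)).toAddSubgroup :=
    inferInstanceAs (Countable (Submodule.span ℤ (Set.range B)))
  obtain ⟨x, hx0, hx⟩ := exists_ne_zero_mem_lattice_of_measure_mul_two_pow_lt_measure
    (L := (Submodule.span ℤ (Set.range B)).toAddSubgroup)
    (s := formMapPi F p ⁻¹' Metric.closedBall (0 : ArchPair F) R)
    (ZSpan.isAddFundamentalDomain B μ)
    (fun y hy => by simpa [map_neg] using hy)
    ((convex_closedBall 0 (R : ℝ)).linear_preimage _) (by rw [hvol]; exact hR)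
  obtain ⟨e, he⟩ := exists_pair_of_mem_span (show (x : ArchPair F) ∈ _ from x.2)
  refine ⟨e, fun h => hx0 (Subtype.ext ?_), fun w => ?_⟩
  · rw [he, h]; funext w j; simp
  rw [Set.mem_preimage, mem_closedBall_zero_iff] at hx
  have hw : ∀ j, ‖formMap (p w) (archRow w fun i => (e i : F)) j‖ ≤ R := fun j => by
    have h1 := ((norm_le_pi_norm (formMapPi F p (x : ArchPair F) w) j).trans
      (norm_le_pi_norm (formMapPi F p (x : ArchPair F)) w)).trans hx
    rwa [he] at h1
  rw [archForm_eq_formMap]
  have h0 := pow_le_pow_left₀ (norm_nonneg _) (hw 0) 2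
  have h1 := pow_le_pow_left₀ (norm_nonneg _) (hw 1) 2
  linarith

/-! ### Units -/

variable (F) in
/-- Powers of units balance any family of positive numbers. -/
theorem exists_unit_balance [IsTotallyComplex F] (m : ℕ) (hm : 0 < m) :
    ∃ A : ℝ, 1 ≤ A ∧ ∀ y : InfinitePlace F → ℝ, (∀ w, 0 < y w) →
      ∃ u : (𝓞 F)ˣ, ∀ w w' : InfinitePlace F,
        ‖w.embedding (((u ^ m : (𝓞 F)ˣ) : 𝓞 F) : F)‖ * y w ≤
          A * (‖w'.embedding (((u ^ m : (𝓞 F)ˣ) : 𝓞 F) : F)‖ * y w') := by
  classical
  set B := (Units.basisUnitLattice F).ofZLatticeBasis ℝ with hB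
  set r : ℝ := ∑ i, ‖B i‖
  have hr : 0 ≤ r := Finset.sum_nonneg fun i _ => norm_nonneg _
  set n : ℝ := (Fintype.card (InfinitePlace F) : ℝ)
  have hn : 1 ≤ n := Nat.one_le_cast.mpr (Fintype.card_pos (α := InfinitePlace F))
  refine ⟨Real.exp ((m : ℝ) * (n * r)), Real.one_le_exp (by positivity), fun y hy => ?_⟩
  set μ : ℝ := (∑ w, Real.log (y w)) / n
  set d : InfinitePlace F → ℝ := fun w => 2 * (μ - Real.log (y w)) / m with hd
  set d' : NumberField.Units.dirichletUnitTheorem.logSpace F := fun w => d w.1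
  obtain ⟨u, -, hu⟩ := Submodule.mem_map.mp (show (ZSpan.floor B d' :
      NumberField.Units.dirichletUnitTheorem.logSpace F) ∈
      Units.unitLattice F by
    have h := (ZSpan.floor B d').2
    exact (SetLike.ext_iff.mp ((Units.basisUnitLattice F).ofZLatticeBasis_span ℝ) _).mp h)
  refine ⟨Additive.toMul u, ?_⟩
  set L : InfinitePlace F → ℝ := fun w =>
    2 * Real.log (w ((Additive.toMul u : (𝓞 F)ˣ) : F)) - d w with hL
  have hLne : ∀ w : {w : InfinitePlace F // w ≠ Units.dirichletUnitTheorem.w₀}, |L w.1| ≤ r := by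
    intro w
    have h := (norm_le_pi_norm (ZSpan.fract B d') w).trans (ZSpan.norm_fract_le B d')
    rw [ZSpan.fract_apply, Pi.sub_apply, ← hu, Real.norm_eq_abs, abs_sub_comm] at h
    simpa [L, d', Units.logEmbedding, IsTotallyComplex.mult_eq] using h
  have hL0 : ∑ w, L w = 0 := by
    have h1 : ∑ w : InfinitePlace F, 2 * Real.log (w ((Additive.toMul u : (𝓞 F)ˣ) : F)) = 0 := by
      have h := congrArg Real.log (InfinitePlace.prod_eq_abs_norm
        ((Additive.toMul u : (𝓞 F)ˣ) : F))
      rw [Units.norm, Rat.cast_one, Real.log_one, Real.log_prod (fun w _ => pow_ne_zero _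
        (by simp))] at h
      simpa [Real.log_pow, IsTotallyComplex.mult_eq] using h
    have h2 : ∑ w, d w = 0 := by
      simp only [hd, ← Finset.sum_div, ← Finset.mul_sum, Finset.sum_sub_distrib, Finset.sum_const,
        Finset.card_univ, nsmul_eq_mul]
      rw [show ((Fintype.card (InfinitePlace F) : ℝ)) * μ = ∑ w, Real.log (y w) by
        simp only [μ, n]; field_simp]
      simp
    rw [hL, Finset.sum_sub_distrib, h1, h2, sub_zero]
  have hLall : ∀ w, |L w| ≤ n * r := fun w => by
    by_cases hw : w = Units.dirichletUnitTheorem.w₀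
    · subst hw
      rw [← Finset.add_sum_erase _ _ (Finset.mem_univ Units.dirichletUnitTheorem.w₀),
        add_eq_zero_iff_eq_neg] at hL0
      rw [hL0, abs_neg]
      refine (Finset.abs_sum_le_sum_abs _ _).trans ((Finset.sum_le_card_nsmul _ _ r fun w hw' =>
        hLne ⟨w, Finset.ne_of_mem_erase hw'⟩).trans ?_)
      rw [nsmul_eq_mul]
      exact mul_le_mul_of_nonneg_right (Nat.cast_le.mpr (Finset.card_le_univ _)) hr
    · exact (hLne ⟨w, hw⟩).trans (le_mul_of_one_le_left hr hn)
  intro w w'
  have hpos : ∀ w : InfinitePlace F, 0 < w ((Additive.toMul u : (𝓞 F)ˣ) : F) := fun w =>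
    InfinitePlace.pos_iff.mpr (by simp)
  have key : ∀ w : InfinitePlace F,
      ‖w.embedding (((Additive.toMul u ^ m : (𝓞 F)ˣ) : 𝓞 F) : F)‖ * y w =
        Real.exp (μ + (m : ℝ) / 2 * L w) := by
    intro w
    have hm0 : (m : ℝ) ≠ 0 := by exact_mod_cast hm.ne'
    rw [InfinitePlace.norm_embedding_eq, Units.val_pow_eq_pow_val,
      show ((((Additive.toMul u : (𝓞 F)ˣ) : 𝓞 F) ^ m : 𝓞 F) : F) =
        ((Additive.toMul u : (𝓞 F)ˣ) : F) ^ m from map_pow (algebraMap (𝓞 F) F) _ _, map_pow,
      ← Real.exp_log (pow_pos (hpos w) m), ← Real.exp_log (hy w), ← Real.exp_add, Real.log_pow]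
    congr 1
    simp only [hL, hd]
    field_simp
    ring
  rw [key, key, ← Real.exp_add]
  refine Real.exp_le_exp.mpr ?_
  have hm' : (0 : ℝ) ≤ (m : ℝ) / 2 := by positivity
  have h1 := mul_le_mul_of_nonneg_left (abs_le.mp (hLall w)).2 hm'
  have h2 := mul_le_mul_of_nonneg_left (abs_le.mp (hLall w')).1 hm'
  linarith

/-! ### Finiteness -/

/-- Elements with bounded denominators and bounded conjugates are finite in number. -/
theorem finite_bounded_elements (B : FPlace F → ℤ)
    (hB : ∀ᶠ v in Filter.cofinite, B v ≤ 0) (C : ℝ) :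
    {x : F | (∀ v : FPlace F, v.valuation F x ≤ WithZero.exp (B v)) ∧
      ∀ w : InfinitePlace F, ‖w.embedding x‖ ≤ C}.Finite := by
  classical
  have hfin := Filter.eventually_cofinite.mp hB
  set I : Ideal (𝓞 F) := ∏ v ∈ hfin.toFinset, v.asIdeal ^ (B v).toNat
  have hI : I ≠ ⊥ := Finset.prod_ne_zero_iff.mpr fun v _ => pow_ne_zero _ v.ne_bot
  obtain ⟨N, hN, hN0⟩ := Submodule.exists_mem_ne_zero_of_ne_bot hI
  have hNF : (N : F) ≠ 0 := by exact_mod_cast hN0
  have hint : ∀ x : F, (∀ v : FPlace F, v.valuation F x ≤ WithZero.exp (B v)) →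
      ∀ v : FPlace F, v.valuation F ((N : F) * x) ≤ 1 := by
    intro x hx v
    rw [map_mul]
    by_cases hv : B v ≤ 0
    · refine mul_le_one' (v.valuation_le_one N) ((hx v).trans ?_)
      rw [← WithZero.exp_zero, WithZero.exp_le_exp]; exact hv
    · have hle : I ≤ v.asIdeal ^ (B v).toNat :=
        Ideal.le_of_dvd (Finset.dvd_prod_of_mem _ (hfin.mem_toFinset.mpr hv))
      have h1 : v.valuation F (N : F) ≤ WithZero.exp (-((B v).toNat : ℤ)) :=
        (v.valuation_of_algebraMap N).trans_le ((v.intValuation_le_pow_iff_mem _ _).mpr (hle hN))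
      refine (mul_le_mul' h1 (hx v)).trans (le_of_eq ?_)
      rw [← WithZero.exp_add, ← WithZero.exp_zero, Int.toNat_of_nonneg (by omega), neg_add_cancel]
  set M : ℝ := ∑ w : InfinitePlace F, ‖w.embedding (N : F)‖
  refine ((Embeddings.finite_of_norm_le F ℂ (M * |C|)).preimage
    ((mul_right_injective₀ hNF).injOn)).subset ?_
  rintro x ⟨hx, hxC⟩
  refine ⟨?_, fun φ => ?_⟩
  · obtain ⟨a, ha⟩ := HeightOneSpectrum.mem_integers_of_valuation_le_one F _ (hint x hx)
    show IsIntegral ℤ ((N : F) * x)
    rw [← ha]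
    exact RingOfIntegers.isIntegral_coe a
  · show ‖φ ((N : F) * x)‖ ≤ M * |C|
    rw [← InfinitePlace.apply φ, ← InfinitePlace.norm_embedding_eq, map_mul, norm_mul]
    exact mul_le_mul (Finset.single_le_sum (f := fun w : InfinitePlace F => ‖w.embedding (N : F)‖)
      (fun w _ => norm_nonneg _) (Finset.mem_univ _)) ((hxC _).trans (le_abs_self C))
      (norm_nonneg _) (Finset.sum_nonneg fun w _ => norm_nonneg _)

/-- Uniformly bounded absolute values at the finite places give bounded denominators. -/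
theorem exists_exp_bound (K : ℝ) :
    ∃ B : FPlace F → ℤ, (∀ᶠ v in Filter.cofinite, B v ≤ 0) ∧
      ∀ (v : FPlace F) (x : F), ‖algebraMap F (v.adicCompletion F) x‖ ≤ K →
        v.valuation F x ≤ WithZero.exp (B v) := by
  classical
  refine ⟨fun v => if (Ideal.absNorm v.asIdeal : ℝ) ≤ K then (⌈K⌉₊ : ℤ) else 0, ?_,
    fun v x hx => ?_⟩
  · rw [Filter.eventually_cofinite]
    refine ((Ideal.finite_setOfPred_absNorm_le (S := 𝓞 F) ⌊K⌋₊).preimage
      (f := fun v : FPlace F => v.asIdeal) fun v _ w _ h => HeightOneSpectrum.ext h).subset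
      fun v hv => ?_
    simp only [Set.mem_ofPred_eq] at hv
    split_ifs at hv with h
    · exact Nat.le_floor h
    · exact absurd le_rfl hv
  · rcases eq_or_ne x 0 with rfl | hx0
    · rw [map_zero]; exact zero_le
    have h1 : (1 : ℝ) < Ideal.absNorm v.asIdeal := by
      exact_mod_cast NumberField.HeightOneSpectrum.one_lt_absNorm v
    have hv0 : v.valuation F x ≠ 0 := (Valuation.ne_zero_iff _).mpr hx0
    rw [FinitePlace.norm_def, valv_algebraMap, WithZeroMulInt.toNNReal_neg_apply _ hv0] at hx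
    push_cast at hx
    have he : v.valuation F x = WithZero.exp (WithZero.log (v.valuation F x)) :=
      (WithZero.exp_log hv0).symm
    set z := WithZero.log (v.valuation F x)
    rw [he, WithZero.exp_le_exp]
    dsimp only
    rcases le_or_gt z 0 with hz | hz
    · split_ifs <;> omega
    obtain ⟨k, hk⟩ := Int.eq_ofNat_of_zero_le hz.le
    replace hx : (Ideal.absNorm v.asIdeal : ℝ) ^ k ≤ K := by
      refine le_trans (le_of_eq ?_) hx
      rw [← zpow_natCast, ← hk]
      congr 1
      simp only [z, WithZero.log]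
      conv_lhs => rw [← WithZero.coe_unzero hv0]
      rfl
    have hk0 : k ≠ 0 := by omega
    have hKN : (Ideal.absNorm v.asIdeal : ℝ) ≤ K := (le_self_pow₀ h1.le hk0).trans hx
    rw [if_pos hKN, hk, Nat.cast_le]
    have h2 : (k : ℝ) ≤ (Ideal.absNorm v.asIdeal : ℝ) ^ k := by
      have h3 : (2 : ℝ) ≤ Ideal.absNorm v.asIdeal := by
        exact_mod_cast NumberField.HeightOneSpectrum.one_lt_absNorm v
      refine le_trans ?_ (pow_le_pow_left₀ zero_le_two h3 k)
      exact_mod_cast k.lt_two_pow_self.le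
    exact_mod_cast (h2.trans hx).trans (Nat.le_ceil K)

end Fermat.Agent.ResidualThree
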