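import Fermat.Agent.ResidualThree.Automorphic.Periods

/-!
# Intersections and conjugates of levels

Used to pass translates of automorphic functions to common levels.
-/

noncomputable section

open IsDedekindDomain NumberField
open scoped WithZero

namespace Fermat.Agent.ResidualThree

open Fermat.Agent.ResidualThree.Tree (nrm le_nrm nrm_mul_le)

variable {F : Type} [Field F] [NumberField F]

theorem congSubgroup_antitone (v : FPlace F) {m n : ℕ} (h : m ≤ n) :
    congSubgroup v n ≤ congSubgroup v m := by
  refine Subgroup.closure_mono ?_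
  rintro g (⟨h1, h2⟩ | h1)
  · exact Or.inl ⟨h1, fun i j => (h2 i j).trans (WithZero.exp_le_exp.2 (by omega))⟩
  · exact Or.inr h1

theorem congSubgroup_le_max (v : FPlace F) (n : ℕ) : congSubgroup v n ≤ maxSubgroup v := by
  refine Subgroup.closure_mono ?_
  rintro g (⟨h1, _⟩ | h1)
  · exact Or.inl h1
  · exact Or.inr h1

/-- Conjugates of deep congruence subgroups are deep. -/
theorem exists_conj_cong (v : FPlace F) (h : GLv v) (n : ℕ) :
    ∃ n', n ≤ n' ∧ ∀ j ∈ congSubgroup v n', h⁻¹ * j * h ∈ congSubgroup v n := by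
  set A := nrm (valv v) ((h⁻¹ : GLv v) : Matrix (Fin 2) (Fin 2) (v.adicCompletion F)) *
    nrm (valv v) (h : Matrix (Fin 2) (Fin 2) (v.adicCompletion F))
  set c : ℤ := max (WithZero.log A) 0
  refine ⟨n + c.toNat, Nat.le_add_right _ _, ?_⟩
  have hle : congSubgroup v (n + c.toNat) ≤
      (congSubgroup v n).comap (MulAut.conj h⁻¹).toMonoidHom := by
    refine (Subgroup.closure_le _).2 fun j hj => Subgroup.mem_comap.2 ?_
    simp only [MulEquiv.toMonoidHom_eq_coe, MonoidHom.coe_coe, MulAut.conj_apply, inv_inv]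
    rcases hj with ⟨h1, h2⟩ | h1
    · refine Subgroup.subset_closure (Or.inl ?_)
      set M : Matrix (Fin 2) (Fin 2) (v.adicCompletion F) :=
        (j : Matrix (Fin 2) (Fin 2) (v.adicCompletion F)) - 1
      have hM : nrm (valv v) M ≤ WithZero.exp (-((n + c.toNat : ℕ) : ℤ)) :=
        Tree.nrm_le_iff.2 fun i k => by simpa [M] using h2 i k
      have hsmall : ∀ i k, valv v (((h⁻¹ * j * h : GLv v) :
          Matrix (Fin 2) (Fin 2) (v.adicCompletion F)) i k -
          (1 : Matrix (Fin 2) (Fin 2) (v.adicCompletion F)) i k) ≤ WithZero.exp (-(n : ℤ)) := by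
        intro i k
        rw [← Matrix.sub_apply, show ((h⁻¹ * j * h : GLv v) :
            Matrix (Fin 2) (Fin 2) (v.adicCompletion F)) - 1 =
            ((h⁻¹ : GLv v) : Matrix (Fin 2) (Fin 2) (v.adicCompletion F)) * M *
              (h : Matrix (Fin 2) (Fin 2) (v.adicCompletion F)) by
          simp only [M, Units.val_mul, Matrix.mul_sub, Matrix.sub_mul, Matrix.mul_one]
          rw [← Units.val_mul (h⁻¹) h, inv_mul_cancel, Units.val_one]]
        refine (le_nrm _ i k).trans ((nrm_mul_le _ _).trans ?_)
        refine (mul_le_mul' (nrm_mul_le _ _) le_rfl).trans ?_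
        rw [mul_right_comm]
        refine (mul_le_mul' le_rfl hM).trans ?_
        by_cases hA : A = 0
        · exact le_of_eq_of_le (show A * _ = 0 by rw [hA, zero_mul]) zero_le
        show A * _ ≤ _
        rw [← WithZero.exp_log hA, ← WithZero.exp_add, WithZero.exp_le_exp, Nat.cast_add,
          Int.toNat_of_nonneg (le_max_right _ _)]
        omega
      refine ⟨⟨fun i k => ?_, ?_⟩, hsmall⟩
      · have h3 : valv v ((1 : Matrix (Fin 2) (Fin 2) (v.adicCompletion F)) i k) ≤ 1 := by
          rw [Matrix.one_apply]; split_ifs <;> simp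
        rw [← sub_add_cancel (((h⁻¹ * j * h : GLv v) :
          Matrix (Fin 2) (Fin 2) (v.adicCompletion F)) i k)
          ((1 : Matrix (Fin 2) (Fin 2) (v.adicCompletion F)) i k)]
        refine ((valv v).map_add _ _).trans (max_le ((hsmall i k).trans ?_) h3)
        rw [← WithZero.exp_zero, WithZero.exp_le_exp]; omega
      · rw [Units.val_mul, Units.val_mul, Matrix.det_units_conj']
        exact h1.2
    · rw [Subgroup.mem_center_iff] at h1
      rw [mul_assoc, ← h1 h, inv_mul_cancel_left]
      exact Subgroup.subset_closure (Or.inr (Subgroup.mem_center_iff.2 h1))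
  intro j hj
  simpa using Subgroup.mem_comap.1 (hle hj)

namespace Level

/-- The intersection of two levels. -/
def inter (U U' : Level F) : Level F where
  J v := U.J v ⊓ U'.J v
  le_max v := inf_le_left.trans (U.le_max v)
  exists_cong v := by
    obtain ⟨n, hn⟩ := U.exists_cong v
    obtain ⟨n', hn'⟩ := U'.exists_cong v
    exact ⟨max n n', le_inf ((congSubgroup_antitone v (le_max_left _ _)).trans hn)
      ((congSubgroup_antitone v (le_max_right _ _)).trans hn')⟩
  eventually_max := (U.eventually_max.and U'.eventually_max).mono fun v h => by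
    rw [h.1, h.2, inf_idem]

theorem inter_J (U U' : Level F) (v : FPlace F) : (U.inter U').J v = U.J v ⊓ U'.J v := rfl

/-- The level of the translate by `g`. -/
def conjBy (U : Level F) (g : Gf F) : Level F where
  J v := maxSubgroup v ⊓ (U.J v).comap (MulAut.conj ((g : ∀ v, GLv v) v)⁻¹).toMonoidHom
  le_max v := inf_le_left
  exists_cong v := by
    obtain ⟨n, hn⟩ := U.exists_cong v
    obtain ⟨n', -, hn'⟩ := exists_conj_cong v ((g : ∀ v, GLv v) v) n
    refine ⟨n', le_inf (congSubgroup_le_max v n') fun j hj => Subgroup.mem_comap.2 ?_⟩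
    simpa using hn (hn' j hj)
  eventually_max := by
    filter_upwards [g.2, U.eventually_max] with v hg hU
    refine le_antisymm inf_le_left (le_inf le_rfl fun j hj => Subgroup.mem_comap.2 ?_)
    rw [hU]
    simpa using mul_mem (mul_mem (inv_mem hg) hj) hg

theorem conjBy_mem {U : Level F} {g : Gf F} {v : FPlace F} {j : GLv v}
    (hj : j ∈ (U.conjBy g).J v) :
    ((g : ∀ v, GLv v) v)⁻¹ * j * (g : ∀ v, GLv v) v ∈ U.J v := by
  simpa using Subgroup.mem_comap.1 hj.2

theorem conjBy_eq_max {U : Level F} {g : Gf F} {v : FPlace F}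
    (hU : U.J v = maxSubgroup v) (hg : (g : ∀ v, GLv v) v ∈ maxSubgroup v) :
    (U.conjBy g).J v = maxSubgroup v := by
  refine le_antisymm inf_le_left (le_inf le_rfl fun j hj => Subgroup.mem_comap.2 ?_)
  rw [hU]
  simpa using mul_mem (mul_mem (inv_mem hg) hj) hg

end Level

/-- Right translation of a function. -/
def rightTr (g : Gf F) (φ : Gf F → Hyp F → ℂ) : Gf F → Hyp F → ℂ := fun x p => φ (x * g) p

theorem rightTr_mul (g h : Gf F) (φ : Gf F → Hyp F → ℂ) :
    rightTr (g * h) φ = rightTr g (rightTr h φ) := by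
  funext x p; simp [rightTr, mul_assoc]

theorem rightTr_one (φ : Gf F → Hyp F → ℂ) : rightTr (1 : Gf F) φ = φ := by
  funext x p; simp [rightTr]

theorem IsLeftInvariant.rightTr {φ : Gf F → Hyp F → ℂ} (h : IsLeftInvariant φ) (g : Gf F) :
    IsLeftInvariant (rightTr g φ) := fun γ x y hxy p => h γ (x * g) (y * g) (fun v => by
  show (y : ∀ v, GLv v) v * (g : ∀ v, GLv v) v =
    toLocal v γ * ((x : ∀ v, GLv v) v * (g : ∀ v, GLv v) v)
  rw [hxy v, mul_assoc]) p

theorem IsAutomorphic.rightTr {U : Level F} {φ : Gf F → Hyp F → ℂ} (h : IsAutomorphic U φ)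
    (g : Gf F) : IsAutomorphic (U.conjBy g) (rightTr g φ) where
  left := h.left.rightTr g
  right x j hj := by
    funext p
    show φ (x * j * g) p = φ (x * g) p
    rw [show x * j * g = x * g * (g⁻¹ * j * g) by group,
      h.right (x * g) (g⁻¹ * j * g) fun v => Level.conjBy_mem (hj v)]
  continuous x := h.continuous _

theorem IsAutomorphic.mono {U U' : Level F} {φ : Gf F → Hyp F → ℂ} (h : IsAutomorphic U φ)
    (hle : ∀ v, U'.J v ≤ U.J v) : IsAutomorphic U' φ :=
  ⟨h.left, fun x j hj => h.right x j fun v => hle v (hj v), h.continuous⟩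

theorem IsAutomorphic.add {U : Level F} {φ ψ : Gf F → Hyp F → ℂ} (h : IsAutomorphic U φ)
    (h' : IsAutomorphic U ψ) : IsAutomorphic U (φ + ψ) where
  left γ x y hxy p := by simp only [Pi.add_apply, h.left γ x y hxy p, h'.left γ x y hxy p]
  right x j hj := by simp only [Pi.add_apply, h.right x j hj, h'.right x j hj]
  continuous x := (h.continuous x).add (h'.continuous x)

/-- Automorphic functions are stable under scalars. -/
theorem IsAutomorphic.smul {U : Level F} {φ : Gf F → Hyp F → ℂ} (h : IsAutomorphic U φ) (c : ℂ) :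
    IsAutomorphic U (c • φ) where
  left γ x y hxy p := by simp only [Pi.smul_apply, h.left γ x y hxy p]
  right x j hj := by simp only [Pi.smul_apply, h.right x j hj]
  continuous x := (h.continuous x).const_smul c

end Fermat.Agent.ResidualThree
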