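import Mathlib

/-!
# Means of periodic functions

`IsZPeriodic g` means `g` is invariant under `ℤ^ι`; its mean is the integral over a unit cube.
Means are unchanged by precomposition with an integral matrix of nonzero determinant.
-/

noncomputable section

open MeasureTheory Matrix

namespace Fermat.Agent.ResidualThree

variable {ι : Type} [Fintype ι]

/-- Invariance under integral translations. -/
def IsZPeriodic (g : (ι → ℝ) → ℂ) : Prop :=
  ∀ (n : ι → ℤ) (t : ι → ℝ), g (t + fun i => (n i : ℝ)) = g t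

/-- The mean over the unit cube. -/
def cubeMean (g : (ι → ℝ) → ℂ) : ℂ := ∫ t in {t : ι → ℝ | ∀ i, t i ∈ Set.Ioc (0 : ℝ) 1}, g t

omit [Fintype ι] in
theorem cubeSet_eq_pi :
    {t : ι → ℝ | ∀ i, t i ∈ Set.Ioc (0 : ℝ) 1} = Set.univ.pi fun _ : ι => Set.Ioc (0 : ℝ) 1 := by
  ext t; simp

theorem volume_cubeSet : volume {t : ι → ℝ | ∀ i, t i ∈ Set.Ioc (0 : ℝ) 1} = 1 := by
  rw [cubeSet_eq_pi, volume_pi, Measure.pi_pi]
  simp

/-- The half-open unit cube may be replaced by the closed one. -/
theorem cubeMean_eq_setIntegral_Icc (g : (ι → ℝ) → ℂ) :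
    cubeMean g = ∫ t in Set.Icc (0 : ι → ℝ) 1, g t := by
  refine setIntegral_congr_set ?_
  rw [cubeSet_eq_pi, volume_pi]
  exact Measure.univ_pi_Ioc_ae_eq_Icc (f := fun _ => (0 : ℝ)) (g := fun _ => 1)

/-- The projection to the torus. -/
def toTorus (t : ι → ℝ) : UnitAddTorus ι := fun i => (t i : UnitAddCircle)

omit [Fintype ι] in
theorem isOpenQuotientMap_toTorus : IsOpenQuotientMap (toTorus (ι := ι)) := by
  refine ⟨fun x => ?_, by unfold toTorus; fun_prop, IsOpenMap.piMap (fun _ =>
    QuotientAddGroup.isOpenMap_coe) (Filter.Eventually.of_forall fun _ =>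
      QuotientAddGroup.mk_surjective)⟩
  choose t ht using fun i => QuotientAddGroup.mk_surjective (x i)
  exact ⟨t, funext ht⟩

/-- A periodic function as a function on the torus. -/
def descend (g : (ι → ℝ) → ℂ) : UnitAddTorus ι → ℂ :=
  fun x => g (fun i => (AddCircle.equivIoc 1 0 (x i) : ℝ))

omit [Fintype ι] in
theorem descend_toTorus {g : (ι → ℝ) → ℂ} (hg : IsZPeriodic g) (t : ι → ℝ) :
    descend g (toTorus t) = g t := by
  set s : ι → ℝ := fun i => (AddCircle.equivIoc (1 : ℝ) 0 (toTorus t i) : ℝ)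
  have h : ∀ i, ∃ n : ℤ, s i = t i + n := fun i => by
    have h1 : (s i : UnitAddCircle) = (t i : UnitAddCircle) :=
      AddCircle.coe_equivIoc (y := toTorus t i)
    rw [QuotientAddGroup.eq, AddSubgroup.mem_zmultiples_iff] at h1
    obtain ⟨k, hk⟩ := h1
    refine ⟨-k, ?_⟩
    simp only [zsmul_eq_mul, mul_one] at hk
    push_cast
    linarith
  choose n hn using h
  show g s = g t
  rw [show s = t + fun i => (n i : ℝ) from funext hn]
  exact hg n t

omit [Fintype ι] in
theorem continuous_descend {g : (ι → ℝ) → ℂ} (hg : IsZPeriodic g) (hc : Continuous g) :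
    Continuous (descend g) := by
  rw [isOpenQuotientMap_toTorus.isQuotientMap.continuous_iff]
  exact hc.congr fun t => (descend_toTorus hg t).symm

theorem cubeMean_eq_integral {g : (ι → ℝ) → ℂ} (hg : IsZPeriodic g) (hc : Continuous g) :
    cubeMean g = ∫ x, descend g x := by
  have hm : MeasurePreserving (toTorus (ι := ι))
      (volume.restrict {t : ι → ℝ | ∀ i, t i ∈ Set.Ioc (0 : ℝ) 1}) volume := by
    rw [cubeSet_eq_pi, volume_pi, Measure.restrict_pi_pi]
    exact measurePreserving_pi _ _ fun _ => by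
      simpa using AddCircle.measurePreserving_mk (1 : ℝ) 0
  rw [cubeMean, ← hm.map_eq, integral_map hm.measurable.aemeasurable
    (continuous_descend hg hc).aestronglyMeasurable]
  exact integral_congr_ae (Filter.Eventually.of_forall fun t => (descend_toTorus hg t).symm)

variable [DecidableEq ι]

/-- The endomorphism of the torus given by an integral matrix. -/
def torusHom (A : Matrix ι ι ℤ) : UnitAddTorus ι →+ UnitAddTorus ι where
  toFun x := fun i => ∑ j, A i j • x j
  map_zero' := by ext; simp
  map_add' x y := by ext i; simp [Finset.sum_add_distrib]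

omit [DecidableEq ι] in
theorem torusHom_toTorus (A : Matrix ι ι ℤ) (t : ι → ℝ) :
    torusHom A (toTorus t) = toTorus ((A.map (Int.castRingHom ℝ)) *ᵥ t) := by
  funext i
  show ∑ j, A i j • ((t j : ℝ) : UnitAddCircle) = ((∑ j, (A i j : ℝ) * t j : ℝ) : UnitAddCircle)
  refine Eq.trans ?_ (map_sum (QuotientAddGroup.mk' (AddSubgroup.zmultiples (1 : ℝ))) _ _).symm
  refine Finset.sum_congr rfl fun j _ => ?_
  rw [← zsmul_eq_mul, map_zsmul]
  rfl

theorem measurePreserving_torusHom (A : Matrix ι ι ℤ) (hA : A.det ≠ 0) :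
    MeasurePreserving (torusHom A) (volume : Measure (UnitAddTorus ι)) volume := by
  refine AddMonoidHom.measurePreserving ?_ ?_ rfl
  · show Continuous fun x : UnitAddTorus ι => fun i => ∑ j, A i j • x j
    fun_prop
  · intro x
    obtain ⟨s, rfl⟩ := isOpenQuotientMap_toTorus.surjective x
    have hu : IsUnit (A.map (Int.castRingHom ℝ)) := by
      rw [Matrix.isUnit_iff_isUnit_det, ← RingHom.mapMatrix_apply, ← RingHom.map_det]
      exact IsUnit.mk0 _ (by simpa using hA)
    refine ⟨toTorus ((A.map (Int.castRingHom ℝ))⁻¹ *ᵥ s), ?_⟩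
    rw [torusHom_toTorus, Matrix.mulVec_mulVec,
      Matrix.mul_nonsing_inv _ ((Matrix.isUnit_iff_isUnit_det _).mp hu), Matrix.one_mulVec]

omit [DecidableEq ι] in
theorem IsZPeriodic.comp_mulVec {g : (ι → ℝ) → ℂ} (hg : IsZPeriodic g) (A : Matrix ι ι ℤ) :
    IsZPeriodic fun t => g ((A.map (Int.castRingHom ℝ)) *ᵥ t) := by
  intro n t
  simp only [Matrix.mulVec_add]
  have : (A.map (Int.castRingHom ℝ)) *ᵥ (fun i => (n i : ℝ)) = fun i => ((A *ᵥ n) i : ℝ) := by
    funext i
    simp [Matrix.mulVec, dotProduct]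
  rw [this]
  exact hg _ _

theorem cubeMean_comp_mulVec {g : (ι → ℝ) → ℂ} (hg : IsZPeriodic g) (hc : Continuous g)
    (A : Matrix ι ι ℤ) (hA : A.det ≠ 0) :
    cubeMean (fun t => g ((A.map (Int.castRingHom ℝ)) *ᵥ t)) = cubeMean g := by
  rw [cubeMean_eq_integral (hg.comp_mulVec A) (hc.comp (by fun_prop)), cubeMean_eq_integral hg hc]
  have h : descend (fun t => g ((A.map (Int.castRingHom ℝ)) *ᵥ t)) =
      fun x => descend g (torusHom A x) := by
    funext x
    obtain ⟨s, rfl⟩ := isOpenQuotientMap_toTorus.surjective x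
    rw [descend_toTorus (hg.comp_mulVec A), torusHom_toTorus, descend_toTorus hg]
  have hp := measurePreserving_torusHom A hA
  rw [h, ← integral_map hp.measurable.aemeasurable
    (continuous_descend hg hc).aestronglyMeasurable, hp.map_eq]

omit [DecidableEq ι] in
/-- Means are invariant under translation. -/
theorem cubeMean_add_right {g : (ι → ℝ) → ℂ} (hg : IsZPeriodic g) (hc : Continuous g) (a : ι → ℝ) :
    cubeMean (fun t => g (t + a)) = cubeMean g := by
  have hg' : IsZPeriodic fun t => g (t + a) := fun n t => by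
    show g (t + _ + a) = g (t + a)
    rw [add_right_comm]
    exact hg n _
  rw [cubeMean_eq_integral hg' (hc.comp (by fun_prop)), cubeMean_eq_integral hg hc,
    ← integral_add_right_eq_self (descend g) (toTorus a)]
  refine integral_congr_ae (Filter.Eventually.of_forall fun x => ?_)
  obtain ⟨s, rfl⟩ := isOpenQuotientMap_toTorus.surjective x
  show descend (fun t => g (t + a)) (toTorus s) = descend g (toTorus s + toTorus a)
  rw [descend_toTorus hg', show toTorus s + toTorus a = toTorus (s + a) from rfl,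
    descend_toTorus hg]

end Fermat.Agent.ResidualThree
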