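import Fermat.Agent.ResidualThree.Automorphic.Adele
import Fermat.Agent.ResidualThree.Automorphic.Space
import Fermat.Agent.ResidualThree.Spherical.Basic
import Fermat.Agent.ResidualThree.Tree.Basic

/-!
# Period lattices of automorphic functions and horospherical coordinates

They are the domain of the Fourier coefficients.
-/

noncomputable section

open IsDedekindDomain NumberField
open scoped WithZero

namespace Fermat.Agent.ResidualThree

open Fermat.Agent.ResidualThree.Tree (nrm le_nrm)

/-- The unipotent matrix `!![1, b; 0, 1]`. -/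
def unipHom (R : Type) [CommRing R] (b : R) : GL (Fin 2) R where
  val := !![1, b; 0, 1]
  inv := !![1, -b; 0, 1]
  val_inv := by ext i j; fin_cases i <;> fin_cases j <;> simp [Matrix.mul_apply, Fin.sum_univ_two]
  inv_val := by ext i j; fin_cases i <;> fin_cases j <;> simp [Matrix.mul_apply, Fin.sum_univ_two]

theorem coe_unipHom {R : Type} [CommRing R] (b : R) :
    (unipHom R b : Matrix (Fin 2) (Fin 2) R) = !![1, b; 0, 1] := rfl

theorem unipHom_add {R : Type} [CommRing R] (a b : R) :
    unipHom R (a + b) = unipHom R a * unipHom R b := by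
  refine Units.ext ?_
  rw [Units.val_mul, coe_unipHom, coe_unipHom, coe_unipHom]
  ext i j
  fin_cases i <;> fin_cases j <;> simp [Matrix.mul_apply, Fin.sum_univ_two, add_comm]

theorem unipHom_zero {R : Type} [CommRing R] : unipHom R (0 : R) = 1 := by
  refine Units.ext ?_
  rw [coe_unipHom, Units.val_one]
  ext i j
  fin_cases i <;> fin_cases j <;> simp

variable {F : Type} [Field F] [NumberField F]

/-- The index of the chosen basis of the integers. -/
abbrev BasisIx (F : Type) [Field F] [NumberField F] : Type :=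
  Module.Free.ChooseBasisIndex ℤ (𝓞 F)

/-- The images of a field element at the infinite places. -/
def archVec (β : F) : InfinitePlace F → ℂ := fun w => w.embedding β

theorem toLocal_unipHom (v : FPlace F) (β : F) :
    toLocal v (unipHom F β) = unipHom (v.adicCompletion F) (algebraMap F _ β) := by
  refine Units.ext ?_
  ext i j
  fin_cases i <;> fin_cases j <;> simp [toLocal, coe_unipHom]

omit [NumberField F] in
theorem toComplex_unipHom (w : InfinitePlace F) (β : F) :
    toComplex w (unipHom F β) = unipHom ℂ (w.embedding β) := by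
  refine Units.ext ?_
  ext i j
  fin_cases i <;> fin_cases j <;> simp [toComplex, coe_unipHom]

theorem unipHom_smul_H3 (b : ℂ) (p : H3) : unipHom ℂ b • p = ⟨p.z + b, p.y, p.y_pos⟩ := by
  have h : ((unipHom ℂ b : GL (Fin 2) ℂ) : Matrix (Fin 2) (Fin 2) ℂ) 1 0 = 0 := by
    simp [coe_unipHom]
  refine H3.ext ?_ ?_
  · rw [H3.smul_z_of_upper h]; simp [coe_unipHom]
  · rw [H3.smul_y_of_upper h]; simp [coe_unipHom]

omit [NumberField F] in
theorem unipHom_smul_hyp (β : F) (p : Hyp F) : unipHom F β • p = horoShift (archVec β) p := by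
  funext w
  show toComplex w (unipHom F β) • p w = _
  rw [toComplex_unipHom, unipHom_smul_H3]
  rfl

omit [NumberField F] in
theorem horoShift_add (a b : InfinitePlace F → ℂ) (p : Hyp F) :
    horoShift (a + b) p = horoShift a (horoShift b p) :=
  funext fun w => H3.ext (by simp only [horoShift, Pi.add_apply]; ring) rfl

omit [NumberField F] in
theorem horoShift_zero (p : Hyp F) : horoShift (0 : InfinitePlace F → ℂ) p = p :=
  funext fun w => H3.ext (by simp [horoShift]) rfl

omit [NumberField F] in
theorem continuous_horoShift :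
    Continuous fun q : (InfinitePlace F → ℂ) × Hyp F => horoShift q.1 q.2 := by
  refine continuous_pi fun w => H3.continuous_iff.2 ?_
  have h1 : Continuous fun q : (InfinitePlace F → ℂ) × Hyp F => (q.2 w).z :=
    H3.continuous_z.comp ((continuous_apply w).comp continuous_snd)
  have h2 : Continuous fun q : (InfinitePlace F → ℂ) × Hyp F => (q.2 w).y :=
    H3.continuous_y.comp ((continuous_apply w).comp continuous_snd)
  exact ⟨h1.add ((continuous_apply w).comp continuous_fst), h2⟩

/-- Translations of the horospherical coordinate which fix `φ x`. -/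
def IsPeriodAt (φ : Gf F → Hyp F → ℂ) (x : Gf F) (m : ℕ) : Prop :=
  ∀ (b : 𝓞 F) (q : Hyp F),
    φ x (horoShift (fun w => (m : ℂ) * w.embedding (b : F)) q) = φ x q

theorem IsPeriodAt.mul {φ : Gf F → Hyp F → ℂ} {x : Gf F} {m : ℕ} (h : IsPeriodAt φ x m) (k : ℕ) :
    IsPeriodAt φ x (m * k) := fun b q => by
  rw [← h ((k : 𝓞 F) * b) q]
  congr 2
  funext w
  simp [mul_assoc]

/-- A precision `N` such that upper unipotents below it are absorbed by the level at `x`. -/
def IsSmallAt (U : Level F) (x : Gf F) (N : FPlace F →₀ ℕ) : Prop :=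
  ∀ (v : FPlace F) (z : v.adicCompletion F), valv v z ≤ WithZero.exp (-(N v : ℤ)) →
    ((x : ∀ v, GLv v) v)⁻¹ * unipHom _ z * (x : ∀ v, GLv v) v ∈ U.J v

theorem isIntGL_unipHom (v : FPlace F) {z : v.adicCompletion F} (hz : valv v z ≤ 1) :
    IsIntGL (valv v) (unipHom (v.adicCompletion F) z) := by
  refine ⟨fun i j => ?_, by simp [coe_unipHom, Matrix.det_fin_two]⟩
  fin_cases i <;> fin_cases j <;> simp [coe_unipHom, hz]

/-- Small local unipotents conjugate into the level. -/
theorem exists_smallAt_one (U : Level F) (x : Gf F) (v : FPlace F) :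
    ∃ N : ℕ, ∀ z : v.adicCompletion F, valv v z ≤ WithZero.exp (-(N : ℤ)) →
      ((x : ∀ v, GLv v) v)⁻¹ * unipHom _ z * (x : ∀ v, GLv v) v ∈ U.J v := by
  obtain ⟨n, hn⟩ := U.exists_cong v
  set g := (x : ∀ v, GLv v) v
  set E : Matrix (Fin 2) (Fin 2) (v.adicCompletion F) := !![0, 1; 0, 0]
  set M := ((g⁻¹ : GLv v) : Matrix (Fin 2) (Fin 2) (v.adicCompletion F)) * E *
    (g : Matrix (Fin 2) (Fin 2) (v.adicCompletion F))
  set c : ℤ := WithZero.log (nrm (valv v) M)
  have hc : ∀ i j, valv v (M i j) ≤ WithZero.exp (max c 0) := by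
    intro i j
    refine (le_nrm M i j).trans ?_
    by_cases h0 : nrm (valv v) M = 0
    · rw [h0]; exact zero_le
    · rw [← WithZero.exp_log h0, WithZero.exp_le_exp]; exact le_max_left _ _
  refine ⟨n + (max c 0).toNat, fun z hz => hn (Subgroup.subset_closure (Or.inl ?_))⟩
  set j := g⁻¹ * unipHom _ z * g
  have hj : (j : Matrix (Fin 2) (Fin 2) (v.adicCompletion F)) = 1 + z • M := by
    have hu : (unipHom (v.adicCompletion F) z : Matrix (Fin 2) (Fin 2) (v.adicCompletion F)) =
        1 + z • E := by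
      rw [coe_unipHom]; ext i k; fin_cases i <;> fin_cases k <;> simp [E]
    simp only [j, M]
    rw [Units.val_mul, Units.val_mul, hu]
    simp only [Matrix.mul_add, Matrix.add_mul, Matrix.mul_one, Matrix.mul_smul, Matrix.smul_mul]
    rw [← Units.val_mul, inv_mul_cancel, Units.val_one]
  have hsmall : ∀ i k, valv v ((j : Matrix (Fin 2) (Fin 2) (v.adicCompletion F)) i k -
      (1 : Matrix (Fin 2) (Fin 2) (v.adicCompletion F)) i k) ≤ WithZero.exp (-(n : ℤ)) := by
    intro i k
    rw [hj, Matrix.add_apply, add_sub_cancel_left, Matrix.smul_apply, smul_eq_mul, map_mul]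
    refine (mul_le_mul' hz (hc i k)).trans ?_
    rw [← WithZero.exp_add, WithZero.exp_le_exp, Nat.cast_add,
      Int.toNat_of_nonneg (le_max_right _ _)]
    omega
  refine ⟨⟨fun i k => ?_, ?_⟩, hsmall⟩
  · have h := hsmall i k
    have h1 : valv v ((1 : Matrix (Fin 2) (Fin 2) (v.adicCompletion F)) i k) ≤ 1 := by
      rw [Matrix.one_apply]; split_ifs <;> simp
    rw [show (j : Matrix (Fin 2) (Fin 2) (v.adicCompletion F)) i k =
      ((j : Matrix (Fin 2) (Fin 2) (v.adicCompletion F)) i k -
        (1 : Matrix (Fin 2) (Fin 2) (v.adicCompletion F)) i k) +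
        (1 : Matrix (Fin 2) (Fin 2) (v.adicCompletion F)) i k by ring]
    refine ((valv v).map_add _ _).trans (max_le (h.trans ?_) h1)
    rw [← WithZero.exp_zero, WithZero.exp_le_exp]; omega
  · simp only [j]
    rw [Units.val_mul, Units.val_mul, Matrix.det_units_conj']
    simp [coe_unipHom, Matrix.det_fin_two]

theorem exists_smallAt (U : Level F) (x : Gf F) : ∃ N : FPlace F →₀ ℕ, IsSmallAt U x N := by
  classical
  have h : {v : FPlace F | ¬ ((x : ∀ v, GLv v) v ∈ maxSubgroup v ∧ U.J v = maxSubgroup v)}.Finite :=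
    Filter.eventually_cofinite.1 (Filter.Eventually.and x.2 U.eventually_max)
  choose N hN using exists_smallAt_one U x
  refine ⟨Finsupp.onFinset h.toFinset (fun v => if v ∈ h.toFinset then N v else 0)
    (fun v hv => by by_contra hn; rw [if_neg hn] at hv; exact hv rfl), fun v z hz => ?_⟩
  rw [Finsupp.onFinset_apply] at hz
  by_cases hv : v ∈ h.toFinset
  · rw [if_pos hv] at hz; exact hN v z hz
  · rw [if_neg hv] at hz
    simp only [Set.Finite.mem_toFinset, Set.mem_ofPred_eq, not_not] at hv
    rw [hv.2]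
    exact mul_mem (mul_mem (inv_mem hv.1) (Subgroup.subset_closure
      (Or.inl (isIntGL_unipHom v (by simpa using hz))))) hv.1

/-- Small rational unipotents act on the horospherical coordinate alone. -/
theorem horoShift_eq_of_smallAt {U : Level F} {φ : Gf F → Hyp F → ℂ} (hφ : IsAutomorphic U φ)
    {x : Gf F} {N : FPlace F →₀ ℕ} (hN : IsSmallAt U x N) {β : F}
    (hβ : ∀ v, v.valuation F β ≤ WithZero.exp (-(N v : ℤ))) (p : Hyp F) :
    φ x (horoShift (archVec β) p) = φ x p := by
  have hmem : ∀ v, ((x⁻¹ * diag F (unipHom F β) * x : Gf F) : ∀ v, GLv v) v ∈ U.J v := fun v => by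
    show ((x : ∀ v, GLv v) v)⁻¹ * toLocal v (unipHom F β) * (x : ∀ v, GLv v) v ∈ U.J v
    rw [toLocal_unipHom]
    exact hN v _ (by rw [valv_algebraMap]; exact hβ v)
  have h1 := hφ.left (unipHom F β) x (x * (x⁻¹ * diag F (unipHom F β) * x)) (fun v => by
    show ((x * (x⁻¹ * diag F (unipHom F β) * x) : Gf F) : ∀ v, GLv v) v = _
    rw [mul_assoc x⁻¹, mul_inv_cancel_left]
    rfl) p
  rwa [hφ.right _ _ hmem, unipHom_smul_hyp] at h1

theorem exists_nat_le_exp (N : FPlace F →₀ ℕ) :
    ∃ m : ℕ, 0 < m ∧ ∀ v : FPlace F, v.valuation F (m : F) ≤ WithZero.exp (-(N v : ℤ)) := by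
  classical
  set I : Ideal (𝓞 F) := ∏ v ∈ N.support, v.asIdeal ^ N v
  have hI : I ≠ ⊥ := by
    rw [← Ideal.zero_eq_bot, Finset.prod_ne_zero_iff]
    exact fun v _ => pow_ne_zero _ v.ne_bot
  refine ⟨Ideal.absNorm I, Nat.pos_of_ne_zero (by rwa [Ne, Ideal.absNorm_eq_zero_iff]), fun v => ?_⟩
  by_cases hv : v ∈ N.support
  · have hle : I ≤ v.asIdeal ^ N v :=
      Ideal.le_of_dvd (Finset.dvd_prod_of_mem (fun w : FPlace F => w.asIdeal ^ N w) hv)
    have hmem : (Ideal.absNorm I : 𝓞 F) ∈ v.asIdeal ^ N v := hle (Ideal.absNorm_mem I)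
    rw [← map_natCast (algebraMap (𝓞 F) F), HeightOneSpectrum.valuation_of_algebraMap]
    exact (v.intValuation_le_pow_iff_mem _ _).2 hmem
  · rw [Finsupp.notMem_support_iff.1 hv, ← map_natCast (algebraMap (𝓞 F) F)]
    simp only [Nat.cast_zero, neg_zero, WithZero.exp_zero]
    exact v.valuation_le_one _

/-- An automorphic function has periods at every point. -/
theorem IsAutomorphic.exists_period {U : Level F} {φ : Gf F → Hyp F → ℂ} (hφ : IsAutomorphic U φ)
    (x : Gf F) : ∃ m : ℕ, 0 < m ∧ IsPeriodAt φ x m := by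
  obtain ⟨N, hN⟩ := exists_smallAt U x
  obtain ⟨m, hm, hmN⟩ := exists_nat_le_exp N
  refine ⟨m, hm, fun b q => ?_⟩
  rw [show (fun w : InfinitePlace F => (m : ℂ) * w.embedding (b : F)) =
    archVec ((m : F) * (b : F)) by funext w; simp [archVec]]
  refine horoShift_eq_of_smallAt hφ hN (fun v => ?_) q
  rw [map_mul]
  exact (mul_le_of_le_one_right' (v.valuation_le_one b)).trans (hmN v)

/-! ### The basis coordinates -/

/-- The point of coordinates `t` in the basis `m e_i`. -/
def boxPt (m : ℕ) (t : BasisIx F → ℝ) : InfinitePlace F → ℂ :=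
  fun w => ∑ i, (t i : ℂ) * ((m : ℂ) * w.embedding (RingOfIntegers.basis F i : F))

theorem boxPt_add (m : ℕ) (s t : BasisIx F → ℝ) : boxPt m (s + t) = boxPt m s + boxPt m t := by
  funext w; simp [boxPt, add_mul, Finset.sum_add_distrib]

theorem boxPt_int (m : ℕ) (n : BasisIx F → ℤ) :
    boxPt m (fun i => (n i : ℝ)) =
      fun w => (m : ℂ) * w.embedding ((∑ i, n i • RingOfIntegers.basis F i : 𝓞 F) : F) := by
  funext w
  simp only [boxPt, map_sum, zsmul_eq_mul, map_mul, map_intCast, Finset.mul_sum,
    Complex.ofReal_intCast]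
  exact Finset.sum_congr rfl fun i _ => by ring

theorem continuous_boxPt (m : ℕ) : Continuous (boxPt (F := F) m) :=
  continuous_pi fun _ => continuous_finsetSum _ fun i _ =>
    (Complex.continuous_ofReal.comp (continuous_apply i)).mul continuous_const

end Fermat.Agent.ResidualThree
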