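import Fermat.Agent.ResidualThree.Automorphic.Lattice

/-!
# Reduction theory: the Siegel covering

Every point of `Spc U` has a translate in a Siegel set: finitely many classes at the finite places,
bounded horospherical coordinate, heights bounded below and comparable with each other.
-/

noncomputable section

open IsDedekindDomain NumberField Matrix
open scoped WithZero

namespace Fermat.Agent.ResidualThree

variable {F : Type} [Field F] [NumberField F]

/-- A Siegel set: classes in `X`, `‖z‖ ≤ R`, `c ≤ y`, the `y`'s within a factor `A` of each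
other. -/
def siegelSet (U : Level F) (X : Set (Ωf U)) (c A R : ℝ) : Set (Spc U) :=
  {s | s.1 ∈ X ∧ ∀ w : InfinitePlace F, ‖(s.2 w).z‖ ≤ R ∧ c ≤ (s.2 w).y ∧
    ∀ w', (s.2 w).y ≤ A * (s.2 w').y}

omit [NumberField F] in
theorem toComplex_upGL (w : InfinitePlace F) (a d : Fˣ) (t : F) :
    (toComplex w (upGL a d t) : Matrix (Fin 2) (Fin 2) ℂ) =
      !![w.embedding (a : F), w.embedding t; 0, w.embedding (d : F)] := by
  ext i j
  fin_cases i <;> fin_cases j <;> simp [toComplex]

omit [NumberField F] in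
theorem upGL_smul_z (a : Fˣ) (t : F) (p : Hyp F) (w : InfinitePlace F) :
    ((upGL a 1 t • p) w).z = w.embedding (a : F) * (p w).z + w.embedding t := by
  show (toComplex w (upGL a 1 t) • p w).z = _
  rw [H3.smul_z_of_upper (by rw [toComplex_upGL]; rfl), toComplex_upGL]
  simp

omit [NumberField F] in
theorem upGL_smul_y (a : Fˣ) (t : F) (p : Hyp F) (w : InfinitePlace F) :
    ((upGL a 1 t • p) w).y = ‖w.embedding (a : F)‖ * (p w).y := by
  show (toComplex w (upGL a 1 t) • p w).y = _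
  rw [H3.smul_y_of_upper (by rw [toComplex_upGL]; rfl), toComplex_upGL]
  simp

/-- The row vector of the point at infinity. -/
def topRow (F : Type) [Field F] : Fin 2 → F := ![0, 1]

theorem topRow_ne_zero : topRow F ≠ 0 := Function.ne_iff.mpr ⟨1, by simp [topRow]⟩

omit [NumberField F] in
theorem topRow_vecMul (g : GL (Fin 2) F) :
    topRow F ᵥ* (g : Matrix (Fin 2) (Fin 2) F) = (g : Matrix (Fin 2) (Fin 2) F) 1 := by
  funext j
  fin_cases j <;> simp [topRow, Matrix.vecMul, dotProduct, Fin.sum_univ_two]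

omit [NumberField F] in
theorem exists_row_eq {e : Fin 2 → F} (he : e ≠ 0) :
    ∃ g : GL (Fin 2) F, (g : Matrix (Fin 2) (Fin 2) F) 1 = e := by
  by_cases h1 : e 1 = 0
  · have h0 : e 0 ≠ 0 := fun h0 => he (funext fun i => by fin_cases i <;> assumption)
    refine ⟨Matrix.GeneralLinearGroup.mkOfDetNeZero !![0, 1; e 0, e 1]
      (by simp [Matrix.det_fin_two, h0]), funext fun i => ?_⟩
    fin_cases i <;> simp
  · refine ⟨Matrix.GeneralLinearGroup.mkOfDetNeZero !![1, 0; e 0, e 1]
      (by simp [Matrix.det_fin_two, h1]), funext fun i => ?_⟩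
    fin_cases i <;> simp

theorem height_topRow (x : Gf F) (p : Hyp F) :
    height (topRow F) x p =
      (∏ᶠ v : FPlace F, localHeight v (topRow F) (x.1 v)) * ∏ w : InfinitePlace F, (p w).y ^ 2 := by
  rw [height_eq]
  congr 1
  refine Finset.prod_congr rfl fun w _ => ?_
  have := (p w).y_pos
  simp [archForm, archRow, topRow]

/-- The finite part of the height of the point at infinity. -/
def topFin (x : Gf F) : ℝ := ∏ᶠ v : FPlace F, localHeight v (topRow F) (x.1 v)

theorem topFin_pos (x : Gf F) : 0 < topFin x :=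
  finprod_induction (0 < ·) one_pos (fun _ _ => mul_pos)
    fun v => localHeight_pos v topRow_ne_zero _

theorem topFin_mul_kmax (x : Gf F) {k : Gf F} (hk : k ∈ kmax F) : topFin (x * k) = topFin x :=
  finprod_congr fun v => localHeight_mul_max _ _ (hk v)

theorem exists_nat_valuation_le (B : FPlace F → ℤ) (hB : ∀ᶠ v in Filter.cofinite, B v ≤ 0) :
    ∃ m : ℕ, 0 < m ∧ ∀ v : FPlace F, v.valuation F (m : F) ≤ WithZero.exp (-(B v)) := by
  classical
  have hfin := Filter.eventually_cofinite.mp hB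
  refine ⟨∏ v ∈ hfin.toFinset, Ideal.absNorm v.asIdeal ^ (B v).toNat,
    Finset.prod_pos fun v _ => pow_pos ((zero_le_one).trans_lt
      (NumberField.HeightOneSpectrum.one_lt_absNorm v)) _, fun v => ?_⟩
  rw [← map_natCast (algebraMap (𝓞 F) F)]
  by_cases hv : B v ≤ 0
  · refine (v.valuation_le_one _).trans ?_
    rw [← WithZero.exp_zero, WithZero.exp_le_exp]; omega
  · refine (v.valuation_of_algebraMap _).trans_le (le_trans
      ((v.intValuation_le_pow_iff_mem _ (B v).toNat).mpr ?_) ?_)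
    · rw [Nat.cast_prod, ← Finset.mul_prod_erase _ _ (hfin.mem_toFinset.mpr hv), Nat.cast_pow]
      exact Ideal.mul_mem_right _ _ (Ideal.pow_mem_pow (Ideal.absNorm_mem v.asIdeal) _)
    · rw [WithZero.exp_le_exp]; omega

theorem valuation_unit (v : FPlace F) (u : (𝓞 F)ˣ) : v.valuation F ((u : 𝓞 F) : F) = 1 := by
  refine le_antisymm (v.valuation_le_one _) ?_
  have h : (((u : (𝓞 F)ˣ) : 𝓞 F) : F) * (((u⁻¹ : (𝓞 F)ˣ) : 𝓞 F) : F) = 1 := by
    rw [← map_mul, ← Units.val_mul, mul_inv_cancel, Units.val_one, map_one]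
  calc (1 : ℤᵐ⁰) = v.valuation F (((u : 𝓞 F) : F) * (((u⁻¹ : (𝓞 F)ˣ) : 𝓞 F) : F)) := by
        rw [h, map_one]
    _ ≤ v.valuation F ((u : 𝓞 F) : F) := by
        rw [map_mul]; exact mul_le_of_le_one_right' (v.valuation_le_one _)

variable [IsTotallyComplex F]

theorem prod_unit_norm_eq_one (u : (𝓞 F)ˣ) :
    ∏ w : InfinitePlace F, ‖w.embedding ((u : 𝓞 F) : F)‖ ^ 2 = 1 := by
  have h := InfinitePlace.prod_eq_abs_norm ((u : 𝓞 F) : F)
  rw [Units.norm, Rat.cast_one] at h
  rw [← h]
  exact Finset.prod_congr rfl fun w _ => by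
    rw [InfinitePlace.norm_embedding_eq, IsTotallyComplex.mult_eq]

variable (F) in
/-- Representatives for `GL₂(F)`-orbits with a positive lower bound for the height. -/
theorem exists_height_ge :
    ∃ (X : Set (Gf F)) (δ : ℝ), X.Finite ∧
      (∀ x ∈ X, ∀ v : FPlace F, ∃ a : (v.adicCompletion F)ˣ, x.1 v = upGL a 1 0) ∧ 0 < δ ∧
      (∀ x : Gf F, ∃ (l : Fˣ) (s : F) (r : Gf F) (k : Gf F), r ∈ X ∧ k ∈ kmax F ∧
        x = diag F (upGL l 1 s) * r * k) ∧
      ∀ (x : Gf F) (p : Hyp F), ∃ e : Fin 2 → F, e ≠ 0 ∧ δ ≤ height e x p := by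
  classical
  obtain ⟨X, hXfin, hXd, hX⟩ := exists_finite_reps_borel (F := F)
  obtain ⟨C, hC, hCe⟩ := exists_short_vector F
  choose a ha using hXd
  set m : X → FPlace F → ℝ := fun x v => ‖(a x.1 x.2 v : v.adicCompletion F)‖ /
    (max ‖(a x.1 x.2 v : v.adicCompletion F)‖ 1) ^ 2 with hm
  have hmpos : ∀ x v, 0 < m x v := fun x v => by
    have : 0 < ‖(a x.1 x.2 v : v.adicCompletion F)‖ := norm_pos_iff.mpr (a x.1 x.2 v).ne_zero
    simp only [hm]; positivity
  have hmfin : ∀ x : X, (m x).HasFiniteMulSupport := fun x => by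
    refine Filter.eventually_cofinite.mp (?_ : ∀ᶠ v in Filter.cofinite, m x v = 1)
    have hb2 : ∀ᶠ v in Filter.cofinite, x.1.1 v ∈ maxSubgroup v := x.1.2
    refine hb2.mono fun v hv => ?_
    rw [ha x.1 x.2 v, upGL_mem_maxSubgroup_iff, ← norm_eq_one_iff_valv] at hv
    simp [hm, hv.1]
  set μ : ℝ := ((C ^ 2)⁻¹) ^ Fintype.card (InfinitePlace F)
  have := hXfin.fintype
  have hne : (Finset.univ : Finset X).Nonempty := by
    obtain ⟨l, s, r, k, hr, -, -⟩ := hX 1
    exact ⟨⟨r, hr⟩, Finset.mem_univ _⟩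
  set δ : ℝ := Finset.univ.inf' hne fun x : X => (∏ᶠ v, m x v) * μ
  have hμ : 0 < μ := by positivity
  refine ⟨X, δ, hXfin, fun x hx v => ⟨_, ha x hx v⟩, ?_, hX, fun x p => ?_⟩
  · refine (Finset.lt_inf'_iff _).mpr fun x _ => mul_pos ?_ hμ
    exact finprod_induction (0 < ·) one_pos (fun _ _ => mul_pos) fun v => hmpos x v
  obtain ⟨l, s, r, k, hr, hk, rfl⟩ := hX x
  set β : GL (Fin 2) F := upGL l 1 s
  obtain ⟨e, he0, he⟩ := hCe (β⁻¹ • p)
  set eF : Fin 2 → F := fun i => (e i : F) with heF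
  have heF0 : eF ≠ 0 := by
    obtain ⟨i, hi⟩ := Function.ne_iff.mp he0
    exact Function.ne_iff.mpr ⟨i, (map_ne_zero_iff _ RingOfIntegers.coe_injective).mpr hi⟩
  set e' : Fin 2 → F := eF ᵥ* ((β⁻¹ : GL (Fin 2) F) : Matrix (Fin 2) (Fin 2) F)
  have he' : e' ≠ 0 := vecMul_ne_zero heF0 _
  refine ⟨e', he', ?_⟩
  have h1 : height e' (diag F β * r * k) p = height eF r (β⁻¹ • p) := by
    conv_lhs => rw [mul_assoc, show p = β • (β⁻¹ • p) by rw [smul_inv_smul]]
    rw [height_diag_smul he', height_mul_kmax _ _ hk]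
    congr 1
    simp only [e', Matrix.vecMul_vecMul, ← Units.val_mul, inv_mul_cancel, Units.val_one,
      Matrix.vecMul_one]
  rw [h1, height_eq]
  refine (Finset.inf'_le _ (Finset.mem_univ (⟨r, hr⟩ : X))).trans (mul_le_mul ?_ ?_ hμ.le
    (finprod_nonneg fun v => (localHeight_pos v heF0 _).le))
  · have f1 := (hmfin ⟨r, hr⟩).union (hasFiniteMulSupport_localHeight heF0 r)
    rw [finprod_eq_prod_of_mulSupport_subset _ (s := f1.toFinset) (by
        rw [Set.Finite.coe_toFinset]; exact Set.subset_union_left),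
      finprod_eq_prod_of_mulSupport_subset _ (s := f1.toFinset) (by
        rw [Set.Finite.coe_toFinset]; exact Set.subset_union_right)]
    refine Finset.prod_le_prod (fun v _ => (hmpos _ v).le) fun v _ => ?_
    set α : v.adicCompletion F := (a r hr v : v.adicCompletion F)
    have hα : 0 < ‖α‖ := norm_pos_iff.mpr (a r hr v).ne_zero
    have hle : locNorm (locRow v eF ᵥ* (r.1 v : Matrix (Fin 2) (Fin 2) (v.adicCompletion F))) ≤
        max ‖α‖ 1 := by
      have hint : ∀ i, ‖locRow v eF i‖ ≤ 1 := fun i => by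
        rw [norm_le_one_iff_valv, locRow, valv_algebraMap]; exact v.valuation_le_one _
      rw [ha r hr v, coe_upGL]
      refine max_le ?_ ?_
      · simp only [Matrix.vecMul, dotProduct, Fin.sum_univ_two, Matrix.of_apply, Matrix.cons_val',
          Matrix.cons_val_zero, Matrix.cons_val_one, Matrix.empty_val', Matrix.cons_val_fin_one,
          mul_zero, add_zero, norm_mul]
        exact (mul_le_of_le_one_left (norm_nonneg _) (hint 0)).trans (le_max_left _ _)
      · simp only [Matrix.vecMul, dotProduct, Fin.sum_univ_two, Matrix.of_apply, Matrix.cons_val',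
          Matrix.cons_val_zero, Matrix.cons_val_one, Matrix.empty_val', Matrix.cons_val_fin_one,
          mul_zero, zero_add, Units.val_one, mul_one]
        exact (hint 1).trans (le_max_right _ _)
    have hpos := locNorm_locRow_mul_pos v heF0 (r.1 v)
    rw [localHeight_eq, show ((r.1 v : GLv v) : Matrix (Fin 2) (Fin 2) (v.adicCompletion F)).det =
      α by rw [ha r hr v]; simp [α, Matrix.det_fin_two]]
    exact div_le_div_of_nonneg_left hα.le (by positivity) (pow_le_pow_left₀ hpos.le hle 2)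
  · rw [show μ = ∏ _w : InfinitePlace F, (C ^ 2)⁻¹ by simp [μ]]
    refine Finset.prod_le_prod (fun w _ => by positivity) fun w _ => ?_
    exact inv_anti₀ (pow_pos (archForm_pos (archRow_ne_zero w heF0) _) 2)
      (pow_le_pow_left₀ (archForm_pos (archRow_ne_zero w heF0) _).le (he w) 2)

omit [IsTotallyComplex F] in
/-- The torus entries of finitely many diagonal adelic points are bounded below, by one at almost
all places. -/
theorem exists_exp_le_valv_torus {Xr : Set (Gf F)} (hXfin : Xr.Finite)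
    (hXd : ∀ x ∈ Xr, ∀ v : FPlace F, ∃ a : (v.adicCompletion F)ˣ, x.1 v = upGL a 1 0) :
    ∃ B : FPlace F → ℤ, (∀ᶠ v in Filter.cofinite, B v ≤ 0) ∧
      ∀ r ∈ Xr, ∀ (v : FPlace F) (α : (v.adicCompletion F)ˣ), r.1 v = upGL α 1 0 →
        WithZero.exp (-(B v)) ≤ valv v (α : v.adicCompletion F) := by
  classical
  choose a ha using hXd
  have := hXfin.fintype
  refine ⟨fun v => ∑ x : Xr, max 0 (-WithZero.log (valv v (a x.1 x.2 v : v.adicCompletion F))),
    ?_, fun r hr v α hα => ?_⟩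
  · have h : ∀ᶠ v in Filter.cofinite, ∀ x : Xr, x.1.1 v ∈ maxSubgroup v :=
      Filter.eventually_all.mpr fun x => x.1.2
    refine h.mono fun v hv => le_of_eq (Finset.sum_eq_zero fun x _ => ?_)
    have := hv x
    rw [ha x.1 x.2 v, upGL_mem_maxSubgroup_iff] at this
    simp [this.1]
  · have he : α = a r hr v := Units.ext (by
      simpa using congrArg (fun g : GLv v =>
        (g : Matrix (Fin 2) (Fin 2) (v.adicCompletion F)) 0 0)
        (hα.symm.trans (ha r hr v)))
    rw [he, ← WithZero.exp_log ((Valuation.ne_zero_iff (valv v)).mpr (a r hr v).ne_zero),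
      WithZero.exp_le_exp]
    have := Finset.single_le_sum (f := fun x : Xr =>
      max 0 (-WithZero.log (valv v (a x.1 x.2 v : v.adicCompletion F))))
      (fun x _ => le_max_left _ _) (Finset.mem_univ ⟨r, hr⟩)
    simp only at this
    beta_reduce
    have h2 := le_max_right 0 (-WithZero.log (valv v (a r hr v : v.adicCompletion F)))
    omega

/-- The Siegel covering. -/
theorem exists_siegel_cover (U : Level F) :
    ∃ (X : Set (Ωf U)) (c A R : ℝ), X.Finite ∧ 0 < c ∧
      ∀ s : Spc U, ∃ g : GL (Fin 2) F, g • s ∈ siegelSet U X c A R := by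
  classical
  obtain ⟨Xr, δ, hXfin, hXd, hδ, hX, hht⟩ := exists_height_ge F
  set X : Set (Ωf U) := ⋃ r ∈ Xr, {ω : Ωf U | ∃ k ∈ kmax F, ((r * k : Gf F) : Ωf U) = ω}
  have hXo : X.Finite := hXfin.biUnion fun r _ => finite_kmax_orbit U r
  obtain ⟨B, hB, hBr⟩ := exists_exp_le_valv_torus hXfin hXd
  obtain ⟨m, hm0, hm⟩ := exists_nat_valuation_le B hB
  obtain ⟨A, hA1, hA⟩ := exists_unit_balance F 1 one_pos
  obtain ⟨R, hR⟩ := exists_translate_le F m hm0
  obtain ⟨M, hM⟩ := ((hXfin.image topFin).bddAbove)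
  have hr₀ : ∃ r, r ∈ Xr := by
    obtain ⟨l, s, r, k, hr, -, -⟩ := hX 1
    exact ⟨r, hr⟩
  have hM0 : 0 < M := (topFin_pos _).trans_le (hM ⟨_, hr₀.choose_spec, rfl⟩)
  set c₁ : ℝ := min 1 (δ / M) with hc₁
  have hc₁0 : 0 < c₁ := lt_min one_pos (div_pos hδ hM0)
  have hA0 : 0 < A := one_pos.trans_le hA1
  refine ⟨X, c₁ / A, A, R, hXo, div_pos hc₁0 hA0, fun s => ?_⟩
  obtain ⟨ω, p₀⟩ := s
  induction ω using QuotientGroup.induction_on with
  | H x₀ =>
  obtain ⟨e, he, heh⟩ := hht x₀ p₀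
  obtain ⟨γ, hγ⟩ := exists_row_eq he
  obtain ⟨l, s', r, k, hr, hk, hx⟩ := hX (diag F γ * x₀)
  set β : GL (Fin 2) F := upGL l 1 s'
  set p : Hyp F := β⁻¹ • γ • p₀ with hp
  have hh : δ / M ≤ ∏ w : InfinitePlace F, (p w).y ^ 2 := by
    rw [div_le_iff₀ hM0]
    have h1 : height (topRow F) (r * k) p = height e x₀ p₀ := by
      have hb : topRow F ᵥ* (β : Matrix (Fin 2) (Fin 2) F) = topRow F := by
        funext j; fin_cases j <;> simp [β, topRow, Matrix.vecMul, dotProduct, Fin.sum_univ_two]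
      conv_lhs => rw [← hb, ← height_diag_smul topRow_ne_zero, ← mul_assoc, ← hx, hp,
        smul_inv_smul, height_diag_smul topRow_ne_zero, topRow_vecMul, hγ]
    rw [← h1, height_topRow] at heh
    refine heh.trans ?_
    rw [mul_comm]
    refine mul_le_mul_of_nonneg_left ?_ (Finset.prod_nonneg fun w _ => sq_nonneg _)
    show topFin (r * k) ≤ M
    rw [topFin_mul_kmax r hk]
    exact hM ⟨r, hr, rfl⟩
  obtain ⟨u, hu⟩ := hA (fun w => (p w).y) fun w => (p w).y_pos
  rw [pow_one] at hu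
  set ε : Fˣ := Units.map (algebraMap (𝓞 F) F).toMonoidHom u
  obtain ⟨b, hb⟩ := hR fun w => w.embedding (ε : F) * (p w).z
  set g₁ : GL (Fin 2) F := upGL ε 1 ((m : F) * (b : F)) with hg₁
  refine ⟨g₁ * β⁻¹ * γ, ?_⟩
  have hfst : (g₁ * β⁻¹ * γ) • ((x₀ : Ωf U)) = ((diag F g₁ * (r * k) : Gf F) : Ωf U) := by
    show ((diag F (g₁ * β⁻¹ * γ) * x₀ : Gf F) : Ωf U) = _
    rw [map_mul, map_mul, mul_assoc, hx, map_inv, mul_assoc, mul_assoc, inv_mul_cancel_left]
  refine ⟨?_, fun w => ?_⟩
  · show (g₁ * β⁻¹ * γ) • ((x₀ : Ωf U)) ∈ X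
    rw [hfst]
    refine Set.mem_biUnion hr ⟨r⁻¹ * diag F g₁ * r * k, mul_mem (fun v => ?_) hk, by group⟩
    obtain ⟨α, hα⟩ := hXd r hr v
    show (r.1 v)⁻¹ * toLocal v g₁ * r.1 v ∈ maxSubgroup v
    rw [hα, hg₁, toLocal_upGL, upGL_inv, upGL_mul, upGL_mul, map_one, inv_one, one_mul, one_mul,
      upGL_mem_maxSubgroup_iff]
    have hα0 : valv v (α : v.adicCompletion F) ≠ 0 := (Valuation.ne_zero_iff _).mpr α.ne_zero
    have hε : valv v (algebraMap F (v.adicCompletion F) (ε : F)) = 1 := by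
      rw [valv_algebraMap]; exact valuation_unit v u
    refine ⟨?_, ?_⟩
    · rw [Units.val_mul, Units.val_mul, map_mul, map_mul, Units.val_inv_eq_inv_val, map_inv₀,
        Units.coe_map]
      simp only [RingHom.toMonoidHom_eq_coe, MonoidHom.coe_coe]
      rw [hε, mul_one, inv_mul_cancel₀ hα0]
    · simp only [Units.val_one, mul_one, mul_zero, zero_add, add_zero]
      rw [map_mul, Units.val_inv_eq_inv_val, map_inv₀, inv_mul_le_one₀ (zero_lt_iff.mpr hα0),
        valv_algebraMap, map_mul]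
      exact (mul_le_of_le_one_right' (v.valuation_le_one b)).trans ((hm v).trans (hBr r hr v α hα))
  · have hq : ∀ w, ((g₁ * β⁻¹ * γ) • p₀) w = (g₁ • p) w := fun w => by
      rw [hp, mul_smul, mul_smul]
    have hεn : ∀ w : InfinitePlace F, 0 < ‖w.embedding (ε : F)‖ := fun w =>
      norm_pos_iff.mpr ((map_ne_zero_iff _ (RingHom.injective _)).mpr ε.ne_zero)
    set y : InfinitePlace F → ℝ := fun w => ‖w.embedding (ε : F)‖ * (p w).y with hy
    have hy0 : ∀ w, 0 < y w := fun w => mul_pos (hεn w) (p w).y_pos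
    have hyA : ∀ w w', y w ≤ A * y w' := hu
    refine ⟨?_, ?_, fun w' => ?_⟩
    · show ‖(((g₁ * β⁻¹ * γ) • p₀) w).z‖ ≤ R
      rw [hq, hg₁, upGL_smul_z, map_mul, map_natCast]
      exact hb w
    · show c₁ / A ≤ (((g₁ * β⁻¹ * γ) • p₀) w).y
      rw [hq, hg₁, upGL_smul_y]
      by_contra hlt
      rw [not_le, lt_div_iff₀ hA0] at hlt
      have hlt' : y w * A < c₁ := hlt
      have hall : ∀ w', y w' ^ 2 < c₁ := fun w' => by
        have h1 : y w' < c₁ := by
          have := hyA w' w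
          linarith
        have h2 := min_le_left 1 (δ / M)
        nlinarith [hy0 w']
      have hprod : ∏ w', y w' ^ 2 = ∏ w', (p w').y ^ 2 := by
        simp only [hy, mul_pow, Finset.prod_mul_distrib]
        rw [show ∏ w : InfinitePlace F, ‖w.embedding (ε : F)‖ ^ 2 = 1 from
          prod_unit_norm_eq_one u, one_mul]
      have : ∏ w', y w' ^ 2 < ∏ _w' : InfinitePlace F, c₁ :=
        Finset.prod_lt_prod_of_nonempty (fun w' _ => pow_pos (hy0 w') 2) (fun w' _ => hall w')
          Finset.univ_nonempty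
      rw [hprod, Finset.prod_const] at this
      refine absurd (this.trans_le ?_) (not_lt.mpr hh)
      refine le_trans (pow_le_of_le_one hc₁0.le (min_le_left _ _) ?_) (min_le_right _ _)
      simp
    · show (((g₁ * β⁻¹ * γ) • p₀) w).y ≤ A * (((g₁ * β⁻¹ * γ) • p₀) w').y
      rw [hq, hq, hg₁, upGL_smul_y, upGL_smul_y]
      exact hyA w w'

end Fermat.Agent.ResidualThree
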