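import Fermat.Agent.ResidualThree.Automorphic.Irreducible
import Fermat.Agent.ResidualThree.Automorphic.TreeGeom

/-!
# Pairings between the translates of spherical eigenforms along the tree of one place

Used for the forms of deeper level in `Automorphic.SphericalStep`.
-/

noncomputable section

open IsDedekindDomain NumberField
open scoped WithZero

namespace Fermat.Agent.ResidualThree

open Fermat.Agent.ResidualThree.Tree (Vert vdist)

variable {F : Type} [Field F] [NumberField F]

/-- Right translation as a linear map. -/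
def rightTrLin (g : Gf F) : Module.End ℂ (Gf F → Hyp F → ℂ) where
  toFun := rightTr g
  map_add' _ _ := rfl
  map_smul' _ _ := rfl

theorem rightTrLin_apply (g : Gf F) (φ : Gf F → Hyp F → ℂ) : rightTrLin g φ = rightTr g φ := rfl

variable [IsTotallyComplex F]
variable {S : Finset (FPlace F)} {a : FPlace F → ℂ}

theorem IsEigenForm.petersson_sum_left {ι : Type*} (s : Finset ι)
    {f : ι → Gf F → Hyp F → ℂ} (hf : ∀ i ∈ s, IsEigenForm (S : Set (FPlace F)) a (f i))
    {ψ : Gf F → Hyp F → ℂ} (hψ : IsEigenForm (S : Set (FPlace F)) a ψ) :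
    petersson (∑ i ∈ s, f i) ψ = ∑ i ∈ s, petersson (f i) ψ := by
  classical
  induction s using Finset.induction_on with
  | empty => simpa using hψ.petersson_zero_left
  | insert i s hi ih =>
    have hs : IsEigenForm (S : Set (FPlace F)) a (∑ j ∈ s, f j) :=
      (eigenForms (S : Set (FPlace F)) a).sum_mem fun j hj => hf j (Finset.mem_insert_of_mem hj)
    rw [Finset.sum_insert hi, Finset.sum_insert hi,
      (hf i (Finset.mem_insert_self i s)).petersson_add_left hs hψ,
      ih fun j hj => hf j (Finset.mem_insert_of_mem hj)]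

theorem IsEigenForm.petersson_sub_left {φ φ' ψ : Gf F → Hyp F → ℂ}
    (hφ : IsEigenForm (S : Set (FPlace F)) a φ) (hφ' : IsEigenForm (S : Set (FPlace F)) a φ')
    (hψ : IsEigenForm (S : Set (FPlace F)) a ψ) :
    petersson (φ - φ') ψ = petersson φ ψ - petersson φ' ψ := by
  rw [sub_eq_add_neg φ φ', ← neg_one_smul ℂ φ', hφ.petersson_add_left (hφ'.smul _) hψ,
    hφ'.petersson_smul_left hψ]
  ring

variable {w : FPlace F} [DecidableEq (FPlace F)] {φ ψ : Gf F → Hyp F → ℂ}

omit [IsTotallyComplex F] in
theorem IsEigenForm.insertPlace (h : IsEigenForm (S : Set (FPlace F)) a φ) (w : FPlace F) :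
    IsEigenForm ((insert w S : Finset (FPlace F)) : Set (FPlace F)) a φ :=
  h.mono (by simp)

omit [IsTotallyComplex F] in
theorem IsEigenForm.vertFun (h : IsEigenForm (S : Set (FPlace F)) a φ) (y : Vert (valv w)) :
    IsEigenForm ((insert w S : Finset (FPlace F)) : Set (FPlace F)) a (vertFun w φ y) :=
  (h.insertPlace w).rightTr fun v hv => single_supported (Finset.mem_insert_self w S) _ v hv

variable (hφ : IsEigenForm (S : Set (FPlace F)) a φ) (hψ : IsEigenForm (S : Set (FPlace F)) a ψ)
  (hw : w ∉ S)
include hφ hψ hw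

/-- The pairing is invariant under the group of the place. -/
theorem petersson_vertFun_smul (g : GLv w) (x y : Vert (valv w)) :
    petersson (vertFun w φ (g • x)) (vertFun w ψ (g • y)) =
      petersson (vertFun w φ x) (vertFun w ψ y) := by
  rw [← rightTr_vertFun (hφ.sphericalAt (by simpa using hw)),
    ← rightTr_vertFun (hψ.sphericalAt (by simpa using hw)),
    (hφ.vertFun (w := w) x).petersson_rightTr (hψ.vertFun (w := w) y)]

/-- The pairing depends only on the distance. -/
theorem petersson_vertFun_congr {x y x' y' : Vert (valv w)} (he : vdist x y = vdist x' y') :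
    petersson (vertFun w φ x) (vertFun w ψ y) = petersson (vertFun w φ x') (vertFun w ψ y') := by
  obtain ⟨p, hp⟩ := exists_unif_units w
  obtain ⟨g, rfl, rfl⟩ := Tree.exists_smul_pair hp he
  exact (petersson_vertFun_smul hφ hψ hw g x y).symm

theorem petersson_vertFun_self (x : Vert (valv w)) :
    petersson (vertFun w φ x) (vertFun w ψ x) = petersson φ ψ := by
  rw [petersson_vertFun_congr hφ hψ hw (x' := baseVert w) (y' := baseVert w)
      (by rw [(placeTree w).dist_self, (placeTree w).dist_self]),
    vertFun_base (hφ.sphericalAt (by simpa using hw)),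
    vertFun_base (hψ.sphericalAt (by simpa using hw))]

theorem sum_nbhd_petersson (z y : Vert (valv w)) :
    ∑ u ∈ (placeTree w).nbhd z, petersson (vertFun w φ u) (vertFun w ψ y) =
      Tree.csqrtN (Ideal.absNorm w.asIdeal) * a w * petersson (vertFun w φ z) (vertFun w ψ y) := by
  rw [← IsEigenForm.petersson_sum_left _ (fun u _ => hφ.vertFun (w := w) u) (hψ.vertFun (w := w) y),
    sum_nbhd_vertFun (hφ.sphericalAt (by simpa using hw)) (hφ.eigen w (by simpa using hw)),
    (hφ.vertFun (w := w) z).petersson_smul_left (hψ.vertFun (w := w) y)]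

/-- The pairings of two siblings differ by an explicit multiple of the pairing at the base. -/
theorem petersson_vertFun_sibling {z y y' : Vert (valv w)} (hy : vdist z y = 1)
    (hy' : vdist z y' = 1) (hne : y' ≠ y) :
    (Ideal.absNorm w.asIdeal : ℂ) * ((Ideal.absNorm w.asIdeal : ℂ) + 1) *
        (petersson (vertFun w φ y) (vertFun w ψ y) - petersson (vertFun w φ y') (vertFun w ψ y)) =
      (((Ideal.absNorm w.asIdeal : ℂ) + 1) ^ 2 - (Ideal.absNorm w.asIdeal : ℂ) * a w ^ 2) *
        petersson φ ψ := by
  set h := placeTree w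
  set q := Ideal.absNorm w.asIdeal
  set G0 := petersson φ ψ
  set G1 := petersson (vertFun w φ z) (vertFun w ψ y)
  set G2 := petersson (vertFun w φ y') (vertFun w ψ y)
  have hd : ∀ u, vdist z u = 1 → u ≠ y → vdist u y = 2 := fun u hu hu' => by
    have := h.dist_succ (p := y) (x := z) (w := y) (z := u) hy
      (by rw [h.dist_self, h.comm, hy]; omega) hu hu'
    rw [h.comm, this, h.comm y z, hy]
  -- the sum around `z` seen from `z`
  have e1 : ((q : ℂ) + 1) * G1 = Tree.csqrtN q * a w * G0 := by
    have e := sum_nbhd_petersson hφ hψ hw z z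
    rw [Finset.sum_congr rfl (g := fun _ => G1) fun u hu => petersson_vertFun_congr hφ hψ hw (by
        rw [h.comm u z, (h.mem_nbhd).1 hu, hy]), Finset.sum_const, h.card_nbhd',
      petersson_vertFun_self hφ hψ hw, nsmul_eq_mul, Nat.cast_add, Nat.cast_one] at e
    exact e
  -- and from `y`
  have e2 : G0 + (q : ℂ) * G2 = Tree.csqrtN q * a w * G1 := by
    have e := sum_nbhd_petersson hφ hψ hw z y
    classical
    rw [← Finset.add_sum_erase _ _ (h.mem_nbhd.2 hy), petersson_vertFun_self hφ hψ hw,
      Finset.sum_congr rfl (g := fun _ => G2) fun u hu => petersson_vertFun_congr hφ hψ hw (by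
        rw [Finset.mem_erase, h.mem_nbhd] at hu
        rw [hd u hu.2 hu.1, hd y' hy' hne]),
      Finset.sum_const, Finset.card_erase_of_mem (h.mem_nbhd.2 hy), h.card_nbhd', nsmul_eq_mul,
      Nat.add_sub_cancel] at e
    exact e
  rw [petersson_vertFun_self hφ hψ hw]
  linear_combination (-((q : ℂ) + 1)) * e2 - (Tree.csqrtN q * a w) * e1 -
    a w ^ 2 * G0 * Tree.csqrtN_sq q

end Fermat.Agent.ResidualThree
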