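import Mathlib

/-!
# Traces of monomial operators on functions with vanishing sums along a map

Applied to the shells of a tree in `Automorphic.SphericalStep`.
-/

noncomputable section

namespace Fermat.Agent.ResidualThree.TraceLemma

open Classical in
/-- The sums along the fibres of a map. -/
def push {ι κ : Type*} [Fintype ι] (k B : Type*) [Semiring k] [AddCommMonoid B] [Module k B]
    (par : ι → κ) : (ι → B) →ₗ[k] (κ → B) where
  toFun f z := ∑ y ∈ Finset.univ.filter (fun y => par y = z), f y
  map_add' f g := funext fun z => Finset.sum_add_distrib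
  map_smul' c f := funext fun z => by simp [Finset.smul_sum]

variable {k : Type*} [Field k] {B : Type*} [AddCommGroup B] [Module k B]

/-- The monomial operator of a permutation and an endomorphism. -/
def permOp {ι : Type*} (π : ι ≃ ι) (T : Module.End k B) : Module.End k (ι → B) where
  toFun f y := T (f (π.symm y))
  map_add' _ _ := funext fun _ => map_add T _ _
  map_smul' c _ := funext fun _ => map_smul T c _

/-- The trace of a monomial operator counts fixed points. -/
theorem trace_permOp {ι : Type*} [Fintype ι] [DecidableEq ι] [FiniteDimensional k B] (π : ι ≃ ι)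
    (T : Module.End k B) :
    LinearMap.trace k _ (permOp π T) =
      ((Finset.univ.filter fun y => π y = y).card : k) * LinearMap.trace k B T := by
  classical
  set b := Module.finBasis k B
  rw [LinearMap.trace_eq_matrix_trace k (Pi.basis fun _ : ι => b),
    LinearMap.trace_eq_matrix_trace k b, Matrix.trace, Matrix.trace]
  rw [Fintype.sum_sigma]
  simp only [Matrix.diag_apply, LinearMap.toMatrix_apply, Pi.basis_apply, Pi.basis_repr]
  rw [Finset.cast_card, Finset.sum_mul, Finset.sum_filter]
  refine Finset.sum_congr rfl fun i _ => ?_
  by_cases hi : π i = i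
  · rw [if_pos hi, one_mul]
    refine Finset.sum_congr rfl fun j _ => ?_
    show b.repr (T ((Pi.single i (b j) : ι → B) (π.symm i))) j = _
    rw [π.symm_apply_eq.2 hi.symm, Pi.single_eq_same]
  · rw [if_neg hi]
    refine Finset.sum_eq_zero fun j _ => ?_
    show b.repr (T ((Pi.single i (b j) : ι → B) (π.symm i))) j = 0
    rw [Pi.single_eq_of_ne (fun e => hi ((π.symm_apply_eq).1 e).symm), map_zero, map_zero]
    rfl

variable {ι κ : Type*} [Fintype ι] {par : ι → κ} {π : ι ≃ ι} {π' : κ ≃ κ}

theorem push_permOp (hπ : ∀ y, par (π y) = π' (par y)) (T : Module.End k B) (f : ι → B) :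
    push k B par (permOp π T f) = permOp π' T (push k B par f) := by
  classical
  funext z
  show ∑ y ∈ _, T (f (π.symm y)) = T (∑ y ∈ _, f y)
  rw [map_sum]
  refine Finset.sum_equiv π.symm (fun y => ?_) (fun y _ => rfl)
  simp only [Finset.mem_filter, Finset.mem_univ, true_and]
  have h := hπ (π.symm y)
  rw [π.apply_symm_apply] at h
  rw [h, π'.eq_symm_apply]

theorem permOp_mem_ker (hπ : ∀ y, par (π y) = π' (par y)) (T : Module.End k B) :
    ∀ f ∈ LinearMap.ker (push k B par), permOp π T f ∈ LinearMap.ker (push k B par) := by
  intro f hf
  rw [LinearMap.mem_ker] at hf ⊢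
  rw [push_permOp hπ, hf, map_zero]

theorem push_apply [DecidableEq κ] (f : ι → B) (z : κ) :
    push k B par f z = ∑ y ∈ Finset.univ.filter (fun y => par y = z), f y := by
  classical
  refine Finset.sum_congr ?_ fun _ _ => rfl
  ext; simp

variable [CharZero k]

theorem card_fibre_ne_zero [DecidableEq κ] (hpar : Function.Surjective par) (z : κ) :
    ((Finset.univ.filter fun y => par y = z).card : k) ≠ 0 := by
  obtain ⟨y, hy⟩ := hpar z
  exact Nat.cast_ne_zero.2 (Finset.card_ne_zero.2 ⟨y, by simp [hy]⟩)

open Classical in
variable (k B par) in
/-- Spreading evenly over the fibres. -/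
def spread : (κ → B) →ₗ[k] (ι → B) where
  toFun g y := ((Finset.univ.filter fun x => par x = par y).card : k)⁻¹ • g (par y)
  map_add' _ _ := funext fun _ => smul_add _ _ _
  map_smul' c _ := funext fun _ => smul_comm _ c _

theorem push_spread (hpar : Function.Surjective par) (g : κ → B) :
    push k B par (spread k B par g) = g := by
  classical
  funext z
  show ∑ y ∈ Finset.univ.filter (fun y => par y = z), spread k B par g y = g z
  rw [Finset.sum_congr rfl (g := fun _ =>
    ((Finset.univ.filter fun x => par x = z).card : k)⁻¹ • g z) fun y hy => by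
      rw [Finset.mem_filter] at hy
      show ((Finset.univ.filter fun x => par x = par y).card : k)⁻¹ • g (par y) = _
      rw [hy.2], Finset.sum_const, ← Nat.cast_smul_eq_nsmul k, smul_smul,
    mul_inv_cancel₀ (card_fibre_ne_zero hpar z), one_smul]

omit [CharZero k] in
theorem spread_permOp (hπ : ∀ y, par (π y) = π' (par y)) (T : Module.End k B) (g : κ → B) :
    spread k B par (permOp π' T g) = permOp π T (spread k B par g) := by
  classical
  funext y
  show ((Finset.univ.filter fun x => par x = par y).card : k)⁻¹ • T (g (π'.symm (par y))) =
    T (((Finset.univ.filter fun x => par x = par (π.symm y)).card : k)⁻¹ • g (par (π.symm y)))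
  have h := hπ (π.symm y)
  rw [π.apply_symm_apply] at h
  have e : π'.symm (par y) = par (π.symm y) := by rw [h, π'.symm_apply_apply]
  rw [map_smul, e]
  congr 3
  refine Finset.card_equiv π.symm fun x => ?_
  simp only [Finset.mem_filter, Finset.mem_univ, true_and]
  have hx := hπ (π.symm x)
  rw [π.apply_symm_apply] at hx
  rw [hx, h, π'.injective.eq_iff]

/-- The trace on the functions with vanishing fibre sums. -/
theorem trace_ker [Fintype κ] [FiniteDimensional k B] [DecidableEq ι] [DecidableEq κ]
    (hpar : Function.Surjective par) (hπ : ∀ y, par (π y) = π' (par y)) (T : Module.End k B) :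
    LinearMap.trace k _ ((permOp π T).restrict (permOp_mem_ker hπ T)) =
      (((Finset.univ.filter fun y => π y = y).card : k) -
        ((Finset.univ.filter fun z => π' z = z).card : k)) * LinearMap.trace k B T := by
  set p := push k B par
  set s := spread k B par
  let e : (ι → B) ≃ₗ[k] LinearMap.ker p × (κ → B) :=
    { toFun := fun f => (⟨f - s (p f), by
        rw [LinearMap.mem_ker, map_sub, push_spread hpar, sub_self]⟩, p f)
      map_add' := fun f g => Prod.ext (Subtype.ext (by
          show f + g - s (p (f + g)) = f - s (p f) + (g - s (p g))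
          rw [map_add, map_add]; abel)) (map_add p f g)
      map_smul' := fun c f => Prod.ext (Subtype.ext (by
          show c • f - s (p (c • f)) = c • (f - s (p f))
          rw [map_smul, map_smul, smul_sub])) (map_smul p c f)
      invFun := fun x => (x.1 : ι → B) + s x.2
      left_inv := fun f => sub_add_cancel _ _
      right_inv := fun x => by
        have h : p ((x.1 : ι → B) + s x.2) = x.2 := by
          rw [map_add, LinearMap.mem_ker.1 x.1.2, push_spread hpar, zero_add]
        refine Prod.ext (Subtype.ext ?_) h
        show (x.1 : ι → B) + s x.2 - s (p _) = x.1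
        rw [h, add_sub_cancel_right] }
  have key : e.conj (permOp π T) =
      LinearMap.prodMap ((permOp π T).restrict (permOp_mem_ker hπ T)) (permOp π' T) := by
    refine LinearMap.ext fun x => Prod.ext (Subtype.ext ?_) ?_
    · show permOp π T ((x.1 : ι → B) + s x.2) - s (p (permOp π T ((x.1 : ι → B) + s x.2))) =
        permOp π T x.1
      rw [push_permOp hπ, map_add p, LinearMap.mem_ker.1 x.1.2, push_spread hpar, zero_add,
        spread_permOp hπ, map_add, add_sub_cancel_right]
    · show p (permOp π T ((x.1 : ι → B) + s x.2)) = permOp π' T x.2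
      rw [push_permOp hπ, map_add p, LinearMap.mem_ker.1 x.1.2, push_spread hpar, zero_add]
  have h := congrArg (LinearMap.trace k _) key
  rw [LinearMap.trace_conj', LinearMap.trace_prodMap', trace_permOp, trace_permOp] at h
  rw [sub_mul, h, add_sub_cancel_right]

end Fermat.Agent.ResidualThree.TraceLemma
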