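import Fermat.Agent.ResidualThree.Automorphic.SphericalPair
import Fermat.Agent.ResidualThree.Automorphic.TraceLemma

/-!
# Eigenforms of deeper level at one spherical place

The forms of level `1 + 𝔭^m` at a spherical place are translates along the ball of radius `m` of
the forms spherical there; traces of semilinear operators multiply by the number of fixed vertices
on the sphere of radius `m`.
-/

noncomputable section

open IsDedekindDomain NumberField
open scoped WithZero

namespace Fermat.Agent.ResidualThree

open Fermat.Agent.ResidualThree.Tree (Vert vdist IsChild)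

variable {F : Type} [Field F] [NumberField F] [DecidableEq (FPlace F)]

theorem trace_conj_prod {M N P : Type*} [AddCommGroup M] [Module ℂ M] [FiniteDimensional ℂ M]
    [AddCommGroup N] [Module ℂ N] [FiniteDimensional ℂ N] [AddCommGroup P] [Module ℂ P]
    (e : (M × N) ≃ₗ[ℂ] P) (f : Module.End ℂ M) (g : Module.End ℂ N) (T : Module.End ℂ P)
    (h : ∀ x, e (f x.1, g x.2) = T (e x)) :
    LinearMap.trace ℂ P T = LinearMap.trace ℂ M f + LinearMap.trace ℂ N g := by
  have hT : T = e.conj (LinearMap.prodMap f g) := by
    refine LinearMap.ext fun p => ?_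
    obtain ⟨x, rfl⟩ := e.surjective p
    rw [LinearEquiv.conj_apply_apply, e.symm_apply_apply]
    exact (h x).symm
  rw [hT, LinearMap.trace_conj', LinearMap.trace_prodMap']

/-- The level with the congruence subgroup of depth `m` at `w`. -/
def Level.deepen (U : Level F) (w : FPlace F) (m : ℕ) : Level F where
  J := Function.update U.J w (congSubgroup w m)
  le_max v := by
    by_cases h : v = w
    · subst h; rw [Function.update_self]; exact congSubgroup_le_max v m
    · rw [Function.update_of_ne h]; exact U.le_max v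
  exists_cong v := by
    by_cases h : v = w
    · subst h; rw [Function.update_self]; exact ⟨m, le_rfl⟩
    · rw [Function.update_of_ne h]; exact U.exists_cong v
  eventually_max := by
    filter_upwards [U.eventually_max,
      (Set.finite_singleton w).compl_mem_cofinite] with v hv hv'
    rw [Function.update_of_ne (by simpa using hv'), hv]

theorem Level.deepen_same (U : Level F) (w : FPlace F) (m : ℕ) :
    (U.deepen w m).J w = congSubgroup w m := Function.update_self ..

theorem Level.deepen_ne (U : Level F) {w v : FPlace F} (m : ℕ) (h : v ≠ w) :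
    (U.deepen w m).J v = U.J v := Function.update_of_ne h ..

/-- The vertices of positive depth at most `m`. -/
def shellSet (w : FPlace F) (m : ℕ) : Finset (Vert (valv w)) :=
  open Classical in (Finset.range m).biUnion fun k => baseSphere w (k + 1)

/-- The vertices of depth less than `m`. -/
def innerSet (w : FPlace F) (m : ℕ) : Finset (Vert (valv w)) :=
  open Classical in (Finset.range m).biUnion (baseSphere w)

omit [DecidableEq (FPlace F)] in
theorem mem_shellSet {w : FPlace F} {m : ℕ} {y : Vert (valv w)} :
    y ∈ shellSet w m ↔ 1 ≤ vdist (baseVert w) y ∧ vdist (baseVert w) y ≤ m := by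
  classical
  simp only [shellSet, Finset.mem_biUnion, Finset.mem_range, mem_baseSphere]
  exact ⟨fun ⟨k, h1, h2⟩ => by omega, fun h => ⟨vdist (baseVert w) y - 1, by omega, by omega⟩⟩

omit [DecidableEq (FPlace F)] in
theorem mem_innerSet {w : FPlace F} {m : ℕ} {y : Vert (valv w)} :
    y ∈ innerSet w m ↔ vdist (baseVert w) y < m := by
  classical
  simp only [innerSet, Finset.mem_biUnion, Finset.mem_range, mem_baseSphere]
  exact ⟨fun ⟨k, h1, h2⟩ => by omega, fun h => ⟨_, h, rfl⟩⟩

omit [DecidableEq (FPlace F)] in
theorem ne_baseVert {w : FPlace F} {m : ℕ} (y : ↥(shellSet w m)) :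
    (y : Vert (valv w)) ≠ baseVert w := fun e => by
  have h := (mem_shellSet.1 y.2).1
  rw [e, (placeTree w).dist_self] at h
  omega

/-- The parent in the tree rooted at the base vertex. -/
def parMap (w : FPlace F) (m : ℕ) (y : ↥(shellSet w m)) : ↥(innerSet w m) :=
  ⟨(placeTree w).toward (baseVert w) y, mem_innerSet.2 (by
    have h1 := mem_shellSet.1 y.2
    have h2 := ((placeTree w).dist_toward (ne_baseVert y)).2
    omega)⟩

omit [DecidableEq (FPlace F)] in
theorem parMap_eq_iff {w : FPlace F} {m : ℕ} {y : ↥(shellSet w m)} {z : ↥(innerSet w m)} :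
    parMap w m y = z ↔ IsChild vdist (baseVert w) (z : Vert (valv w)) (y : Vert (valv w)) := by
  have hd := (placeTree w).dist_toward (ne_baseVert y)
  constructor
  · rintro rfl
    exact ⟨((placeTree w).comm _ _).trans hd.1, hd.2.symm⟩
  · rintro ⟨h1, h2⟩
    refine Subtype.ext ((placeTree w).eq_toward (ne_baseVert y) ?_ (by omega)).symm
    rw [(placeTree w).comm]; exact h1

omit [DecidableEq (FPlace F)] in
theorem parMap_surjective (w : FPlace F) (m : ℕ) : Function.Surjective (parMap w m) := by
  intro z
  obtain ⟨y, hy⟩ := (placeTree w).exists_child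
    (fun h => w.ne_bot (Ideal.absNorm_eq_zero_iff.1 h)) (baseVert w) z
  have hz := mem_innerSet.1 z.2
  exact ⟨⟨y, mem_shellSet.2 ⟨by rw [hy.2]; omega, by rw [hy.2]; omega⟩⟩, parMap_eq_iff.2 hy⟩

variable [IsTotallyComplex F]

/-- The new forms at `w`, as functions on the shell with vanishing sums over siblings. -/
abbrev newData (S : Finset (FPlace F)) (a : FPlace F → ℂ) (U : Level F) (w : FPlace F) (m : ℕ) :
    Submodule ℂ (↥(shellSet w m) → levelForms S a U) :=
  LinearMap.ker (TraceLemma.push ℂ (levelForms S a U) (parMap w m))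

/-- Forms spherical at `w` and new data give forms of level `m`. -/
def stepMap (S : Finset (FPlace F)) (a : FPlace F → ℂ) (U : Level F) (w : FPlace F) (m : ℕ) :
    levelForms S a U × newData S a U w m →ₗ[ℂ] (Gf F → Hyp F → ℂ) :=
  ((levelForms S a U).subtype).coprod
    ((∑ y : ↥(shellSet w m), (rightTrLin (single w (y : Vert (valv w)).out)).comp
      ((levelForms S a U).subtype.comp (LinearMap.proj y))).comp (newData S a U w m).subtype)

variable {S : Finset (FPlace F)} {a : FPlace F → ℂ} {U : Level F} {w : FPlace F} {m : ℕ}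

omit [DecidableEq (FPlace F)] in
theorem stepMap_apply (x : levelForms S a U × newData S a U w m) :
    stepMap S a U w m x = (x.1 : Gf F → Hyp F → ℂ) + ∑ y : ↥(shellSet w m),
      vertFun w ((x.2 : ↥(shellSet w m) → levelForms S a U) y : Gf F → Hyp F → ℂ) y := by
  simp only [stepMap, LinearMap.coprod_apply, LinearMap.comp_apply, LinearMap.sum_apply,
    LinearMap.proj_apply, Submodule.coe_subtype]
  rfl

theorem vertFun_mem {φ : Gf F → Hyp F → ℂ} (hU : U.J w = maxSubgroup w)
    (hφ : φ ∈ levelForms S a U) {y : Vert (valv w)} (hy : vdist (baseVert w) y ≤ m) :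
    vertFun w φ y ∈ levelForms (insert w S) a (U.deepen w m) := by
  refine ⟨hφ.1.vertFun y, (hφ.2.rightTr _).mono fun v => ?_⟩
  intro j hj
  refine ⟨(U.deepen w m).le_max v hj, Subgroup.mem_comap.2 ?_⟩
  simp only [MulEquiv.toMonoidHom_eq_coe, MonoidHom.coe_coe, MulAut.conj_apply, inv_inv]
  by_cases hv : v = w
  · subst hv
    rw [Level.deepen_same] at hj
    rw [single_apply_same, hU]
    obtain ⟨p, hp⟩ := exists_unif_units v
    have e := Tree.congZ_smul_eq hp hy hj
    rw [← QuotientGroup.out_eq' y, MulAction.Quotient.smul_mk, smul_eq_mul, QuotientGroup.eq] at e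
    have e' := inv_mem e
    have h2 : y.out⁻¹ * j * y.out ∈ Tree.vertexSubgroup (valv v) := by
      convert e' using 1
      group
    exact h2
  · rw [Level.deepen_ne U m hv] at hj
    rw [single_apply_ne hv]
    simpa using hj

theorem stepMap_mem (hU : U.J w = maxSubgroup w) (x : levelForms S a U × newData S a U w m) :
    stepMap S a U w m x ∈ levelForms (insert w S) a (U.deepen w m) := by
  rw [stepMap_apply]
  refine Submodule.add_mem _ ?_ (Submodule.sum_mem _ fun y _ =>
    vertFun_mem hU ((x.2 : _ → levelForms S a U) y).2 (mem_shellSet.1 y.2).2)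
  have := vertFun_mem (y := baseVert w) (m := m) hU x.1.2
    (by rw [(placeTree w).dist_self]; omega)
  rwa [vertFun_base (x.1.2.2.sphericalAt hU)] at this

section Injective

variable (hw : w ∉ S) (hne : (Ideal.absNorm w.asIdeal : ℂ) * a w ^ 2 ≠
  ((Ideal.absNorm w.asIdeal : ℂ) + 1) ^ 2)
include hw hne

/-- The coordinates of the forms of deeper level are unique. -/
theorem stepMap_injective : Function.Injective (stepMap S a U w m) := by
  classical
  refine (injective_iff_map_eq_zero _).2 ?_
  rintro ⟨φ, f, hf⟩ h0
  rw [stepMap_apply] at h0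
  simp only at h0
  set h := placeTree w
  suffices hclaim : ∀ j k, m ≤ k + j → ∀ y : ↥(shellSet w m),
      k < vdist (baseVert w) (y : Vert (valv w)) →
      f y = 0 by
    have hf0 : f = 0 := funext fun y => hclaim m 0 (by omega) y (mem_shellSet.1 y.2).1
    have : (φ : Gf F → Hyp F → ℂ) = 0 := by
      simpa [hf0, vertFun, ← rightTrLin_apply] using h0
    exact Prod.ext (Subtype.ext this) (Subtype.ext hf0)
  intro j
  induction j with
  | zero =>
    intro k hk y hy
    have := (mem_shellSet.1 y.2).2
    omega
  | succ j ih =>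
    intro k hk y hy
    rcases Nat.lt_or_ge (k + 1) (vdist (baseVert w) (y : Vert (valv w))) with hlt | hge
    · exact ih (k + 1) (by omega) y hlt
    -- `y` is a child of `z`, and everything deeper vanishes
    set z := parMap w m y with hz
    have hzy := parMap_eq_iff.1 hz.symm
    have hdeep : ∀ u : ↥(shellSet w m), vdist (baseVert w) (u : Vert (valv w)) ≤ k + 1 ∨ f u = 0 :=
        fun u =>
      (le_or_gt _ _).imp_right fun hu => ih (k + 1) (by omega) u hu
    -- siblings carry the same form
    have hsib : ∀ y' : ↥(shellSet w m), parMap w m y' = z → f y' = f y := by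
      intro y' hy'
      by_cases hyy : y' = y
      · rw [hyy]
      have hne' : (y' : Vert (valv w)) ≠ (y : Vert (valv w)) := fun e => hyy (Subtype.ext e)
      have hy'z := parMap_eq_iff.1 hy'
      obtain ⟨ψ, hψdef⟩ : ∃ ψ : levelForms S a U, ψ = f y - f y' := ⟨_, rfl⟩
      have hψ : IsEigenForm (S : Set (FPlace F)) a (ψ : Gf F → Hyp F → ℂ) := ψ.2.1
      have hφ : IsEigenForm (S : Set (FPlace F)) a (φ : Gf F → Hyp F → ℂ) := φ.2.1
      have hfE : ∀ u, IsEigenForm (S : Set (FPlace F)) a (f u : Gf F → Hyp F → ℂ) :=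
        fun u => (f u).2.1
      have hsum : IsEigenForm ((insert w S : Finset (FPlace F)) : Set (FPlace F)) a
          (∑ u : ↥(shellSet w m), vertFun w (f u : Gf F → Hyp F → ℂ) u) :=
        (eigenForms _ a).sum_mem fun u _ => (hfE u).vertFun (w := w) u
      -- pair with the difference of the two translates of `ψ`
      have hzero : ∀ x : Vert (valv w),
          petersson (φ : Gf F → Hyp F → ℂ) (vertFun w (ψ : Gf F → Hyp F → ℂ) x) +
            ∑ u : ↥(shellSet w m), petersson (vertFun w (f u : Gf F → Hyp F → ℂ) u)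
              (vertFun w (ψ : Gf F → Hyp F → ℂ) x) = 0 := fun x => by
        have h1 := congrArg (fun χ => petersson χ (vertFun w (ψ : Gf F → Hyp F → ℂ) x)) h0
        rw [(hφ.insertPlace w).petersson_add_left hsum (hψ.vertFun (w := w) x),
          IsEigenForm.petersson_sum_left _ (fun u _ => (hfE u).vertFun (w := w) u)
            (hψ.vertFun (w := w) x), (hψ.vertFun (w := w) x).petersson_zero_left] at h1
        exact h1
      have hd := congrArg₂ (fun s t : ℂ => s - t) (hzero y) (hzero y')
      beta_reduce at hd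
      rw [sub_zero] at hd
      have hbase : petersson (φ : Gf F → Hyp F → ℂ) (vertFun w (ψ : Gf F → Hyp F → ℂ) y) =
          petersson (φ : Gf F → Hyp F → ℂ) (vertFun w (ψ : Gf F → Hyp F → ℂ) y') := by
        rw [← vertFun_base (hφ.sphericalAt (v := w) (by simpa using hw))]
        exact petersson_vertFun_congr hφ hψ hw (hzy.2.trans hy'z.2.symm)
      rw [hbase, add_sub_add_left_eq_sub, ← Finset.sum_sub_distrib] at hd
      rw [Finset.sum_eq_add_of_mem y y' (Finset.mem_univ _) (Finset.mem_univ _) (Ne.symm hyy)
        fun u _ hu => ?_] at hd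
      swap
      · rcases hdeep u with hu1 | hu1
        · by_cases hc : IsChild vdist (baseVert w) (z : Vert (valv w)) (u : Vert (valv w))
          · rw [sub_eq_zero]
            refine petersson_vertFun_congr (hfE u) hψ hw ?_
            have h2 : ∀ x : Vert (valv w), vdist (z : Vert (valv w)) x = 1 →
                x ≠ (u : Vert (valv w)) → vdist (u : Vert (valv w)) x = 2 := fun x hx hxu => by
              have := h.dist_succ (p := (u : Vert (valv w))) (x := (z : Vert (valv w)))
                (w := (u : Vert (valv w))) (z := x) hc.1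
                (by rw [h.dist_self, h.comm, hc.1]; omega) hx hxu
              rw [this, h.comm, hc.1]
            rw [h2 _ hzy.1 fun e => hu.1 (Subtype.ext e.symm),
              h2 _ hy'z.1 fun e => hu.2 (Subtype.ext e.symm)]
          · rw [sub_eq_zero]
            refine petersson_vertFun_congr (hfE u) hψ hw ?_
            have hle : vdist (baseVert w) (u : Vert (valv w)) ≤
                vdist (baseVert w) (z : Vert (valv w)) + 1 := by
              have := hzy.2
              omega
            rw [h.dist_child hzy hle hc, h.dist_child hy'z hle hc]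
        · have hz0 : (f u : Gf F → Hyp F → ℂ) = 0 := by rw [hu1]; rfl
          have hv0 : vertFun w (f u : Gf F → Hyp F → ℂ) (u : Vert (valv w)) = 0 := by
            rw [hz0]; rfl
          rw [hv0, (hψ.vertFun (w := w) _).petersson_zero_left,
            (hψ.vertFun (w := w) _).petersson_zero_left, sub_zero]
      -- the two remaining terms
      set q : ℂ := (Ideal.absNorm w.asIdeal : ℂ)
      have s1 := petersson_vertFun_sibling (hfE y) hψ hw hzy.1 hy'z.1 hne'
      have s2 := petersson_vertFun_sibling (hfE y') hψ hw hzy.1 hy'z.1 hne'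
      rw [petersson_vertFun_congr (hfE y) hψ hw (x := (y : Vert (valv w)))
        (y := (y' : Vert (valv w))) (x' := (y' : Vert (valv w))) (y' := (y : Vert (valv w)))
        (h.comm _ _)] at hd
      rw [petersson_vertFun_congr (hfE y') hψ hw (x := (y' : Vert (valv w)))
        (y := (y' : Vert (valv w))) (x' := (y : Vert (valv w))) (y' := (y : Vert (valv w)))
        (by rw [h.dist_self, h.dist_self])] at hd
      have hψ0 : ((q + 1) ^ 2 - q * a w ^ 2) *
          petersson (ψ : Gf F → Hyp F → ℂ) (ψ : Gf F → Hyp F → ℂ) = 0 := by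
        conv_lhs =>
          arg 2; arg 1
          rw [hψdef]
        rw [Submodule.coe_sub, (hfE y).petersson_sub_left (hfE y') hψ, mul_sub, ← s1, ← s2]
        linear_combination (q * (q + 1)) * hd
      have := hψ.eq_zero_of_petersson
        ((mul_eq_zero.1 hψ0).resolve_left (sub_ne_zero.2 hne.symm))
      have h3 : ψ = 0 := Subtype.ext this
      rw [hψdef, sub_eq_zero] at h3
      exact h3.symm
    have hsum0 := congrFun (LinearMap.mem_ker.1 hf) z
    rw [TraceLemma.push_apply, Pi.zero_apply] at hsum0
    rw [Finset.sum_congr rfl fun y' hy' => hsib y' (Finset.mem_filter.1 hy').2, Finset.sum_const,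
      ← Nat.cast_smul_eq_nsmul ℂ, smul_eq_zero] at hsum0
    exact hsum0.resolve_left (TraceLemma.card_fibre_ne_zero (parMap_surjective w m) z)

end Injective

omit [DecidableEq (FPlace F)] in
/-- The translates along the ball lie in the image. -/
theorem vertFun_mem_range (hU : U.J w = maxSubgroup w) (hw : w ∉ S) :
    ∀ (k : ℕ) (y : Vert (valv w)), vdist (baseVert w) y = k → k ≤ m → ∀ φ ∈ levelForms S a U,
      vertFun w φ y ∈ LinearMap.range (stepMap S a U w m) := by
  classical
  intro k
  induction k using Nat.strong_induction_on with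
  | _ k ih =>
    intro y hy hk φ hφ
    have hs : IsSphericalAt w φ := hφ.2.sphericalAt hU
    set h := placeTree w
    set Φ : levelForms S a U := ⟨φ, hφ⟩
    rcases Nat.eq_zero_or_pos k with rfl | hk0
    · rw [← (h.dist_eq_zero _ _).1 hy, vertFun_base hs]
      exact ⟨(Φ, 0), by simp [stepMap, Φ]⟩
    set y₀ : ↥(shellSet w m) := ⟨y, mem_shellSet.2 ⟨show 1 ≤ vdist (baseVert w) y by omega,
        show vdist (baseVert w) y ≤ m by omega⟩⟩
    set z := parMap w m y₀ with hz
    have hzy : IsChild vdist (baseVert w) (z : Vert (valv w)) y := parMap_eq_iff.1 hz.symm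
    set C := Finset.univ.filter (fun u => parMap w m u = z) with hC
    have hC0 : (C.card : ℂ) ≠ 0 :=
      Nat.cast_ne_zero.2 (Finset.card_ne_zero.2 ⟨y₀, by simp [hC, hz]⟩)
    -- the part with vanishing sum over the siblings
    set f : ↥(shellSet w m) → levelForms S a U := fun u =>
      ((if u = y₀ then 1 else 0) - (if parMap w m u = z then (C.card : ℂ)⁻¹ else 0)) • Φ with hfdef
    have hf : f ∈ newData S a U w m := by
      rw [LinearMap.mem_ker]
      funext z'
      rw [TraceLemma.push_apply, Pi.zero_apply]
      simp only [hfdef, ← Finset.sum_smul]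
      refine smul_eq_zero.2 (Or.inl ?_)
      rw [Finset.sum_sub_distrib]
      by_cases hz' : z' = z
      · rw [hz', ← hC, Finset.sum_ite_eq' C y₀, if_pos (by simp [hC, hz]),
          Finset.sum_congr rfl (g := fun _ => (C.card : ℂ)⁻¹) fun u hu => if_pos
            (Finset.mem_filter.1 hu).2, Finset.sum_const, nsmul_eq_mul, mul_inv_cancel₀ hC0,
          sub_self]
      · rw [Finset.sum_eq_zero fun u hu => if_neg fun e => hz' (by
            rw [← (Finset.mem_filter.1 hu).2, e]),
          Finset.sum_eq_zero fun u hu => if_neg fun e => hz' (by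
            rw [← (Finset.mem_filter.1 hu).2, e]), sub_self]
    have e1 : stepMap S a U w m (0, ⟨f, hf⟩) = vertFun w φ y -
        (C.card : ℂ)⁻¹ • ∑ u ∈ C, vertFun w φ (u : Vert (valv w)) := by
      rw [stepMap_apply, Submodule.coe_zero, zero_add]
      show ∑ u : ↥(shellSet w m),
        rightTrLin (single w (u : Vert (valv w)).out) (f u : Gf F → Hyp F → ℂ) = _
      simp only [hfdef, SetLike.val_smul, sub_smul, ite_smul, one_smul, zero_smul, map_sub,
        apply_ite (rightTrLin _), map_zero, map_smul, Finset.sum_sub_distrib]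
      rw [Finset.sum_ite_eq' Finset.univ y₀, if_pos (Finset.mem_univ _), ← Finset.sum_filter,
        Finset.smul_sum]
      rfl
    -- the sum over the siblings
    have e2 : ∑ u ∈ C, vertFun w φ (u : Vert (valv w)) ∈ LinearMap.range (stepMap S a U w m) := by
      have hnb := sum_nbhd_vertFun hs (hφ.1.eigen w (by simpa using hw)) (z : Vert (valv w))
      rw [← Finset.sum_filter_add_sum_filter_not _
        (fun u => vdist (baseVert w) u = vdist (baseVert w) (z : Vert (valv w)) + 1)] at hnb
      have himg : ∑ u ∈ C, vertFun w φ (u : Vert (valv w)) =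
          ∑ u ∈ (h.nbhd (z : Vert (valv w))).filter
            (fun u => vdist (baseVert w) u = vdist (baseVert w) (z : Vert (valv w)) + 1),
                vertFun w φ u := by
        refine Finset.sum_nbij (fun u => (u : Vert (valv w))) (fun u hu => ?_)
          (fun _ _ _ _ e => Subtype.ext e) (fun u hu => ?_) fun u _ => rfl
        · have := parMap_eq_iff.1 (Finset.mem_filter.1 hu).2
          exact Finset.mem_filter.2 ⟨h.mem_nbhd.2 this.1, this.2⟩
        · rw [Finset.coe_filter, Set.mem_ofPred_eq, h.mem_nbhd] at hu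
          have hzd := hzy.2
          refine ⟨⟨u, mem_shellSet.2 (by omega)⟩, ?_, rfl⟩
          exact Finset.mem_filter.2 ⟨Finset.mem_univ _, parMap_eq_iff.2 hu⟩
      rw [himg, eq_sub_of_add_eq hnb]
      refine Submodule.sub_mem _ (Submodule.smul_mem _ _ ?_) (Submodule.sum_mem _ fun u hu => ?_)
      · exact ih _ (by have := hzy.2; omega) z rfl (by have := hzy.2; omega) φ hφ
      · rw [Finset.mem_filter, h.mem_nbhd] at hu
        have h1 := h.dist_adj_le (p := (baseVert w)) hu.1
        have h2 := hzy.2
        exact ih _ (by omega) u rfl (by omega) φ hφ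
    rw [show vertFun w φ y = stepMap S a U w m (0, ⟨f, hf⟩) +
      (C.card : ℂ)⁻¹ • ∑ u ∈ C, vertFun w φ (u : Vert (valv w)) by rw [e1, sub_add_cancel]]
    exact Submodule.add_mem _ ⟨_, rfl⟩ (Submodule.smul_mem _ _ e2)

/-- All the forms of level `m` are obtained. -/
theorem range_stepMap [FiniteDimensional ℂ (levelForms S a U)] (hU : U.J w = maxSubgroup w)
    (hw : w ∉ S) {θ : Gf F → Hyp F → ℂ} (hθ : θ ∈ levelForms S a U) (hθ0 : θ ≠ 0) :
    LinearMap.range (stepMap S a U w m) = levelForms (insert w S) a (U.deepen w m) := by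
  classical
  set R := LinearMap.range (stepMap S a U w m)
  have hR : R ≤ levelForms (insert w S) a (U.deepen w m) := by
    rintro _ ⟨x, rfl⟩; exact stepMap_mem hU x
  refine le_antisymm hR fun φ hφ => ?_
  obtain ⟨r, hr, horth⟩ := exists_orthogonal_sub (W := R) (fun x hx => (hR hx).1) hφ.1
  suffices h0 : φ - r = 0 by rw [sub_eq_zero] at h0; rw [h0]; exact hr
  set δ := φ - r
  obtain ⟨hδE, hδU⟩ : δ ∈ levelForms (insert w S) a (U.deepen w m) :=
    Submodule.sub_mem _ hφ (hR hr)
  set h := placeTree w
  obtain ⟨p, hp⟩ := exists_unif_units w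
  -- the translates at all depths are orthogonal
  have hA : ∀ (k : ℕ) (y : Vert (valv w)), vdist (baseVert w) y = k → ∀ ψ ∈ levelForms S a U,
      petersson (vertFun w ψ y) δ = 0 := by
    intro k
    induction k using Nat.strong_induction_on with
    | _ k ih =>
      intro y hy ψ hψ
      rcases le_or_gt k m with hkm | hkm
      · exact petersson_eq_zero_comm (horth _ (vertFun_mem_range hU hw k y hy hkm ψ hψ))
      have hψs : IsSphericalAt w ψ := hψ.2.sphericalAt hU
      have hyo : y ≠ (baseVert w) := fun e => by rw [e, h.dist_self] at hy; omega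
      obtain ⟨h1, h2⟩ := h.dist_toward hyo
      set z := h.toward (baseVert w) y
      have hzy : IsChild vdist (baseVert w) z y := ⟨(h.comm _ _).trans h1, h2.symm⟩
      have hsum : ∑ u ∈ h.nbhd z, petersson (vertFun w ψ u) δ = 0 := by
        rw [← IsEigenForm.petersson_sum_left _ (fun u _ => hψ.1.vertFun (w := w) u) hδE,
          sum_nbhd_vertFun hψs (hψ.1.eigen w (by simpa using hw)),
          (hψ.1.vertFun (w := w) z).petersson_smul_left hδE,
          ih _ (by omega) z rfl ψ hψ, mul_zero]
      rw [← Finset.sum_filter_add_sum_filter_not _ (fun u =>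
        vdist (baseVert w) u = vdist (baseVert w) z + 1),
        Finset.sum_eq_zero (s := (h.nbhd z).filter fun u =>
          ¬ vdist (baseVert w) u = vdist (baseVert w) z + 1)
          fun u hu => ?_, add_zero,
        Finset.sum_congr rfl (g := fun _ => petersson (vertFun w ψ y) δ) fun u hu => ?_,
        Finset.sum_const, ← Nat.cast_smul_eq_nsmul ℂ, smul_eq_zero] at hsum
      · refine hsum.resolve_left (Nat.cast_ne_zero.2 (Finset.card_ne_zero.2
          ⟨y, Finset.mem_filter.2 ⟨h.mem_nbhd.2 hzy.1, hzy.2⟩⟩))
      · -- children are exchanged by the level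
        rw [Finset.mem_filter, h.mem_nbhd] at hu
        obtain ⟨j, hj, hju⟩ := Tree.exists_congZ_smul_child hp (m := m) (z := z) (y := y) (y' := u)
          (show m ≤ vdist (baseVert w) z by omega) hzy hu
        have hfix : rightTr (single w j) δ = δ := by
          funext x
          refine hδU.right x (single w j) fun v => ?_
          by_cases hv : v = w
          · subst hv; rw [single_apply_same, Level.deepen_same]; exact hj
          · rw [single_apply_ne hv]; exact one_mem _
        rw [← hju, ← rightTr_vertFun hψs]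
        conv_lhs => rw [← hfix]
        exact (hψ.1.vertFun (w := w) y).petersson_rightTr hδE _
      · rw [Finset.mem_filter, h.mem_nbhd] at hu
        have := h.dist_adj_le (p := (baseVert w)) hu.1
        exact ih _ (by omega) u rfl ψ hψ
  refine eq_zero_of_orthogonal_translates (hθ.1.insertPlace w) hθ0 hδE fun g hg => ?_
  set s := single w ((g : ∀ v, GLv v) w)
  set g' := s⁻¹ * g
  have hg' : ∀ v ∉ S, (g' : ∀ v, GLv v) v = 1 := fun v hv => by
    show ((s : ∀ v, GLv v) v)⁻¹ * (g : ∀ v, GLv v) v = 1
    by_cases hvw : v = w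
    · subst hvw; rw [single_apply_same, inv_mul_cancel]
    · rw [single_apply_ne hvw, hg v (by simp [hvw, hv]), inv_one, one_mul]
  have hf : IsEigenForm (S : Set (FPlace F)) a (rightTr g' θ) :=
    hθ.1.rightTr fun v hv => hg' v (by simpa using hv)
  obtain ⟨f', hf', -, hpair⟩ := exists_levelAvg (U := U) hf
  have hss : ∀ v ∉ ((insert w S : Finset (FPlace F)) : Set (FPlace F)),
      ((s⁻¹ : Gf F) : ∀ v, GLv v) v = 1 := fun v hv => by
    show ((s : ∀ v, GLv v) v)⁻¹ = 1
    rw [single_apply_ne (fun e => hv (by simp [e])), inv_one]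
  set χ := rightTr s⁻¹ δ
  have hχE : IsEigenForm ((insert w S : Finset (FPlace F)) : Set (FPlace F)) a χ :=
    hδE.rightTr hss
  have hinv : ∀ j ∈ U.group, (∀ v ∉ S, (j : ∀ v, GLv v) v = 1) → rightTr j χ = χ := by
    intro j hj hjS
    have hjw : (j : ∀ v, GLv v) w = 1 := hjS w hw
    have hjδ : rightTr j δ = δ := by
      funext x
      refine hδU.right x j fun v => ?_
      by_cases hv : v = w
      · subst hv; rw [hjw]; exact one_mem _
      · rw [Level.deepen_ne U m hv]; exact hj v
    have hc : j * s⁻¹ = s⁻¹ * j := by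
      rw [show s⁻¹ = single w ((g : ∀ v, GLv v) w)⁻¹ from (single_inv w _).symm]
      exact (commute_single hjw _).eq
    show rightTr j (rightTr s⁻¹ δ) = rightTr s⁻¹ δ
    rw [← rightTr_mul, hc, rightTr_mul, hjδ]
  have e : rightTr g θ = rightTr s (rightTr g' θ) := by
    rw [← rightTr_mul, mul_inv_cancel_left]
  have hδs : δ = rightTr s χ := by rw [← rightTr_mul, mul_inv_cancel, rightTr_one]
  rw [e, hδs, hχE.petersson_rightTr (hf.insertPlace w),
    ← hpair (insert w S) χ (Finset.subset_insert _ _) hχE hinv,
    ← hχE.petersson_rightTr (IsEigenForm.insertPlace hf'.1 w) s, ← hδs]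
  refine petersson_eq_zero_comm ?_
  rw [← vertFun_mk (hf'.2.sphericalAt hU) ((g : ∀ v, GLv v) w)]
  exact hA _ _ rfl f' hf'

omit [IsTotallyComplex F] [DecidableEq (FPlace F)] in
/-- Fixed vertices on the shells: those on the outer ones exceed those on the inner ones by the
fixed vertices of the last sphere less the centre. -/
theorem card_fixed_shell_sub_inner (w : FPlace F) (m : ℕ) (π : Vert (valv w) ≃ Vert (valv w))
    (hπ0 : π (baseVert w) = baseVert w)
    (π₁ : ↥(shellSet w m) ≃ ↥(shellSet w m)) (hπ₁ : ∀ y, (π₁ y : Vert (valv w)) = π y)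
    (π₂ : ↥(innerSet w m) ≃ ↥(innerSet w m)) (hπ₂ : ∀ y, (π₂ y : Vert (valv w)) = π y) :
    open Classical in ((Finset.univ.filter fun y => π₁ y = y).card : ℂ) + 1 =
      ((Finset.univ.filter fun z => π₂ z = z).card : ℂ) +
        (((baseSphere w m).filter fun y => π y = y).card : ℂ) := by
  classical
  set fx : ℕ → ℕ := fun k => ((baseSphere w k).filter fun y => π y = y).card
  have hcount : ∀ (s : Finset (Vert (valv w))) (σ : ↥s ≃ ↥s) (_ : ∀ y, (σ y : Vert (valv w)) = π y),
      (Finset.univ.filter fun y => σ y = y).card = (s.filter fun y => π y = y).card := by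
    intro s σ hσ
    refine Finset.card_bij (fun y _ => (y : Vert (valv w))) (fun y hy => ?_)
      (fun _ _ _ _ e => Subtype.ext e) fun y hy => ?_
    · rw [Finset.mem_filter] at hy ⊢
      exact ⟨y.2, by rw [← hσ, hy.2]⟩
    · rw [Finset.mem_filter] at hy
      exact ⟨⟨y, hy.1⟩,
        Finset.mem_filter.2 ⟨Finset.mem_univ _, Subtype.ext (by rw [hσ]; exact hy.2)⟩,
        rfl⟩
  have hdisj : ∀ k l : ℕ, k ≠ l → Disjoint ((baseSphere w k).filter fun y => π y = y)
      ((baseSphere w l).filter fun y => π y = y) := fun k l hkl => by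
    rw [Finset.disjoint_left]
    intro y h1 h2
    rw [Finset.mem_filter, mem_baseSphere] at h1 h2
    omega
  have h1 : (Finset.univ.filter fun y => π₁ y = y).card = ∑ k ∈ Finset.range m, fx (k + 1) := by
    rw [hcount _ π₁ hπ₁, shellSet, Finset.filter_biUnion,
      Finset.card_biUnion fun k _ l _ hkl => hdisj _ _ (by omega)]
  have h2 : (Finset.univ.filter fun z => π₂ z = z).card = ∑ k ∈ Finset.range m, fx k := by
    rw [hcount _ π₂ hπ₂, innerSet, Finset.filter_biUnion,
      Finset.card_biUnion fun k _ l _ hkl => hdisj _ _ hkl]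
  have h0 : fx 0 = 1 := by
    show ((baseSphere w 0).filter fun y => π y = y).card = 1
    rw [Finset.card_eq_one]
    refine ⟨(baseVert w), Finset.ext fun y => ?_⟩
    rw [Finset.mem_filter, mem_baseSphere, Finset.mem_singleton, (placeTree w).dist_eq_zero]
    exact ⟨fun h => h.1.symm, fun h => ⟨h.symm, h ▸ hπ0⟩⟩
  have h3 : ((∑ k ∈ Finset.range m, fx (k + 1) : ℕ) : ℂ) + 1 =
      ((∑ k ∈ Finset.range m, fx k : ℕ) : ℂ) + (fx m : ℂ) := by
    have h4 := Finset.sum_range_succ' fx m
    rw [Finset.sum_range_succ, h0] at h4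
    exact_mod_cast h4.symm
  rw [h1, h2]
  exact h3

section Trace

variable (hw : w ∉ S) (hne : (Ideal.absNorm w.asIdeal : ℂ) * a w ^ 2 ≠
  ((Ideal.absNorm w.asIdeal : ℂ) + 1) ^ 2) (hU : U.J w = maxSubgroup w)
  [FiniteDimensional ℂ (levelForms S a U)] {θ : Gf F → Hyp F → ℂ} (hθ : θ ∈ levelForms S a U)
  (hθ0 : θ ≠ 0)
include hw hne hU hθ hθ0

omit hne in
theorem finiteDimensional_deepen :
    FiniteDimensional ℂ (levelForms (insert w S) a (U.deepen w m)) := by
  rw [← range_stepMap hU hw hθ hθ0]
  infer_instance

/-- Traces of semilinear operators multiply by the number of fixed vertices on the sphere. -/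
theorem trace_deepen (T : Module.End ℂ (Gf F → Hyp F → ℂ))
    (hT : ∀ φ ∈ levelForms S a U, T φ ∈ levelForms S a U)
    (π : Vert (valv w) ≃ Vert (valv w)) (hπd : ∀ x y, vdist (π x) (π y) = vdist x y)
    (hπ0 : π (baseVert w) = baseVert w)
    (hTπ : ∀ φ ∈ levelForms S a U, ∀ y, vdist (baseVert w) y ≤ m →
      T (vertFun w φ y) = vertFun w (T φ) (π y)) :
    ∃ hT' : ∀ φ ∈ levelForms (insert w S) a (U.deepen w m),
        T φ ∈ levelForms (insert w S) a (U.deepen w m),
      LinearMap.trace ℂ _ (T.restrict hT') =
        open Classical in (((baseSphere w m).filter fun y => π y = y).card : ℂ) *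
          LinearMap.trace ℂ _ (T.restrict hT) := by
  classical
  have hdep : ∀ y, vdist (baseVert w) (π y) = vdist (baseVert w) y := fun y => by
    conv_lhs => rw [← hπ0]
    exact hπd (baseVert w) y
  let π₁ : ↥(shellSet w m) ≃ ↥(shellSet w m) := π.subtypeEquiv fun y => by
    simp only [mem_shellSet]; rw [hdep]
  let π₂ : ↥(innerSet w m) ≃ ↥(innerSet w m) := π.subtypeEquiv fun y => by
    simp only [mem_innerSet]; rw [hdep]
  have hpar : ∀ y, parMap w m (π₁ y) = π₂ (parMap w m y) := fun y => by
    rw [parMap_eq_iff]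
    have h := parMap_eq_iff.1 (rfl : parMap w m y = parMap w m y)
    exact ⟨(hπd _ _).trans h.1, by
      show vdist (baseVert w) (π _) = vdist (baseVert w) (π _) + 1
      rw [hdep, hdep]; exact h.2⟩
  set T₀ := T.restrict hT
  set Tn : Module.End ℂ (newData S a U w m) :=
    (TraceLemma.permOp π₁ T₀).restrict (TraceLemma.permOp_mem_ker hpar T₀)
  have hcomm : ∀ x, T (stepMap S a U w m x) = stepMap S a U w m (LinearMap.prodMap T₀ Tn x) :=
    fun x => by
    rw [stepMap_apply, stepMap_apply, map_add, map_sum]
    congr 1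
    refine Fintype.sum_equiv π₁ _ _ fun y => ?_
    refine (hTπ _ ((x.2 : _ → levelForms S a U) y).2 _ (mem_shellSet.1 y.2).2).trans ?_
    show _ = vertFun w (T ((x.2 : _ → levelForms S a U) (π₁.symm (π₁ y)))) (π y)
    rw [π₁.symm_apply_apply]
  have hrange := range_stepMap (m := m) hU hw hθ hθ0
  have hT' : ∀ φ ∈ levelForms (insert w S) a (U.deepen w m),
      T φ ∈ levelForms (insert w S) a (U.deepen w m) := by
    rw [← hrange]
    rintro _ ⟨x, rfl⟩
    exact ⟨_, (hcomm x).symm⟩
  refine ⟨hT', ?_⟩
  let e : (levelForms S a U × newData S a U w m) ≃ₗ[ℂ]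
      levelForms (insert w S) a (U.deepen w m) :=
    (LinearEquiv.ofInjective _ (stepMap_injective hw hne)).trans (LinearEquiv.ofEq _ _ hrange)
  refine Eq.trans (trace_conj_prod e T₀ Tn (T.restrict hT') fun x =>
    Subtype.ext (hcomm x).symm) ?_
  have hTn : LinearMap.trace ℂ _ Tn =
      (((Finset.univ.filter fun y => π₁ y = y).card : ℂ) -
        ((Finset.univ.filter fun z => π₂ z = z).card : ℂ)) * LinearMap.trace ℂ _ T₀ :=
    TraceLemma.trace_ker (parMap_surjective w m) hpar T₀
  rw [hTn]
  linear_combination card_fixed_shell_sub_inner w m π hπ0 π₁ (fun _ => rfl) π₂ (fun _ => rfl) *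
    LinearMap.trace ℂ _ T₀

end Trace

end Fermat.Agent.ResidualThree
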