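import Fermat.Agent.ResidualThree.Automorphic.Approx
import Fermat.Agent.ResidualThree.Automorphic.Forms

/-!
# Fourier coefficients at torus points

At a place where the function is spherical with known eigenvalue, the coefficient of index one
at torus points is supported on `|t| ≤ exp (cond v)` and satisfies the recursion of the tree.
-/

noncomputable section

open IsDedekindDomain NumberField
open scoped WithZero

namespace Fermat.Agent.ResidualThree

open Fermat.Agent.ResidualThree.Tree (Vert diagGL stepGL)

variable {F : Type} [Field F] [NumberField F]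

variable (F) in
/-- The finite ideles. -/
def Idl : Subgroup (∀ v : FPlace F, (v.adicCompletion F)ˣ) where
  carrier := {t | ∀ᶠ v in Filter.cofinite, valv v (t v : v.adicCompletion F) = 1}
  one_mem' := show ∀ᶠ v : FPlace F in Filter.cofinite,
      valv v ((1 : (v.adicCompletion F)ˣ) : v.adicCompletion F) = 1 from
    Filter.Eventually.of_forall fun v => by simp
  mul_mem' {a b} (ha : ∀ᶠ v : FPlace F in Filter.cofinite, valv v (a v : v.adicCompletion F) = 1)
      (hb : ∀ᶠ v : FPlace F in Filter.cofinite, valv v (b v : v.adicCompletion F) = 1) :=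
    show ∀ᶠ v : FPlace F in Filter.cofinite,
        valv v ((a v * b v : (v.adicCompletion F)ˣ) : v.adicCompletion F) = 1 from
      (ha.and hb).mono fun v h => by rw [Units.val_mul, map_mul, h.1, h.2, one_mul]
  inv_mem' {a} (ha : ∀ᶠ v : FPlace F in Filter.cofinite, valv v (a v : v.adicCompletion F) = 1) :=
    show ∀ᶠ v : FPlace F in Filter.cofinite,
        valv v (((a v)⁻¹ : (v.adicCompletion F)ˣ) : v.adicCompletion F) = 1 from
      ha.mono fun v h => by rw [Units.val_inv_eq_inv_val, map_inv₀, h, inv_one]

theorem isIntGL_torusGL (v : FPlace F) {u : (v.adicCompletion F)ˣ}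
    (hu : valv v (u : v.adicCompletion F) = 1) : IsIntGL (valv v) (torusGL u) := by
  refine ⟨fun i j => ?_, by simp [coe_torusGL, Matrix.det_fin_two, hu]⟩
  fin_cases i <;> fin_cases j <;> simp [coe_torusGL, hu]

/-- The torus point of a finite idele. -/
def torusPt : Idl F →* Gf F where
  toFun t := ⟨fun v => torusGL (t.1 v),
    show ∀ᶠ v : FPlace F in Filter.cofinite, torusGL (t.1 v) ∈ maxSubgroup v from
      Filter.Eventually.mono t.2 fun v h => Subgroup.subset_closure (Or.inl (isIntGL_torusGL v h))⟩
  map_one' := Subtype.ext (funext fun _ => torusGL_one)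
  map_mul' _ _ := Subtype.ext (funext fun _ => torusGL_mul _ _)

open Classical in
/-- The idele supported at one place. -/
def singleIdl (v : FPlace F) (u : (v.adicCompletion F)ˣ) : Idl F :=
  ⟨Pi.mulSingle v u, show ∀ᶠ w : FPlace F in Filter.cofinite,
      valv w ((Pi.mulSingle v u : ∀ w : FPlace F, (w.adicCompletion F)ˣ) w : w.adicCompletion F) =
        1 from
    Filter.mem_of_superset (Set.Finite.compl_mem_cofinite (Set.finite_singleton v)) fun w hw => by
      simp only [Set.mem_ofPred_eq]
      rw [Pi.mulSingle_eq_of_ne (by simpa using hw), Units.val_one, map_one]⟩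

theorem torusPt_singleIdl (v : FPlace F) (u : (v.adicCompletion F)ˣ) :
    torusPt (singleIdl v u) = single v (torusGL u) := by
  classical
  refine Subtype.ext (funext fun w => ?_)
  show torusGL ((Pi.mulSingle v u : ∀ w : FPlace F, (w.adicCompletion F)ˣ) w) = _
  by_cases h : w = v
  · subst h; rw [Pi.mulSingle_eq_same, single_apply_same]
  · rw [Pi.mulSingle_eq_of_ne h, single_apply_ne h, torusGL_one]

theorem torusGL_unipHom {R : Type} [Field R] (u : Rˣ) (z : R) :
    torusGL u * unipHom R z = unipHom R ((u : R) * z) * torusGL u := by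
  refine Units.ext ?_
  rw [Units.val_mul, Units.val_mul, coe_torusGL, coe_unipHom, coe_unipHom]
  ext i j
  fin_cases i <;> fin_cases j <;> simp [Matrix.mul_apply, Fin.sum_univ_two]

theorem scaleAdele_one (z : Af F) : scaleAdele (1 : F) z = z :=
  Subtype.ext (funext fun v => by
    show algebraMap F (v.adicCompletion F) 1 * z.1 v = z.1 v
    rw [map_one, one_mul])

theorem unipAdele_singleAdele (v : FPlace F) (z : v.adicCompletion F) :
    unipAdele (singleAdele v z) = single v (unipHom _ z) := by
  classical
  refine Subtype.ext (funext fun w => ?_)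
  show unipHom _ (Pi.single (M := fun u : FPlace F => u.adicCompletion F) v z w) = _
  by_cases h : w = v
  · subst h; rw [Pi.single_eq_same, single_apply_same]
  · rw [Pi.single_eq_of_ne h, single_apply_ne h, unipHom_zero]

/-- Moving a local unipotent across a point whose component is a torus element. -/
theorem mul_single_unip {x : Gf F} {v : FPlace F} {u : (v.adicCompletion F)ˣ}
    (hx : (x : ∀ w, GLv w) v = torusGL u) (z : v.adicCompletion F) :
    x * single v (unipHom _ z) =
      unipAdele (singleAdele v ((u : v.adicCompletion F) * z)) * x := by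
  rw [unipAdele_singleAdele]
  refine Subtype.ext (funext fun w => ?_)
  show (x : ∀ w, GLv w) w * ((single v _ : Gf F) : ∀ w, GLv w) w =
    ((single v _ : Gf F) : ∀ w, GLv w) w * (x : ∀ w, GLv w) w
  by_cases h : w = v
  · subst h
    rw [single_apply_same, single_apply_same, hx]
    exact torusGL_unipHom u z
  · rw [single_apply_ne h, single_apply_ne h, mul_one, one_mul]

variable [IsTotallyComplex F] {U : Level F} {φ : Gf F → Hyp F → ℂ}

theorem fourierCoeff_rightTr (hφ : IsAutomorphic U φ) (g : Gf F) (ν : F) (x : Gf F) (p : Hyp F) :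
    fourierCoeff (rightTr g φ) ν x p = fourierCoeff φ ν (x * g) p := by
  obtain ⟨m, hm⟩ := hφ.exists_commonPeriod ν (x * g)
  rw [fourierCoeff_eq (φ := rightTr g φ) (hφ.continuous (x * g)) p ⟨hm.1, hm.2.1, hm.2.2⟩,
    fourierCoeff_eq (hφ.continuous (x * g)) p hm]
  rfl

theorem fourierCoeff_finsetSum {ι : Type*} (s : Finset ι) (f : ι → Gf F → Hyp F → ℂ)
    (hf : ∀ i, ∃ U : Level F, IsAutomorphic U (f i)) :
    (∃ U : Level F, IsAutomorphic U (∑ i ∈ s, f i)) ∧
      ∀ ν x p, fourierCoeff (∑ i ∈ s, f i) ν x p = ∑ i ∈ s, fourierCoeff (f i) ν x p := by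
  classical
  induction s using Finset.induction_on with
  | empty =>
    have h0 : IsAutomorphic (F := F) (⟨maxSubgroup, fun v => le_rfl,
        fun v => ⟨0, congSubgroup_le_max v 0⟩, Filter.Eventually.of_forall fun v => rfl⟩ : Level F)
        0 := ⟨fun γ x y _ p => rfl, fun x j _ => rfl, fun x => continuous_const⟩
    refine ⟨⟨_, by simpa using h0⟩, fun ν x p => ?_⟩
    have := fourierCoeff_smul h0 0 ν x p
    simpa using this
  | insert i s his ih =>
    obtain ⟨⟨V, hV⟩, hs⟩ := ih
    obtain ⟨W, hW⟩ := hf i
    rw [Finset.sum_insert his]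
    refine ⟨⟨W.inter V, (hW.mono fun v => inf_le_left).add (hV.mono fun v => inf_le_right)⟩,
      fun ν x p => ?_⟩
    rw [fourierCoeff_add hW hV, hs, Finset.sum_insert his]

section Local

variable (hφ : IsAutomorphic U φ) {v : FPlace F} (hs : IsSphericalAt v φ)
include hφ hs

omit hs in
/-- Moving a local unipotent out of a coefficient of index one. -/
theorem fourierCoeff_mul_single_unip {x : Gf F} {u : (v.adicCompletion F)ˣ}
    (hx : (x : ∀ w, GLv w) v = torusGL u) (z : v.adicCompletion F) (p : Hyp F) :
    fourierCoeff φ 1 (x * single v (unipHom _ z)) p =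
      psiAt v (-((u : v.adicCompletion F) * z)) * fourierCoeff φ 1 x p := by
  rw [mul_single_unip hx, fourierCoeff_unipAdele hφ, scaleAdele_one, psiAt, map_neg]

theorem fourierCoeff_mul_single_max (ν : F) (x : Gf F) {k : GLv v} (hk : k ∈ maxSubgroup v)
    (p : Hyp F) : fourierCoeff φ ν (x * single v k) p = fourierCoeff φ ν x p := by
  rw [← fourierCoeff_rightTr hφ]
  congr 1
  funext y q
  exact congrFun (hs y k hk) q

omit hs in
/-- A coefficient of index one vanishes at large torus points when it is invariant under the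
unipotents of depth `n`. -/
theorem fourierCoeff_eq_zero_of_unip_fixed {x : Gf F} {u : (v.adicCompletion F)ˣ}
    (hx : (x : ∀ w, GLv w) v = torusGL u) {n : ℕ} (p : Hyp F)
    (hfix : ∀ z : v.adicCompletion F, valv v z ≤ WithZero.exp (-(n : ℤ)) →
      fourierCoeff φ 1 (x * single v (unipHom _ z)) p = fourierCoeff φ 1 x p)
    (hu : WithZero.exp (cond v + n) < valv v (u : v.adicCompletion F)) :
    fourierCoeff φ 1 x p = 0 := by
  obtain ⟨z₀, hz₀, hne⟩ := exists_psiAt_ne_one_of_cond v
  set z : v.adicCompletion F := -z₀ * ((u⁻¹ : (v.adicCompletion F)ˣ) : v.adicCompletion F)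
  have hz : valv v z ≤ WithZero.exp (-(n : ℤ)) := by
    have h0 : valv v (u : v.adicCompletion F) ≠ 0 := (lt_trans WithZero.exp_pos hu).ne'
    rw [map_mul, Valuation.map_neg, hz₀, Units.val_inv_eq_inv_val, map_inv₀,
      mul_inv_le_iff₀ (zero_lt_iff.2 h0), ← WithZero.exp_log h0, ← WithZero.exp_add,
      WithZero.exp_le_exp]
    rw [← WithZero.exp_log h0, WithZero.exp_lt_exp] at hu
    omega
  have h := fourierCoeff_mul_single_unip hφ hx z p
  rw [hfix z hz, show -((u : v.adicCompletion F) * z) = z₀ by
    simp only [z]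
    rw [mul_comm (-z₀), ← mul_assoc, Units.mul_inv, one_mul, neg_neg]] at h
  by_contra h0
  exact hne ((mul_eq_right₀ h0).1 h.symm)

/-- A Fourier coefficient vanishes at torus points of valuation beyond the conductor. -/
theorem fourierCoeff_eq_zero_of_large {x : Gf F} {u : (v.adicCompletion F)ˣ}
    (hx : (x : ∀ w, GLv w) v = torusGL u)
    (hu : WithZero.exp (cond v) < valv v (u : v.adicCompletion F)) (p : Hyp F) :
    fourierCoeff φ 1 x p = 0 :=
  fourierCoeff_eq_zero_of_unip_fixed hφ (n := 0) hx p (fun z hz =>
    fourierCoeff_mul_single_max hφ hs 1 x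
      (Subgroup.subset_closure (Or.inl (isIntGL_unipHom v (by simpa using hz)))) p)
    (by simpa using hu)

/-- The recursion: the coefficient one step further is determined by two steps back. -/
theorem fourierCoeff_torus_rec {a : ℂ} (ha : HasEigenvalue v a φ) {x : Gf F}
    {u : (v.adicCompletion F)ˣ} (hx : (x : ∀ w, GLv w) v = torusGL u)
    (hu : valv v (u : v.adicCompletion F) ≤ WithZero.exp (cond v))
    {ϖ : (v.adicCompletion F)ˣ} (hϖ : valv v (ϖ : v.adicCompletion F) = WithZero.exp (-1))
    (p : Hyp F) :
    (Ideal.absNorm v.asIdeal : ℂ) * fourierCoeff φ 1 (x * single v (torusGL ϖ)) p +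
        fourierCoeff φ 1 (x * single v (torusGL ϖ⁻¹)) p =
      (Tree.csqrtN (Ideal.absNorm v.asIdeal) * a) * fourierCoeff φ 1 x p := by
  classical
  have hsum := sum_nbhd_vertFun hs ha (baseVert v)
  rw [vertFun_base hs] at hsum
  have hf : ∀ y : Vert (valv v), ∃ V : Level F, IsAutomorphic V (vertFun v φ y) := fun y =>
    ⟨_, hφ.rightTr _⟩
  have h1 := (fourierCoeff_finsetSum ((placeTree v).nbhd (baseVert v)) _ hf).2 1 x p
  rw [hsum, fourierCoeff_smul hφ] at h1
  rw [h1]
  have : Finite (IsLocalRing.ResidueField (valv v).valuationSubring) :=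
    (isLocalVal_valv v).finite_residue
  have := Fintype.ofFinite (IsLocalRing.ResidueField (valv v).valuationSubring)
  rw [show ∑ y ∈ (placeTree v).nbhd (baseVert v), fourierCoeff (vertFun v φ y) 1 x p =
      ∑ o : Option (IsLocalRing.ResidueField (valv v).valuationSubring),
        fourierCoeff (vertFun v φ (Tree.nbMap (valv v) ϖ o)) 1 x p by
    refine Finset.sum_bij' (fun y hy => (Tree.nbEquiv hϖ).symm ⟨y, (placeTree v).mem_nbhd.1 hy⟩)
      (fun o _ => Tree.nbMap (valv v) ϖ o) (fun y _ => Finset.mem_univ _)
      (fun o _ => (placeTree v).mem_nbhd.2 (Tree.vdist_base_nb hϖ o)) ?_ ?_ ?_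
    · intro y hy
      exact congrArg Subtype.val ((Tree.nbEquiv hϖ).apply_symm_apply _)
    · intro o _
      exact (Tree.nbEquiv hϖ).symm_apply_apply o
    · intro y hy
      rw [show Tree.nbMap (valv v) ϖ ((Tree.nbEquiv hϖ).symm ⟨y, (placeTree v).mem_nbhd.1 hy⟩) = y
        from congrArg Subtype.val ((Tree.nbEquiv hϖ).apply_symm_apply _)]]
  rw [Fintype.sum_option, add_comm]
  congr 1
  · rw [Tree.nbMap, vertFun_mk hs, fourierCoeff_rightTr hφ]
    have e : single v (diagGL 1 ϖ) = single v (torusGL ϖ⁻¹) * single v (upGL ϖ ϖ 0) := by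
      rw [← single_mul]
      congr 1
      refine Units.ext ?_
      ext i j
      fin_cases i <;> fin_cases j <;>
        simp [diagGL, coe_torusGL, upGL, Matrix.mul_apply, Fin.sum_univ_two]
    have hk : upGL ϖ ϖ 0 ∈ maxSubgroup v :=
      center_le_maxSubgroup v (by rw [← scalar_eq_upGL]; exact Tree.scalar_mem_center _)
    rw [e, ← mul_assoc, fourierCoeff_mul_single_max hφ hs 1 _ hk]
  · have key : ∀ c, fourierCoeff (vertFun v φ (Tree.nbMap (valv v) ϖ (some c))) 1 x p =
        fourierCoeff φ 1 (x * single v (torusGL ϖ)) p := by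
      intro c
      set u' : v.adicCompletion F :=
        (((IsLocalRing.residue_surjective c).choose : (valv v).valuationSubring) :
          v.adicCompletion F)
          with hu'
      rw [Tree.nbMap, vertFun_mk hs, fourierCoeff_rightTr hφ, ← hu']
      have e : single v (stepGL ϖ u') = single v (unipHom _ u') * single v (torusGL ϖ) := by
        rw [← single_mul]
        congr 1
        refine Units.ext ?_
        ext i j
        fin_cases i <;> fin_cases j <;>
          simp [stepGL, coe_torusGL, coe_unipHom, Matrix.mul_apply, Fin.sum_univ_two]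
      rw [e, ← mul_assoc, ← fourierCoeff_rightTr hφ (single v (torusGL ϖ)),
        ← fourierCoeff_rightTr hφ (single v (torusGL ϖ)), mul_single_unip hx,
        fourierCoeff_unipAdele (hφ.rightTr _), scaleAdele_one, ← map_neg]
      show psiAt v _ * _ = _
      rw [psiAt_eq_one, one_mul]
      rw [Valuation.map_neg, map_mul]
      exact (mul_le_of_le_one_right' (Tree.v_coe_le_one _)).trans hu
    rw [Finset.sum_congr rfl fun c _ => key c, Finset.sum_const, Finset.card_univ,
      ← Nat.card_eq_fintype_card, (isLocalVal_valv v).card_residue, nsmul_eq_mul]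

end Local

end Fermat.Agent.ResidualThree
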