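import Fermat.Agent.ResidualThree.Automorphic.Space

/-!
# Functoriality of completions

Used for the action of a Galois automorphism on automorphic functions.
-/

noncomputable section

open IsDedekindDomain NumberField UniformSpace Valuation MonoidWithZeroHom.ValueGroup₀
open scoped WithZero

namespace Fermat.Agent.ResidualThree

section CompletionMap

variable {K L : Type} [Field K] [NumberField K] [Field L] [NumberField L]
  {v : FPlace K} {w : FPlace L}

/-- The composite of a ring homomorphism with the embedding into a completion. -/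
def toCompletionHom (f : K →+* L) (v : FPlace K) (w : FPlace L) :
    WithVal (v.valuation K) →+* w.adicCompletion L :=
  ((algebraMap L (w.adicCompletion L)).comp f).comp (WithVal.equiv (v.valuation K)).toRingHom

/-- A ring map respecting two places is continuous for their topologies. -/
theorem continuous_toCompletionHom (f : K →+* L) (e : ℕ) (he : 0 < e)
    (hf : ∀ x, w.valuation L (f x) = v.valuation K x ^ e) :
    Continuous (toCompletionHom f v w) := by
  refine continuous_of_continuousAt_zero (toCompletionHom f v w) ?_
  rw [ContinuousAt, map_zero]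
  intro s hs
  obtain ⟨γ, hγ⟩ := Valued.mem_nhds_zero.1 hs
  obtain ⟨π, hπ⟩ := v.valuation_exists_uniformizer K
  have hγ0 : embedding (γ : MonoidWithZeroHom.ValueGroup₀ (.ofClass
      (Valued.v : Valuation (w.adicCompletion L) ℤᵐ⁰))) ≠ (0 : ℤᵐ⁰) := by simp
  set n : ℕ := ((-(WithZero.log (embedding (γ : MonoidWithZeroHom.ValueGroup₀ (.ofClass
      (Valued.v : Valuation (w.adicCompletion L) ℤᵐ⁰)))) : ℤ)).toNat + 1)
    with hn
  have hπ0 : v.valuation K π ≠ 0 := by rw [hπ]; simp
  have hx0 : (Valued.v : Valuation (WithVal (v.valuation K)) ℤᵐ⁰).restrict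
      ((WithVal.equiv (v.valuation K)).symm (π ^ n)) ≠ 0 := by
    rw [← (embedding_strictMono).injective.ne_iff, map_zero, embedding_restrict]
    simpa using pow_ne_zero n hπ0
  rw [Filter.mem_map, Valued.mem_nhds_zero]
  refine ⟨Units.mk0 _ hx0, fun x hx => hγ ?_⟩
  rw [Set.mem_ofPred_eq, Units.val_mk0] at hx
  have hx' := embedding_strictMono hx
  rw [embedding_restrict, embedding_restrict] at hx'
  rw [Set.mem_ofPred_eq]
  apply embedding_strictMono.lt_iff_lt.1
  rw [embedding_restrict]
  show Valued.v (algebraMap L (w.adicCompletion L) (f (WithVal.equiv (v.valuation K) x))) < _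
  rw [show Valued.v (algebraMap L (w.adicCompletion L) (f (WithVal.equiv (v.valuation K) x))) =
    w.valuation L (f (WithVal.equiv (v.valuation K) x)) from w.valuedAdicCompletion_eq_valuation' _,
    hf]
  have hx'' : v.valuation K (WithVal.equiv (v.valuation K) x) < WithZero.exp (-(n : ℤ)) := by
    refine lt_of_lt_of_le hx' (le_of_eq ?_)
    show v.valuation K (π ^ n) = _
    rw [map_pow, hπ, ← WithZero.exp_nsmul]
    simp
  refine lt_of_lt_of_le (pow_lt_pow_left₀ hx'' zero_le he.ne') ?_
  rw [← WithZero.exp_nsmul, ← WithZero.exp_log hγ0, WithZero.exp_le_exp]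
  have h1 : -(WithZero.log (embedding (γ : MonoidWithZeroHom.ValueGroup₀ (.ofClass
      (Valued.v : Valuation (w.adicCompletion L) ℤᵐ⁰)))) : ℤ) < n := by
    rw [hn]; push_cast; have := Int.self_le_toNat (-(WithZero.log
      (embedding (γ : MonoidWithZeroHom.ValueGroup₀ (.ofClass
        (Valued.v : Valuation (w.adicCompletion L) ℤᵐ⁰)))) : ℤ)); linarith
  have h2 : (n : ℤ) ≤ (e : ℤ) * n := le_mul_of_one_le_left (by positivity) (by exact_mod_cast he)
  rw [smul_neg, nsmul_eq_mul]
  linarith

/-- The continuous extension of a homomorphism of fields to the completions. -/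
def completionHom (f : K →+* L) (e : ℕ) (he : 0 < e)
    (hf : ∀ x, w.valuation L (f x) = v.valuation K x ^ e) :
    v.adicCompletion K →+* w.adicCompletion L :=
  (Completion.extensionHom (toCompletionHom f v w) (continuous_toCompletionHom f e he hf)).comp
    (HeightOneSpectrum.adicCompletion.equiv K v).toRingHom

/-- The completed map extends the given one. -/
theorem completionHom_coe (f : K →+* L) (e : ℕ) (he : 0 < e)
    (hf : ∀ x, w.valuation L (f x) = v.valuation K x ^ e) (x : K) :
    completionHom f e he hf (algebraMap K (v.adicCompletion K) x) =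
      algebraMap L (w.adicCompletion L) (f x) :=
  Completion.extensionHom_coe _ (continuous_toCompletionHom f e he hf) _

end CompletionMap

end Fermat.Agent.ResidualThree
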